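import Fermat.Agent.LT2.Whit.Good

/-!
# Cuspidal eigenforms of a congruence level

The forms with a fixed system of good eigenvalues: a class closed under linear combinations and
under translations at the places of the level.
-/

set_option autoImplicit false

noncomputable section

open Matrix IsDedekindDomain NumberField Filter MeasureTheory WithZero
open scoped MatrixGroups ContDiff

namespace FermatAgent.LT.Period

open FermatAgent.LT.Whit

variable {L : Type*} [Field L] [NumberField L]
  {S : Finset (HeightOneSpectrum (𝓞 L))} {c : HeightOneSpectrum (𝓞 L) → ℂ}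
  {f g : InfPts L → adelGrp L → ℂ}

/-- A cuspidal eigenform of the level with the given eigenvalues at the good places. -/
structure IsGood (S : Finset (HeightOneSpectrum (𝓞 L))) (c : HeightOneSpectrum (𝓞 L) → ℂ)
    (f : InfPts L → adelGrp L → ℂ) : Prop where
  form : IsForm S f
  radial : IsRadial f
  eigen : ∀ v ∉ S, heckeT v f = c v • f

namespace IsGood

/-- An eigenform of level `S` is an eigenform of deep level. -/
theorem deep (hf : IsGood S c f) : LT2.Whit.IsGood S c f where
  form := hf.form.deep
  radial := hf.radial
  fixed _ hv := hf.form.fixedAt hv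
  eigen := hf.eigen

/-- An eigenform of deep level which is a form of level `S` is an eigenform of level `S`. -/
theorem of_deep (hf : IsForm S f) (h : LT2.Whit.IsGood S c f) : IsGood S c f :=
  ⟨hf, h.radial, h.eigen⟩

/-- Zero is good. -/
lemma zero : IsGood S c (0 : InfPts L → adelGrp L → ℂ) :=
  of_deep IsForm.zero LT2.Whit.IsGood.zero

/-- Sums of good forms are good. -/
lemma add (hf : IsGood S c f) (hg : IsGood S c g) : IsGood S c (f + g) :=
  of_deep (hf.form.add hg.form) (hf.deep.add hg.deep)

/-- Multiples of good forms are good. -/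
lemma smul (hf : IsGood S c f) (r : ℂ) : IsGood S c (r • f) :=
  of_deep (hf.form.smul r) (hf.deep.smul r)

/-- Differences of good forms are good. -/
lemma sub (hf : IsGood S c f) (hg : IsGood S c g) : IsGood S c (f - g) :=
  of_deep (hf.form.sub hg.form) (hf.deep.sub hg.deep)

/-- Finite sums of good forms are good. -/
lemma sum {ι : Type*} (s : Finset ι) (F : ι → InfPts L → adelGrp L → ℂ)
    (h : ∀ i ∈ s, IsGood S c (F i)) : IsGood S c (∑ i ∈ s, F i) :=
  of_deep (IsForm.sum s F fun i hi => (h i hi).form)
    (LT2.Whit.IsGood.sum s F fun i hi => (h i hi).deep)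

/-- Translates that are forms are good. -/
lemma rt_of_form (hf : IsGood S c f) {h : adelGrp L} (hg : IsForm S (Whit.rt h f))
    (hh : ∀ v ∉ S, h.1 v = 1) : IsGood S c (Whit.rt h f) :=
  of_deep hg (hf.deep.rt hh)

/-- Translates at excluded places are good. -/
lemma rt_atV (hf : IsGood S c f) {v : HeightOneSpectrum (𝓞 L)} (hv : v ∈ S) {k : G2 L}
    (hk : k ∈ locK v) : IsGood S c (Whit.rt (atV v k) f) :=
  hf.rt_of_form (hf.form.rt fun w => atV_mem_all hk w) fun w hw =>
    atV_ne (fun e : w = v => hw (e ▸ hv)) k

end IsGood

end FermatAgent.LT.Period
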