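import Fermat.Agent.LT.Period.Field

/-!
# Places of the field of Eisenstein integers

Every place is principal, so torus elements with arbitrary exponents come from the field; the
integers are `ℤ[ζ]`, and only `3` ramifies.
-/

set_option autoImplicit false

noncomputable section

open IsDedekindDomain NumberField WithZero Module Filter
open FermatAgent.LT.Theta.LocalChar

namespace FermatAgent.LT.Period

open FermatAgent.LT.Whit

variable {K : Type*} [Field K] [NumberField K] [IsTotallyComplex K] {θ : K}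

section

omit [IsTotallyComplex K]

/-- Exponents of products add. -/
lemma expo_mul (α β : Kˣ) : expo (α * β) = expo α + expo β := by
  ext v
  have h := map_mul (v.valuation K) (α : K) (β : K)
  rw [← Units.val_mul, v_eq_exp_expo, v_eq_exp_expo, v_eq_exp_expo, ← exp_add, exp_inj] at h
  rw [Finsupp.add_apply]
  omega

/-- The exponents of one. -/
lemma expo_one : expo (1 : Kˣ) = 0 := by
  have h := expo_mul (1 : Kˣ) 1
  rw [one_mul] at h
  simpa using h

/-- The exponents of an inverse. -/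
lemma expo_inv (α : Kˣ) : expo α⁻¹ = -expo α := by
  have h := expo_mul α α⁻¹
  rw [mul_inv_cancel, expo_one] at h
  exact eq_neg_of_add_eq_zero_right h.symm

/-- The exponents of a power. -/
lemma expo_zpow (α : Kˣ) (m : ℤ) : expo (α ^ m) = m • expo α := by
  induction m with
  | zero => simp [expo_one]
  | succ i ih => rw [_root_.zpow_add_one, expo_mul, ih, add_smul, one_smul]
  | pred i ih => rw [_root_.zpow_sub_one, expo_mul, ih, expo_inv, sub_smul,
    one_smul, sub_eq_add_neg]

end

lemma dvd_of_nilpotent {q : ℕ} (hq : q.Prime) (h3 : q ≠ 3) {a b : ℤ}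
    (h1 : (q : ℤ) ∣ a ^ 2 - b ^ 2) (h2 : (q : ℤ) ∣ 2 * a * b - b ^ 2) :
    (q : ℤ) ∣ a ∧ (q : ℤ) ∣ b := by
  have hqi : Prime (q : ℤ) := Nat.prime_iff_prime_int.mp hq
  have hb : (q : ℤ) ∣ b := by
    rw [show 2 * a * b - b ^ 2 = b * (2 * a - b) by ring] at h2
    rcases hqi.dvd_or_dvd h2 with hb | hb
    · exact hb
    · have h4 : (q : ℤ) ∣ 3 * a ^ 2 := by
        have := dvd_add (dvd_mul_of_dvd_left hb (2 * a + b)) h1
        rw [show (2 * a - b) * (2 * a + b) + (a ^ 2 - b ^ 2) =
          5 * a ^ 2 - 2 * b ^ 2 by ring] at this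
        have := dvd_sub this (dvd_mul_of_dvd_right h1 2)
        rwa [show 5 * a ^ 2 - 2 * b ^ 2 - 2 * (a ^ 2 - b ^ 2) = 3 * a ^ 2 by ring] at this
      have ha : (q : ℤ) ∣ a := by
        rcases hqi.dvd_or_dvd h4 with h5 | h5
        · exact absurd ((Nat.prime_dvd_prime_iff_eq hq Nat.prime_three).mp
            (Int.natCast_dvd_natCast.mp (by exact_mod_cast h5))) h3
        · exact hqi.dvd_of_dvd_pow h5
      have := dvd_sub (dvd_mul_of_dvd_right ha 2) hb
      rwa [show 2 * a - (2 * a - b) = b by ring] at this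
  refine ⟨?_, hb⟩
  have := dvd_add h1 (dvd_pow hb two_ne_zero)
  rw [sub_add_cancel] at this
  exact hqi.dvd_of_dvd_pow this

/-- Places have generators. -/
lemma IsEis.exists_generator (h : IsEis θ) (v : HeightOneSpectrum (𝓞 K)) :
    ∃ g : Kˣ, expo g = Finsupp.single v 1 ∧
      ‖(place K).embedding (g : K)‖ ^ 2 = (v.asIdeal.absNorm : ℝ) := by
  classical
  obtain ⟨g, hg⟩ := (h.pid.principal v.asIdeal).principal
  have hg' : v.asIdeal = Ideal.span {g} := hg
  have hg0 : g ≠ 0 := fun e => v.ne_bot (by simp [hg', e])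
  have hg0K : (g : K) ≠ 0 := by simpa using hg0
  refine ⟨Units.mk0 (g : K) hg0K, Finsupp.ext fun w => ?_, ?_⟩
  · have h1 : w.intValuation g = exp (-expo (Units.mk0 (g : K) hg0K) w) := by
      rw [← HeightOneSpectrum.valuation_of_algebraMap (K := K)]
      exact v_eq_exp_expo (Units.mk0 _ hg0K) w
    by_cases hw : w = v
    · subst hw
      rw [w.intValuation_singleton hg0 hg', exp_inj] at h1
      simp only [Finsupp.single_eq_same]
      omega
    · have hnot : g ∉ w.asIdeal := fun hmem => hw (HeightOneSpectrum.ext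
        (v.isMaximal.eq_of_le w.isPrime.ne_top (by
          rwa [hg', Ideal.span_singleton_le_iff_mem])).symm)
      rw [HeightOneSpectrum.intValuation_eq_one_iff.2 hnot, ← exp_zero, exp_inj] at h1
      rw [Finsupp.single_eq_of_ne hw]
      omega
  · have h1 := InfinitePlace.prod_eq_abs_norm (K := K) (g : K)
    rw [h.sum_place_prod, IsTotallyComplex.mult_eq, ← InfinitePlace.norm_embedding_eq] at h1
    rw [Units.val_mk0, h1, hg', Ideal.absNorm_span_singleton]
    have e : Algebra.norm ℚ (g : K) = ((Algebra.norm ℤ g : ℤ) : ℚ) := Algebra.coe_norm_int g ▸ rfl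
    rw [e, Nat.cast_natAbs]
    push_cast
    rfl

/-- A generator of a place. -/
def IsEis.genP (h : IsEis θ) (v : HeightOneSpectrum (𝓞 K)) : Kˣ := (h.exists_generator v).choose

/-- An element with given exponents. -/
def IsEis.gen (h : IsEis θ) (n : Expo K) : Kˣ := n.prod fun v m => h.genP v ^ m

/-- The exponents of the chosen element. -/
lemma IsEis.expo_gen (h : IsEis θ) (n : Expo K) : expo (h.gen n) = n := by
  classical
  induction n using Finsupp.induction with
  | zero => simp [IsEis.gen, expo_one]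
  | single_add v m n hv hm ih =>
    rw [IsEis.gen, Finsupp.prod_add_index' (fun _ => zpow_zero _) fun _ _ _ => zpow_add _ _ _,
      Finsupp.prod_single_index (h := fun v m => h.genP v ^ m) (zpow_zero _), expo_mul, expo_zpow,
      show expo (h.genP v) = Finsupp.single v 1 from (h.exists_generator v).choose_spec.1,
      Finsupp.smul_single, smul_eq_mul, mul_one]
    congr 1

/-- The absolute value of the chosen element. -/
lemma IsEis.norm_gen (h : IsEis θ) (n : Expo K) :
    ‖(place K).embedding (h.gen n : K)‖ ^ 2 = n.prod fun v m => (v.asIdeal.absNorm : ℝ) ^ m := by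
  classical
  simp only [IsEis.gen, Finsupp.prod, Units.coe_prod, map_prod, norm_prod, ← Finset.prod_pow]
  refine Finset.prod_congr rfl fun v _ => ?_
  rw [Units.val_zpow_eq_zpow_val, map_zpow₀, norm_zpow, ← zpow_natCast, ← _root_.zpow_mul,
    mul_comm, _root_.zpow_mul, zpow_natCast,
    show ‖(place K).embedding (h.genP v : K)‖ ^ 2 = _ from (h.exists_generator v).choose_spec.2]

/-- The integers are the `a + b ζ` with `a`, `b` integers, `ζ` a cube root of unity. -/
theorem IsEis.exists_int_repr (h : IsEis θ) (z : 𝓞 K) :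
    ∃ a b : ℤ, (z : K) = a + b * zeta θ := by
  obtain ⟨u, v, huv⟩ := h.exists_repr (z : K)
  obtain ⟨b, hb⟩ := h.trace_div_theta z
  obtain ⟨n, hn⟩ := h.trace_div_theta (h.thetaO * (z * h.zetaO))
  have e1 : (z : K) / θ = ((v : ℚ) : K) + ((-u / 3 : ℚ) : K) * θ := by
    rw [div_eq_iff h.ne_zero, huv]; push_cast
    linear_combination (u : K) / 3 * h.sq
  have e2 : (algebraMap (𝓞 K) K (h.thetaO * (z * h.zetaO))) / θ =
      ((-u / 2 - 3 * v / 2 : ℚ) : K) + ((u / 2 - v / 2 : ℚ) : K) * θ := by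
    rw [map_mul, map_mul, show algebraMap (𝓞 K) K h.thetaO = θ from h.coe_thetaO,
      show algebraMap (𝓞 K) K z = (z : K) from rfl,
      show algebraMap (𝓞 K) K h.zetaO = zeta θ from rfl,
          mul_div_cancel_left₀ _ h.ne_zero, huv, zeta]
    push_cast
    linear_combination (v : K) / 2 * h.sq
  rw [e1, h.trace_repr] at hb
  rw [show ((h.thetaO * (z * h.zetaO) : 𝓞 K) : K) =
    algebraMap (𝓞 K) K (h.thetaO * (z * h.zetaO)) from rfl, e2, h.trace_repr] at hn
  refine ⟨-n - b, b, ?_⟩
  have h1 : ((-n - b : ℤ) : K) = ((u + v : ℚ) : K) := by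
    have : ((-n - b : ℤ) : ℚ) = u + v := by push_cast; linear_combination hn + hb
    exact_mod_cast congrArg (fun r : ℚ => (r : K)) this
  have h2 : (b : K) = ((2 * v : ℚ) : K) := by exact_mod_cast congrArg (fun r : ℚ => (r : K)) hb.symm
  rw [h1, h2, huv, zeta]
  push_cast
  ring

omit [IsTotallyComplex K] in
/-- Coordinates are unique. -/
lemma IsEis.repr_unique (h : IsEis θ) {a b a' b' : ℤ}
    (e : (a : K) + b * zeta θ = a' + b' * zeta θ) : a = a' ∧ b = b' := by
  have hb : b = b' := by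
    by_contra hne
    refine h.not_rat (2 * ((a' - a : ℤ) : ℚ) / ((b - b' : ℤ) : ℚ) + 1) ?_
    have hd : ((b - b' : ℤ) : K) ≠ 0 := by exact_mod_cast sub_ne_zero.2 hne
    push_cast
    push_cast at hd
    rw [zeta] at e
    field_simp
    linear_combination (-2 : K) * e
  subst hb
  exact ⟨by exact_mod_cast add_right_cancel e, rfl⟩

omit [IsTotallyComplex K] in
lemma IsEis.thetaO_sq (h : IsEis θ) : h.thetaO ^ 2 = -3 := by
  refine RingOfIntegers.coe_injective ?_
  rw [map_pow, map_neg, map_ofNat]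
  exact (congrArg (· ^ 2) h.coe_thetaO).trans h.sq

omit [IsTotallyComplex K] in
/-- The only place over three is generated by `θ`. -/
lemma IsEis.asIdeal_eq_span (h : IsEis θ) {v : HeightOneSpectrum (𝓞 K)}
    (h3 : (3 : 𝓞 K) ∈ v.asIdeal) : v.asIdeal = Ideal.span {h.thetaO} := by
  have hθ0 : h.thetaO ≠ 0 := fun e => by simpa [e] using h.thetaO_sq
  have hN : (Ideal.span {h.thetaO}).absNorm = 3 := by
    have hsq : (Ideal.span {h.thetaO}).absNorm ^ 2 = 9 := by
      rw [← map_pow, Ideal.span_singleton_pow, h.thetaO_sq, Ideal.span_singleton_neg,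
        show (3 : 𝓞 K) = algebraMap ℤ (𝓞 K) 3 from (map_ofNat _ 3).symm,
        Ideal.absNorm_span_singleton, Algebra.norm_algebraMap, RingOfIntegers.rank, h.deg]
      norm_num
    nlinarith
  have hP : (Ideal.span {h.thetaO}).IsMaximal :=
    (Ideal.isPrime_of_irreducible_absNorm (by rw [hN]; exact Nat.prime_three)).isMaximal
      (by simpa using hθ0)
  refine (hP.eq_of_le v.isPrime.ne_top ((Ideal.span_singleton_le_iff_mem _).2
    (v.isPrime.mem_of_pow_mem 2 ?_))).symm
  rw [h.thetaO_sq]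
  exact v.asIdeal.neg_mem h3

omit [IsTotallyComplex K] in
/-- The exponent of three is twice the exponent of `θ`, which is one. -/
private lemma IsEis.expo_three (h : IsEis θ) (v : HeightOneSpectrum (𝓞 K))
    (hlt : v.valuation K ((3 : ℕ) : K) < 1)
    {hqK : ((3 : ℕ) : K) ≠ 0}
    (hval : v.valuation K ((3 : ℕ) : K) = exp (-expo (Units.mk0 ((3 : ℕ) : K) hqK) v))
    (hθv : v.valuation K θ = exp (-expo (Units.mk0 θ h.ne_zero) v)) :
    expo (Units.mk0 ((3 : ℕ) : K) hqK) v = 1 + expo (Units.mk0 θ h.ne_zero) v := by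
  have hsq : v.valuation K ((3 : ℕ) : K) = v.valuation K θ ^ 2 := by
    rw [← map_pow, h.sq, Valuation.map_neg]; norm_num
  have heq : v.asIdeal = Ideal.span {h.thetaO} := h.asIdeal_eq_span (by
    rw [← v.valuation_lt_one_iff_mem (K := K)]
    simpa [map_ofNat] using hlt)
  have hθe : v.valuation K θ = exp (-1 : ℤ) := by
    rw [← h.coe_thetaO, show (h.thetaO : K) = algebraMap (𝓞 K) K h.thetaO from rfl,
      HeightOneSpectrum.valuation_of_algebraMap, v.intValuation_singleton (fun e => h.ne_zero (by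
        rw [← h.coe_thetaO, e]; simp)) heq]
  rw [hθv, exp_inj] at hθe
  rw [hval, hθv, ← exp_nsmul, exp_inj, nsmul_eq_mul] at hsq
  omega

omit [IsTotallyComplex K] in
/-- Away from three `θ` is a unit. -/
private lemma IsEis.expo_theta_eq_zero (h : IsEis θ) {q : ℕ} (hq : q.Prime) (h3 : q ≠ 3)
    (v : HeightOneSpectrum (𝓞 K)) (hv : (q : 𝓞 K) ∈ v.asIdeal)
    (hθv : v.valuation K θ = exp (-expo (Units.mk0 θ h.ne_zero) v)) :
    expo (Units.mk0 θ h.ne_zero) v = 0 := by
  have h1 : v.valuation K θ ≤ 1 := by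
    rw [← h.coe_thetaO]; exact v.valuation_le_one _
  have h2 : ¬v.valuation K θ < 1 := fun hlt' => by
    have h3' : v.valuation K ((3 : ℕ) : K) < 1 := by
      rw [show v.valuation K ((3 : ℕ) : K) = v.valuation K θ ^ 2 by
        rw [← map_pow, h.sq, Valuation.map_neg]; norm_num]
      exact pow_lt_one' hlt' two_ne_zero
    rw [← map_natCast (algebraMap (𝓞 K) K) 3, v.valuation_lt_one_iff_mem] at h3'
    refine v.isPrime.ne_top ((Ideal.eq_top_iff_one _).2 ?_)
    obtain ⟨a, b, hab⟩ : IsCoprime (q : ℤ) (3 : ℤ) :=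
      Int.isCoprime_iff_gcd_eq_one.2 (by
        simpa [Int.gcd] using (Nat.coprime_primes hq Nat.prime_three).2 h3)
    have := congrArg (fun z : ℤ => (z : 𝓞 K)) hab
    push_cast at this
    rw [← this]
    exact add_mem (Ideal.mul_mem_left _ _ hv) (Ideal.mul_mem_left _ _ h3')
  have := le_antisymm h1 (not_lt.1 h2)
  rw [hθv, ← exp_zero, exp_inj] at this
  omega

/-- A rational prime has exponent one plus the conductor at a place over it: only `3` ramifies. -/
theorem IsEis.expo_prime (h : IsEis θ) {q : ℕ} (hq : q.Prime) (v : HeightOneSpectrum (𝓞 K))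
    (hv : (q : 𝓞 K) ∈ v.asIdeal) :
    expo (Units.mk0 (q : K) (Nat.cast_ne_zero.2 hq.ne_zero)) v = 1 + cnd v := by
  have hqK : (q : K) ≠ 0 := Nat.cast_ne_zero.2 hq.ne_zero
  have hval : v.valuation K (q : K) = exp (-expo (Units.mk0 (q : K) hqK) v) :=
    v_eq_exp_expo (Units.mk0 _ hqK) v
  have hlt : v.valuation K (q : K) < 1 := by
    rw [← map_natCast (algebraMap (𝓞 K) K) q, v.valuation_lt_one_iff_mem]
    exact hv
  have hθv : v.valuation K θ = exp (-expo (Units.mk0 θ h.ne_zero) v) :=
    v_eq_exp_expo (Units.mk0 θ h.ne_zero) v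
  rw [h.cnd_eq]
  by_cases h3 : q = 3
  · subst h3
    exact h.expo_three v hlt hval hθv
  · have hθ1 : expo (Units.mk0 θ h.ne_zero) v = 0 := h.expo_theta_eq_zero hq h3 v hv hθv
    rw [hθ1, add_zero]
    by_contra hne
    rw [hval, ← exp_zero, exp_lt_exp] at hlt
    obtain ⟨g, hg, -⟩ := h.exists_generator v
    have hge : 2 ≤ expo (Units.mk0 (q : K) hqK) v := by omega
    have hint : ∀ (k : ℕ), k ≤ 2 → ∃ z : 𝓞 K, (z : K) = (q : K) / (g : K) ^ k := fun k hk => by
      refine (HeightOneSpectrum.mem_integers_of_valuation_le_one K _ fun w => ?_).imp fun z hz => hz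
      have hgw : w.valuation K (g : K) = exp (-expo g w) := v_eq_exp_expo g w
      have hqw : w.valuation K (q : K) = exp (-expo (Units.mk0 (q : K) hqK) w) :=
        v_eq_exp_expo (Units.mk0 _ hqK) w
      rw [map_div₀, map_pow, hgw, hqw, ← exp_nsmul, ← exp_sub, ← exp_zero, exp_le_exp, hg,
        nsmul_eq_mul]
      by_cases hw : w = v
      · subst hw
        rw [Finsupp.single_eq_same]
        omega
      · rw [Finsupp.single_eq_of_ne hw]
        have : w.valuation K (algebraMap (𝓞 K) K (q : 𝓞 K)) ≤ 1 := w.valuation_le_one _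
        rw [map_natCast, hqw, ← exp_zero, exp_le_exp] at this
        omega
    obtain ⟨x, hx⟩ := hint 1 one_le_two
    obtain ⟨w, hw⟩ := hint 2 le_rfl
    rw [pow_one] at hx
    obtain ⟨a, b, hab⟩ := h.exists_int_repr x
    obtain ⟨A, B, hAB⟩ := h.exists_int_repr w
    have hsq : (x : K) ^ 2 = (q : K) * (w : K) := by rw [hx, hw]; field_simp
    have heq : ((a ^ 2 - b ^ 2 : ℤ) : K) + ((2 * a * b - b ^ 2 : ℤ) : K) * zeta θ =
        ((q * A : ℤ) : K) + ((q * B : ℤ) : K) * zeta θ := by
      rw [hab, hAB] at hsq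
      push_cast
      linear_combination hsq - (b : K) ^ 2 * h.zeta_rel
    obtain ⟨d1, d2⟩ := h.repr_unique heq
    obtain ⟨hqa, hqb⟩ := dvd_of_nilpotent hq h3 ⟨A, d1⟩ ⟨B, d2⟩
    obtain ⟨a', rfl⟩ := hqa
    obtain ⟨b', rfl⟩ := hqb
    have hgi : (1 : K) / (g : K) = (((a' : 𝓞 K) + (b' : 𝓞 K) * h.zetaO : 𝓞 K) : K) := by
      have : (q : K) / (g : K) = (q : K) * (((a' : 𝓞 K) + (b' : 𝓞 K) * h.zetaO : 𝓞 K) : K) := by
        rw [← hx, hab]
        show _ = (q : K) * algebraMap (𝓞 K) K ((a' : 𝓞 K) + (b' : 𝓞 K) * h.zetaO)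
        rw [map_add, map_mul, map_intCast, map_intCast,
          show algebraMap (𝓞 K) K h.zetaO = zeta θ from rfl]
        push_cast
        ring
      rw [div_eq_mul_inv] at this
      rw [one_div]
      exact mul_left_cancel₀ hqK this
    have : v.valuation K (((a' : 𝓞 K) + (b' : 𝓞 K) * h.zetaO : 𝓞 K) : K) ≤ 1 :=
      v.valuation_le_one _
    rw [← hgi, one_div, map_inv₀, v_eq_exp_expo, hg, Finsupp.single_eq_same,
      ← WithZero.exp_neg, ← exp_zero,
      exp_le_exp] at this
    omega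

end FermatAgent.LT.Period
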