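import Mathlib

/-!
# Lattice sums of Eisenstein type near the edge of convergence

For every nonzero class modulo `N` the sum of `(y / |c z + d|²) ^ s` over the class differs from a
common main term by a polynomial in `y`, uniformly as `s → 1`.
-/

set_option autoImplicit false

noncomputable section

open MeasureTheory Set Filter Topology
open scoped Real

namespace FermatAgent.LT.Period

/-- A sum of `H |t + n|` over the integers, `H` nonnegative and decreasing, differs from twice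
the integral of `H` over the half-line by at most `2 H(0)`. -/
theorem tsum_sub_integral_le {H : ℝ → ℝ} (hH : AntitoneOn H (Ici 0)) (h0 : ∀ u, 0 ≤ H u)
    (hint : IntegrableOn H (Ioi 0)) (t : ℝ) :
    (Summable fun n : ℤ => H |t + n|) ∧
      |(∑' n : ℤ, H |t + n|) - 2 * ∫ u in Ioi 0, H u| ≤ 2 * H 0 := by
  set r := Int.fract t
  have hr0 : 0 ≤ r := Int.fract_nonneg t
  have hr1 : r < 1 := Int.fract_lt_one t
  suffices key : (Summable fun n : ℤ => H |r + n|) ∧
      |(∑' n : ℤ, H |r + n|) - 2 * ∫ u in Ioi 0, H u| ≤ 2 * H 0 by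
    have e : ∀ n : ℤ, H |t + n| = H |r + ((Equiv.addRight ⌊t⌋) n : ℤ)| := fun n => by
      simp only [Equiv.coe_addRight, r, Int.fract]
      push_cast
      ring_nf
    simp_rw [e]
    exact ⟨(Equiv.addRight ⌊t⌋).summable_iff.2 key.1,
      by rw [(Equiv.addRight ⌊t⌋).tsum_eq fun n : ℤ => H |r + n|]; exact key.2⟩
  have hsum : Summable fun n : ℕ => H n := hH.summable_of_integrableOn_Ioi_zero hint fun u _ => h0 u
  have hsum1 : Summable fun n : ℕ => H ((n + 1 : ℕ) : ℝ) := (summable_nat_add_iff 1).2 hsum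
  have hsplit : ∑' n : ℕ, H n = H 0 + ∑' n : ℕ, H ((n + 1 : ℕ) : ℝ) := by
    simpa using hsum.tsum_eq_zero_add
  have hI1 : ∑' n : ℕ, H ((n + 1 : ℕ) : ℝ) ≤ ∫ u in Ioi 0, H u := by
    have := hH.tsum_le_integral hint fun u _ => h0 u
    linarith
  have hI2 : ∫ u in Ioi 0, H u ≤ ∑' n : ℕ, H n := hH.integral_le_tsum hsum fun u _ => h0 u
  have hp : ∀ n : ℕ, H ((n + 1 : ℕ) : ℝ) ≤ H (r + n) ∧ H (r + n) ≤ H n := fun n =>
    ⟨hH (by simp only [mem_Ici]; positivity) (by simp only [mem_Ici]; positivity)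
        (by push_cast; linarith),
      hH (mem_Ici.2 (Nat.cast_nonneg n)) (by simp only [mem_Ici]; positivity) (by linarith)⟩
  have hq : ∀ n : ℕ, H ((n + 1 : ℕ) : ℝ) ≤ H (((n + 1 : ℕ) : ℝ) - r) ∧
      H (((n + 1 : ℕ) : ℝ) - r) ≤ H n := fun n => by
    have : (0 : ℝ) ≤ ((n + 1 : ℕ) : ℝ) - r := by push_cast; linarith [Nat.cast_nonneg (α := ℝ) n]
    exact ⟨hH this (by simp only [mem_Ici]; positivity) (by linarith),
      hH (mem_Ici.2 (Nat.cast_nonneg n)) this (by push_cast; linarith)⟩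
  have hsp : Summable fun n : ℕ => H (r + n) :=
    hsum.of_nonneg_of_le (fun n => h0 _) fun n => (hp n).2
  have hsq : Summable fun n : ℕ => H (((n + 1 : ℕ) : ℝ) - r) :=
    hsum.of_nonneg_of_le (fun n => h0 _) fun n => (hq n).2
  have hs : HasSum (fun n : ℤ => H |r + n|)
      ((∑' n : ℕ, H (r + n)) + ∑' n : ℕ, H (((n + 1 : ℕ) : ℝ) - r)) := by
    refine HasSum.of_nat_of_neg_add_one ?_ ?_
    · refine hsp.hasSum.congr_fun fun n => ?_
      rw [abs_of_nonneg (by push_cast; positivity)]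
      simp
    · refine hsq.hasSum.congr_fun fun n => ?_
      rw [abs_of_nonpos (by push_cast; linarith [Nat.cast_nonneg (α := ℝ) n])]
      push_cast
      ring_nf
  refine ⟨hs.summable, ?_⟩
  rw [hs.tsum_eq, abs_le]
  have a1 := hsum1.tsum_le_tsum (fun n => (hp n).1) hsp
  have a2 := hsp.tsum_le_tsum (fun n => (hp n).2) hsum
  have b1 := hsum1.tsum_le_tsum (fun n => (hq n).1) hsq
  have b2 := hsq.tsum_le_tsum (fun n => (hq n).2) hsum
  constructor <;> linarith

/-- The term `(y / |c z + d|²) ^ s` of the lattice sum at `z = x + i y`. -/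
def eisTerm (s x y : ℝ) (c d : ℤ) : ℝ :=
  (y / (((c : ℝ) * x + d) ^ 2 + ((c : ℝ) * y) ^ 2)) ^ s

/-- The archimedean factor `∫ (v² + 1) ^ (-s)` over the half-line. -/
def eisB (s : ℝ) : ℝ := ∫ v in Ioi 0, (v ^ 2 + 1) ^ (-s)

lemma antitone_kernel {s a b : ℝ} (hs : 0 ≤ s) (ha : 0 ≤ a) (hb : 0 < b) :
    AntitoneOn (fun v : ℝ => ((a * v) ^ 2 + b) ^ (-s)) (Ici 0) := fun u hu v hv huv => by
  refine Real.rpow_le_rpow_of_nonpos (by positivity) ?_ (by linarith)
  have : (a * u) ^ 2 ≤ (a * v) ^ 2 :=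
    pow_le_pow_left₀ (mul_nonneg ha hu) (mul_le_mul_of_nonneg_left huv ha) 2
  linarith

lemma integrable_kernel {s : ℝ} (hs : 1 ≤ s) :
    IntegrableOn (fun v : ℝ => (v ^ 2 + 1) ^ (-s)) (Ioi 0) := by
  refine (integrable_inv_one_add_sq.integrableOn).mono'
    (Continuous.aestronglyMeasurable <| Continuous.rpow_const (by fun_prop) fun v =>
      Or.inl (by positivity))
    (ae_of_all _ fun v => ?_)
  rw [Real.norm_eq_abs, abs_of_nonneg (by positivity), add_comm (1 : ℝ)]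
  calc (v ^ 2 + 1) ^ (-s) ≤ (v ^ 2 + 1) ^ (-1 : ℝ) :=
        Real.rpow_le_rpow_of_exponent_le (by nlinarith [sq_nonneg v]) (by linarith)
    _ = (v ^ 2 + 1)⁻¹ := Real.rpow_neg_one _

lemma eisB_nonneg (s : ℝ) : 0 ≤ eisB s :=
  setIntegral_nonneg measurableSet_Ioi fun v _ => by positivity

lemma eisB_le {s : ℝ} (hs : 1 ≤ s) : eisB s ≤ π := by
  have h1 : eisB s ≤ ∫ v in Ioi 0, (1 + v ^ 2)⁻¹ :=
    setIntegral_mono_on
      (integrable_kernel hs) integrable_inv_one_add_sq.integrableOn measurableSet_Ioi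
      fun v _ => by
        rw [add_comm (1 : ℝ)]
        calc (v ^ 2 + 1) ^ (-s) ≤ (v ^ 2 + 1) ^ (-1 : ℝ) :=
              Real.rpow_le_rpow_of_exponent_le (by nlinarith [sq_nonneg v]) (by linarith)
          _ = _ := Real.rpow_neg_one _
  refine h1.trans ?_
  rw [← integral_univ_inv_one_add_sq]
  exact setIntegral_le_integral integrable_inv_one_add_sq (ae_of_all _ fun v => by positivity)

variable {N : ℕ}

/-- For fixed `c ≠ 0` the sum over `d` in a class modulo `N` is its integral,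
`2 B(s) y ^ (1-s) |c| ^ (1-2s) / N`, up to twice the largest term. -/
theorem eisTerm_inner (hN : 0 < N) {s y : ℝ} (hs : 1 ≤ s) (hy : 0 < y) (x : ℝ) {c : ℤ} (hc : c ≠ 0)
    (b : ℤ) :
    (Summable fun l : ℤ => eisTerm s x y c (b + N * l)) ∧
      |(∑' l : ℤ, eisTerm s x y c (b + N * l)) -
          2 / N * eisB s * (y ^ (1 - s) * |(c : ℝ)| ^ (1 - 2 * s))| ≤
        2 * (y ^ (-s) * |(c : ℝ)| ^ (-(2 * s))) := by
  set Y := |(c : ℝ)| * y with hY
  have hc' : (0 : ℝ) < |(c : ℝ)| := abs_pos.2 (Int.cast_ne_zero.2 hc)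
  have hY0 : 0 < Y := mul_pos hc' hy
  have hNr : (0 : ℝ) < N := Nat.cast_pos.2 hN
  set H : ℝ → ℝ := fun v => y ^ s * (((N : ℝ) * v) ^ 2 + Y ^ 2) ^ (-s) with hH
  have hHanti : AntitoneOn H (Ici 0) :=
    fun u hu v hv huv => mul_le_mul_of_nonneg_left
      (antitone_kernel (by linarith) hNr.le (by positivity) hu hv huv) (by positivity)
  have hscale : ∀ v : ℝ, H v = y ^ s * Y ^ (-(2 * s)) * (((N : ℝ) / Y * v) ^ 2 + 1) ^ (-s) :=
    fun v => by
    have : ((N : ℝ) * v) ^ 2 + Y ^ 2 = Y ^ 2 * (((N : ℝ) / Y * v) ^ 2 + 1) := by field_simp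
    simp only [hH, this]
    rw [Real.mul_rpow (by positivity : (0 : ℝ) ≤ Y ^ 2) (by positivity), ← Real.rpow_natCast Y 2,
      ← Real.rpow_mul hY0.le]
    push_cast
    ring_nf
  have hint : IntegrableOn H (Ioi 0) := by
    rw [funext hscale]
    refine Integrable.const_mul ?_ _
    have := (integrableOn_Ioi_comp_mul_left_iff (fun u : ℝ => (u ^ 2 + 1) ^ (-s)) 0
      (div_pos hNr hY0)).2 (by simpa using integrable_kernel hs)
    exact this
  have hI : ∫ v in Ioi 0, H v = 1 / N * eisB s * (y ^ (1 - s) * |(c : ℝ)| ^ (1 - 2 * s)) := by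
    simp_rw [hscale]
    rw [integral_const_mul, integral_comp_mul_left_Ioi (fun u : ℝ => (u ^ 2 + 1) ^ (-s)) 0
      (div_pos hNr hY0), mul_zero, smul_eq_mul, ← eisB, inv_div]
    have e1 : y ^ s * (y ^ (-(2 * s)) * y) = y ^ (1 - s) := by
      rw [← Real.rpow_add_one hy.ne', ← Real.rpow_add hy]
      ring_nf
    have e2 : |(c : ℝ)| ^ (-(2 * s)) * |(c : ℝ)| = |(c : ℝ)| ^ (1 - 2 * s) := by
      rw [← Real.rpow_add_one hc'.ne']
      ring_nf
    rw [hY, Real.mul_rpow hc'.le hy.le, ← e1, ← e2]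
    ring
  have hterm : ∀ l : ℤ, eisTerm s x y c (b + N * l) = H |((c : ℝ) * x + b) / N + l| := fun l => by
    have e : ((N : ℝ) * |((c : ℝ) * x + b) / N + l|) ^ 2 + Y ^ 2 =
        ((c : ℝ) * x + ((b + N * l : ℤ) : ℝ)) ^ 2 + ((c : ℝ) * y) ^ 2 := by
      rw [mul_pow, sq_abs, hY, mul_pow, sq_abs]
      push_cast
      field_simp
      ring
    simp only [eisTerm, hH]
    rw [e, Real.div_rpow hy.le (by positivity), Real.rpow_neg (by positivity), div_eq_mul_inv]
  obtain ⟨h1, h2⟩ := tsum_sub_integral_le hHanti (fun u => by positivity) hint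
      (((c : ℝ) * x + b) / N)
  refine ⟨h1.congr fun l => (hterm l).symm, ?_⟩
  rw [tsum_congr hterm]
  have hH0 : H 0 = y ^ (-s) * |(c : ℝ)| ^ (-(2 * s)) := by
    rw [hscale, mul_zero, zero_pow two_ne_zero, zero_add, Real.one_rpow, mul_one, hY,
      Real.mul_rpow hc'.le hy.le, ← mul_assoc, mul_comm (y ^ s), mul_assoc, ← Real.rpow_add hy,
      mul_comm]
    ring_nf
  rw [hI, hH0] at h2
  refine le_of_eq_of_le ?_ h2
  ring_nf

/-- The sum of `n ^ (-σ)` over the positive multiples of `N`. -/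
def zetaN (N : ℕ) (σ : ℝ) : ℝ := ∑' k : ℕ, ((N * (k + 1) : ℕ) : ℝ) ^ (-σ)

lemma summable_zetaN (hN : 0 < N) {σ : ℝ} (hσ : 1 < σ) :
    Summable fun k : ℕ => ((N * (k + 1) : ℕ) : ℝ) ^ (-σ) := by
  refine (Real.summable_nat_rpow.2 (by linarith : -σ < -1)).comp_injective fun a b h => ?_
  have := Nat.eq_of_mul_eq_mul_left hN h
  omega

lemma zetaN_le (hN : 0 < N) {σ : ℝ} (hσ : 1 < σ) : zetaN N σ ≤ 1 + 1 / (σ - 1) := by
  refine Real.tsum_le_of_sum_range_le (fun k => by positivity) fun n => ?_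
  have h1 : ∀ k : ℕ, ((N * (k + 1) : ℕ) : ℝ) ^ (-σ) ≤ ((k + 1 : ℕ) : ℝ) ^ (-σ) := fun k =>
    Real.rpow_le_rpow_of_nonpos (by positivity)
      (by exact_mod_cast Nat.le_mul_of_pos_left _ hN) (by linarith)
  refine (Finset.sum_le_sum fun k _ => h1 k).trans ?_
  rcases n with _ | n
  · simp only [Finset.range_zero, Finset.sum_empty]
    have : 0 < σ - 1 := by linarith
    positivity
  have hanti : AntitoneOn (fun v : ℝ => v ^ (-σ)) (Icc (1 : ℝ) (1 + n)) := fun a ha b hb hab =>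
    Real.rpow_le_rpow_of_nonpos (by linarith [ha.1]) hab (by linarith)
  have h2 := hanti.sum_le_integral
  rw [integral_rpow (Or.inr ⟨by linarith, by
    rw [Set.uIcc_of_le (by linarith [Nat.cast_nonneg (α := ℝ) n])]
    exact fun h => by linarith [h.1]⟩)] at h2
  rw [Finset.sum_range_succ']
  simp only [zero_add, Nat.cast_one, Real.one_rpow]
  have h3 : ∑ k ∈ Finset.range n, ((k + 1 + 1 : ℕ) : ℝ) ^ (-σ) ≤ 1 / (σ - 1) := by
    refine le_trans (le_of_eq (Finset.sum_congr rfl fun k _ => ?_)) (h2.trans ?_)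
    · push_cast; ring_nf
    · have hpos : 0 ≤ (1 + (n : ℝ)) ^ (-σ + 1) := Real.rpow_nonneg (by positivity) _
      rw [Real.one_rpow, show -σ + 1 = -(σ - 1) by ring, div_neg, ← neg_div, neg_sub]
      rw [show -σ + 1 = -(σ - 1) by ring] at hpos
      have : 0 < σ - 1 := by linarith
      gcongr
      linarith
  linarith

/-- The sum of `|n| ^ (-σ)` over the nonzero integers in a class modulo `N` is twice that over
the positive multiples of `N`, up to a bounded error. -/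
theorem class_sum (hN : 0 < N) {σ : ℝ} (hσ : 1 < σ) {a : ℤ} (ha0 : 0 ≤ a) (ha : a < N) :
    (Summable fun k : ℤ => if a + N * k = 0 then 0 else |((a + N * k : ℤ) : ℝ)| ^ (-σ)) ∧
      |(∑' k : ℤ, if a + N * k = 0 then 0 else |((a + N * k : ℤ) : ℝ)| ^ (-σ)) -
        2 * zetaN N σ| ≤ 5 := by
  set F : ℤ → ℝ := fun k => if a + N * k = 0 then 0 else |((a + N * k : ℤ) : ℝ)| ^ (-σ)
  have hone : ∀ m : ℤ, 1 ≤ |m| → |(m : ℝ)| ^ (-σ) ≤ 1 := fun m hm =>
    Real.rpow_le_one_of_one_le_of_nonpos (by exact_mod_cast hm) (by linarith)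
  have hF0 : ∀ k, 0 ≤ F k := fun k => by simp only [F]; split_ifs <;> positivity
  have hF1 : ∀ k, F k ≤ 1 := fun k => by
    simp only [F]
    split_ifs with h
    · exact zero_le_one
    · exact hone _ (Int.one_le_abs h)
  set Z : ℕ → ℝ := fun k => ((N * (k + 1) : ℕ) : ℝ) ^ (-σ) with hZ
  have hZs := summable_zetaN hN hσ
  have hZ1 : Z 0 ≤ 1 := by
    have := hone ((N : ℤ)) (by rw [abs_of_nonneg (by positivity)]; exact_mod_cast hN)
    simpa [hZ] using this
  have hp : ∀ k : ℕ, F (k + 1 : ℕ) ≤ Z k ∧ Z (k + 1) ≤ F (k + 1 : ℕ) := fun k => by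
    have hpos : (0 : ℤ) < a + N * ((k + 1 : ℕ) : ℤ) := by
      have : (0 : ℤ) < N * ((k + 1 : ℕ) : ℤ) := by positivity
      omega
    simp only [F, if_neg hpos.ne', hZ]
    rw [abs_of_pos (Int.cast_pos.2 hpos)]
    have har : (a : ℝ) < N := by exact_mod_cast ha
    have har0 : (0 : ℝ) ≤ a := by exact_mod_cast ha0
    constructor
    · refine Real.rpow_le_rpow_of_nonpos (by positivity) ?_ (by linarith)
      push_cast; linarith
    · refine Real.rpow_le_rpow_of_nonpos (by exact_mod_cast hpos) ?_ (by linarith)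
      push_cast; linarith
  have hq : ∀ k : ℕ, F (-((k + 1 : ℕ) + 1 : ℤ)) ≤ Z k ∧ Z (k + 1) ≤ F (-((k + 1 : ℕ) + 1 : ℤ)) :=
    fun k => by
    have hneg : a + N * (-((k + 1 : ℕ) + 1 : ℤ)) < 0 := by
      have : (N : ℤ) ≤ N * ((k + 1 : ℕ) + 1 : ℤ) :=
        le_mul_of_one_le_right (by positivity) (by omega)
      rw [mul_neg]
      omega
    simp only [F, if_neg hneg.ne, hZ]
    rw [abs_of_neg (Int.cast_lt_zero.2 hneg)]
    have har : (a : ℝ) < N := by exact_mod_cast ha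
    have har0 : (0 : ℝ) ≤ a := by exact_mod_cast ha0
    constructor
    · refine Real.rpow_le_rpow_of_nonpos (by positivity) ?_ (by linarith)
      push_cast; linarith
    · refine Real.rpow_le_rpow_of_nonpos ?_ ?_ (by linarith)
      · have : ((a + N * (-((k + 1 : ℕ) + 1 : ℤ)) : ℤ) : ℝ) < 0 := Int.cast_lt_zero.2 hneg
        linarith
      · push_cast; linarith
  have hZ' : Summable fun k => Z (k + 1) := (summable_nat_add_iff 1).2 hZs
  have hps : Summable fun k : ℕ => F (k + 1 : ℕ) :=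
    hZs.of_nonneg_of_le (fun k => hF0 _) fun k => (hp k).1
  have hps0 : Summable fun k : ℕ => F k := (summable_nat_add_iff (f := fun k : ℕ => F k) 1).1 hps
  have hqs : Summable fun k : ℕ => F (-((k + 1 : ℕ) + 1 : ℤ)) :=
    hZs.of_nonneg_of_le (fun k => hF0 _) fun k => (hq k).1
  have hqs0 : Summable fun k : ℕ => F (-((k : ℤ) + 1)) :=
    (summable_nat_add_iff (f := fun k : ℕ => F (-((k : ℤ) + 1))) 1).1 hqs
  have hs := hps0.hasSum.of_nat_of_neg_add_one hqs0.hasSum
  refine ⟨hs.summable, ?_⟩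
  rw [hs.tsum_eq, hps0.tsum_eq_zero_add, hqs0.tsum_eq_zero_add, zetaN]
  have a1 := hps.tsum_le_tsum (fun k => (hp k).1) hZs
  have a2 := hZ'.tsum_le_tsum (fun k => (hp k).2) hps
  have b1 := hqs.tsum_le_tsum (fun k => (hq k).1) hZs
  have b2 := hZ'.tsum_le_tsum (fun k => (hq k).2) hqs
  have hz := hZs.tsum_eq_zero_add
  have hZ0 : 0 ≤ Z 0 := by positivity
  simp only [hZ] at hz hZ1 hZ0 a1 a2 b1 b2
  have c0 := hF0 ((0 : ℕ) : ℤ)
  have c1 := hF1 ((0 : ℕ) : ℤ)
  have d0 := hF0 (-(((0 : ℕ) : ℤ) + 1))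
  have d1 := hF1 (-(((0 : ℕ) : ℤ) + 1))
  rw [abs_le]
  constructor <;> linarith

/-- The main term of the lattice sums, the same for every class modulo `N`. -/
def eisA (N : ℕ) (s : ℝ) : ℝ := 2 / N * eisB s * (2 * zetaN N (2 * s - 1))

lemma abs_rpow_sub_one_le {y s : ℝ} (hy : 1 / 2 ≤ y) (hs : 1 < s) (hs2 : s ≤ 3 / 2) :
    |y ^ (1 - s) - 1| ≤ (s - 1) * (2 * (1 + y) ^ 2) := by
  have hy0 : 0 < y := by linarith
  rw [Real.rpow_def_of_pos hy0]
  have hlog : |Real.log y| ≤ 1 + y := by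
    rw [abs_le]
    refine ⟨?_, (Real.log_le_sub_one_of_pos hy0).trans (by linarith)⟩
    have h := Real.one_sub_inv_le_log_of_pos hy0
    have : y⁻¹ ≤ 2 := by rw [inv_le_comm₀ hy0 two_pos]; linarith
    linarith
  set u := Real.log y * (1 - s) with hu
  have hexp : Real.exp u ≤ 2 := by
    rw [hu, ← Real.rpow_def_of_pos hy0]
    calc y ^ (1 - s) ≤ (1 / 2 : ℝ) ^ (1 - s) :=
          Real.rpow_le_rpow_of_nonpos (by norm_num) hy (by linarith)
      _ ≤ (1 / 2 : ℝ) ^ (-1 : ℝ) :=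
          Real.rpow_le_rpow_of_exponent_ge (by norm_num) (by norm_num) (by linarith)
      _ = 2 := by rw [Real.rpow_neg_one]; norm_num
  have h1 : |Real.exp u - 1| ≤ |u| * 2 := by
    rcases le_total 0 u with h | h
    · rw [abs_of_nonneg h, abs_of_nonneg (by linarith [Real.one_le_exp h])]
      have h2 := Real.add_one_le_exp (-u)
      rw [Real.exp_neg] at h2
      have h3 : (-u + 1) * Real.exp u ≤ 1 := by
        calc (-u + 1) * Real.exp u ≤ (Real.exp u)⁻¹ * Real.exp u :=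
              mul_le_mul_of_nonneg_right h2 (Real.exp_pos u).le
          _ = 1 := inv_mul_cancel₀ (Real.exp_pos u).ne'
      nlinarith
    · rw [abs_of_nonpos h, abs_of_nonpos (by linarith [Real.exp_le_one_iff.2 h])]
      linarith [Real.add_one_le_exp u]
  refine h1.trans ?_
  rw [hu, abs_mul, abs_of_neg (show (1 - s) < 0 by linarith)]
  have : 1 + y ≤ (1 + y) ^ 2 := by nlinarith
  nlinarith [hlog, abs_nonneg (Real.log y)]

/-- The term of a class sum. -/
private def classTerm (N : ℕ) (a : ℤ) (σ : ℝ) (k : ℤ) : ℝ :=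
  if a + N * k = 0 then 0 else |((a + N * k : ℤ) : ℝ)| ^ (-σ)

/-- The row of index zero. -/
private lemma row_zero_le (hN : 0 < N) {a b : ℤ} (hab : ¬((N : ℤ) ∣ a ∧ (N : ℤ) ∣ b)) {s : ℝ}
    (hs : 1 < s) (hs2 : s ≤ 3 / 2) (x : ℝ) {y : ℝ} (hy0 : 0 < y) {k : ℤ} (hk : a + N * k = 0) :
    (Summable fun l : ℤ => eisTerm s x y (a + N * k) (b + N * l)) ∧
      ∑' l : ℤ, eisTerm s x y (a + N * k) (b + N * l) ≤ (1 + y) ^ 2 * (2 * zetaN N 2 + 5) := by
  have hbN : ¬(N : ℤ) ∣ b := fun h => hab ⟨⟨-k, by linarith⟩, h⟩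
  have hNz : (N : ℤ) ≠ 0 := by exact_mod_cast hN.ne'
  set b0 := b % N
  obtain ⟨g1, g1'⟩ := class_sum hN (σ := 2) one_lt_two (Int.emod_nonneg b hNz)
    (Int.emod_lt_of_pos b (by exact_mod_cast hN))
  let e : ℤ ≃ ℤ := Equiv.addRight (b / N)
  have he : ∀ l : ℤ, b + N * l = b0 + N * e l := fun l => by
    simp only [e, Equiv.coe_addRight, b0]
    have := Int.mul_ediv_add_emod b N
    linarith [mul_add (N : ℤ) l (b / N)]
  have hne : ∀ l : ℤ, b + N * l ≠ 0 := fun l h => hbN ⟨-l, by linarith⟩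
  have hle : ∀ l : ℤ, eisTerm s x y (a + N * k) (b + N * l) ≤ (1 + y) ^ 2 *
      (if b0 + N * e l = 0 then 0 else |((b0 + N * e l : ℤ) : ℝ)| ^ (-(2 : ℝ))) := by
    intro l
    rw [← he, if_neg (hne l), eisTerm, hk]
    simp only [Int.cast_zero, zero_mul, zero_add, zero_pow two_ne_zero, add_zero]
    rw [Real.div_rpow hy0.le (sq_nonneg _), div_eq_mul_inv]
    refine mul_le_mul ?_ ?_ (by positivity) (by positivity)
    · calc y ^ s ≤ (1 + y) ^ s := Real.rpow_le_rpow hy0.le (by linarith) (by linarith)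
        _ ≤ (1 + y) ^ (2 : ℝ) := Real.rpow_le_rpow_of_exponent_le (by linarith) (by linarith)
        _ = (1 + y) ^ 2 := Real.rpow_two _
    · rw [← sq_abs, ← Real.rpow_natCast, ← Real.rpow_mul (abs_nonneg _),
        ← Real.rpow_neg (abs_nonneg _)]
      refine Real.rpow_le_rpow_of_exponent_le (by exact_mod_cast Int.one_le_abs (hne l)) ?_
      push_cast; linarith
  have hsum : Summable fun l : ℤ => (1 + y) ^ 2 *
      (if b0 + N * e l = 0 then 0 else |((b0 + N * e l : ℤ) : ℝ)| ^ (-(2 : ℝ))) :=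
    (e.summable_iff.2 g1).mul_left _
  have h1 : Summable fun l : ℤ => eisTerm s x y (a + N * k) (b + N * l) :=
    hsum.of_nonneg_of_le (fun l => by unfold eisTerm; positivity) hle
  refine ⟨h1, (h1.tsum_le_tsum hle hsum).trans ?_⟩
  rw [tsum_mul_left, e.tsum_eq fun m : ℤ => if b0 + N * m = 0 then (0 : ℝ)
    else |((b0 + N * m : ℤ) : ℝ)| ^ (-(2 : ℝ))]
  exact mul_le_mul_of_nonneg_left (by linarith [(abs_le.1 g1').2]) (by positivity)

/-- The class sum row by row. -/
private lemma rows_sub_main_le (hN : 0 < N) {a b : ℤ} (hab : ¬((N : ℤ) ∣ a ∧ (N : ℤ) ∣ b))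
    (ha0 : 0 ≤ a) (haN : a < N) {s : ℝ} (hs : 1 < s) (hs2 : s ≤ 3 / 2) (x : ℝ) {y : ℝ}
    (hy0 : 0 < y) :
    (Summable fun p : ℤ × ℤ => eisTerm s x y (a + N * p.1) (b + N * p.2)) ∧
      |(∑' p : ℤ × ℤ, eisTerm s x y (a + N * p.1) (b + N * p.2)) -
          2 / N * eisB s * y ^ (1 - s) * ∑' k, classTerm N a (2 * s - 1) k| ≤
        2 * y ^ (-s) * (∑' k, classTerm N a (2 * s) k) + (1 + y) ^ 2 * (2 * zetaN N 2 + 5) := by
  set R : ℤ → ℝ := fun k => ∑' l : ℤ, eisTerm s x y (a + N * k) (b + N * l)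
  set m₁ := 2 / N * eisB s * y ^ (1 - s) with hm₁
  set F1 := classTerm N a (2 * s - 1)
  set F2 := classTerm N a (2 * s)
  have hF1 : Summable F1 := (class_sum hN (by linarith) ha0 haN).1
  have hF2 : Summable F2 := (class_sum hN (by linarith) ha0 haN).1
  have hzero := fun k (hk : a + N * k = 0) => row_zero_le hN hab hs hs2 x hy0 hk
  have hinj : ∀ k k' : ℤ, a + N * k = 0 → a + N * k' = 0 → k = k' := fun k k' h h' =>
    mul_left_cancel₀ (by exact_mod_cast hN.ne' : (N : ℤ) ≠ 0) (by linarith)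
  have hrow : ∀ k, Summable fun l : ℤ => eisTerm s x y (a + N * k) (b + N * l) := fun k => by
    by_cases hk : a + N * k = 0
    · exact (hzero k hk).1
    · exact (eisTerm_inner hN hs.le hy0 x hk b).1
  have herr : ∀ k, a + N * k ≠ 0 → |R k - m₁ * F1 k| ≤ 2 * y ^ (-s) * F2 k := fun k hk => by
    have h := (eisTerm_inner hN hs.le hy0 x hk b).2
    simp only [F1, F2, classTerm, if_neg hk, hm₁, R]
    rw [show -(2 * s - 1) = 1 - 2 * s by ring, mul_assoc (2 / (N : ℝ) * eisB s), mul_assoc (2 : ℝ)]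
    exact h
  have hD : Summable fun k => R k - m₁ * F1 k := by
    refine Summable.of_norm_bounded_eventually (g := fun k => 2 * y ^ (-s) * F2 k)
      (hF2.mul_left _) ?_
    refine Filter.eventually_cofinite.2 ((Set.Subsingleton.finite fun k hk k' hk' => ?_))
    exact hinj k k' (by_contra fun h => hk (herr k h)) (by_contra fun h => hk' (herr k' h))
  have hR : Summable R := (hD.add (hF1.mul_left m₁)).congr fun k => sub_add_cancel _ _
  have hpair : Summable fun p : ℤ × ℤ => eisTerm s x y (a + N * p.1) (b + N * p.2) := by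
    refine (summable_prod_of_nonneg fun p => ?_).2 ⟨hrow, hR⟩
    unfold eisTerm; positivity
  refine ⟨hpair, ?_⟩
  rw [hpair.tsum_prod' hrow]
  show |(∑' k, R k) - _| ≤ _
  classical
  rw [← tsum_mul_left, ← hR.tsum_sub (hF1.mul_left m₁), ← tsum_mul_left]
  by_cases hex : ∃ k₀, a + N * k₀ = 0
  · obtain ⟨k₀, hk₀⟩ := hex
    rw [hD.tsum_eq_add_tsum_ite k₀, add_comm (∑' k, 2 * y ^ (-s) * F2 k)]
    refine (abs_add_le _ _).trans (add_le_add ?_ ?_)
    · simp only [F1, classTerm, if_pos hk₀, mul_zero, sub_zero]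
      rw [abs_of_nonneg (tsum_nonneg fun l => by unfold eisTerm; positivity)]
      exact (hzero k₀ hk₀).2
    · rw [← Real.norm_eq_abs]
      refine tsum_of_norm_bounded (g := fun k => 2 * y ^ (-s) * F2 k) (hF2.mul_left _).hasSum
        fun k => ?_
      by_cases h : k = k₀
      · rw [if_pos h, norm_zero]
        simp only [F2, classTerm]
        split_ifs <;> positivity
      · rw [if_neg h]
        exact herr k fun e => h (hinj k k₀ e hk₀)
  · push Not at hex
    have hC : 0 ≤ (1 + y) ^ 2 * (2 * zetaN N 2 + 5) := mul_nonneg (sq_nonneg _) (by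
      have : 0 ≤ zetaN N 2 := tsum_nonneg fun k => by positivity
      linarith)
    rw [← Real.norm_eq_abs]
    have := tsum_of_norm_bounded (f := fun k => R k - m₁ * F1 k)
      (g := fun k => 2 * y ^ (-s) * F2 k) (hF2.mul_left (2 * y ^ (-s))).hasSum
      fun k => herr k (hex k)
    linarith

/-- The main term of a class sum is within a polynomial in `y` of the common one. -/
private lemma main_sub_eisA_le (hN : 0 < N) {a : ℤ} (ha0 : 0 ≤ a) (haN : a < N) {s : ℝ}
    (hs : 1 < s) (hs2 : s ≤ 3 / 2) {y : ℝ} (hy : 1 / 2 ≤ y) :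
    |2 / N * eisB s * y ^ (1 - s) * (∑' k, classTerm N a (2 * s - 1) k) - eisA N s| ≤
      (2 / N * π * (5 * 2) + 16 * (π / N) * 4) * (1 + y) ^ 2 := by
  have hy0 : 0 < y := by linarith
  set σ := 2 * s - 1 with hσdef
  have hσ : 1 < σ := by linarith
  set m₁ := 2 / N * eisB s * y ^ (1 - s) with hm₁
  have hF1' : |(∑' k, classTerm N a σ k) - 2 * zetaN N σ| ≤ 5 := (class_sum hN hσ ha0 haN).2
  have hy1 : y ^ (1 - s) ≤ 2 := by
    calc y ^ (1 - s) ≤ (1 / 2 : ℝ) ^ (1 - s) :=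
          Real.rpow_le_rpow_of_nonpos (by norm_num) hy (by linarith)
      _ ≤ (1 / 2 : ℝ) ^ (-1 : ℝ) :=
          Real.rpow_le_rpow_of_exponent_ge (by norm_num) (by norm_num) (by linarith)
      _ = 2 := by rw [Real.rpow_neg_one]; norm_num
  have hy2 : 1 ≤ (1 + y) ^ 2 := by nlinarith
  have hB := eisB_le hs.le
  have hB0 := eisB_nonneg s
  have hZ0 : 0 ≤ zetaN N σ := tsum_nonneg fun k => by positivity
  have hNr : (0 : ℝ) < N := Nat.cast_pos.2 hN
  rw [add_mul]
  refine (abs_sub_le _ (m₁ * (2 * zetaN N σ)) _).trans (add_le_add ?_ ?_)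
  · rw [← mul_sub, abs_mul, abs_of_nonneg (by positivity : (0 : ℝ) ≤ m₁)]
    calc m₁ * |_| ≤ (2 / N * π * 2) * 5 := by
          refine mul_le_mul ?_ hF1' (abs_nonneg _) (by positivity)
          rw [hm₁]
          exact mul_le_mul (mul_le_mul_of_nonneg_left hB (by positivity)) hy1 (by positivity)
            (by positivity)
      _ = 2 / N * π * (5 * 2) * 1 := by ring
      _ ≤ _ := mul_le_mul_of_nonneg_left hy2 (by positivity)
  · have e : m₁ * (2 * zetaN N σ) - eisA N s =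
        2 / N * eisB s * (2 * zetaN N σ) * (y ^ (1 - s) - 1) := by
      rw [hm₁, eisA, hσdef]; ring
    rw [e, abs_mul, abs_of_nonneg (by positivity)]
    have hz : zetaN N σ * (s - 1) ≤ 2 := by
      have h := mul_le_mul_of_nonneg_right (zetaN_le hN hσ) (by linarith : (0 : ℝ) ≤ s - 1)
      have : (1 + 1 / (σ - 1)) * (s - 1) = (s - 1) + 1 / 2 := by
        rw [hσdef]
        have : (s - 1) ≠ 0 := by linarith
        rw [show 2 * s - 1 - 1 = 2 * (s - 1) by ring]
        field_simp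
      linarith
    calc 2 / N * eisB s * (2 * zetaN N σ) * |y ^ (1 - s) - 1|
        ≤ 2 / N * eisB s * (2 * zetaN N σ) * ((s - 1) * (2 * (1 + y) ^ 2)) :=
          mul_le_mul_of_nonneg_left (abs_rpow_sub_one_le hy hs hs2) (by positivity)
      _ = 8 / N * eisB s * (zetaN N σ * (s - 1)) * (1 + y) ^ 2 := by ring
      _ ≤ 8 / N * π * 2 * (1 + y) ^ 2 := by
          refine mul_le_mul_of_nonneg_right ?_ (by positivity)
          exact mul_le_mul (mul_le_mul_of_nonneg_left hB (by positivity)) hz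
            (mul_nonneg hZ0 (by linarith)) (by positivity)
      _ ≤ _ := by
          have : 0 ≤ π / N * (1 + y) ^ 2 := by positivity
          rw [show 8 / (N : ℝ) * π * 2 * (1 + y) ^ 2 = 16 * (π / N * (1 + y) ^ 2) by ring]
          linarith

/-- **Lattice sums near the edge of convergence**: for a nonzero class modulo `N` the sum of
`(y / |c z + d|²) ^ s` differs from the common main term by `O((1 + y)²)`, uniformly for
`1 < s ≤ 3/2`. -/
theorem exists_eis_bound (hN : 0 < N) : ∃ C : ℝ, ∀ a b : ℤ, ¬((N : ℤ) ∣ a ∧ (N : ℤ) ∣ b) →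
    ∀ s : ℝ, 1 < s → s ≤ 3 / 2 → ∀ x y : ℝ, 1 / 2 ≤ y →
      (Summable fun p : ℤ × ℤ => eisTerm s x y (a + N * p.1) (b + N * p.2)) ∧
        |(∑' p : ℤ × ℤ, eisTerm s x y (a + N * p.1) (b + N * p.2)) - eisA N s| ≤
          C * (1 + y) ^ 2 := by
  refine ⟨2 / N * π * (5 * 2) + 9 * (2 * zetaN N 2 + 5) + 16 * (π / N) * 4,
    fun a b hab s hs hs2 x y hy => ?_⟩
  wlog ha : 0 ≤ a ∧ a < N generalizing a
  · have hNz : (N : ℤ) ≠ 0 := by exact_mod_cast hN.ne'
    have := this (a % N) (fun h => hab ⟨(Int.dvd_iff_emod_eq_zero).2 (by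
      have := Int.emod_emod_of_dvd a (dvd_refl (N : ℤ))
      rw [Int.dvd_iff_emod_eq_zero] at h
      rw [← this]; exact h.1), h.2⟩)
      ⟨Int.emod_nonneg _ hNz, Int.emod_lt_of_pos _ (by exact_mod_cast hN)⟩
    let e : ℤ × ℤ ≃ ℤ × ℤ := (Equiv.addRight (a / N)).prodCongr (Equiv.refl ℤ)
    have he : ∀ p : ℤ × ℤ, eisTerm s x y (a + N * p.1) (b + N * p.2) =
        eisTerm s x y (a % N + N * (e p).1) (b + N * (e p).2) := fun p => by
      simp only [e, Equiv.prodCongr_apply, Equiv.coe_addRight, Equiv.coe_refl, Prod.map, id]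
      congr 1
      have := Int.mul_ediv_add_emod a N
      linarith [mul_add (N : ℤ) p.1 (a / N)]
    simp_rw [he]
    exact ⟨e.summable_iff.2 this.1, by rw [e.tsum_eq fun p : ℤ × ℤ =>
      eisTerm s x y (a % N + N * p.1) (b + N * p.2)]; exact this.2⟩
  obtain ⟨ha0, haN⟩ := ha
  have hy0 : 0 < y := by linarith
  obtain ⟨hpair, hmain⟩ := rows_sub_main_le hN hab ha0 haN hs hs2 x hy0
  refine ⟨hpair, ?_⟩
  have hF23 : ∑' k, classTerm N a (2 * s) k ≤ 2 * zetaN N 2 + 5 := by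
    obtain ⟨hF3, hF3'⟩ := class_sum hN (σ := 2) one_lt_two ha0 haN
    refine le_trans ((class_sum hN (σ := 2 * s) (by linarith) ha0 haN).1.tsum_le_tsum
      (fun k => ?_) hF3) (by linarith [(abs_le.1 hF3').2])
    simp only [classTerm]
    split_ifs with h
    · exact le_rfl
    · exact Real.rpow_le_rpow_of_exponent_le (by exact_mod_cast Int.one_le_abs h) (by linarith)
  have hys : y ^ (-s) ≤ 4 := by
    calc y ^ (-s) ≤ (1 / 2 : ℝ) ^ (-s) := Real.rpow_le_rpow_of_nonpos (by norm_num) hy (by linarith)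
      _ ≤ (1 / 2 : ℝ) ^ (-2 : ℝ) :=
          Real.rpow_le_rpow_of_exponent_ge (by norm_num) (by norm_num) (by linarith)
      _ = 4 := by norm_num
  have hy2 : 1 ≤ (1 + y) ^ 2 := by nlinarith
  have hZ2 : 0 ≤ zetaN N 2 := tsum_nonneg fun k => by positivity
  have hF20 : 0 ≤ ∑' k, classTerm N a (2 * s) k := tsum_nonneg fun k => by
    unfold classTerm; split_ifs <;> positivity
  have t1 : 2 * y ^ (-s) * (∑' k, classTerm N a (2 * s) k) ≤
      8 * (2 * zetaN N 2 + 5) * (1 + y) ^ 2 :=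
    (mul_le_mul (by linarith) hF23 hF20 (by norm_num)).trans
      (le_mul_of_one_le_right (by positivity) hy2)
  refine
    (abs_sub_le _ (2 / N * eisB s * y ^ (1 - s) * ∑' k, classTerm N a (2 * s - 1) k) _).trans ?_
  linarith [hmain, t1, main_sub_eisA_le hN ha0 haN hs hs2 hy]

end FermatAgent.LT.Period
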