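import Mathlib

/-!
# The hyperbolic measure in rectangular coordinates

In the coordinates `x + i y` the invariant measure of the upper half-plane is `dx dy / y²`, so
integrals over rectangles are iterated integrals.
-/

set_option autoImplicit false

noncomputable section

open MeasureTheory Set Filter Topology UpperHalfPlane
open scoped ENNReal NNReal

namespace FermatAgent.LT.Period

/-- The point with given coordinates, an arbitrary one below the axis. -/
def hPt (x y : ℝ) : ℍ := ofComplex ((x : ℂ) + (y : ℂ) * Complex.I)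

lemma hPt_coords (z : ℍ) : hPt z.re z.im = z := by
  rw [hPt, show (z.re : ℂ) + (z.im : ℂ) * Complex.I = (z : ℂ) from Complex.re_add_im _,
    ofComplex_apply]

/-- The coordinates of a point. -/
lemma hPt_re_im {x y : ℝ} (hy : 0 < y) : (hPt x y).re = x ∧ (hPt x y).im = y := by
  have h : 0 < ((x : ℂ) + (y : ℂ) * Complex.I).im := by simpa using hy
  rw [hPt, ofComplex_apply_of_im_pos h]
  simp [UpperHalfPlane.re, UpperHalfPlane.im]

/-- The coordinates of a point. -/
def coordsH (z : ℍ) : ℝ × ℝ := (z.re, z.im)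

lemma measurableEmbedding_coordsH : MeasurableEmbedding coordsH :=
  Complex.measurableEquivRealProd.measurableEmbedding.comp measurableEmbedding_coe

lemma range_coordsH : range coordsH = univ ×ˢ Ioi (0 : ℝ) := by
  ext ⟨x, y⟩
  simp only [mem_range, mem_prod, mem_univ, true_and, mem_Ioi]
  constructor
  · rintro ⟨z, hz⟩
    obtain ⟨-, hy⟩ := Prod.ext_iff.1 hz
    simp only [coordsH] at hy
    rw [← hy]
    exact z.im_pos
  · intro hy
    exact ⟨hPt x y, Prod.ext (hPt_re_im hy).1 (hPt_re_im hy).2⟩

/-- The flat measure corresponds to the restricted Lebesgue measure. -/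
lemma measurePreserving_coordsH :
    MeasurePreserving coordsH (volume.comap UpperHalfPlane.coe)
      (volume.restrict (univ ×ˢ Ioi (0 : ℝ))) := by
  have h1 : MeasurePreserving UpperHalfPlane.coe (volume.comap UpperHalfPlane.coe)
      (volume.restrict (range UpperHalfPlane.coe)) :=
    ⟨measurable_coe, by rw [measurableEmbedding_coe.map_comap]⟩
  have h2 := Complex.volume_preserving_equiv_real_prod.restrict_preimage_emb
    Complex.measurableEquivRealProd.measurableEmbedding (univ ×ˢ Ioi (0 : ℝ))
  have e : range UpperHalfPlane.coe = ⇑Complex.measurableEquivRealProd ⁻¹'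
      (univ ×ˢ Ioi (0 : ℝ)) := by
    rw [← range_coordsH]
    exact (preimage_image_eq _ Complex.measurableEquivRealProd.injective).symm.trans
      (congrArg _ (range_comp _ _).symm)
  rw [e] at h1
  exact h2.comp h1

lemma measurable_density :
    Measurable fun z : ℍ => (1 / NNReal.mk z.im z.im_pos.le : ℝ≥0) ^ 2 := by
  refine (Measurable.div measurable_const ?_).pow_const 2
  exact continuous_im.measurable.subtype_mk

lemma coordsH_preimage (X Y : Set ℝ) :
    coordsH ⁻¹' (X ×ˢ Y) = {z : ℍ | z.re ∈ X ∧ z.im ∈ Y} := rfl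

lemma restrict_box {X Y : Set ℝ} (hX : MeasurableSet X) (hY : MeasurableSet Y) :
    (volume.restrict (univ ×ˢ Ioi (0 : ℝ))).restrict (X ×ˢ Y) =
      (volume.restrict X).prod (volume.restrict (Y ∩ Ioi (0 : ℝ))) := by
  rw [Measure.restrict_restrict (hX.prod hY), prod_inter_prod, inter_univ, Measure.volume_eq_prod,
    Measure.prod_restrict]

/-- The hyperbolic integral over a rectangle is the iterated integral against `dx dy / y²`,
for nonnegative functions. -/
theorem lintegral_box {X Y : Set ℝ} (hX : MeasurableSet X) (hY : MeasurableSet Y) {F : ℍ → ℝ≥0∞}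
    (hF : Measurable F) :
    ∫⁻ z in {z : ℍ | z.re ∈ X ∧ z.im ∈ Y}, F z =
      ∫⁻ y in Y ∩ Ioi 0, ∫⁻ x in X, ENNReal.ofReal (1 / y ^ 2) * F (hPt x y) := by
  have hd : Measurable fun z : ℍ => (((1 / NNReal.mk z.im z.im_pos.le : ℝ≥0) ^ 2 : ℝ≥0) : ℝ≥0∞) :=
    measurable_density.coe_nnreal_ennreal
  have hm : Measurable fun p : ℝ × ℝ => ENNReal.ofReal (1 / p.2 ^ 2) * F (hPt p.1 p.2) := by
    refine (ENNReal.measurable_ofReal.comp (by fun_prop)).mul (hF.comp ?_)
    refine (measurableEmbedding_coe.measurable_comp_iff.1 ?_ :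
      Measurable fun p : ℝ × ℝ => hPt p.1 p.2)
    have h0 : Measurable fun c : ℂ => (ofComplex c : ℂ) := by
      classical
      have e : (fun c : ℂ => (ofComplex c : ℂ)) = fun c =>
          if 0 < c.im then c else ((Classical.choice inferInstance : ℍ) : ℂ) := by
        funext c
        split_ifs with hc
        · rw [ofComplex_apply_of_im_pos hc]
        · rw [ofComplex_apply_of_im_nonpos (not_lt.1 hc)]
      rw [e]
      exact Measurable.ite (measurableSet_lt measurable_const Complex.measurable_im) measurable_id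
        measurable_const
    exact h0.comp (by fun_prop)
  have hbox : MeasurableSet {z : ℍ | z.re ∈ X ∧ z.im ∈ Y} :=
    (hX.preimage (Complex.measurable_re.comp measurable_coe)).inter
      (hY.preimage continuous_im.measurable)
  rw [volume_def, setLIntegral_withDensity_eq_setLIntegral_mul _ hd hF hbox]
  rw [← coordsH_preimage]
  have e : ∀ z : ℍ, ((((1 / NNReal.mk z.im z.im_pos.le : ℝ≥0) ^ 2 : ℝ≥0) : ℝ≥0∞)) * F z =
      ENNReal.ofReal (1 / (coordsH z).2 ^ 2) * F (hPt (coordsH z).1 (coordsH z).2) := fun z => by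
    congr 1
    · rw [ENNReal.ofReal, ENNReal.coe_inj, ← NNReal.coe_inj, Real.coe_toNNReal _ (by positivity)]
      simp [coordsH]
    · rw [coordsH, hPt_coords]
  simp only [Pi.mul_apply, e]
  rw [measurePreserving_coordsH.setLIntegral_comp_preimage_emb measurableEmbedding_coordsH
    (fun p => ENNReal.ofReal (1 / p.2 ^ 2) * F (hPt p.1 p.2)), restrict_box hX hY,
    lintegral_prod_symm' _ hm]

/-- The hyperbolic integral over a rectangle is the iterated integral against `dx dy / y²`. -/
theorem integral_box {X Y : Set ℝ} (hX : MeasurableSet X) (hY : MeasurableSet Y) {F : ℍ → ℂ}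
    (hF : IntegrableOn F {z : ℍ | z.re ∈ X ∧ z.im ∈ Y}) :
    ∫ z in {z : ℍ | z.re ∈ X ∧ z.im ∈ Y}, F z =
      ∫ y in Y ∩ Ioi 0, ((1 / y ^ 2 : ℝ) : ℂ) * ∫ x in X, F (hPt x y) := by
  have hbox : MeasurableSet {z : ℍ | z.re ∈ X ∧ z.im ∈ Y} :=
    (hX.preimage (Complex.measurable_re.comp measurable_coe)).inter
      (hY.preimage continuous_im.measurable)
  set d : ℍ → ℝ≥0 := fun z => (1 / NNReal.mk z.im z.im_pos.le : ℝ≥0) ^ 2
  set G : ℝ × ℝ → ℂ := fun p => ((1 / p.2 ^ 2 : ℝ) : ℂ) * F (hPt p.1 p.2)
  have e : ∀ z : ℍ, d z • F z = G (coordsH z) := fun z => by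
    simp only [G, d, coordsH, hPt_coords, NNReal.smul_def, Complex.real_smul]
    simp
  rw [IntegrableOn, volume_def, restrict_withDensity hbox,
    integrable_withDensity_iff_integrable_smul measurable_density] at hF
  rw [volume_def, setIntegral_withDensity_eq_setIntegral_smul measurable_density F hbox]
  have e' : ∀ z : ℍ, ((1 / NNReal.mk z.im z.im_pos.le : ℝ≥0) ^ 2) • F z = G (coordsH z) := e
  rw [← coordsH_preimage] at hF ⊢
  simp only [e'] at hF ⊢
  rw [measurePreserving_coordsH.setIntegral_preimage_emb measurableEmbedding_coordsH]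
  have hG : IntegrableOn G (X ×ˢ Y) (volume.restrict (univ ×ˢ Ioi (0 : ℝ))) :=
    (measurePreserving_coordsH.integrableOn_comp_preimage measurableEmbedding_coordsH).1 hF
  rw [IntegrableOn, restrict_box hX hY] at hG
  rw [restrict_box hX hY, integral_prod_symm _ hG]
  exact integral_congr_ae (ae_of_all _ fun y => by simp only [G]; rw [← integral_const_mul])

end FermatAgent.LT.Period
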