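import Fermat.Agent.LT.Period.Grouping
import Fermat.Agent.LT.Period.Eisenstein
import Fermat.Agent.LT.Period.Plane

/-!
# Boundedness of the unfolded integral when the period vanishes

Against the lattice sum the integrals over the translated fundamental domains add up to a multiple
of the period plus a bounded error.
-/

set_option autoImplicit false

noncomputable section

open MeasureTheory Set Filter Topology UpperHalfPlane
open scoped MatrixGroups Modular ENNReal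

namespace FermatAgent.LT.Period

variable (N : ℕ) [NeZero N]

noncomputable instance fintypeCos : Fintype (Cos N) :=
  Fintype.ofFinite _

/-- The restriction to a translate. -/
def cosFun (Ψ : ℍ → ℂ) (q : Cos N) (z : ℍ) : ℂ := Ψ (q.out⁻¹ • z)

/-- The period: the integral of `Ψ` over a fundamental domain of `Γ₀(N)`, as a sum over the
cosets. -/
def periodSum (Ψ : ℍ → ℂ) : ℂ := ∑ q : Cos N, ∫ z in 𝒟, cosFun N Ψ q z

lemma im_smul_row (g : SL(2, ℤ)) (z : ℍ) :
    (g • z).im = z.im / ((((g.1 1 0 : ℤ) : ℝ) * z.re + (g.1 1 1 : ℤ)) ^ 2 +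
      (((g.1 1 0 : ℤ) : ℝ) * z.im) ^ 2) := by
  rw [ModularGroup.im_smul_eq_div_normSq, Complex.normSq_apply]
  simp [denom]
  ring

lemma eisTerm_smul (s : ℝ) (g : ℕ) (hg : 0 < g) (w : PrimRow) (z : ℍ) :
    eisTerm s z.re z.im ((g : ℤ) * w.1 0) ((g : ℤ) * w.1 1) =
      ((g : ℝ) ^ 2) ^ (-s) * (rowRep w • z).im ^ s := by
  rw [im_smul_row, rowRep_spec]
  have hg0 : (0 : ℝ) < (g : ℝ) ^ 2 := by positivity
  rw [eisTerm]
  push_cast
  rw [show (((g : ℝ) * (w.1 0 : ℝ)) * z.re + (g : ℝ) * (w.1 1 : ℝ)) ^ 2 +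
    ((g : ℝ) * (w.1 0 : ℝ) * z.im) ^ 2 =
      (g : ℝ) ^ 2 * (((w.1 0 : ℝ) * z.re + (w.1 1 : ℝ)) ^ 2 + ((w.1 0 : ℝ) * z.im) ^ 2) by ring,
    div_mul_eq_div_div_swap, Real.div_rpow (by have := z.im_pos; positivity) hg0.le,
    Real.rpow_neg hg0.le]
  ring

lemma fd_subset_box :
    (𝒟 : Set ℍ) ⊆ {z : ℍ | z.re ∈ Icc (-(1 / 2) : ℝ) (1 / 2) ∧ z.im ∈ Ioi (1 / 2 : ℝ)} := by
  intro z hz
  obtain ⟨h1, h2⟩ := hz
  rw [Complex.normSq_apply] at h1
  have hre := abs_le.1 h2
  refine ⟨⟨hre.1, hre.2⟩, ?_⟩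
  have hy := z.im_pos
  simp only [coe_re, coe_im] at h1
  show (1 / 2 : ℝ) < z.im
  nlinarith

/-- The fundamental domain has finite volume. -/
lemma volume_fd_lt_top : volume (𝒟 : Set ℍ) < ⊤ := by
  refine lt_of_le_of_lt (measure_mono fd_subset_box) ?_
  rw [← setLIntegral_one, lintegral_box measurableSet_Icc measurableSet_Ioi measurable_const,
    show Ioi (1 / 2 : ℝ) ∩ Ioi 0 = Ioi (1 / 2) from inter_eq_left.2 (Ioi_subset_Ioi (by norm_num))]
  have hint : IntegrableOn (fun y : ℝ => y ^ (-2 : ℝ)) (Ioi (1 / 2)) :=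
    integrableOn_Ioi_rpow_of_lt (by norm_num) (by norm_num)
  refine lt_of_le_of_lt
    (le_of_eq (setLIntegral_congr_fun measurableSet_Ioi fun y (hy : 1 / 2 < y) => ?_))
    hint.2
  rw [setLIntegral_const, Real.volume_Icc, mul_one, ← ofReal_norm, Real.norm_eq_abs,
    abs_of_nonneg (Real.rpow_nonneg (by linarith) _), Real.rpow_neg (by linarith), Real.rpow_two]
  norm_num

lemma sq_le_exp {κ : ℝ} (hκ : 0 < κ) :
    ∃ M : ℝ, ∀ y : ℝ, 0 ≤ y → (1 + y) ^ 2 * Real.exp (-(κ * y)) ≤ M := by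
  refine ⟨2 + 4 / κ ^ 2, fun y hy => ?_⟩
  have h := Real.quadratic_le_exp_of_nonneg (mul_nonneg hκ.le hy)
  rw [Real.exp_neg, ← div_eq_mul_inv, div_le_iff₀ (Real.exp_pos _)]
  refine le_trans ?_ (mul_le_mul_of_nonneg_left h (by positivity))
  have e : (2 + 4 / κ ^ 2) * (1 + κ * y + (κ * y) ^ 2 / 2) =
      2 + 4 / κ ^ 2 + (2 + 4 / κ ^ 2) * (κ * y) + κ ^ 2 * y ^ 2 + 2 * y ^ 2 := by
    field_simp
    ring
  rw [e]
  have : 0 ≤ (2 + 4 / κ ^ 2) * (κ * y) := mul_nonneg (by positivity) (mul_nonneg hκ.le hy)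
  have : 0 ≤ 4 / κ ^ 2 := by positivity
  have : 0 ≤ κ ^ 2 * y ^ 2 := by positivity
  nlinarith [sq_nonneg (y - 1)]

variable {N} {Ψ : ℍ → ℂ}

/-- The weight of a content. -/
private def contentWeight (s : ℝ) (g : {g : ℕ // 0 < g ∧ Nat.Coprime g N}) : ℝ :=
  ((g.1 : ℝ) ^ 2) ^ (-s)

/-- The summand of the unfolded integral attached to a multiple of a primitive row. -/
private def rowTerm (Ψ : ℍ → ℂ) (s : ℝ) (b : MulRow N) (z : ℍ) : ℂ :=
  ((contentWeight s b.1 : ℝ) : ℂ) * ((((rowRep b.2 • z).im ^ s : ℝ) : ℂ) * Ψ (rowRep b.2 • z))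

/-- The term of the Eisenstein series of residual data. -/
private def classTerm (s : ℝ) (qa : Cos N × (ZMod N)ˣ) (p : ℤ × ℤ) (z : ℍ) : ℝ :=
  eisTerm s z.re z.im (((qa.2 : ZMod N).val : ℤ) * cosRow N qa.1 0 + N * p.1)
    (((qa.2 : ZMod N).val : ℤ) * cosRow N qa.1 1 + N * p.2)

omit [NeZero N] in
/-- The weights of the contents are summable with sum at least one. -/
private lemma summable_contentWeight {s : ℝ} (hs : 1 < s) :
    Summable (contentWeight (N := N) s) ∧ 1 ≤ ∑' g, contentWeight (N := N) s g := by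
  have hcg : Summable (contentWeight (N := N) s) := by
    refine ((Real.summable_nat_rpow.2 (by linarith : -(2 * s) < -1)).comp_injective
      Subtype.val_injective).congr fun g => ?_
    show (g.1 : ℝ) ^ (-(2 * s)) = ((g.1 : ℝ) ^ 2) ^ (-s)
    rw [← Real.rpow_natCast_mul (Nat.cast_nonneg _), Nat.cast_ofNat, mul_neg]
  refine ⟨hcg, le_trans ?_ (hcg.le_tsum ⟨1, Nat.one_pos, Nat.coprime_one_left N⟩ fun g _ =>
    Real.rpow_nonneg (sq_nonneg _) _)⟩
  simp [contentWeight]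

omit [NeZero N] in
/-- Unfolding: the sum over multiples of primitive rows integrates to the integral over the
strip. -/
private lemma integral_tsum_rowTerm (hm : Measurable Ψ)
    (hΨ : ∀ g ∈ CongruenceSubgroup.Gamma0 N, ∀ z, Ψ (g • z) = Ψ z) {s : ℝ} (hs : 1 < s)
    (hint : IntegrableOn (fun z : ℍ => ((z.im ^ s : ℝ) : ℂ) * Ψ z) strip) :
    ∫ z in 𝒟, ∑' b : MulRow N, rowTerm Ψ s b z =
      ((∑' g, contentWeight (N := N) s g : ℝ) : ℂ) *
        (2 * ∫ z in strip, ((z.im ^ s : ℝ) : ℂ) * Ψ z) := by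
  set F : ℍ → ℂ := fun z => ((z.im ^ s : ℝ) : ℂ) * Ψ z
  have hFm : Measurable F :=
    (Complex.continuous_ofReal.measurable.comp (continuous_im.measurable.pow_const s)).mul hm
  have hper : ∀ (n : ℤ) z, F (ModularGroup.T ^ n • z) = F z := fun n z => by
    simp only [F]
    rw [hΨ _ (by simp [ModularGroup.coe_T_zpow]) z, ModularGroup.im_T_zpow_smul]
  obtain ⟨-, -, hlW, heW⟩ := strip_unfold hFm hper hint.2.ne
  have hhm : ∀ b : MulRow N, AEStronglyMeasurable (rowTerm Ψ s b) (volume.restrict 𝒟) := fun b =>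
    ((hFm.comp (measurePreserving_sl _).measurable).const_mul _).aestronglyMeasurable
  have hfin : (∑' b : MulRow N, ∫⁻ z in 𝒟, ‖rowTerm Ψ s b z‖ₑ) ≠ ⊤ := by
    have e1 : ∀ b : MulRow N, ∫⁻ z in 𝒟, ‖rowTerm Ψ s b z‖ₑ =
        ENNReal.ofReal (contentWeight s b.1) * ∫⁻ z in 𝒟, ‖F (rowRep b.2 • z)‖ₑ := fun b => by
      rw [← lintegral_const_mul' _ _ ENNReal.ofReal_ne_top]
      refine lintegral_congr fun z => ?_
      rw [rowTerm, enorm_mul, ← ofReal_norm, Complex.norm_real, Real.norm_eq_abs,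
        abs_of_nonneg (show 0 ≤ contentWeight s b.1 from Real.rpow_nonneg (sq_nonneg _) _)]
    simp only [e1]
    rw [ENNReal.tsum_prod']
    simp only [ENNReal.tsum_mul_left, hlW, ENNReal.tsum_mul_right]
    exact ENNReal.mul_ne_top (summable_contentWeight hs).1.tsum_ofReal_ne_top
      (ENNReal.mul_ne_top (by simp) hint.2.ne)
  have hsumb : Summable fun b : MulRow N => ∫ z in 𝒟, rowTerm Ψ s b z := by
    refine Summable.of_norm_bounded (g := fun b => (∫⁻ z in 𝒟, ‖rowTerm Ψ s b z‖ₑ).toReal)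
      (ENNReal.summable_toReal hfin) fun b => ?_
    refine (norm_integral_le_lintegral_norm _).trans (le_of_eq ?_)
    simp only [ofReal_norm]
  rw [integral_tsum hhm hfin, hsumb.tsum_prod, Complex.ofReal_tsum, ← tsum_mul_right]
  refine tsum_congr fun g => ?_
  simp only [rowTerm, integral_const_mul, tsum_mul_left]
  exact congrArg _ heW

/-- Pointwise bound for the Eisenstein series of residual data. -/
private lemma classTerm_spec (hN : 2 ≤ N) {CE : ℝ}
    (hE : ∀ a b : ℤ, ¬((N : ℤ) ∣ a ∧ (N : ℤ) ∣ b) → ∀ s : ℝ, 1 < s → s ≤ 3 / 2 →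
      ∀ x y : ℝ, 1 / 2 ≤ y →
        (Summable fun p : ℤ × ℤ => eisTerm s x y (a + N * p.1) (b + N * p.2)) ∧
          |(∑' p : ℤ × ℤ, eisTerm s x y (a + N * p.1) (b + N * p.2)) - eisA N s| ≤
            CE * (1 + y) ^ 2)
    {s : ℝ} (hs : 1 < s) (hs2 : s ≤ 3 / 2) {z : ℍ} (hz : z ∈ (𝒟 : Set ℍ))
    (qa : Cos N × (ZMod N)ˣ) :
    Summable (fun p => classTerm s qa p z) ∧
      |(∑' p, classTerm s qa p z) - eisA N s| ≤ CE * (1 + z.im) ^ 2 := by
  refine hE _ _ (fun hh => ?_) s hs hs2 z.re z.im (le_of_lt (fd_subset_box hz).2)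
  obtain ⟨p, hp, hpN⟩ := Nat.exists_prime_and_dvd (by omega : N ≠ 1)
  refine resVec_good ((qa, (0, 0)) : ResRow N) p hp hpN ⟨?_, ?_⟩
  · simpa [resVec] using (Int.natCast_dvd_natCast.2 hpN).trans hh.1
  · simpa [resVec] using (Int.natCast_dvd_natCast.2 hpN).trans hh.2

/-- Regrouping the rows by residual data. -/
private lemma tsum_rowTerm (hΨ : ∀ g ∈ CongruenceSubgroup.Gamma0 N, ∀ z, Ψ (g • z) = Ψ z)
    {e : ResRow N ≃ MulRow N} (he : ∀ x, mulVec' N (e x) = resVec N x)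
    (hec : ∀ x, rowCos N (e x).2 = x.1.1) {s : ℝ} {z : ℍ}
    (hsum : ∀ qa, Summable fun p => classTerm (N := N) s qa p z) :
    ∑' b : MulRow N, rowTerm Ψ s b z =
      ∑ qa : Cos N × (ZMod N)ˣ, cosFun N Ψ qa.1 z * ((∑' p, classTerm s qa p z : ℝ) : ℂ) := by
  rw [← e.tsum_eq]
  set k : Cos N × (ZMod N)ˣ → ℤ × ℤ → ℂ := fun qa p =>
    cosFun N Ψ qa.1 z * ((classTerm s qa p z : ℝ) : ℂ)
  have e2 : ∀ x : ResRow N, rowTerm Ψ s (e x) z = k x.1 x.2 := by
    intro x
    have h3 : eisTerm s z.re z.im (mulVec' N (e x) 0) (mulVec' N (e x) 1) =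
        contentWeight s (e x).1 * (rowRep (e x).2 • z).im ^ s :=
      eisTerm_smul s _ (e x).1.2.1 (e x).2 z
    rw [he x] at h3
    simp only [k, rowTerm, classTerm]
    rw [apply_rowRep (N := N) hΨ, hec x,
      show cosFun N Ψ x.1.1 z = Ψ (x.1.1.out⁻¹ • z) from rfl]
    simp only [resVec, Matrix.cons_val_zero, Matrix.cons_val_one] at h3
    rw [h3]
    push_cast
    ring
  simp only [e2]
  have hk : ∀ qa, Summable (k qa) := fun qa => (Complex.summable_ofReal.2 (hsum qa)).mul_left _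
  have hsx : Summable fun x : ResRow N => k x.1 x.2 :=
    Summable.of_norm ((summable_prod_of_nonneg fun x => norm_nonneg _).2
      ⟨fun qa => (hk qa).norm, Summable.of_finite⟩)
  rw [hsx.tsum_prod, tsum_fintype]
  refine Finset.sum_congr rfl fun qa _ => ?_
  simp only [k]
  rw [tsum_mul_left, Complex.ofReal_tsum]

omit [NeZero N] in
/-- The class sums are measurable on the fundamental domain. -/
private lemma aestronglyMeasurable_classSum (hm : Measurable Ψ) {s : ℝ}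
    (qa : Cos N × (ZMod N)ˣ)
    (hsum : ∀ z ∈ (𝒟 : Set ℍ), Summable fun p => classTerm s qa p z) :
    AEStronglyMeasurable (fun z => cosFun N Ψ qa.1 z * ((∑' p, classTerm s qa p z : ℝ) : ℂ))
      (volume.restrict 𝒟) := by
  classical
  refine aestronglyMeasurable_of_tendsto_ae (u := (atTop : Filter (Finset (ℤ × ℤ))))
    (f := fun u z => ∑ p ∈ u, cosFun N Ψ qa.1 z * ((classTerm s qa p z : ℝ) : ℂ)) (fun u => ?_)
    ((ae_restrict_iff' measurableSet_fd).2 (ae_of_all _ fun z hz => ?_))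
  · refine (Finset.measurable_sum _ fun p _ => ?_).aestronglyMeasurable
    refine (hm.comp (measurePreserving_sl _).measurable).mul
      (Complex.continuous_ofReal.measurable.comp ?_)
    unfold classTerm eisTerm
    exact (continuous_im.measurable.div (by
      exact (((measurable_const.mul continuous_re.measurable).add_const _).pow_const 2).add
        ((measurable_const.mul continuous_im.measurable).pow_const 2))).pow_const s
  · exact (Complex.hasSum_ofReal.2 (hsum z hz).hasSum).mul_left _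

omit [NeZero N] in
/-- Decay of a translate beats the growth of the Eisenstein bound. -/
private lemma norm_cosFun_mul_sq_le {q : Cos N} {C κ M : ℝ} (hC : 0 ≤ C)
    (hd : ∀ z : ℍ, ‖Ψ (q.out⁻¹ • z)‖ ≤ C * Real.exp (-(κ * z.im)))
    (hM : ∀ y : ℝ, 0 ≤ y → (1 + y) ^ 2 * Real.exp (-(κ * y)) ≤ M) (z : ℍ) :
    ‖cosFun N Ψ q z‖ * (1 + z.im) ^ 2 ≤ C * |M| :=
  calc ‖cosFun N Ψ q z‖ * (1 + z.im) ^ 2
      ≤ C * Real.exp (-(κ * z.im)) * (1 + z.im) ^ 2 :=
        mul_le_mul_of_nonneg_right (hd z) (sq_nonneg _)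
    _ = C * ((1 + z.im) ^ 2 * Real.exp (-(κ * z.im))) := by ring
    _ ≤ C * |M| :=
        mul_le_mul_of_nonneg_left ((hM z.im z.im_pos.le).trans (le_abs_self _)) hC

/-- With vanishing period only the deviations from the constant term contribute. -/
private lemma integral_sum_eq_deviation (h0 : periodSum N Ψ = 0)
    (S : Cos N × (ZMod N)ˣ → ℍ → ℝ) (A : ℝ) (hci : ∀ q, IntegrableOn (cosFun N Ψ q) 𝒟)
    (hdi : ∀ qa, IntegrableOn (fun z => cosFun N Ψ qa.1 z * ((S qa z - A : ℝ) : ℂ)) 𝒟) :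
    ∫ z in 𝒟, ∑ qa : Cos N × (ZMod N)ˣ, cosFun N Ψ qa.1 z * ((S qa z : ℝ) : ℂ) =
      ∑ qa, ∫ z in 𝒟, cosFun N Ψ qa.1 z * ((S qa z - A : ℝ) : ℂ) := by
  have hAint : ∀ qa : Cos N × (ZMod N)ˣ,
      IntegrableOn (fun z => cosFun N Ψ qa.1 z * ((A : ℝ) : ℂ)) 𝒟 := fun qa =>
    (hci qa.1).mul_const _
  have hsplit : ∀ qa z, cosFun N Ψ qa.1 z * ((S qa z : ℝ) : ℂ) =
      cosFun N Ψ qa.1 z * ((S qa z - A : ℝ) : ℂ) + cosFun N Ψ qa.1 z * ((A : ℝ) : ℂ) := by
    intro qa z; push_cast; ring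
  simp only [hsplit]
  rw [integral_finsetSum _ fun qa _ => by exact (hdi qa).add (hAint qa)]
  simp only [fun qa => integral_add (hdi qa) (hAint qa), integral_mul_const,
    Finset.sum_add_distrib, ← Finset.sum_mul]
  have hP : ∑ qa : Cos N × (ZMod N)ˣ, ∫ z in 𝒟, cosFun N Ψ qa.1 z = 0 := by
    rw [Fintype.sum_prod_type]
    simp only [Finset.sum_const]
    rw [← Finset.smul_sum]
    show _ • periodSum N Ψ = 0
    rw [h0, smul_zero]
  rw [hP, zero_mul, add_zero]

/-- **Vanishing period**: if the period of a function invariant under `Γ₀(N)` and decaying at the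
cusps is zero, its integrals over the strip against `y ^ s` stay bounded as `s → 1`, by
unfolding to Eisenstein series. -/
theorem exists_strip_le (hN : 2 ≤ N) (hm : Measurable Ψ)
    (hΨ : ∀ g ∈ CongruenceSubgroup.Gamma0 N, ∀ z, Ψ (g • z) = Ψ z)
    (hdec : DecaysAtCusps Ψ)
    (hint : ∀ s : ℝ, 1 < s → IntegrableOn (fun z : ℍ => ((z.im ^ s : ℝ) : ℂ) * Ψ z) strip)
    (h0 : periodSum N Ψ = 0) :
    ∃ C : ℝ, ∀ s : ℝ, 1 < s → s ≤ 3 / 2 →
      ‖∫ z in strip, ((z.im ^ s : ℝ) : ℂ) * Ψ z‖ ≤ C := by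
  classical
  obtain ⟨CE, hE⟩ := exists_eis_bound (N := N) (by omega)
  choose C κ hC hκ hd using fun q : Cos N => hdec q.out⁻¹
  choose M hM using fun q : Cos N => sq_le_exp (hκ q)
  obtain ⟨e, he, hec⟩ := exists_regroup (N := N) hN
  set vol := (volume (𝒟 : Set ℍ)).toReal
  refine ⟨∑ qa : Cos N × (ZMod N)ˣ, |CE| * (C qa.1 * |M qa.1|) * vol, fun s hs hs2 => ?_⟩
  set J := ∫ z in strip, ((z.im ^ s : ℝ) : ℂ) * Ψ z
  set S : Cos N × (ZMod N)ˣ → ℍ → ℝ := fun qa z => ∑' p, classTerm s qa p z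
  have hpt := fun z (hz : z ∈ (𝒟 : Set ℍ)) qa => classTerm_spec hN hE hs hs2 hz qa
  -- integrability of the deviations from the constant term
  have hCb : ∀ q z, ‖cosFun N Ψ q z‖ * (1 + z.im) ^ 2 ≤ C q * |M q| := fun q =>
    norm_cosFun_mul_sq_le (hC q) (hd q) (hM q)
  have hcm : ∀ q, AEStronglyMeasurable (cosFun N Ψ q) (volume.restrict 𝒟) := fun q =>
    (hm.comp (measurePreserving_sl _).measurable).aestronglyMeasurable
  have hci : ∀ q, IntegrableOn (cosFun N Ψ q) 𝒟 := fun q =>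
    Measure.integrableOn_of_bounded volume_fd_lt_top.ne
      (hm.comp (measurePreserving_sl _).measurable).aestronglyMeasurable
      ((ae_restrict_iff' measurableSet_fd).2 (ae_of_all _ fun z _ =>
        (le_mul_of_one_le_right (norm_nonneg _) (by
          have := z.im_pos
          nlinarith)).trans (hCb q z)))
  have hdiff : ∀ qa : Cos N × (ZMod N)ˣ, ∀ z ∈ (𝒟 : Set ℍ),
      ‖cosFun N Ψ qa.1 z * ((S qa z - eisA N s : ℝ) : ℂ)‖ ≤ |CE| * (C qa.1 * |M qa.1|) := by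
    intro qa z hz
    rw [norm_mul, Complex.norm_real, Real.norm_eq_abs]
    calc ‖cosFun N Ψ qa.1 z‖ * |S qa z - eisA N s|
        ≤ ‖cosFun N Ψ qa.1 z‖ * (|CE| * (1 + z.im) ^ 2) :=
          mul_le_mul_of_nonneg_left ((hpt z hz qa).2.trans
            (mul_le_mul_of_nonneg_right (le_abs_self _) (sq_nonneg _))) (norm_nonneg _)
      _ = |CE| * (‖cosFun N Ψ qa.1 z‖ * (1 + z.im) ^ 2) := by ring
      _ ≤ _ := mul_le_mul_of_nonneg_left (hCb _ z) (abs_nonneg _)
  have hdi : ∀ qa, IntegrableOn (fun z => cosFun N Ψ qa.1 z * ((S qa z - eisA N s : ℝ) : ℂ)) 𝒟 :=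
    fun qa => by
    refine Integrable.mono' (g := fun _ => |CE| * (C qa.1 * |M qa.1|))
      (integrableOn_const volume_fd_lt_top.ne) ?_
      ((ae_restrict_iff' measurableSet_fd).2 (ae_of_all _ (hdiff qa)))
    refine ((aestronglyMeasurable_classSum hm qa fun z hz => (hpt z hz qa).1).sub
      ((hcm qa.1).mul_const (eisA N s : ℂ))).congr (ae_of_all _ fun z => ?_)
    simp [S, mul_sub]
  -- both sides
  have hbound : ‖((∑' g, contentWeight (N := N) s g : ℝ) : ℂ) * (2 * J)‖ ≤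
      ∑ qa : Cos N × (ZMod N)ˣ, |CE| * (C qa.1 * |M qa.1|) * vol := by
    rw [← integral_tsum_rowTerm hm hΨ hs (hint s hs), setIntegral_congr_fun measurableSet_fd
      fun z hz => tsum_rowTerm hΨ he hec fun qa => (hpt z hz qa).1,
      integral_sum_eq_deviation h0 S (eisA N s) hci hdi]
    refine (norm_sum_le _ _).trans (Finset.sum_le_sum fun qa _ => ?_)
    exact norm_setIntegral_le_of_norm_le_const volume_fd_lt_top (hdiff qa)
  have hZ := (summable_contentWeight (N := N) hs).2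
  refine le_trans ?_ hbound
  rw [norm_mul, norm_mul, Complex.norm_two, Complex.norm_real, Real.norm_eq_abs,
    abs_of_nonneg (zero_le_one.trans hZ)]
  nlinarith [norm_nonneg J, mul_le_mul_of_nonneg_right hZ (norm_nonneg J)]

end FermatAgent.LT.Period
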