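import Mathlib

/-!
# The mass of a weight on the primes near `s = 1`

The terms `wt p / p ^ s` outside a finite set of primes, and the condition that their sum exceeds
`2/3 · log (1 / (s - 1))` up to a constant.
-/

set_option autoImplicit false

noncomputable section

open Filter
open scoped Topology

namespace FermatAgent.LT.Period

/-- The term `wt p / p ^ s` at a prime outside `bad`. -/
def wtTerm (bad : Finset ℕ) (wt : ℕ → ℝ) (s : ℝ) (p : Nat.Primes) : ℝ :=
  if (p : ℕ) ∈ bad then 0 else wt p / ((p : ℕ) : ℝ) ^ s

/-- Outside `bad` the weighted primes carry at least two thirds of the mass `log (1 / (s - 1))` of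
all primes as `s → 1`. -/
def HasExcess (bad : Finset ℕ) (wt : ℕ → ℝ) : Prop :=
  ∃ C : ℝ, ∀ᶠ s in 𝓝[>] (1 : ℝ), Summable (wtTerm bad wt s) ∧
    2 / 3 * -Real.log (s - 1) - C ≤ ∑' p, wtTerm bad wt s p

end FermatAgent.LT.Period
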