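import Fermat.Agent.DS.ArtinBound
import Fermat.Agent.DS.Cheb.Main
import Fermat.Agent.LT.Period.Mass

/-!
# A weighted count of Frobenius elements with image `GL₂(𝔽₃)`

The class function worth `8` on `±1` and `2` on the conjugates of `diag(1,-1)` has average `5/6`,
so by Chebotarev its sum over the primes is at least `2/3 · log (1 / (s - 1))` up to a constant.
-/

set_option autoImplicit false

noncomputable section

open NumberField Filter Topology
open FermatAgent.GaloisBasic

namespace FermatAgent.LT.Period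

/-- The general linear group over the field with three elements. -/
abbrev GL3 := GL (Fin 2) (ZMod 3)

/-- The reflection `diag(1,-1)`. -/
def refl3 : GL3 :=
  ⟨!![1, 0; 0, -1], !![1, 0; 0, -1], by decide, by decide⟩

open Classical in
/-- The weight. -/
def wt3 (g : GL3) : ℝ := if g = 1 ∨ g = -1 then 8 else if IsConj refl3 g then 2 else 0

lemma det_neg_one_of_involutions : ∀ m : Matrix (Fin 2) (Fin 2) (ZMod 3),
    m * m = 1 → m.det = -1 →
      ∃ c : Matrix (Fin 2) (Fin 2) (ZMod 3), c.det ≠ 0 ∧ c * refl3.val = m * c := by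
  decide +kernel

lemma card_involutions :
    ((Finset.univ : Finset (Matrix (Fin 2) (Fin 2) (ZMod 3))).filter
      fun m => m * m = 1 ∧ m.det = -1).card = 12 := by
  decide +kernel

/-- The conjugates of the reflection are the involutions of determinant `-1`. -/
lemma isConj_refl3_iff (g : GL3) : IsConj refl3 g ↔ g.val * g.val = 1 ∧ g.val.det = -1 := by
  constructor
  · rw [isConj_iff]
    rintro ⟨c, rfl⟩
    refine ⟨?_, ?_⟩
    · rw [← Units.val_mul, ← Units.val_one, Units.val_inj, conj_mul,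
        show refl3 * refl3 = 1 by decide, mul_one, mul_inv_cancel]
    · rw [Units.val_mul, Units.val_mul, Matrix.det_mul, Matrix.det_mul,
        mul_right_comm, ← Matrix.det_mul, ← Units.val_mul, mul_inv_cancel, Units.val_one,
        Matrix.det_one, one_mul]
      decide
  · rintro ⟨h1, h2⟩
    obtain ⟨c, hc, he⟩ := det_neg_one_of_involutions _ h1 h2
    refine isConj_iff.2 ⟨Matrix.GeneralLinearGroup.mkOfDetNeZero c hc, ?_⟩
    rw [mul_inv_eq_iff_eq_mul]
    exact Units.ext he

/-- The reflection has twelve conjugates. -/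
lemma card_conj_refl3 : Nat.card {g : GL3 // IsConj refl3 g} = 12 := by
  let f : {g : GL3 // IsConj refl3 g} →
      {m : Matrix (Fin 2) (Fin 2) (ZMod 3) // m * m = 1 ∧ m.det = -1} :=
    fun g => ⟨g.1.val, (isConj_refl3_iff g.1).1 g.2⟩
  have hf : Function.Bijective f := by
    refine ⟨fun g g' h => Subtype.ext (Units.ext (congrArg Subtype.val h)), fun m => ?_⟩
    exact ⟨⟨⟨m.1, m.1, m.2.1, m.2.1⟩, (isConj_refl3_iff _).2 m.2⟩, rfl⟩
  rw [Nat.card_eq_of_bijective f hf, Nat.card_eq_fintype_card, Fintype.card_subtype,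
    card_involutions]

open Classical in
/-- The total weight is `5/6` of the group order. -/
lemma sum_wt3 : ∑ g : GL3, wt3 g = 40 := by
  have hne : ∀ g : GL3, IsConj refl3 g → ¬(g = 1 ∨ g = -1) := by
    intro g hg
    have h := ((isConj_refl3_iff g).1 hg).2
    rintro (rfl | rfl) <;> revert h <;> decide
  have h1 : ((Finset.univ : Finset GL3).filter fun g => g = 1 ∨ g = -1).card = 2 := by
    rw [show ((Finset.univ : Finset GL3).filter fun g => g = 1 ∨ g = -1) = {1, -1} by ext; simp]
    exact Finset.card_pair (by decide)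
  have h2 : ((Finset.univ : Finset GL3).filter fun g => IsConj refl3 g).card = 12 := by
    rw [← Fintype.card_subtype, ← Nat.card_eq_fintype_card, card_conj_refl3]
  simp only [wt3, Finset.sum_ite, Finset.sum_const_zero, add_zero, Finset.sum_const, nsmul_eq_mul,
    Finset.filter_filter]
  rw [Finset.filter_congr (q := fun g => IsConj refl3 g)
    fun g _ => ⟨And.right, fun h => ⟨hne g h, h⟩⟩, h1, h2]
  norm_num

lemma card_GL3 : Nat.card GL3 = 48 := by
  rw [Matrix.card_GL_field (𝔽 := ZMod 3)]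
  simp [Fin.prod_univ_two]

variable (L : IntermediateField ℚ Qbar) [FiniteDimensional ℚ L] [IsGalois ℚ L]
  (e : (L ≃ₐ[ℚ] L) →* GL3)

/-- An element realising a Frobenius at `p`. -/
def IsFrobImage (p : ℕ) (g : GL3) : Prop :=
  ∃ (A : ValuationSubring Qbar) (σ : GQ), A.LiesOverPrime p ∧ A.IsFrobeniusAt σ p ∧
    e (AlgEquiv.restrictNormalHom L σ) = g

/-- **Chebotarev**: for a surjection onto `GL₂(𝔽₃)`, outside a finite set of primes the weight `8`
at Frobenius `± 1`, `2` at the conjugates of `diag(1,-1)` has excess. -/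
theorem exists_density (he : Function.Surjective e) :
    ∃ S₀ : Finset ℕ, ∀ bad : Finset ℕ, S₀ ⊆ bad → ∀ g : ℕ → GL3,
      (∀ p : ℕ, p.Prime → p ∉ bad → IsFrobImage L e p (g p)) →
      HasExcess bad fun p => wt3 (g p) := by
  classical
  let φ : GQ →* GL3 := e.comp (AlgEquiv.restrictNormalHom L)
  obtain ⟨S₀, hS₀⟩ := exists_finite_inertiaTrivial L
  refine ⟨S₀, fun bad hbad g hg => ?_⟩
  let h : ℕ → ℝ := fun p => if p ∈ bad then 0 else wt3 (g p)
  have h0 : ∀ x, 0 ≤ wt3 x := fun x => by unfold wt3; split_ifs <;> norm_num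
  have h8 : ∀ p, 0 ≤ h p ∧ h p ≤ 8 := fun p => by
    simp only [h, wt3]; split_ifs <;> norm_num
  have hfin : GaloisFactorsThroughFiniteLevel φ :=
    ⟨L, inferInstance, fun σ hσ => by
      rw [MonoidHom.comp_apply, (restrictNormalHom_eq_one_iff L σ).mpr
        ((IntermediateField.mem_fixingSubgroup_iff _ σ).mpr hσ), map_one]⟩
  have hfc' : ∀ x y : GL3, IsConj x y → wt3 x = wt3 y := fun x y hxy => by
      obtain ⟨c, rfl⟩ := isConj_iff.1 hxy
      have hr : IsConj refl3 (c * x * c⁻¹) ↔ IsConj refl3 x :=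
        ⟨fun h => h.trans hxy.symm, fun h => h.trans hxy⟩
      have h2 : c * x * c⁻¹ = -1 ↔ x = -1 := by
        rw [mul_inv_eq_iff_eq_mul, neg_one_mul, ← mul_neg_one, mul_right_inj]
      simp only [wt3, hr, conj_eq_one_iff, h2]
  have hunr : ∀ p : ℕ, p.Prime → p ∉ bad → ∀ A : ValuationSubring (AlgebraicClosure ℚ),
      A.LiesOverPrime p → ∀ σ ∈ A.inertiaSubgroupIn ℚ, φ σ = 1 :=
    fun p hp hpb A hA σ hσ => by
      rw [MonoidHom.comp_apply, hS₀ p hp (fun h => hpb (hbad h)) A hA _
        (mem_centerIn_of_inertia L hp hA hσ), map_one]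
  have hsum : ∀ s : ℝ, 1 < s → Summable fun p : Nat.Primes => h p * ((p : ℕ) : ℝ) ^ (-s) :=
    fun s hs => Summable.of_nonneg_of_le
      (fun p => mul_nonneg (h8 p).1 (Real.rpow_nonneg (Nat.cast_nonneg _) _))
      (fun p => mul_le_mul_of_nonneg_right (h8 p).2 (Real.rpow_nonneg (Nat.cast_nonneg _) _))
      ((Nat.Primes.summable_rpow.mpr (by linarith)).mul_left 8)
  obtain ⟨C, hC⟩ := DS.le_primeSum_of_classFun φ hfin
    (he.comp (AlgEquiv.restrictNormalHom_surjective (K₁ := L) Qbar)) bad
    hunr wt3 h0 hfc'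
    h (fun p => (h8 p).1) (fun s hs _ => hsum s hs)
    (fun p hp hpb A σ hA hσ => by
      obtain ⟨A', σ', hA', hσ', hgp⟩ := hg p hp hpb
      simp only [h, if_neg hpb]
      refine ((congrArg wt3 hgp).symm.trans (hfc' _ _ ?_)).ge
      exact DS.isConj_frobenius φ hp (hunr p hp hpb) hA' hA hσ' hσ)
    (1 / 6) (by norm_num)
  refine ⟨C, ?_⟩
  filter_upwards [self_mem_nhdsWithin, mem_nhdsWithin_of_mem_nhds
    (Iic_mem_nhds (show (1 : ℝ) < 2 by norm_num))] with s (hs1 : 1 < s) (hs2 : s ≤ 2)
  have hle := hC s hs1 hs2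
  have hT : ∀ p : Nat.Primes, h p * ((p : ℕ) : ℝ) ^ (-s) =
      wtTerm bad (fun p => wt3 (g p)) s p := fun p => by
    simp only [h, wtTerm, Real.rpow_neg (Nat.cast_nonneg _)]
    split_ifs <;> simp [div_eq_mul_inv]
  refine ⟨(hsum s hs1).congr hT, ?_⟩
  rw [sum_wt3, ← Nat.card_eq_fintype_card, card_GL3, one_div (s - 1), Real.log_inv] at hle
  simp only [DS.primeSum, tsum_congr hT] at hle
  norm_num at hle
  linarith

end FermatAgent.LT.Period
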