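import Fermat.Agent.LT.Descent.Spec.RamKer

/-!
# Cube classes and fixed lines at a place prime to three

With the cube roots of unity in the residue field, a residual class which is not a cube fixes
exactly two lines, and an upper triangular class is a cube exactly when its diagonal ratio is a
cube.
-/

set_option autoImplicit false

noncomputable section

open Matrix IsDedekindDomain NumberField WithZero
open scoped MatrixGroups

namespace FermatAgent.LT.Period

/-! ## The residue field -/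

/-- Without a root of the characteristic polynomial some class in the algebra has as cube a
multiple of the generator. -/
lemma exists_cube_residual {k : Type*} [Field k] [Fintype k] (h3 : (3 : k) ≠ 0) {z : k}
    (hz : z ^ 2 + z + 1 = 0) (t d : k) (hno : ∀ r : k, r ^ 2 - t * r + d ≠ 0) :
    ∃ x y : k, x ^ 3 - 3 * x * y ^ 2 * d - y ^ 3 * t * d = 0 ∧
      3 * x ^ 2 * y + 3 * x * y ^ 2 * t + y ^ 3 * (t ^ 2 - d) ≠ 0 := by
  classical
  have hq3 : 3 ∣ Fintype.card k - 1 := by
    have hz1 : z ≠ 1 := fun h => h3 (by rw [h] at hz; linear_combination hz)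
    have hz0 : z ≠ 0 := fun h => by rw [h] at hz; simp at hz
    have hord : orderOf (Units.mk0 z hz0) = 3 :=
      orderOf_eq_prime (Units.ext (by
        show z ^ 3 = 1
        linear_combination (z - 1) * hz)) fun h => hz1 (congrArg Units.val h)
    have hd := orderOf_dvd_card (x := Units.mk0 z hz0)
    rwa [hord, Fintype.card_units] at hd
  have : Fact (∀ r : k, r ^ 2 ≠ -d + t * r) := ⟨fun r h => hno r (by linear_combination h)⟩
  have hNR : Nat.card (QuadraticAlgebra k (-d) t) = Nat.card k * Nat.card k := by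
    rw [Nat.card_congr (QuadraticAlgebra.equivProd (R := k) (-d) t), Nat.card_prod]
  have hfin : Finite (QuadraticAlgebra k (-d) t) :=
    Finite.of_equiv _ (QuadraticAlgebra.equivProd (R := k) (-d) t).symm
  let H : Subgroup (QuadraticAlgebra k (-d) t)ˣ :=
    (Units.map (algebraMap k (QuadraticAlgebra k (-d) t) : k →* (QuadraticAlgebra k (-d) t))).range
  have hH : Nat.card H = Fintype.card k - 1 := by
    rw [← Fintype.card_units, ← Nat.card_eq_fintype_card]
    refine (Nat.card_congr (MonoidHom.ofInjective ?_).toEquiv).symm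
    exact Units.map_injective (algebraMap k (QuadraticAlgebra k (-d) t)).injective
  have hU : Nat.card (QuadraticAlgebra k (-d) t)ˣ = Fintype.card k * Fintype.card k - 1 := by
    rw [Nat.card_units, hNR, Nat.card_eq_fintype_card]
  set q := Fintype.card k
  have hq1 : 1 < q := Fintype.one_lt_card
  have hQ : Nat.card ((QuadraticAlgebra k (-d) t)ˣ ⧸ H) = q + 1 := by
    have h := Subgroup.card_eq_card_quotient_mul_card_subgroup H
    rw [hU, hH] at h
    refine mul_right_cancel₀ (show q - 1 ≠ 0 by omega) ?_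
    obtain ⟨p, hp⟩ : ∃ p, q = p + 1 := ⟨q - 1, by omega⟩
    rw [← h, hp, Nat.add_sub_cancel, show (p + 1) * (p + 1) = (p + 1 + 1) * p + 1 by ring,
      Nat.add_sub_cancel]
  obtain ⟨m, hm⟩ : ∃ m, q + 2 = 3 * m := ⟨(q + 2) / 3, by omega⟩
  have hω : (⟨0, 1⟩ : (QuadraticAlgebra k (-d) t)) ≠ 0 :=
    fun h => zero_ne_one (congrArg QuadraticAlgebra.im h).symm
  set w : (QuadraticAlgebra k (-d) t)ˣ := Units.mk0 (⟨0, 1⟩ : (QuadraticAlgebra k (-d) t)) hω
  have hw : w ^ (q + 1) ∈ H := by
    rw [← QuotientGroup.eq_one_iff, QuotientGroup.mk_pow, ← hQ, pow_card_eq_one']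
  obtain ⟨c, hc⟩ := hw
  have key : ((w : (QuadraticAlgebra k (-d) t)) ^ m) ^ 3 =
      algebraMap k (QuadraticAlgebra k (-d) t) (c : k) * w := by
    rw [← pow_mul, mul_comm m 3, ← hm, show q + 2 = q + 1 + 1 from rfl, pow_succ]
    congr 1
    exact (congrArg Units.val hc).symm.trans (Units.coe_map _ _)
  set j := (w : (QuadraticAlgebra k (-d) t)) ^ m
  refine ⟨j.re, j.im, ?_, fun h => c.ne_zero ?_⟩
  · have h := congrArg QuadraticAlgebra.re key
    simp [pow_succ, w, QuadraticAlgebra.algebraMap_eq] at h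
    linear_combination h
  · have h' := congrArg QuadraticAlgebra.im key
    simp [pow_succ, w, QuadraticAlgebra.algebraMap_eq] at h'
    linear_combination h - h'

/-! ## Cube classes -/

variable {K : Type*} [Field K] [NumberField K] {v : HeightOneSpectrum (𝓞 K)}

/-- The classes which are cubes modulo the congruence subgroup. -/
def IsCubeCls (v : HeightOneSpectrum (𝓞 K)) (g : G2 K) : Prop :=
  g ∈ locK v ∧ ∃ j ∈ locK v, j ^ 3 * g⁻¹ ∈ locK1 v

lemma IsCubeCls.conj {g k : G2 K} (h : IsCubeCls v g) (hk : k ∈ locK v) :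
    IsCubeCls v (k * g * k⁻¹) := by
  obtain ⟨hg, j, hj, h3⟩ := h
  refine ⟨mul_mem (mul_mem hk hg) (inv_mem hk), k * j * k⁻¹,
    mul_mem (mul_mem hk hj) (inv_mem hk), ?_⟩
  rw [conj_pow, show k * j ^ 3 * k⁻¹ * (k * g * k⁻¹)⁻¹ = k * (j ^ 3 * g⁻¹) * k⁻¹ by group]
  have := Whit.locK1_conj (inv_mem hk) h3
  rwa [inv_inv] at this

/-- Cube classes are invariant under conjugation. -/
lemma isCubeCls_conj_iff {g k : G2 K} (hk : k ∈ locK v) :
    IsCubeCls v (k⁻¹ * g * k) ↔ IsCubeCls v g := by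
  constructor
  · intro h
    have := h.conj hk
    rwa [show k * (k⁻¹ * g * k) * k⁻¹ = g by group] at this
  · intro h
    have := h.conj (inv_mem hk)
    rwa [inv_inv] at this

/-- Upper triangular matrices whose ratio is a residual cube. -/
def cubeBGL (v : HeightOneSpectrum (𝓞 K)) : Subgroup (GL (Fin 2) K) where
  carrier := {g | g ∈ locTameGL v 0 ∧ ∃ u : K, v.valuation K u ≤ 1 ∧
    v.valuation K (g.val 0 0 - u ^ 3 * g.val 1 1) < 1}
  one_mem' := ⟨(locTameGL v 0).one_mem, 1, by simp, by simp⟩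
  mul_mem' := by
    rintro g h ⟨hg, u, hu, hgu⟩ ⟨hh, u', hu', hhu⟩
    refine ⟨mul_mem hg hh, u * u', by rw [map_mul]; exact mul_le_one' hu hu', ?_⟩
    simp only [Units.val_mul, Matrix.mul_apply, Fin.sum_univ_two]
    set A := g.val 0 0; set B := g.val 0 1; set C := g.val 1 0; set D := g.val 1 1
    set A' := h.val 0 0; set B' := h.val 0 1; set C' := h.val 1 0; set D' := h.val 1 1
    have hU : v.valuation K ((u * u') ^ 3) ≤ 1 := by
      rw [map_pow, map_mul]; exact pow_le_one₀ zero_le (mul_le_one' hu hu')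
    rw [show A * A' + B * C' - (u * u') ^ 3 * (C * B' + D * D') =
      (A - u ^ 3 * D) * A' + (u ^ 3 * D) * (A' - u' ^ 3 * D') +
        (B * C' + -((u * u') ^ 3 * B') * C) by ring]
    refine (v.valuation K).map_add_lt ((v.valuation K).map_add_lt ?_ ?_)
      ((v.valuation K).map_add_lt ?_ ?_) <;> rw [map_mul]
    · exact mul_lt_one_of_lt_of_le hgu (hh.1.1 _ _)
    · refine Right.mul_lt_one_of_le_of_lt ?_ hhu
      rw [map_mul, map_pow]
      exact mul_le_one' (pow_le_one₀ zero_le hu) (hg.1.1 _ _)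
    · exact Right.mul_lt_one_of_le_of_lt (hg.1.1 _ _) hh.2.1
    · refine Right.mul_lt_one_of_le_of_lt ?_ hg.2.1
      rw [Valuation.map_neg, map_mul]
      exact mul_le_one' hU (hh.1.1 _ _)
  inv_mem' := by
    rintro g ⟨hg, u, hu, hgu⟩
    refine ⟨inv_mem hg, u⁻¹, ?_, ?_⟩
    all_goals
      have hA : v.valuation K (g.val 0 0) = 1 := by
        have h := hg.1.2
        rw [Matrix.det_fin_two] at h
        have h4 : v.valuation K (g.val 0 0 * g.val 1 1) = 1 := by
          refine val_eq_one_of_sub_lt h ?_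
          rw [sub_sub_cancel, map_mul]
          exact Right.mul_lt_one_of_le_of_lt (hg.1.1 _ _) hg.2.1
        rw [map_mul] at h4
        exact le_antisymm (hg.1.1 _ _) (h4.ge.trans (mul_le_of_le_one_right zero_le (hg.1.1 _ _)))
      have hu1 : v.valuation K u = 1 := by
        refine le_antisymm hu (not_lt.1 fun hlt => ?_)
        have : v.valuation K (u ^ 3 * g.val 1 1) < 1 := by
          rw [map_mul, map_pow]
          exact mul_lt_one_of_lt_of_le (pow_lt_one₀ zero_le hlt (by norm_num)) (hg.1.1 _ _)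
        have h' := (v.valuation K).map_add_lt hgu this
        rw [sub_add_cancel, hA] at h'
        exact lt_irrefl _ h'
    · rw [map_inv₀, hu1, inv_one]
    · have hu0 : u ≠ 0 := fun e => by rw [e, map_zero] at hu1; exact zero_ne_one hu1
      rw [Matrix.coe_units_inv, Matrix.inv_def, Matrix.adjugate_fin_two]
      simp only [Matrix.smul_apply, smul_eq_mul, Ring.inverse_eq_inv', Matrix.of_apply,
        Matrix.cons_val', Matrix.cons_val_zero, Matrix.cons_val_one, Matrix.empty_val',
        Matrix.cons_val_fin_one]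
      rw [show g.val.det⁻¹ * g.val 1 1 - u⁻¹ ^ 3 * (g.val.det⁻¹ * g.val 0 0) =
        -(g.val.det⁻¹ * u⁻¹ ^ 3) * (g.val 0 0 - u ^ 3 * g.val 1 1) by field_simp; ring, map_mul,
        Valuation.map_neg, map_mul, map_pow, map_inv₀, map_inv₀, hg.1.2, hu1]
      simpa using hgu

/-- The upper triangular classes whose ratio is a residual cube. -/
def cubeB (v : HeightOneSpectrum (𝓞 K)) : Subgroup (G2 K) := (cubeBGL v).map ProjGenLinGroup.mk

/-- The cube group lies in the tame level. -/
lemma cubeB_le (v : HeightOneSpectrum (𝓞 K)) : cubeB v ≤ locTame v 0 :=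
  Subgroup.map_mono fun _ hg => hg.1

/-- The cube group contains the congruence subgroup. -/
lemma locK1_le_cubeB (v : HeightOneSpectrum (𝓞 K)) : locK1 v ≤ cubeB v :=
  Subgroup.map_mono fun g hg => ⟨⟨hg.1, hg.2.2.1, by simp⟩, 1, by simp, by simpa using hg.2.2.2⟩

/-- The cube group lies in the maximal compact group. -/
lemma cubeB_le_locK (v : HeightOneSpectrum (𝓞 K)) : cubeB v ≤ locK v :=
  (cubeB_le v).trans (locTame_le v 0)

/-- Integral representatives of tame classes are tame. -/
lemma mk_eq_mem_tame {G : GL (Fin 2) K} (hG : G ∈ locGL v)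
    (h : (ProjGenLinGroup.mk G : G2 K) ∈ locTame v 0) : G ∈ locTameGL v 0 := by
  obtain ⟨H, hH, e⟩ := h
  obtain ⟨s, hs⟩ := Matrix.ProjGenLinGroup.mk_eq_mk_iff.mp e
  change H * sc s = G at hs
  have h1 := sc_mem_locCongr (val_scalar_eq_one hH.1 (hs ▸ hG))
  rw [← hs]
  exact mul_mem hH ⟨h1.1, h1.2.2.1, by simp⟩

/-- Two matrices congruent up to a scalar give the same class. -/
lemma mk_div_mem_locK1 {G H : GL (Fin 2) K} (hG : G ∈ locGL v) (hH : H ∈ locGL v) {c : K}
    (hc : v.valuation K c = 1) (h : SmallMat v (c • H.val - G.val)) :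
    (ProjGenLinGroup.mk H : G2 K) * (ProjGenLinGroup.mk G)⁻¹ ∈ locK1 v := by
  rw [← map_inv, ← map_mul]
  refine Subgroup.mem_map_of_mem _ ?_
  set X := H * G⁻¹
  have hX : X ∈ locGL v := mul_mem hH (inv_mem hG)
  have hsm : SmallMat v (c • X.val - 1) := by
    have e : c • X.val - 1 = (c • H.val - G.val) * (G⁻¹).val := by
      rw [sub_mul, smul_mul_assoc, ← Units.val_mul, ← Units.val_mul, mul_inv_cancel, Units.val_one]
    rw [e]
    exact h.mul_right (inv_mem hG).1
  refine ⟨hX, ?_, ?_, ?_⟩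
  · simpa [hc] using hsm 0 1
  · simpa [hc] using hsm 1 0
  · have e : c * (X.val 0 0 - X.val 1 1) = (c • X.val - 1) 0 0 - (c • X.val - 1) 1 1 := by
      simp; ring
    refine lt_of_eq_of_lt (show v.valuation K (X.val 0 0 - X.val 1 1) =
      v.valuation K (c * (X.val 0 0 - X.val 1 1)) by rw [map_mul, hc, one_mul]) ?_
    rw [e]
    exact ((v.valuation K).map_sub _ _).trans_lt (max_lt (hsm 0 0) (hsm 1 1))

/-- Natural numbers are integral. -/
lemma val_intCast_le (n : ℕ) : v.valuation K (n : K) ≤ 1 := by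
  rw [show (n : K) = algebraMap (𝓞 K) K (n : 𝓞 K) from (map_natCast _ n).symm]
  exact HeightOneSpectrum.valuation_le_one v _

lemma val_diag_tame {G : GL (Fin 2) K} (hG : G ∈ locTameGL v 0) :
    v.valuation K (G.val 0 0) = 1 ∧ v.valuation K (G.val 1 1) = 1 := by
  have h := hG.1.2
  rw [Matrix.det_fin_two] at h
  have h4 : v.valuation K (G.val 0 0 * G.val 1 1) = 1 := by
    refine val_eq_one_of_sub_lt h ?_
    rw [sub_sub_cancel, map_mul]
    exact Right.mul_lt_one_of_le_of_lt (hG.1.1 _ _) hG.2.1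
  rw [map_mul] at h4
  exact ⟨le_antisymm (hG.1.1 _ _) (h4.ge.trans (mul_le_of_le_one_right zero_le (hG.1.1 _ _))),
    le_antisymm (hG.1.1 _ _) (h4.ge.trans (mul_le_of_le_one_left zero_le (hG.1.1 _ _)))⟩

/-- The unit matrix `(x 1; 1 0)` and its inverse. -/
lemma exists_swap {x : K} (hx : v.valuation K x ≤ 1) :
    ∃ P ∈ locGL v, P.val = !![x, 1; 1, 0] ∧ (P⁻¹).val = !![0, 1; 1, -x] := by
  set P : GL (Fin 2) K := GeneralLinearGroup.mkOfDetNeZero !![x, 1; 1, 0] (by simp)
  have hPv : P.val = !![x, 1; 1, 0] := rfl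
  refine ⟨P, ⟨fun i j => ?_, ?_⟩, hPv, ?_⟩
  · rw [hPv]; fin_cases i <;> fin_cases j <;> simp [hx]
  · rw [hPv]; simp
  · rw [Matrix.coe_units_inv, Matrix.inv_def, hPv, Matrix.adjugate_fin_two]
    ext i j
    fin_cases i <;> fin_cases j <;> simp

variable (h3 : v.valuation K 3 = 1)
include h3

/-- Elements of the cube group are cube classes. -/
lemma isCubeCls_of_cubeB {g : G2 K} (hg : g ∈ cubeB v) : IsCubeCls v g := by
  refine ⟨cubeB_le_locK v hg, ?_⟩
  obtain ⟨G, ⟨hT, u, hu, hGu⟩, rfl⟩ := hg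
  obtain ⟨hA, hD⟩ := val_diag_tame hT
  set A := G.val 0 0; set B := G.val 0 1; set D := G.val 1 1
  have hD0 : D ≠ 0 := fun e => by rw [e, map_zero] at hD; exact zero_ne_one hD
  obtain ⟨s, hs, hsA, hs2⟩ : ∃ s : K, v.valuation K s = 1 ∧
      v.valuation K (D * s ^ 3 - A) < 1 ∧ v.valuation K (s ^ 2 + s + 1) = 1 := by
    have hu1 : v.valuation K u = 1 := by
      refine le_antisymm hu (not_lt.1 fun hlt => ?_)
      have : v.valuation K (u ^ 3 * D) < 1 := by
        rw [map_mul, map_pow]
        exact mul_lt_one_of_lt_of_le (pow_lt_one₀ zero_le hlt (by norm_num)) hD.le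
      have h' := (v.valuation K).map_add_lt hGu this
      rw [sub_add_cancel, hA] at h'
      exact lt_irrefl _ h'
    have hA' : v.valuation K (D * u ^ 3 - A) < 1 := by
      rw [Valuation.map_sub_swap, mul_comm]; exact hGu
    by_cases h : v.valuation K (u ^ 2 + u + 1) = 1
    · exact ⟨u, hu1, hA', h⟩
    · have hlt : v.valuation K (u ^ 2 + u + 1) < 1 := by
        refine lt_of_le_of_ne ?_ h
        refine ((v.valuation K).map_add _ _).trans (max_le (((v.valuation K).map_add _ _).trans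
          (max_le ?_ hu)) (map_one _).le)
        rw [map_pow]; exact pow_le_one₀ zero_le hu
      refine ⟨1, map_one _, ?_, ?_⟩
      · rw [show D * 1 ^ 3 - A = D * u ^ 3 - A + -(D * (u - 1)) * (u ^ 2 + u + 1) by ring]
        refine (v.valuation K).map_add_lt hA' ?_
        rw [map_mul]
        refine Right.mul_lt_one_of_le_of_lt ?_ hlt
        rw [Valuation.map_neg, map_mul]
        exact mul_le_one' hD.le (((v.valuation K).map_sub _ _).trans (max_le hu (map_one _).le))
      · rw [show (1 : K) ^ 2 + 1 + 1 = 3 by norm_num, h3]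
  set S := s ^ 2 + s + 1
  have hS0 : S ≠ 0 := fun e => by rw [e, map_zero] at hs2; exact zero_ne_one hs2
  have hs0 : s ≠ 0 := fun e => by rw [e, map_zero] at hs; exact zero_ne_one hs
  set y := B / D / S
  have hy : v.valuation K y ≤ 1 := by
    rw [map_div₀, map_div₀, hD, hs2, div_one, div_one]; exact hT.1.1 _ _
  set J : GL (Fin 2) K := GeneralLinearGroup.mkOfDetNeZero !![s, y; 0, 1] (by simp [hs0])
  have hJv : J.val = !![s, y; 0, 1] := rfl
  have hJ : J ∈ locGL v := by
    refine ⟨fun i j => ?_, ?_⟩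
    · rw [hJv]
      fin_cases i <;> fin_cases j <;> simp [hs, hy]
    · rw [hJv]; simp [hs]
  refine ⟨_, Subgroup.mem_map_of_mem _ hJ, ?_⟩
  rw [← map_pow]
  refine mk_div_mem_locK1 hT.1 (pow_mem hJ 3) hD ?_
  have e : (J ^ 3).val = !![s ^ 3, y * S; 0, 1] := by
    rw [Units.val_pow_eq_pow_val, hJv]
    ext i j
    fin_cases i <;> fin_cases j <;>
      simp [pow_succ, Matrix.mul_apply, Fin.sum_univ_two, S]; ring
  rw [e]
  intro i j
  fin_cases i <;> fin_cases j
  · simpa using hsA
  · have : D * (y * S) - B = 0 := by simp only [y]; field_simp; ring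
    simp [D, B] at this ⊢
    rw [this, map_zero]; exact zero_lt_one
  · simpa [Valuation.map_neg] using hT.2.1
  · simp [D]

omit h3 in
lemma cubeB_of_isCubeCls {g : G2 K} (hg : g ∈ locTame v 0) (h : IsCubeCls v g) : g ∈ cubeB v := by
  obtain ⟨-, j, hj, hjg⟩ := h
  have hj3 : j ^ 3 ∈ locTame v 0 := by
    have := mul_mem (locK1_le_locTame v 0 hjg) hg
    rwa [inv_mul_cancel_right] at this
  suffices hmain : j ^ 3 ∈ cubeB v by
    have := mul_mem (inv_mem (locK1_le_cubeB v hjg)) hmain
    rwa [_root_.mul_inv_rev, inv_inv, inv_mul_cancel_right] at this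
  obtain ⟨J, hJ, rfl⟩ := hj
  rw [← map_pow] at hj3 ⊢
  have hT := mk_eq_mem_tame (pow_mem hJ 3) hj3
  refine Subgroup.mem_map_of_mem _ ⟨hT, ?_⟩
  have e := lin_cube J.val 0 1
  simp only [zero_smul, zero_add, one_smul] at e
  set T := J.val.trace with hTd
  set δ := J.val.det with hδd
  have e' : (J ^ 3).val = (-(T * δ)) • (1 : Matrix (Fin 2) (Fin 2) K) + (T ^ 2 - δ) • J.val := by
    rw [Units.val_pow_eq_pow_val, e]
    congr 2 <;> ring
  have e10 : (J ^ 3).val 1 0 = (T ^ 2 - δ) * J.val 1 0 := by rw [e']; simp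
  have hlt : v.valuation K (T ^ 2 - δ) * v.valuation K (J.val 1 0) < 1 := by
    rw [← map_mul, ← e10]; exact hT.2.1
  by_cases h10 : v.valuation K (J.val 1 0) < 1
  · obtain ⟨hA, hD⟩ := val_diag_tame (show J ∈ locTameGL v 0 from ⟨hJ, h10, by simp⟩)
    set A := J.val 0 0 with hAd
    set D := J.val 1 1 with hDd
    have hD0 : D ≠ 0 := fun e => by rw [e, map_zero] at hD; exact zero_ne_one hD
    refine ⟨A / D, by rw [map_div₀, hA, hD, div_one], ?_⟩
    have e00 : (J ^ 3).val 0 0 - (A / D) ^ 3 * (J ^ 3).val 1 1 =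
        (J.val 0 1 * (2 * A + D) - (A / D) ^ 3 * (J.val 0 1 * (A + 2 * D))) * J.val 1 0 := by
      rw [Units.val_pow_eq_pow_val]
      simp [pow_succ, Matrix.mul_apply, Fin.sum_univ_two, hAd, hDd]
      field_simp [show J.val 1 1 ≠ 0 from hD0]
      ring
    rw [e00, map_mul]
    refine Right.mul_lt_one_of_le_of_lt ?_ h10
    have h2 : v.valuation K (2 : K) ≤ 1 := by exact_mod_cast val_intCast_le (v := v) 2
    refine ((v.valuation K).map_sub _ _).trans (max_le ?_ ?_)
    · rw [map_mul]
      refine mul_le_one' (hJ.1 _ _) (((v.valuation K).map_add _ _).trans (max_le ?_ hD.le))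
      rw [map_mul]; exact mul_le_one' h2 hA.le
    · rw [map_mul, map_mul, map_pow, map_div₀, hA, hD, div_one, one_pow, one_mul]
      refine mul_le_one' (hJ.1 _ _) (((v.valuation K).map_add _ _).trans (max_le hA.le ?_))
      rw [map_mul]; exact mul_le_one' h2 hD.le
  · have h10' : v.valuation K (J.val 1 0) = 1 := le_antisymm (hJ.1 _ _) (not_lt.1 h10)
    rw [h10', mul_one] at hlt
    refine ⟨1, by simp, ?_⟩
    rw [e']
    simp
    rw [← mul_sub, map_mul]
    exact mul_lt_one_of_lt_of_le hlt (((v.valuation K).map_sub _ _).trans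
      (max_le (hJ.1 _ _) (hJ.1 _ _)))

/-- Membership in the cube group. -/
lemma mem_cubeB_iff {g : G2 K} (hg : g ∈ locTame v 0) : g ∈ cubeB v ↔ IsCubeCls v g :=
  ⟨isCubeCls_of_cubeB h3, cubeB_of_isCubeCls hg⟩

variable (hz : ∃ z : 𝓞 K, z ^ 2 + z + 1 ∈ v.asIdeal)
include hz

/-- An integral class at `v` which is not a cube modulo the congruence subgroup fixes a line of
the residue plane: it is conjugate to an upper triangular class. -/
theorem exists_fixed_line {g : G2 K} (hg : g ∈ locK v) (hc : ¬IsCubeCls v g) :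
    ∃ k ∈ locK v, k⁻¹ * g * k ∈ locTame v 0 := by
  classical
  obtain ⟨G, hG, rfl⟩ := hg
  set T := G.val.trace with hT
  have hTle : v.valuation K T ≤ 1 := (normalised_of_mem hG).2
  by_cases hroot : ∃ r : K, v.valuation K r ≤ 1 ∧ v.valuation K (r ^ 2 - T * r + G.val.det) < 1
  · obtain ⟨r, hr, hr0⟩ := hroot
    by_cases h10 : v.valuation K (G.val 1 0) < 1
    · exact ⟨1, one_mem _, G, ⟨hG, h10, by simp⟩, by simp⟩
    have h10' : v.valuation K (G.val 1 0) = 1 := le_antisymm (hG.1 _ _) (not_lt.1 h10)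
    set C := G.val 1 0 with hC
    have hC0 : C ≠ 0 := fun e => by rw [e, map_zero] at h10'; exact zero_ne_one h10'
    set x := (r - G.val 1 1) / C with hx
    have hxle : v.valuation K x ≤ 1 := by
      rw [hx, map_div₀, h10', div_one]
      exact ((v.valuation K).map_sub _ _).trans (max_le hr (hG.1 _ _))
    obtain ⟨P, hP, hPv, hPi⟩ := exists_swap hxle
    refine ⟨_, Subgroup.mem_map_of_mem _ hP, ?_⟩
    rw [← map_inv, ← map_mul, ← map_mul]
    refine Subgroup.mem_map_of_mem _ ⟨mul_mem (mul_mem (inv_mem hP) hG) hP, ?_, by simp⟩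
    have e : (P⁻¹ * G * P).val 1 0 = -(r ^ 2 - T * r + G.val.det) / C := by
      simp only [Units.val_mul, hPi, hPv, Matrix.mul_apply, Fin.sum_univ_two, hT,
        Matrix.trace_fin_two, Matrix.det_fin_two]
      simp [hx]
      rw [hC] at hC0 ⊢
      field_simp
      ring
    rw [e, map_div₀, h10', div_one, Valuation.map_neg]
    exact hr0
  · exfalso
    refine hc ⟨Subgroup.mem_map_of_mem _ hG, ?_⟩
    push Not at hroot
    have hdle : v.valuation K G.val.det ≤ 1 := hG.2.le
    obtain ⟨t0, ht0⟩ := exists_integer_near v hTle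
    obtain ⟨d0, hd0⟩ := exists_integer_near v hdle
    have : v.asIdeal.IsMaximal := v.isMaximal
    let := Ideal.Quotient.field v.asIdeal
    have : Finite (𝓞 K ⧸ v.asIdeal) := Ideal.finiteQuotientOfFreeOfNeBot _ v.ne_bot
    let := Fintype.ofFinite (𝓞 K ⧸ v.asIdeal)
    set π := Ideal.Quotient.mk v.asIdeal
    have hmem : ∀ a : 𝓞 K, π a = 0 ↔ v.valuation K (a : K) < 1 := fun a => by
      rw [Ideal.Quotient.eq_zero_iff_mem, ← HeightOneSpectrum.valuation_lt_one_iff_mem (K := K)]
    obtain ⟨z, hz⟩ := hz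
    have h3' : (3 : 𝓞 K ⧸ v.asIdeal) ≠ 0 := by
      rw [← map_ofNat π 3, Ne, hmem]
      rw [show (((3 : 𝓞 K)) : K) = 3 from map_ofNat _ 3, h3]
      exact lt_irrefl _
    have hno : ∀ r : 𝓞 K ⧸ v.asIdeal, r ^ 2 - π t0 * r + π d0 ≠ 0 := by
      intro r hr
      obtain ⟨a, rfl⟩ := Ideal.Quotient.mk_surjective r
      rw [← map_pow, ← map_mul, ← map_sub, ← map_add, hmem] at hr
      push_cast at hr
      refine (hroot (a : K) (HeightOneSpectrum.valuation_le_one v a)).not_gt ?_
      rw [show (a : K) ^ 2 - T * a + G.val.det = ((a : K) ^ 2 - t0 * a + d0) +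
        (-(a : K) * (T - t0) + (G.val.det - d0)) by ring]
      refine (v.valuation K).map_add_lt hr ((v.valuation K).map_add_lt ?_ hd0)
      rw [map_mul, Valuation.map_neg]
      exact Right.mul_lt_one_of_le_of_lt (HeightOneSpectrum.valuation_le_one v a) ht0
    obtain ⟨x, y, hxy, hne⟩ := exists_cube_residual h3'
      (z := π z) (by
        rw [← map_pow, ← map_one π, ← map_add, ← map_add, Ideal.Quotient.eq_zero_iff_mem]; exact hz)
      (π t0) (π d0) hno
    obtain ⟨x, rfl⟩ := Ideal.Quotient.mk_surjective x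
    obtain ⟨y, rfl⟩ := Ideal.Quotient.mk_surjective y
    have hcube : CubeAt v (t0 : K) (d0 : K) := by
      refine ⟨x, y, HeightOneSpectrum.valuation_le_one v x, HeightOneSpectrum.valuation_le_one v y,
        ?_, le_antisymm ?_ (not_lt.1 ?_)⟩
      · have := (hmem (x ^ 3 - 3 * x * y ^ 2 * d0 - y ^ 3 * t0 * d0)).1 (by
          simpa [map_ofNat] using hxy)
        push_cast at this
        simpa [map_ofNat] using this
      · have := HeightOneSpectrum.valuation_le_one (K := K) v
          (3 * x ^ 2 * y + 3 * x * y ^ 2 * t0 + y ^ 3 * (t0 ^ 2 - d0))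
        simpa [map_ofNat] using this
      · intro hlt
        refine hne ?_
        have := (hmem (3 * x ^ 2 * y + 3 * x * y ^ 2 * t0 + y ^ 3 * (t0 ^ 2 - d0))).2
          (by simpa [map_ofNat] using hlt)
        simpa [map_ofNat] using this
    have hres : CubeOK v G := (cubeOK_iff_self (normalised_of_mem hG)).2
      (hcube.congr (HeightOneSpectrum.valuation_le_one v _) (HeightOneSpectrum.valuation_le_one v _)
        ht0 hd0)
    obtain ⟨j, hj, hjG⟩ := (cubeOK_iff_class h3 hG).1 hres
    refine ⟨j, hj, ?_⟩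
    have := Whit.locK1_conj (inv_mem (show (ProjGenLinGroup.mk G : G2 K) ∈ locK v from
      Subgroup.mem_map_of_mem _ hG)) (inv_mem hjG)
    rw [inv_inv] at this
    rwa [show (ProjGenLinGroup.mk G : G2 K) * ((j ^ 3)⁻¹ * ProjGenLinGroup.mk G)⁻¹ *
      (ProjGenLinGroup.mk G)⁻¹ = j ^ 3 * (ProjGenLinGroup.mk G)⁻¹ by group] at this

end FermatAgent.LT.Period
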