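import Fermat.Agent.LT.Period.Good
import Fermat.Agent.LT.Period.CubeClass

/-!
# Typed forms

A form is typed at a set of places when it is a combination of translates, by integral elements, of
eigenforms invariant there under the upper triangular classes with cube ratio.  A typed form
invariant under all integral unipotents at such a place is invariant under all integral classes
there, and its shift along the torus is typed again.
-/

set_option autoImplicit false

noncomputable section

open Matrix IsDedekindDomain NumberField Filter MeasureTheory WithZero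
open scoped MatrixGroups ContDiff

namespace FermatAgent.LT.Period

open FermatAgent.LT.Whit

variable {L : Type*} [Field L] [NumberField L]
  {f g : InfPts L → adelGrp L → ℂ} {v : HeightOneSpectrum (𝓞 L)}

/-- Translates compose. -/
lemma rt_rt (h h' : adelGrp L) (f : InfPts L → adelGrp L → ℂ) :
    Whit.rt h (Whit.rt h' f) = Whit.rt (h * h') f := by
  funext y a
  simp only [Whit.rt, mul_assoc]

/-- The translate by one. -/
lemma rt_one (f : InfPts L → adelGrp L → ℂ) : Whit.rt 1 f = f := by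
  funext y a
  simp [Whit.rt]

/-- Right translation as a linear map. -/
def rtL (h : adelGrp L) : (InfPts L → adelGrp L → ℂ) →ₗ[ℂ] (InfPts L → adelGrp L → ℂ) where
  toFun := Whit.rt h
  map_add' _ _ := rfl
  map_smul' _ _ := rfl

/-- Invariance at one place under a group. -/
def IsInvAt (v : HeightOneSpectrum (𝓞 L)) (H : Subgroup (G2 L))
    (f : InfPts L → adelGrp L → ℂ) : Prop :=
  ∀ h ∈ H, Whit.rt (atV v h) f = f

/-- The elements fixing a form at a place. -/
def stabAt (v : HeightOneSpectrum (𝓞 L)) (f : InfPts L → adelGrp L → ℂ) : Subgroup (G2 L) where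
  carrier := {h | Whit.rt (atV v h) f = f}
  one_mem' := by simp [map_one, rt_one]
  mul_mem' {a b} ha hb := by
    show Whit.rt (atV v (a * b)) f = f
    rw [map_mul, ← rt_rt, show Whit.rt (atV v b) f = f from hb,
      show Whit.rt (atV v a) f = f from ha]
  inv_mem' {a} ha := by
    show Whit.rt (atV v a⁻¹) f = f
    conv_lhs => rw [← show Whit.rt (atV v a) f = f from ha]
    rw [rt_rt, ← map_mul, inv_mul_cancel, map_one, rt_one]

/-- Invariance through the stabiliser. -/
lemma isInvAt_iff (H : Subgroup (G2 L)) : IsInvAt v H f ↔ H ≤ stabAt v f := Iff.rfl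

/-- Translates at different places commute. -/
lemma rt_comm_of_one {k : adelGrp L} (hk : k.1 v = 1) (h : G2 L) (f : InfPts L → adelGrp L → ℂ) :
    Whit.rt (atV v h) (Whit.rt k f) = Whit.rt k (Whit.rt (atV v h) f) := by
  rw [rt_rt, rt_rt, atV_mul_of_eq_one hk]

/-- Splitting off one component. -/
lemma atV_decomp (v : HeightOneSpectrum (𝓞 L)) (k : adelGrp L) :
    ∃ k' : adelGrp L, k'.1 v = 1 ∧ k = k' * atV v (k.1 v) ∧ ∀ w, w ≠ v → k'.1 w = k.1 w := by
  refine ⟨k * atV v (k.1 v)⁻¹, ?_, ?_, fun w hw => ?_⟩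
  · show k.1 v * (atV v (k.1 v)⁻¹).1 v = 1
    rw [atV_same, mul_inv_cancel]
  · rw [mul_assoc, ← map_mul, inv_mul_cancel, map_one, mul_one]
  · show k.1 w * (atV v (k.1 v)⁻¹).1 w = k.1 w
    rw [atV_ne hw, mul_one]

/-! ## Sums over a group at a place -/

/-- The classes of integral elements modulo the congruence subgroup. -/
abbrev KQ (v : HeightOneSpectrum (𝓞 L)) := ↥(locK v) ⧸ (locK1 v).subgroupOf (locK v)

instance finiteKQ (v : HeightOneSpectrum (𝓞 L)) : Finite (KQ v) :=
  Nat.finite_of_card_ne_zero (relIndex_locK1_ne_zero v)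

instance fintypeKQ (v : HeightOneSpectrum (𝓞 L)) : Fintype (KQ v) := Fintype.ofFinite _

open Classical in
/-- The sum of the translates over the classes in `H`. -/
def sumAt (v : HeightOneSpectrum (𝓞 L)) (H : Subgroup (G2 L))
    (f : InfPts L → adelGrp L → ℂ) : InfPts L → adelGrp L → ℂ :=
  ∑ q : KQ v,
    if ((q.out : locK v) : G2 L) ∈ H then Whit.rt (atV v ((q.out : locK v) : G2 L)) f else 0

/-- Translates are additive. -/
lemma rt_sum {ι : Type*} (s : Finset ι) (h : adelGrp L) (F : ι → InfPts L → adelGrp L → ℂ) :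
    Whit.rt h (∑ i ∈ s, F i) = ∑ i ∈ s, Whit.rt h (F i) := map_sum (rtL h) F s

/-- Summation at a place as a linear map. -/
def sumAtL (v : HeightOneSpectrum (𝓞 L)) (H : Subgroup (G2 L)) :
    (InfPts L → adelGrp L → ℂ) →ₗ[ℂ] (InfPts L → adelGrp L → ℂ) where
  toFun := sumAt v H
  map_add' a b := by
    classical
    simp only [sumAt, ← Finset.sum_add_distrib]
    refine Finset.sum_congr rfl fun q _ => ?_
    split_ifs
    · exact (rtL _).map_add a b
    · rw [add_zero]
  map_smul' r a := by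
    classical
    simp only [sumAt, Finset.smul_sum, RingHom.id_apply]
    refine Finset.sum_congr rfl fun q _ => ?_
    split_ifs
    · exact (rtL _).map_smul r a
    · rw [smul_zero]

/-- Averaging commutes with translates elsewhere. -/
lemma sumAt_comm_of_one {H : Subgroup (G2 L)} {k : adelGrp L} (hk : k.1 v = 1)
    (f : InfPts L → adelGrp L → ℂ) : Whit.rt k (sumAt v H f) = sumAt v H (Whit.rt k f) := by
  classical
  rw [sumAt, sumAt, rt_sum]
  refine Finset.sum_congr rfl fun q _ => ?_
  split_ifs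
  · rw [rt_comm_of_one hk]
  · exact (rtL k).map_zero

variable [IsTotallyComplex L] {S : Finset (HeightOneSpectrum (𝓞 L))}
  {c : HeightOneSpectrum (𝓞 L) → ℂ}

section

omit [IsTotallyComplex L]

/-- The congruence subgroup stabilises forms. -/
lemma locK1_le_stabAt (hf : IsForm S f) (hv : v ∈ S) : locK1 v ≤ stabAt v f := fun u hu => by
  funext y a
  exact hf.right_inv y a _ (atV_mem_levelGrp (by rwa [ofFinset_loc_of_mem hv]))

lemma rt_out_eq (hf : IsForm S f) (hv : v ∈ S) (a : locK v) :
    Whit.rt (atV v ((QuotientGroup.mk a : KQ v).out : G2 L)) f = Whit.rt (atV v (a : G2 L)) f := by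
  obtain ⟨u, hu⟩ := QuotientGroup.mk_out_eq_mul ((locK1 v).subgroupOf (locK v)) a
  rw [hu, Subgroup.coe_mul, map_mul, ← rt_rt,
    show Whit.rt (atV v ((u : locK v) : G2 L)) f = f from locK1_le_stabAt hf hv u.2]

lemma mem_out_iff {H : Subgroup (G2 L)} (hH : locK1 v ≤ H) (a : locK v) :
    (((QuotientGroup.mk a : KQ v).out : locK v) : G2 L) ∈ H ↔ (a : G2 L) ∈ H := by
  obtain ⟨u, hu⟩ := QuotientGroup.mk_out_eq_mul ((locK1 v).subgroupOf (locK v)) a
  rw [hu, Subgroup.coe_mul, H.mul_mem_cancel_right (show ((u : locK v) : G2 L) ∈ H from hH u.2)]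

/-- A conjugation of the group moves the sum. -/
lemma rt_sumAt_of (hf : IsForm S f) (hv : v ∈ S) {H H' : Subgroup (G2 L)} (hH : locK1 v ≤ H')
    {k : G2 L} (hk : k ∈ locK v) (hn : ∀ x ∈ locK v, k * x * k⁻¹ ∈ H' ↔ x ∈ H) :
    Whit.rt (atV v k) (sumAt v H f) = sumAt v H' (Whit.rt (atV v k) f) := by
  classical
  have hg : IsForm S (Whit.rt (atV v k) f) := hf.rt fun w => atV_mem_all hk w
  rw [sumAt, sumAt, rt_sum]
  let e : KQ v → KQ v := fun q => QuotientGroup.mk (⟨k, hk⟩ * q.out * ⟨k, hk⟩⁻¹)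
  have he : Function.Bijective e := by
    refine (Finite.injective_iff_bijective).1 fun q q' h => ?_
    rw [← QuotientGroup.out_eq' q, ← QuotientGroup.out_eq' q', QuotientGroup.eq]
    have h' := Whit.locK1_conj hk (Subgroup.mem_subgroupOf.1 (QuotientGroup.eq.1 h))
    rw [Subgroup.mem_subgroupOf]
    simpa [mul_assoc] using h'
  refine Fintype.sum_bijective e he _ _ fun q => ?_
  simp only [e, mem_out_iff hH, rt_out_eq hg hv, Subgroup.coe_mul, Subgroup.coe_inv, hn _ q.out.2]
  split_ifs
  · rw [rt_rt, rt_rt, ← map_mul, ← map_mul, inv_mul_cancel_right]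
  · rfl

lemma rt_sumAt (hf : IsForm S f) (hv : v ∈ S) {H : Subgroup (G2 L)} (hH : locK1 v ≤ H) {k : G2 L}
    (hk : k ∈ locK v) (hn : ∀ x ∈ locK v, k * x * k⁻¹ ∈ H ↔ x ∈ H) :
    Whit.rt (atV v k) (sumAt v H f) = sumAt v H (Whit.rt (atV v k) f) :=
  rt_sumAt_of hf hv hH hk hn

/-- Averages are invariant. -/
lemma isInvAt_sumAt (hf : IsForm S f) (hv : v ∈ S) {H : Subgroup (G2 L)} (hH : locK1 v ≤ H)
    (hHK : H ≤ locK v) : IsInvAt v H (sumAt v H f) := by
  classical
  intro h hh
  rw [sumAt, rt_sum]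
  let e : KQ v ≃ KQ v := MulAction.toPerm (⟨h, hHK hh⟩ : locK v)
  refine Fintype.sum_bijective e e.bijective _ _ fun q => ?_
  have hq : e q = QuotientGroup.mk (⟨h, hHK hh⟩ * q.out) := by
    conv_lhs => rw [← QuotientGroup.out_eq' q]
    rfl
  simp only [hq, mem_out_iff hH, rt_out_eq hf hv, Subgroup.coe_mul, H.mul_mem_cancel_left hh]
  split_ifs
  · rw [rt_rt, ← map_mul]
  · rfl

/-- Averages of invariant functions are multiples. -/
lemma sumAt_eq_smul {H : Subgroup (G2 L)} (hH : locK1 v ≤ H) (hf : IsInvAt v H f) :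
    ∃ n : ℕ, n ≠ 0 ∧ sumAt v H f = (n : ℂ) • f := by
  classical
  refine ⟨(Finset.univ.filter fun q : KQ v => ((q.out : locK v) : G2 L) ∈ H).card,
    Finset.card_ne_zero.2 ⟨QuotientGroup.mk 1, Finset.mem_filter.2 ⟨Finset.mem_univ _,
      (mem_out_iff hH 1).2 (one_mem H)⟩⟩, ?_⟩
  rw [sumAt, ← Finset.sum_filter, Finset.sum_congr rfl (g := fun _ => f) fun q hq =>
    hf _ (Finset.mem_filter.1 hq).2, Finset.sum_const, Nat.cast_smul_eq_nsmul]

end

omit [IsTotallyComplex L] in
/-- Averages of good forms are good. -/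
lemma isGood_sumAt (hf : IsGood S c f) (hv : v ∈ S) (H : Subgroup (G2 L)) :
    IsGood S c (sumAt v H f) := by
  classical
  refine IsGood.sum _ _ fun q _ => ?_
  split_ifs
  · exact hf.rt_atV hv q.out.2
  · exact IsGood.zero

/-! ## Typed forms -/

variable {A : Finset (HeightOneSpectrum (𝓞 L))}

/-- An eigenform invariant under the cube ratio classes at the places of `A`. -/
def IsTypGen (S : Finset (HeightOneSpectrum (𝓞 L))) (c : HeightOneSpectrum (𝓞 L) → ℂ)
    (A : Finset (HeightOneSpectrum (𝓞 L))) (ψ : InfPts L → adelGrp L → ℂ) : Prop :=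
  IsGood S c ψ ∧ ∀ w ∈ A, IsInvAt w (cubeB w) ψ

/-- The translates of the generators. -/
def typSet (S : Finset (HeightOneSpectrum (𝓞 L))) (c : HeightOneSpectrum (𝓞 L) → ℂ)
    (A : Finset (HeightOneSpectrum (𝓞 L))) : Set (InfPts L → adelGrp L → ℂ) :=
  {h | ∃ (k : adelGrp L) (ψ : InfPts L → adelGrp L → ℂ), (∀ w, k.1 w ∈ locK w) ∧
    (∀ w ∉ S, k.1 w = 1) ∧ IsTypGen S c A ψ ∧ h = Whit.rt k ψ}

/-- The typed forms: combinations of translates, by integral elements at the places of the level,
of eigenforms invariant under the cube ratio classes at the places of `A`. -/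
def IsTyp (S : Finset (HeightOneSpectrum (𝓞 L))) (c : HeightOneSpectrum (𝓞 L) → ℂ)
    (A : Finset (HeightOneSpectrum (𝓞 L))) (f : InfPts L → adelGrp L → ℂ) : Prop :=
  f ∈ Submodule.span ℂ (typSet S c A)

omit [IsTotallyComplex L] in
/-- Generated typed forms are typed. -/
lemma IsTypGen.isTyp (hf : IsTypGen S c A f) : IsTyp S c A f :=
  Submodule.subset_span ⟨1, f, fun _ => one_mem _, fun _ _ => rfl, hf, (rt_one f).symm⟩

omit [IsTotallyComplex L] in
/-- Typed forms are good. -/
lemma IsTyp.good (hf : IsTyp S c A f) : IsGood S c f := by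
  induction hf using Submodule.span_induction with
  | mem x hx =>
    obtain ⟨k, ψ, hk, hk1, hψ, rfl⟩ := hx
    exact hψ.1.rt_of_form (hψ.1.form.rt hk) hk1
  | zero => exact IsGood.zero
  | add x y _ _ hx hy => exact hx.add hy
  | smul r x _ hx => exact hx.smul r

omit [IsTotallyComplex L] in
lemma IsTyp.rt (hf : IsTyp S c A f) {k : adelGrp L} (hk : ∀ w, k.1 w ∈ locK w)
    (hk1 : ∀ w ∉ S, k.1 w = 1) : IsTyp S c A (Whit.rt k f) := by
  induction hf using Submodule.span_induction with
  | mem x hx =>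
    obtain ⟨k', ψ, hk', hk1', hψ, rfl⟩ := hx
    refine Submodule.subset_span ⟨k * k', ψ, fun w => mul_mem (hk w) (hk' w), fun w hw => ?_, hψ,
      rt_rt _ _ _⟩
    show k.1 w * k'.1 w = 1
    rw [hk1 w hw, hk1' w hw, one_mul]
  | zero =>
    rw [show Whit.rt k (0 : InfPts L → adelGrp L → ℂ) = 0 from (rtL k).map_zero]; exact zero_mem _
  | add x y _ _ hx hy =>
    rw [show Whit.rt k (x + y) = Whit.rt k x + Whit.rt k y from (rtL k).map_add x y]
    exact add_mem hx hy
  | smul r x _ hx =>
    rw [show Whit.rt k (r • x) = r • Whit.rt k x from (rtL k).map_smul r x]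
    exact Submodule.smul_mem _ r hx

omit [IsTotallyComplex L] in
/-- Typed forms are stable under the maximal compact group. -/
lemma IsTyp.rt_atV (hf : IsTyp S c A f) (hv : v ∈ S) {k : G2 L} (hk : k ∈ locK v) :
    IsTyp S c A (Whit.rt (atV v k) f) :=
  hf.rt (atV_mem_all hk) fun w hw => atV_ne (fun e : w = v => hw (e ▸ hv)) k

/-! ## The group generated by unipotents and cube ratios -/

section

omit [IsTotallyComplex L]

/-- The conjugates of the integral unipotents, with the congruence subgroup. -/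
def unipGrp (v : HeightOneSpectrum (𝓞 L)) : Subgroup (G2 L) :=
  Subgroup.closure ({x | ∃ k ∈ locK v, ∃ b : L, v.valuation L b ≤ 1 ∧ x = k * nB b * k⁻¹} ∪
    (locK1 v : Set (G2 L)))

lemma locK1_le_unipGrp : locK1 v ≤ unipGrp v := fun _ hx => Subgroup.subset_closure (Or.inr hx)

/-- The unipotent group lies in the maximal compact group. -/
lemma unipGrp_le : unipGrp v ≤ locK v := by
  rw [unipGrp, Subgroup.closure_le]
  rintro x (⟨k, hk, b, hb, rfl⟩ | hx)
  · exact mul_mem (mul_mem hk (nB_mem_locK hb)) (inv_mem hk)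
  · exact locK1_le v hx

lemma unipGrp_conj {k x : G2 L} (hk : k ∈ locK v) (hx : x ∈ unipGrp v) :
    k * x * k⁻¹ ∈ unipGrp v := by
  induction hx using Subgroup.closure_induction with
  | mem x hx =>
    rcases hx with ⟨k', hk', b, hb, rfl⟩ | hx
    · exact Subgroup.subset_closure (Or.inl ⟨k * k', mul_mem hk hk', b, hb, by group⟩)
    · refine locK1_le_unipGrp ?_
      have := Whit.locK1_conj (inv_mem hk) hx
      rwa [inv_inv] at this
  | one => simp
  | mul a b _ _ ha hb =>
    rw [show k * (a * b) * k⁻¹ = k * a * k⁻¹ * (k * b * k⁻¹) by group]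
    exact mul_mem ha hb
  | inv a _ ha =>
    rw [show k * a⁻¹ * k⁻¹ = (k * a * k⁻¹)⁻¹ by group]
    exact inv_mem ha

lemma unipGrp_conj_iff {k x : G2 L} (hk : k ∈ locK v) :
    k * x * k⁻¹ ∈ unipGrp v ↔ x ∈ unipGrp v := by
  refine ⟨fun h => ?_, unipGrp_conj hk⟩
  have := unipGrp_conj (inv_mem hk) h
  rwa [show k⁻¹ * (k * x * k⁻¹) * k⁻¹⁻¹ = x by group] at this

/-- The swap. -/
def swapGL (L : Type*) [Field L] : GL (Fin 2) L :=
  GeneralLinearGroup.mkOfDetNeZero !![0, 1; 1, 0] (by simp)

omit [NumberField L] in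
lemma swap_val : (swapGL L).val = !![0, 1; 1, 0] := rfl

lemma swap_mem (v : HeightOneSpectrum (𝓞 L)) : swapGL L ∈ locGL v := by
  refine ⟨fun i j => ?_, by simp [swap_val]⟩
  fin_cases i <;> fin_cases j <;> simp [swap_val]

omit [NumberField L] in
lemma swap_mul_self : swapGL L * swapGL L = 1 := by
  apply Units.ext
  rw [Units.val_mul, swap_val, Units.val_one]
  ext i j
  fin_cases i <;> fin_cases j <;> simp [Matrix.mul_apply, Fin.sum_univ_two]

/-- Lower unipotents. -/
def lowGL (c : L) : GL (Fin 2) L := GeneralLinearGroup.mkOfDetNeZero !![1, 0; c, 1] (by simp)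

/-- The matrix of a lower unipotent. -/
lemma lowGL_val (c : L) : (lowGL c).val = !![1, 0; c, 1] := rfl

lemma low_eq_conj (c : L) : swapGL L * uB c * (swapGL L)⁻¹ = lowGL c := by
  rw [mul_inv_eq_iff_eq_mul]
  apply Units.ext
  rw [Units.val_mul, Units.val_mul, swap_val, lowGL_val]
  ext i j
  fin_cases i <;> fin_cases j <;> simp [Matrix.mul_apply, Fin.sum_univ_two]

/-- Integral lower unipotents lie in the group. -/
lemma mk_low_mem {c : L} (hc : v.valuation L c ≤ 1) :
    (ProjGenLinGroup.mk (lowGL c) : G2 L) ∈ unipGrp v := by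
  rw [← low_eq_conj, map_mul, map_mul, map_inv]
  exact Subgroup.subset_closure (Or.inl ⟨_, Subgroup.mem_map_of_mem _ (swap_mem v), c, hc, rfl⟩)

lemma nB_mem_unip {b : L} (hb : v.valuation L b ≤ 1) : (nB b : G2 L) ∈ unipGrp v :=
  Subgroup.subset_closure (Or.inl ⟨1, one_mem _, b, hb, by group⟩)

lemma dG_mem_gen {u : Lˣ} (hu : v.valuation L (u : L) = 1) :
    (dG u : G2 L) ∈ unipGrp v ⊔ cubeB v := by
  have h3 : (dG (u ^ 3) : G2 L) ∈ cubeB v := by
    refine Subgroup.mem_map_of_mem _
      ⟨⟨dB_mem_locGL (by rw [Units.val_pow_eq_pow_val, map_pow, hu, one_pow]),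
      by simp, by simp⟩, u, hu.le, by simp⟩
  have hsq : ∀ w : Lˣ, v.valuation L (w : L) = 1 → (dG (w * w) : G2 L) ∈ unipGrp v := by
    intro w hw
    have hw0 : (w : L) ≠ 0 := w.ne_zero
    have e : dB (w * w) = GeneralLinearGroup.scalar (Fin 2) w *
        (lowGL ((w : L)⁻¹ - 1) * uB 1 * lowGL ((w : L) - 1) * uB (-(w : L)⁻¹)) := by
      apply Units.ext
      ext i j
      simp only [Units.val_mul, lowGL_val, GeneralLinearGroup.coe_scalar]
      fin_cases i <;> fin_cases j <;> simp [Matrix.mul_apply, Fin.sum_univ_two] <;>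
        field_simp <;> ring
    have hinv : v.valuation L (w : L)⁻¹ = 1 := by rw [map_inv₀, hw, inv_one]
    rw [dG, e, map_mul, ProjGenLinGroup.mk_scalar, one_mul, map_mul, map_mul, map_mul]
    refine mul_mem (mul_mem (mul_mem (mk_low_mem ?_) (nB_mem_unip (map_one _).le)) (mk_low_mem ?_))
      (nB_mem_unip ?_)
    · exact ((v.valuation L).map_sub _ _).trans (max_le hinv.le (map_one _).le)
    · exact ((v.valuation L).map_sub _ _).trans (max_le hw.le (map_one _).le)
    · rw [Valuation.map_neg]; exact hinv.le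
  have := hsq u⁻¹ (by rw [Units.val_inv_eq_inv_val, map_inv₀, hu, inv_one])
  rw [show u = u ^ 3 * (u⁻¹ * u⁻¹) by group, dG_mul]
  exact mul_mem (Subgroup.mem_sup_right h3) (Subgroup.mem_sup_left this)

/-- At a place the integral classes are generated by the unipotents and the upper triangular
classes with cube ratio. -/
theorem locK_le_gen : locK v ≤ unipGrp v ⊔ cubeB v := by
  have key : ∀ G : GL (Fin 2) L, G ∈ locGL v → v.valuation L (G.val 1 1) = 1 →
      (ProjGenLinGroup.mk G : G2 L) ∈ unipGrp v ⊔ cubeB v := by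
    intro G hG hD
    set B := G.val 0 1
    set C := G.val 1 0
    set D := G.val 1 1
    have hD0 : D ≠ 0 := fun e => by rw [e, map_zero] at hD; exact zero_ne_one hD
    set α : Lˣ := Units.mk0 (G.val.det / (D * D)) (div_ne_zero (fun e => by
      have := hG.2; rw [e, map_zero] at this; exact zero_ne_one this) (mul_ne_zero hD0 hD0))
    have hα : v.valuation L (α : L) = 1 := by
      simp [α, hG.2, hD]
    have e : G = GeneralLinearGroup.scalar (Fin 2) (Units.mk0 D hD0) *
        (uB (B / D) * dB α * lowGL (C / D)) := by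
      apply Units.ext
      ext i j
      simp only [Units.val_mul, lowGL_val, GeneralLinearGroup.coe_scalar]
      fin_cases i <;> fin_cases j <;>
        simp [Matrix.mul_apply, Fin.sum_univ_two, α, B, C, D, Matrix.det_fin_two] <;>
        field_simp [show G.val 1 1 ≠ 0 from hD0]
      ring
    rw [e, map_mul, ProjGenLinGroup.mk_scalar, one_mul, map_mul, map_mul]
    refine mul_mem (mul_mem (Subgroup.mem_sup_left (nB_mem_unip ?_)) (dG_mem_gen hα))
      (Subgroup.mem_sup_left (mk_low_mem ?_))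
    · rw [map_div₀, hD, div_one]; exact hG.1 _ _
    · rw [map_div₀, hD, div_one]; exact hG.1 _ _
  rintro _ ⟨G, hG, rfl⟩
  by_cases hD : v.valuation L (G.val 1 1) = 1
  · exact key G hG hD
  have hlt : v.valuation L (G.val 1 1) < 1 := lt_of_le_of_ne (hG.1 _ _) hD
  have hC : v.valuation L (G.val 1 0) = 1 := by
    rcases unit_pairs hG with ⟨-, h⟩ | ⟨-, h⟩
    · exact absurd h hD
    · exact h
  have h1 : v.valuation L (1 : L) ≤ 1 := (map_one _).le
  have h' := key (G * uB 1) (mul_mem hG (uB_mem_locGL h1)) (by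
    rw [Units.val_mul, show ((G.val * (uB (1 : L)).val) 1 1) = G.val 1 0 + G.val 1 1 by
      simp [Matrix.mul_apply, Fin.sum_univ_two],
        Valuation.map_add_eq_of_lt_left _ (by rwa [hC]), hC])
  rw [map_mul] at h'
  exact ((unipGrp v ⊔ cubeB v).mul_mem_cancel_right (Subgroup.mem_sup_left (nB_mem_unip h1))).1 h'

lemma unifU_conj {G : GL (Fin 2) L} (hG : G ∈ locGL v) (h01 : v.valuation L (G.val 0 1) < 1) :
    (dG (unifU v) : G2 L)⁻¹ * ProjGenLinGroup.mk G * dG (unifU v) ∈ locK v := by
  rw [dG, ← map_inv, ← map_mul, ← map_mul]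
  refine Subgroup.mem_map_of_mem _ ?_
  set π : L := (unifU v : L)
  have hπ : v.valuation L π = exp (-1 : ℤ) := v_unifU v
  have hπ0 : π ≠ 0 := (unifU v).ne_zero
  have e : ((dB (unifU v))⁻¹ * G * dB (unifU v)).val =
      !![G.val 0 0, G.val 0 1 / π; G.val 1 0 * π, G.val 1 1] := by
    rw [mul_assoc, Units.val_mul, Units.val_mul]
    ext i j
    fin_cases i <;> fin_cases j <;>
      simp [Matrix.mul_apply, Fin.sum_univ_two, Matrix.coe_units_inv, Matrix.inv_def,
        Matrix.adjugate_fin_two, Matrix.det_fin_two, π] <;> field_simp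
  refine ⟨fun i j => ?_, ?_⟩
  · rw [e]
    fin_cases i <;> fin_cases j
    · exact hG.1 0 0
    · show v.valuation L (G.val 0 1 / π) ≤ 1
      rw [map_div₀, hπ]
      exact div_le_one_of_le₀ (val_le_exp_of_lt_one h01) zero_le
    · show v.valuation L (G.val 1 0 * π) ≤ 1
      rw [map_mul]
      exact mul_le_one' (hG.1 1 0) (by rw [hπ, ← exp_zero, exp_le_exp]; norm_num)
    · exact hG.1 1 1
  · rw [e, Matrix.det_fin_two]
    show v.valuation L (G.val 0 0 * G.val 1 1 - G.val 0 1 / π * (G.val 1 0 * π)) = 1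
    rw [show G.val 0 1 / π * (G.val 1 0 * π) = G.val 0 1 * G.val 1 0 by field_simp,
      ← Matrix.det_fin_two]
    exact hG.2

end

/-! ## Invariance and shift -/

/-- The generators invariant at `v` under all integral classes. -/
def fullSet (S : Finset (HeightOneSpectrum (𝓞 L))) (c : HeightOneSpectrum (𝓞 L) → ℂ)
    (A : Finset (HeightOneSpectrum (𝓞 L))) (v : HeightOneSpectrum (𝓞 L)) :
    Set (InfPts L → adelGrp L → ℂ) :=
  {h | ∃ (k : adelGrp L) (ψ : InfPts L → adelGrp L → ℂ), (∀ w, k.1 w ∈ locK w) ∧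
    (∀ w ∉ S, k.1 w = 1) ∧ k.1 v = 1 ∧ IsTypGen S c A ψ ∧ IsInvAt v (locK v) ψ ∧ h = Whit.rt k ψ}

omit [IsTotallyComplex L] in
lemma mem_span_full (hf : IsTyp S c A f) (hv : v ∈ S) (hvA : v ∈ A)
    (hinv : IsInvAt v (unipGrp v) f) : f ∈ Submodule.span ℂ (fullSet S c A v) := by
  classical
  obtain ⟨n, hn, hsum⟩ := sumAt_eq_smul locK1_le_unipGrp hinv
  suffices h : sumAt v (unipGrp v) f ∈ Submodule.span ℂ (fullSet S c A v) by
    rw [hsum] at h
    have := Submodule.smul_mem _ ((n : ℂ)⁻¹) h
    rwa [smul_smul, inv_mul_cancel₀ (Nat.cast_ne_zero.2 hn), one_smul] at this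
  clear hsum hinv
  induction hf using Submodule.span_induction with
  | mem x hx =>
    obtain ⟨k, ψ, hk, hk1, ⟨hψ, hψA⟩, rfl⟩ := hx
    obtain ⟨k', hk'v, hdec, hk'w⟩ := atV_decomp v k
    set ψ' := sumAt v (unipGrp v) ψ with hψ'
    have hcomm : ∀ g ∈ locK v, Whit.rt (atV v g) ψ' = sumAt v (unipGrp v) (Whit.rt (atV v g) ψ) :=
      fun g hg => rt_sumAt hψ.form hv locK1_le_unipGrp hg fun x _ => unipGrp_conj_iff hg
    have hinvK : IsInvAt v (locK v) ψ' := by
      rw [isInvAt_iff]
      refine locK_le_gen.trans (sup_le ((isInvAt_iff _).1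
        (isInvAt_sumAt hψ.form hv locK1_le_unipGrp unipGrp_le)) fun b hb => ?_)
      show Whit.rt (atV v b) ψ' = ψ'
      rw [hcomm b (cubeB_le_locK v hb), hψA v hvA b hb]
    have hgen : IsTypGen S c A ψ' := ⟨isGood_sumAt hψ hv _, fun w hw b hb => by
      rcases eq_or_ne w v with rfl | hne
      · exact hinvK b (cubeB_le_locK w hb)
      · rw [hψ', sumAt_comm_of_one (atV_ne hne.symm b), hψA w hw b hb]⟩
    refine Submodule.subset_span ⟨k', ψ', fun w => ?_, fun w hw => ?_, hk'v, hgen, hinvK, ?_⟩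
    · rcases eq_or_ne w v with rfl | hne
      · rw [hk'v]; exact one_mem _
      · rw [hk'w w hne]; exact hk w
    · rw [hk'w w fun e => hw (e ▸ hv)]; exact hk1 w hw
    · conv_lhs => rw [hdec, ← rt_rt, ← sumAt_comm_of_one hk'v, ← hcomm _ (hk v)]
      rw [hinvK _ (hk v)]
  | zero => rw [show sumAt v (unipGrp v) (0 : InfPts L → adelGrp L → ℂ) = 0 from
    (sumAtL v _).map_zero]; exact zero_mem _
  | add x y _ _ hx hy =>
    rw [show sumAt v (unipGrp v) (x + y) = sumAt v _ x + sumAt v _ y from (sumAtL v _).map_add x y]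
    exact add_mem hx hy
  | smul r x _ hx =>
    rw [show sumAt v (unipGrp v) (r • x) = r • sumAt v _ x from (sumAtL v _).map_smul r x]
    exact Submodule.smul_mem _ r hx

omit [IsTotallyComplex L] in
/-- A typed form invariant under the unipotents at a place of `A` is typed again after the shift
along the torus there. -/
theorem IsTyp.shift (hf : IsTyp S c A f) (hv : v ∈ S) (hvA : v ∈ A)
    (hinv : IsInvAt v (unipGrp v) f) : IsTyp S c A (Whit.rt (atV v (dG (unifU v))) f) := by
  have hfull := mem_span_full hf hv hvA hinv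
  clear hinv hf
  set d : G2 L := dG (unifU v) with hd
  induction hfull using Submodule.span_induction with
  | mem x hx =>
    obtain ⟨k, ψ, hk, hk1, hkv, ⟨hψ, hψA⟩, hK, rfl⟩ := hx
    rw [rt_comm_of_one hkv]
    set φ := Whit.rt (atV v d) ψ with hφ
    have hiw : ∀ G : GL (Fin 2) L, G ∈ locGL v → v.valuation L (G.val 0 1) < 1 →
        Whit.rt (atV v (ProjGenLinGroup.mk G)) φ = φ := by
      intro G hG h01
      rw [hφ, rt_rt, ← map_mul, show ProjGenLinGroup.mk G * d =
        d * (d⁻¹ * ProjGenLinGroup.mk G * d) by group, map_mul, ← rt_rt, hK _ (unifU_conj hG h01)]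
    have hform : IsForm S φ := by
      refine ⟨fun γ y a => ?_, fun y a u hu => ?_, fun a => hψ.form.cont _,
        hψ.form.bdd.imp fun B hB y a => hB _ _⟩
      · show ψ _ (glob γ * a * _) = ψ y (a * _)
        rw [mul_assoc, hψ.form.glob_smul]
      · obtain ⟨G, hG, hGu⟩ : u.1 v ∈ locK1 v := by rw [← ofFinset_loc_of_mem hv]; exact hu v
        obtain ⟨u', hu'v, hdec, hu'w⟩ := atV_decomp v u
        have hu'mem : u' ∈ levelGrp (Level.ofFinset S) := fun w => by
          rcases eq_or_ne w v with rfl | hne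
          · rw [hu'v]; exact one_mem _
          · rw [hu'w w hne]; exact hu w
        have h2 : φ y (a * u') = φ y a := by
          show ψ y (a * u' * atV v d) = ψ y (a * atV v d)
          rw [mul_assoc, ← atV_mul_of_eq_one hu'v, ← mul_assoc]
          exact hψ.form.right_inv _ _ _ hu'mem
        calc φ y (a * u) = Whit.rt (atV v (ProjGenLinGroup.mk G)) φ y (a * u') := by
              show φ y (a * u) = φ y (a * u' * atV v _)
              rw [hGu, mul_assoc, ← hdec]
          _ = φ y a := by rw [hiw G hG.1 hG.2.1, h2]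
    set ψ'' := Whit.rt (atV v (ProjGenLinGroup.mk (swapGL L))) φ with hψ''
    have hgood : IsGood S c ψ'' :=
      (hψ.rt_of_form hform fun w hw => atV_ne (fun e : w = v => hw (e ▸ hv)) _).rt_atV hv
        (Subgroup.mem_map_of_mem _ (swap_mem v))
    have hgen : IsTypGen S c A ψ'' := ⟨hgood, fun w hw b hb => by
      rcases eq_or_ne w v with rfl | hne
      · obtain ⟨B, hB, rfl⟩ := hb
        rw [hψ'', rt_rt, ← map_mul, ← map_mul,
          show B * swapGL L = swapGL L * (swapGL L * B * swapGL L) by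
          rw [← mul_assoc, ← mul_assoc, swap_mul_self, one_mul], map_mul, map_mul, ← rt_rt]
        congr 1
        refine hiw _ (mul_mem (mul_mem (swap_mem w) hB.1.1) (swap_mem w)) ?_
        rw [show (swapGL L * B * swapGL L).val 0 1 = B.val 1 0 by
          simp [swap_val, Matrix.mul_apply, Matrix.vecMul, dotProduct, Fin.sum_univ_two]]
        exact hB.1.2.1
      · rw [hψ'', hφ, rt_comm_of_one (atV_ne hne _), rt_comm_of_one (atV_ne hne _), hψA w hw b hb]⟩
    have hback : φ = Whit.rt (atV v (ProjGenLinGroup.mk (swapGL L))) ψ'' := by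
      rw [hψ'', rt_rt, ← map_mul, ← map_mul, swap_mul_self, map_one, map_one, rt_one]
    rw [hback, rt_rt]
    refine Submodule.subset_span ⟨k * atV v (ProjGenLinGroup.mk (swapGL L)), ψ'', fun w =>
      mul_mem (hk w) (atV_mem_all (Subgroup.mem_map_of_mem _ (swap_mem v)) w),
        fun w hw => ?_, hgen, rfl⟩
    show k.1 w * _ = 1
    rw [hk1 w hw, atV_ne (fun e : w = v => hw (e ▸ hv)), one_mul]
  | zero => rw [show Whit.rt (atV v d) (0 : InfPts L → adelGrp L → ℂ) = 0 from
    (rtL (atV v d)).map_zero]; exact zero_mem _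
  | add x y _ _ hx hy =>
    rw [show Whit.rt (atV v d) (x + y) = _ + _ from (rtL _).map_add x y]
    exact add_mem hx hy
  | smul r x _ hx =>
    rw [show Whit.rt (atV v d) (r • x) = _ from (rtL _).map_smul r x]
    exact Submodule.smul_mem _ r hx

end FermatAgent.LT.Period
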