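import Fermat.Agent.LT.Period.Unfold
import Fermat.Agent.LT.Period.Average
import Fermat.Agent.LT.Period.Density
import Fermat.Agent.LT.Whit.Lift
import Fermat.Agent.LT.Period.Typed

/-!
# The criterion for a nonvanishing period

Enlarging the level, the criterion for a nonzero period by growth near `s = 1`, and the bad primes
and traces of a system of eigenvalues that come from a lift of a surjection onto `GL₂(𝔽₃)`.
-/

set_option autoImplicit false

noncomputable section

open Matrix IsDedekindDomain NumberField Filter MeasureTheory UpperHalfPlane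
open scoped MatrixGroups Topology ContDiff

namespace FermatAgent.LT.Period

open FermatAgent.LT.Whit
open FermatAgent.GaloisBasic (Qbar)

variable {K : Type*} [Field K] [NumberField K] [IsTotallyComplex K] {θ : K}
  {S T : Finset (HeightOneSpectrum (𝓞 K))} {c : HeightOneSpectrum (𝓞 K) → ℂ}
  {f : InfPts K → adelGrp K → ℂ} {bad : Finset ℕ} {wt : ℕ → ℝ}

omit [IsTotallyComplex K] in
/-- A larger set of places gives a smaller level. -/
lemma levelGrp_anti (h : S ⊆ T) :
    levelGrp (Level.ofFinset T) ≤ levelGrp (Level.ofFinset S) := by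
  intro u hu v
  have := hu v
  by_cases hS : v ∈ S
  · rwa [ofFinset_loc_of_mem hS, ← ofFinset_loc_of_mem (h hS)]
  · rw [ofFinset_loc_of_notMem hS]
    by_cases hT : v ∈ T
    · rw [ofFinset_loc_of_mem hT] at this; exact locK1_le v this
    · rwa [ofFinset_loc_of_notMem hT] at this

omit [IsTotallyComplex K] in
/-- Enlarging the set of places. -/
theorem IsGood.mono (hf : IsGood S c f) (h : S ⊆ T) : IsGood T c f := by
  have hform : IsForm T f :=
    ⟨hf.form.glob_smul, fun y a u hu => hf.form.right_inv y a u (levelGrp_anti h hu), hf.form.cont,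
      hf.form.bdd⟩
  exact IsGood.of_deep hform (hf.deep.mono h)

omit [IsTotallyComplex K] in
/-- **The criterion**: a function on the plane invariant under `Γ₀(N)` has nonzero period if its
integrals over the strip against `y ^ s` dominate a series of size at least
`(s - 1) ^ (1/2)` times the exponential of the mass of a weight with excess, hence unbounded
as `2/3 > 1/2`; with zero period they would be bounded. -/
theorem periodSum_ne_zero_of_growth {Nl : ℕ} [NeZero Nl] (hN : 2 ≤ Nl) {Φ : ℍ → ℂ}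
    (hΦ : Continuous Φ) (hinv : ∀ g ∈ CongruenceSubgroup.Gamma0 Nl, ∀ z, Φ (g • z) = Φ z)
    (hdec : DecaysAtCusps Φ)
    (hlow : ∃ m : ℝ, 0 < m ∧ ∀ s : ℝ, 1 < s → s ≤ 2 → m * ‖∑' n, term c bad s n‖ ≤
      ‖∫ z in strip, ((z.im ^ s : ℝ) : ℂ) * Φ z‖)
    (hser : ∃ C : ℝ, ∀ s : ℝ, 1 < s → s ≤ 2 → Summable (wtTerm bad wt s) →
      Real.exp ((∑' p, wtTerm bad wt s p) + Real.log (s - 1) / 2 - C) ≤ ‖∑' n, term c bad s n‖)
    (hd : HasExcess bad wt) :
    periodSum Nl Φ ≠ 0 := by
  intro h0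
  obtain ⟨C₀, hd⟩ := hd
  obtain ⟨C₁, hser⟩ := hser
  obtain ⟨m, hm, hlow⟩ := hlow
  obtain ⟨C₂, hup⟩ := exists_strip_le hN hΦ.measurable hinv hdec
    (fun s hs => integrableOn_strip hΦ hdec s hs) h0
  have htend : Tendsto (fun s : ℝ => m * Real.exp (1 / 6 * -Real.log (s - 1) - C₀ - C₁))
      (𝓝[>] (1 : ℝ)) atTop := by
    refine Tendsto.const_mul_atTop hm (Real.tendsto_exp_atTop.comp ?_)
    refine tendsto_atTop_add_const_right _ _ (tendsto_atTop_add_const_right _ _
      (Tendsto.const_mul_atTop (by norm_num) (tendsto_neg_atBot_atTop.comp ?_)))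
    refine Real.tendsto_log_nhdsGT_zero.comp ?_
    refine tendsto_nhdsWithin_iff.2 ⟨?_, ?_⟩
    · exact ((continuous_id.sub continuous_const).tendsto' (1 : ℝ) 0 (sub_self 1)).mono_left
        nhdsWithin_le_nhds
    · filter_upwards [self_mem_nhdsWithin] with s (hs : 1 < s)
      exact sub_pos.2 hs
  have hev : ∀ᶠ s in 𝓝[>] (1 : ℝ), m * Real.exp (1 / 6 * -Real.log (s - 1) - C₀ - C₁) ≤ C₂ := by
    filter_upwards [hd, self_mem_nhdsWithin,
      mem_nhdsWithin_of_mem_nhds (Iic_mem_nhds (show (1 : ℝ) < 3 / 2 by norm_num))] with s hs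
        (hs1 : 1 < s) (hs2 : s ≤ 3 / 2)
    refine le_trans ?_ (hup s hs1 hs2)
    refine le_trans ?_ (hlow s hs1 (by linarith))
    refine mul_le_mul_of_nonneg_left (le_trans ?_ (hser s hs1 (by linarith) hs.1)) hm.le
    exact Real.exp_le_exp.2 (by linarith [hs.2])
  obtain ⟨s, h1, h2⟩ := (hev.and (htend.eventually_gt_atTop C₂)).exists
  exact not_lt.2 h1 h2

/-- The eigenvalue system `c` over the Eisenstein field lifts the Galois representation `e` onto
`GL₂(𝔽₃)` outside `bad₀`: with `g p` the image of a Frobenius at `p`, it is `± 2 √p` over a split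
`p` with `g p = ± 1`, and over an inert `p` it is `2 p` if `g p` is conjugate to `diag(1,-1)` and
`0` otherwise. -/
structure IsGaloisTraces (L : IntermediateField ℚ Qbar) [FiniteDimensional ℚ L] [IsGalois ℚ L]
    (e : (L ≃ₐ[ℚ] L) →* GL3) (g : ℕ → GL3) (bad₀ : Finset ℕ)
    (c : HeightOneSpectrum (𝓞 K) → ℂ) : Prop where
  surj : Function.Surjective e
  frob : ∀ p : ℕ, p.Prime → p ∉ bad₀ → IsFrobImage L e p (g p)
  det : ∀ p : ℕ, p.Prime → p ∉ bad₀ →
    Matrix.det (g p : Matrix (Fin 2) (Fin 2) (ZMod 3)) = (p : ZMod 3)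
  split : ∀ p : ℕ, p.Prime → p ∉ bad₀ → p % 3 = 1 →
    ∀ v : HeightOneSpectrum (𝓞 K), (p : 𝓞 K) ∈ v.asIdeal →
      (g p = 1 → c v = (√(p : ℝ) : ℂ) * 2) ∧ (g p = -1 → c v = (√(p : ℝ) : ℂ) * -2)
  inert : ∀ p : ℕ, p.Prime → p ∉ bad₀ → p % 3 = 2 →
    ∀ v : HeightOneSpectrum (𝓞 K), (p : 𝓞 K) ∈ v.asIdeal →
      (IsConj refl3 (g p) → c v = (p : ℂ) * 2) ∧ (¬IsConj refl3 (g p) → c v = 0)

omit [IsTotallyComplex K] in
open Classical in
/-- After enlarging the bad primes and the level, such a system has the prescribed traces, and their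
weight has excess. -/
theorem exists_bad_traces (L : IntermediateField ℚ Qbar) [FiniteDimensional ℚ L] [IsGalois ℚ L]
    {e : (L ≃ₐ[ℚ] L) →* GL3} {g : ℕ → GL3} {bad₀ : Finset ℕ}
    (h : IsGaloisTraces L e g bad₀ c) :
    ∃ (bad : Finset ℕ) (S' : Finset (HeightOneSpectrum (𝓞 K))),
      bad₀ ⊆ bad ∧ S ⊆ S' ∧ 3 ∈ bad ∧
      (∀ v : HeightOneSpectrum (𝓞 K), v ∈ S' ↔ ∃ p ∈ bad, p.Prime ∧ (p : 𝓞 K) ∈ v.asIdeal) ∧
      HasTraces S' c bad (fun p => wt3 (g p)) ∧ HasExcess bad (fun p => wt3 (g p)) := by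
  obtain ⟨he, hg, hdet, hsplit, hinert⟩ := h
  obtain ⟨S₀, hS₀⟩ := exists_density L e he
  have hbelow : ∀ v : HeightOneSpectrum (𝓞 K),
      ∃ p : ℕ, p.Prime ∧ (p : 𝓞 K) ∈ v.asIdeal := by
    intro v
    have hn : v.asIdeal.absNorm ≠ 1 := (Theta.Place.one_lt_qv v).ne'
    have hmem : ((v.asIdeal.absNorm : ℕ) : 𝓞 K) ∈ v.asIdeal := Ideal.absNorm_mem _
    have hn0 : v.asIdeal.absNorm ≠ 0 := (zero_lt_one.trans (Theta.Place.one_lt_qv v)).ne'
    rw [← Nat.prod_primeFactorsList hn0, Nat.cast_list_prod] at hmem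
    obtain ⟨q, hq, hqv⟩ := (Ideal.IsPrime.multiset_prod_mem_iff_exists_mem v.isPrime
      ((v.asIdeal.absNorm.primeFactorsList.map fun q : ℕ => (q : 𝓞 K) : List (𝓞 K)) :
        Multiset (𝓞 K))).1
        (by rwa [Multiset.prod_coe])
    obtain ⟨p, hp, rfl⟩ := List.mem_map.1 (Multiset.mem_coe.1 hq)
    exact ⟨p, Nat.prime_of_mem_primeFactorsList hp, hqv⟩
  choose below hbp hbv using hbelow
  set bad := bad₀ ∪ S₀ ∪ {3} ∪ S.image below with hbad
  have hsub0 : bad₀ ⊆ bad := fun p hp => by simp [hbad, hp]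
  have hsub1 : S₀ ⊆ bad := fun p hp => by simp [hbad, hp]
  set S' : Finset (HeightOneSpectrum (𝓞 K)) :=
    (bad.filter Nat.Prime).biUnion (placesOver K) with hS'
  have hmem : ∀ v : HeightOneSpectrum (𝓞 K),
      v ∈ S' ↔ ∃ p ∈ bad, p.Prime ∧ (p : 𝓞 K) ∈ v.asIdeal := fun v => by
    simp only [hS', Finset.mem_biUnion, Finset.mem_filter, and_assoc]
    constructor
    · rintro ⟨p, hp, hpp, h⟩; exact ⟨p, hp, hpp, (mem_over hpp.ne_zero).1 h⟩
    · rintro ⟨p, hp, hpp, h⟩; exact ⟨p, hp, hpp, (mem_over hpp.ne_zero).2 h⟩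
  have hSS : S ⊆ S' := fun v hv =>
    (hmem v).2 ⟨below v, Finset.mem_union_right _ (Finset.mem_image_of_mem _ hv), hbp v, hbv v⟩
  have h3 : 3 ∈ bad := by simp [hbad]
  set wt : ℕ → ℝ := fun p => wt3 (g p)
  have hT : HasTraces S' c bad wt := by
    refine ⟨h3, hmem, fun p hp hb h1 => ?_, fun p hp hb h2 v hv => ?_⟩
    · have hb₀ : p ∉ bad₀ := fun h => hb (hsub0 h)
      have hd := hdet p hp hb₀
      rw [← ZMod.natCast_mod, h1, Nat.cast_one] at hd
      simp only [wt, wt3]
      by_cases hpm : g p = 1 ∨ g p = -1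
      · refine Or.inr ⟨if_pos hpm, ?_⟩
        rcases hpm with h | h
        · exact ⟨2, Or.inl rfl, fun v hv => (hsplit p hp hb₀ h1 v ((mem_over hp.ne_zero).1 hv)).1 h⟩
        · exact ⟨-2, Or.inr rfl,
            fun v hv => (hsplit p hp hb₀ h1 v ((mem_over hp.ne_zero).1 hv)).2 h⟩
      · left
        rw [if_neg hpm, if_neg]
        intro hc
        obtain ⟨u, hu⟩ := isConj_iff.1 hc
        have := congrArg (fun x : GL3 => Matrix.GeneralLinearGroup.det x) hu
        simp only [map_mul, map_inv, mul_inv_cancel_comm] at this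
        have h' := congrArg Units.val this
        simp only [Matrix.GeneralLinearGroup.val_det_apply, hd] at h'
        revert h'
        simp [refl3, Matrix.det_fin_two]
        decide
    · have hb₀ : p ∉ bad₀ := fun h => hb (hsub0 h)
      have hd := hdet p hp hb₀
      rw [← ZMod.natCast_mod, h2] at hd
      have hpm : ¬(g p = 1 ∨ g p = -1) := by
        rintro (h | h) <;> rw [h] at hd <;> simp [Matrix.det_fin_two] at hd <;> revert hd <;> decide
      simp only [wt, wt3, if_neg hpm]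
      obtain ⟨ha, hb'⟩ := hinert p hp hb₀ h2 v ((mem_over hp.ne_zero).1 hv)
      by_cases hc : IsConj refl3 (g p)
      · exact Or.inl ⟨if_pos hc, ha hc⟩
      · exact Or.inr ⟨if_neg hc, hb' hc⟩
  exact ⟨bad, S', hsub0, hSS, h3, hmem, hT,
    hS₀ bad hsub1 g fun p hp hb => hg p hp fun h => hb (hsub0 h)⟩

open Classical in
/-- The places of the level not over three. -/
def offThree (S : Finset (HeightOneSpectrum (𝓞 K))) : Finset (HeightOneSpectrum (𝓞 K)) :=
  S.filter fun v => (3 : 𝓞 K) ∉ v.asIdeal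

omit [IsTotallyComplex K] in
/-- Enlarging the level of a typed generator. -/
theorem IsTypGen.mono (hf : IsTypGen S c (offThree S) f) (h : S ⊆ T) :
    IsTypGen T c (offThree T) f := by
  classical
  refine ⟨hf.1.mono h, fun w hw b hb => ?_⟩
  obtain ⟨-, h3⟩ := Finset.mem_filter.1 hw
  by_cases hS : w ∈ S
  · exact hf.2 w (Finset.mem_filter.2 ⟨hS, h3⟩) b hb
  · funext y a
    exact hf.1.form.right_inv y a _
      (atV_mem_levelGrp (by rw [ofFinset_loc_of_notMem hS]; exact cubeB_le_locK w hb))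

end FermatAgent.LT.Period
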