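import Fermat.Agent.LT.Period.Newvector
import Fermat.Agent.LT2.Period.Main

/-!
# A nonvanishing period at tame level

A form of level `S` is a form of deep level one at the places of `S`, with the same Whittaker
function.  Hence a typed cuspidal eigenform over the Eisenstein field whose eigenvalues
at the known places are the traces of a lift of a surjection onto `GL₂(𝔽₃)` has, after enlarging
the level and passing to a flat vector, a nonzero period along the hyperbolic plane.
-/

set_option autoImplicit false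

noncomputable section

open Matrix IsDedekindDomain NumberField Filter MeasureTheory UpperHalfPlane WithZero
open scoped MatrixGroups Topology

namespace FermatAgent.LT.Period

open FermatAgent.LT.Whit
open FermatAgent.GaloisBasic (Qbar)

variable {L : Type*} [Field L] [NumberField L] [IsTotallyComplex L]
  {S : Finset (HeightOneSpectrum (𝓞 L))} {c : HeightOneSpectrum (𝓞 L) → ℂ}
  {f : InfPts L → adelGrp L → ℂ}

/-- A form on the first layer is flat of depth one. -/
theorem isFlat_one (hf : IsForm S f) {v : HeightOneSpectrum (𝓞 L)} (hv : v ∈ S)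
    (h : LT2.Period.IsLayer v 1 f) : LT2.Period.IsFlat 1 v f := by
  have hd : LT2.Period.dep 1 v = 1 := by simp [LT2.Period.dep]
  refine ⟨by simpa [hd] using h, fun g hg y a => hf.right_inv y a _ (atV_mem_levelGrp ?_)⟩
  rw [ofFinset_loc_of_mem hv]; rw [hd] at hg; exact locKN_one_le v hg

variable {K : Type*} [Field K] [NumberField K] [IsTotallyComplex K] {θ : K}
  {S : Finset (HeightOneSpectrum (𝓞 K))} {c : HeightOneSpectrum (𝓞 K) → ℂ}
  {f : InfPts K → adelGrp K → ℂ} (hE : IsEis θ)

include hE in
/-- **A nonvanishing period at tame level**: for a typed eigenform whose eigenvalues lift a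
Galois representation onto `GL₂(𝔽₃)`, some flat typed vector of the system is invariant under
`Γ₀(D²)` along the shifted plane and has nonzero period, `D` the product of the bad primes. -/
theorem exists_typed_period (L : IntermediateField ℚ Qbar) [FiniteDimensional ℚ L] [IsGalois ℚ L]
    {e : (L ≃ₐ[ℚ] L) →* GL3} {g : ℕ → GL3} {bad₀ : Finset ℕ}
    (h : IsGaloisTraces L e g bad₀ c)
    (hf : IsTypGen S c (offThree S) f) (hne : f ≠ 0) :
    ∃ (bad : Finset ℕ) (S' : Finset (HeightOneSpectrum (𝓞 K)))
      (φ : InfPts K → adelGrp K → ℂ) (_ : NeZero (badProd bad ^ 2)),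
      bad₀ ⊆ bad ∧ 3 ∈ bad ∧
      (∀ v : HeightOneSpectrum (𝓞 K), v ∈ S' ↔ ∃ p ∈ bad, p.Prime ∧ (p : 𝓞 K) ∈ v.asIdeal) ∧
      IsTyp S' c (offThree S') φ ∧ periodSum (badProd bad ^ 2) (cycle hE bad φ) ≠ 0 ∧
      ∀ g ∈ CongruenceSubgroup.Gamma0 (badProd bad ^ 2), ∀ z : ℍ,
        cycle hE bad φ (g • z) = cycle hE bad φ z := by
  classical
  obtain ⟨bad, S', hsub0, hSS, h3, hmem, hT, hd⟩ :=
    exists_bad_traces (S := S) L h
  obtain ⟨φ, hφ0, hφ, hflat⟩ := exists_flat_typed (Finset.filter_subset _ _) (hf.mono hSS) hne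
  have : NeZero (badProd bad ^ 2) := ⟨pow_ne_zero _ badProd_pos.ne'⟩
  have hflat' := fun w hw => isFlat_one hφ.good.form hw (hflat w hw)
  have e : LT2.Period.cyc hE (badProd bad ^ 1) φ = cycle hE bad φ := by
    funext z; simp [LT2.Period.cyc, cycle]
  refine ⟨bad, S', φ, inferInstance, hsub0, h3, hmem, hφ, ?_⟩
  rw [← e]
  exact ⟨LT2.Period.periodSum_ne_zero hE le_rfl hφ.good.deep hflat' hφ0 hT (by simp) hd,
    fun γ hγ z => LT2.Period.cycle_smul hE le_rfl hφ.good.deep hflat' hT
      (LT2.Period.Gamma0_dvd (by simp) hγ) z⟩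

end FermatAgent.LT.Period
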