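import Fermat.Agent.LT.Period.Typed
import Fermat.Agent.LT.Descent.Spec.RamAct

/-!
# Typed forms at the ramified places

An eigenform not annihilated by the class functions at the ramified places gives a nonzero one
invariant there under the upper triangular classes with cube ratio.
-/

set_option autoImplicit false

noncomputable section

open Matrix IsDedekindDomain NumberField WithZero
open scoped MatrixGroups

namespace FermatAgent.LT.Period

open FermatAgent.LT.Whit
open FermatAgent.LT.Ctx (ramFun ramAct)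

variable {K : Type*} [Field K] [NumberField K] {v : HeightOneSpectrum (𝓞 K)}

/-- The residual lines. -/
abbrev Lines (v : HeightOneSpectrum (𝓞 K)) := ↥(locK v) ⧸ (locTame v 0).subgroupOf (locK v)

instance finiteLines (v : HeightOneSpectrum (𝓞 K)) : Finite (Lines v) :=
  Nat.finite_of_card_ne_zero (relIndex_locTame_zero_ne_zero v)

instance fintypeLines (v : HeightOneSpectrum (𝓞 K)) : Fintype (Lines v) := Fintype.ofFinite _

lemma lines_eq_iff {a b : locK v} :
    (QuotientGroup.mk a : Lines v) = QuotientGroup.mk b ↔ (a : G2 K)⁻¹ * b ∈ locTame v 0 := by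
  rw [QuotientGroup.eq, Subgroup.mem_subgroupOf, Subgroup.coe_mul, Subgroup.coe_inv]

omit [NumberField K] in
lemma smul_mk_eq_iff {H : Subgroup (G2 K)} {g t : G2 K} :
    g • (QuotientGroup.mk t : G2 K ⧸ H) = QuotientGroup.mk t ↔ t⁻¹ * g * t ∈ H := by
  rw [MulAction.Quotient.smul_mk, smul_eq_mul, QuotientGroup.eq, _root_.mul_inv_rev,
    ← inv_mem_iff, _root_.mul_inv_rev, _root_.mul_inv_rev, inv_inv, inv_inv, mul_assoc]

lemma mem_conj_iff {g t : G2 K} {b : G2 K} (hb : b ∈ locTame v 0) :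
    (t * b)⁻¹ * g * (t * b) ∈ locTame v 0 ↔ t⁻¹ * g * t ∈ locTame v 0 := by
  rw [show (t * b)⁻¹ * g * (t * b) = b⁻¹ * (t⁻¹ * g * t) * b by group,
    (locTame v 0).mul_mem_cancel_right hb, (locTame v 0).mul_mem_cancel_left (inv_mem hb)]

open Classical in
/-- The lines fixed by a class. -/
def fixLines (v : HeightOneSpectrum (𝓞 K)) (g : G2 K) : Finset (Lines v) :=
  Finset.univ.filter fun t => ((t.out : locK v) : G2 K)⁻¹ * g * t.out ∈ locTame v 0

lemma mk_mem_fixLines {g : G2 K} (a : locK v) :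
    (QuotientGroup.mk a : Lines v) ∈ fixLines v g ↔ (a : G2 K)⁻¹ * g * a ∈ locTame v 0 := by
  classical
  obtain ⟨b, hb⟩ := QuotientGroup.mk_out_eq_mul ((locTame v 0).subgroupOf (locK v)) a
  rw [fixLines, Finset.mem_filter, hb, Subgroup.coe_mul,
    mem_conj_iff (show ((b : locK v) : G2 K) ∈ locTame v 0 from b.2)]
  simp

lemma card_fixLines (g : G2 K) :
    Nat.card {e : G2 K ⧸ locTame v 0 // (e.out : G2 K) ∈ locK v ∧ g • e = e} =
      (fixLines v g).card := by
  classical
  rw [← Nat.card_eq_finsetCard]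
  have hout : ∀ t : locK v, ((QuotientGroup.mk (t : G2 K) : G2 K ⧸ locTame v 0).out : G2 K) ∈
      locK v :=
    fun t => by
      obtain ⟨b, hb⟩ := QuotientGroup.mk_out_eq_mul (locTame v 0) (t : G2 K)
      rw [hb]
      exact mul_mem t.2 (locTame_le v 0 b.2)
  refine (Nat.card_congr (Equiv.ofBijective (fun t : fixLines v g =>
    (⟨QuotientGroup.mk ((t.1.out : locK v) : G2 K), hout _,
      smul_mk_eq_iff.2 (Finset.mem_filter.1 t.2).2⟩ :
      {e : G2 K ⧸ locTame v 0 // (e.out : G2 K) ∈ locK v ∧ g • e = e})) ⟨fun t t' h => ?_,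
        fun e => ?_⟩)).symm
  · have h' := congrArg Subtype.val h
    apply Subtype.ext
    rw [← QuotientGroup.out_eq' t.1, ← QuotientGroup.out_eq' t'.1, lines_eq_iff]
    exact QuotientGroup.eq.1 h'
  · obtain ⟨e, he, hge⟩ := e
    rw [← QuotientGroup.out_eq' e, smul_mk_eq_iff] at hge
    refine ⟨⟨QuotientGroup.mk (⟨e.out, he⟩ : locK v), (mk_mem_fixLines _).2 hge⟩, Subtype.ext ?_⟩
    show QuotientGroup.mk _ = e
    conv_rhs => rw [← QuotientGroup.out_eq' e]
    rw [QuotientGroup.eq]
    have h1 :=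
      lines_eq_iff.1 (QuotientGroup.out_eq' (QuotientGroup.mk (⟨e.out, he⟩ : locK v) : Lines v))
    exact h1

variable (h3 : v.valuation K 3 = 1) (hz : ∃ z : 𝓞 K, z ^ 2 + z + 1 ∈ v.asIdeal)
include h3 hz

/-- A class which is not a cube fixes two lines. -/
lemma card_fixLines_eq_two {g : G2 K} (hg : g ∈ locK v) (hc : ¬IsCubeCls v g) :
    (fixLines v g).card = 2 := by
  classical
  obtain ⟨k, hk, G, hG, hGe⟩ := exists_fixed_line h3 hz hg hc
  set A := G.val 0 0
  set B := G.val 0 1
  set C := G.val 1 0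
  set D := G.val 1 1
  have hAD : v.valuation K (D - A) = 1 := by
    refine le_antisymm (((v.valuation K).map_sub _ _).trans (max_le (hG.1.1 _ _) (hG.1.1 _ _)))
      (not_lt.1 fun hlt => hc ((isCubeCls_conj_iff hk).1 ?_))
    rw [← hGe]
    refine isCubeCls_of_cubeB h3 (Subgroup.mem_map_of_mem _ ⟨hG, 1, (map_one _).le, ?_⟩)
    rw [one_pow, one_mul, Valuation.map_sub_swap]
    exact hlt
  have hAD0 : D - A ≠ 0 := fun e => by rw [e, map_zero] at hAD; exact zero_ne_one hAD
  set y := B / (D - A) with hy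
  have hyle : v.valuation K y ≤ 1 := by rw [hy, map_div₀, hAD, div_one]; exact hG.1.1 _ _
  obtain ⟨P, hP, hPv, hPi⟩ := exists_swap hyle
  set p : locK v := ⟨ProjGenLinGroup.mk P, Subgroup.mem_map_of_mem _ hP⟩
  set k' : locK v := ⟨k, hk⟩
  have hfix : (fixLines v g) = {QuotientGroup.mk k', QuotientGroup.mk (k' * p)} := by
    ext t
    obtain ⟨s, rfl⟩ : ∃ s : locK v, QuotientGroup.mk (k' * s) = t := by
      refine ⟨k'⁻¹ * t.out, ?_⟩
      rw [mul_inv_cancel_left, QuotientGroup.out_eq']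
    rw [mk_mem_fixLines, Finset.mem_insert, Finset.mem_singleton, lines_eq_iff, lines_eq_iff]
    obtain ⟨S, hS, hSs⟩ := s.2
    simp only [Subgroup.coe_mul, k', p, ← hSs]
    rw [show (k * ProjGenLinGroup.mk S)⁻¹ * g * (k * ProjGenLinGroup.mk S) =
      (ProjGenLinGroup.mk S)⁻¹ * (k⁻¹ * g * k) * ProjGenLinGroup.mk S by group, ← hGe, ← map_inv,
      ← map_mul, ← map_mul,
      show (k * ProjGenLinGroup.mk S)⁻¹ * k = (ProjGenLinGroup.mk S⁻¹ : G2 K) by
        rw [map_inv, _root_.mul_inv_rev, inv_mul_cancel_right],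
      show (k * ProjGenLinGroup.mk S)⁻¹ * (k * ProjGenLinGroup.mk P) =
        (ProjGenLinGroup.mk (S⁻¹ * P) : G2 K) by
        rw [map_mul, map_inv, _root_.mul_inv_rev, mul_assoc, inv_mul_cancel_left]]
    have hmem : ∀ X : GL (Fin 2) K, X ∈ locGL v →
        ((ProjGenLinGroup.mk X : G2 K) ∈ locTame v 0 ↔ v.valuation K (X.val 1 0) < 1) := fun X hX =>
      ⟨fun h => (mk_eq_mem_tame hX h).2.1, fun h => Subgroup.mem_map_of_mem _ ⟨hX, h, by simp⟩⟩
    rw [hmem _ (mul_mem (mul_mem (inv_mem hS) hG.1) hS), hmem _ (inv_mem hS),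
      hmem _ (mul_mem (inv_mem hS) hP)]
    have hdet : v.valuation K S.val.det = 1 := hS.2
    have hd0 : S.val.det ≠ 0 := fun e => by rw [e, map_zero] at hdet; exact zero_ne_one hdet
    set p₀ := S.val 0 0
    set r := S.val 1 0
    have e1 : (S⁻¹).val 1 0 = -r / S.val.det := by
      rw [Matrix.coe_units_inv, Matrix.inv_def, Matrix.adjugate_fin_two]
      simp [r, div_eq_inv_mul]
    have e1' : (S⁻¹).val 1 1 = p₀ / S.val.det := by
      rw [Matrix.coe_units_inv, Matrix.inv_def, Matrix.adjugate_fin_two]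
      simp [p₀, div_eq_inv_mul]
    have e2 : (S⁻¹ * P).val 1 0 = (p₀ - y * r) / S.val.det := by
      simp only [Units.val_mul, Matrix.mul_apply, Fin.sum_univ_two, e1, e1', hPv]
      simp
      ring
    have e3 : (S⁻¹ * G * S).val 1 0 =
        ((D - A) * r * (p₀ - y * r) + C * p₀ * p₀) / S.val.det := by
      simp only [Units.val_mul, Matrix.mul_apply, Fin.sum_univ_two, e1, e1', hy, A, B, C, D, p₀, r]
      rw [show G.val 1 1 - G.val 0 0 = D - A from rfl]
      field_simp
      simp only [D, A]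
      ring
    rw [e1, e2, e3, map_div₀, map_div₀, map_div₀, hdet, div_one, div_one,
      div_one, Valuation.map_neg]
    have hC : v.valuation K (C * p₀ * p₀) < 1 := by
      rw [map_mul, map_mul]
      exact mul_lt_one_of_lt_of_le (mul_lt_one_of_lt_of_le hG.2.1 (hS.1 _ _)) (hS.1 _ _)
    have hr1 : v.valuation K r ≤ 1 := hS.1 _ _
    have hq1 : v.valuation K (p₀ - y * r) ≤ 1 :=
      ((v.valuation K).map_sub _ _).trans (max_le (hS.1 _ _) (by
        rw [map_mul]; exact mul_le_one' hyle hr1))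
    constructor
    · intro h
      have h' : v.valuation K ((D - A) * r * (p₀ - y * r)) < 1 := by
        have := ((v.valuation K).map_sub _ _).trans_lt (max_lt h hC)
        rwa [add_sub_cancel_right] at this
      rw [map_mul, map_mul, hAD, one_mul] at h'
      by_contra hcon
      push Not at hcon
      exact h'.not_ge (one_le_mul hcon.1 hcon.2)
    · intro h
      refine (v.valuation K).map_add_lt ?_ hC
      rw [map_mul, map_mul, hAD, one_mul]
      rcases h with h | h
      · exact mul_lt_one_of_lt_of_le h hq1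
      · exact Right.mul_lt_one_of_le_of_lt hr1 h
  rw [hfix, Finset.card_pair]
  rw [Ne, lines_eq_iff]
  simp only [Subgroup.coe_mul, k', p, inv_mul_cancel_left]
  intro h
  have := (mk_eq_mem_tame hP h).2.1
  rw [hPv] at this
  simp at this

open Classical in
/-- The class function as a combination of indicators. -/
lemma ramFun_identity {g : G2 K} (hg : g ∈ locK v) :
    2 * ((locK1 v).relIndex (locK v) : ℂ) * ramFun v g = 2 + ∑ t : Lines v,
      (3 * (if ((t.out : locK v) : G2 K)⁻¹ * g * t.out ∈ cubeB v then (1 : ℂ) else 0) -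
        if ((t.out : locK v) : G2 K)⁻¹ * g * t.out ∈ locTame v 0 then (1 : ℂ) else 0) := by
  have hidx : ((locK1 v).relIndex (locK v) : ℂ) ≠ 0 := Nat.cast_ne_zero.2 (relIndex_locK1_ne_zero v)
  have hiff : ∀ t : Lines v, ((t.out : locK v) : G2 K)⁻¹ * g * t.out ∈ cubeB v ↔
      IsCubeCls v g ∧ ((t.out : locK v) : G2 K)⁻¹ * g * t.out ∈ locTame v 0 := fun t =>
    ⟨fun h => ⟨(isCubeCls_conj_iff t.out.2).1 (isCubeCls_of_cubeB h3 h), cubeB_le v h⟩,
      fun h => (mem_cubeB_iff h3 h.2).2 ((isCubeCls_conj_iff t.out.2).2 h.1)⟩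
  rw [ramFun, card_fixLines, Finset.sum_sub_distrib, ← Finset.mul_sum, Finset.sum_boole,
    Finset.sum_boole, ← fixLines]
  by_cases hcube : IsCubeCls v g
  · rw [if_pos (show g ∈ locK v ∧ _ from hcube), show (Finset.univ.filter fun t : Lines v =>
      ((t.out : locK v) : G2 K)⁻¹ * g * t.out ∈ cubeB v) = fixLines v g from
      Finset.filter_congr fun t _ => by simp [hiff, hcube]]
    field_simp
    ring
  · rw [if_neg (show ¬(g ∈ locK v ∧ _) from hcube), show (Finset.univ.filter fun t : Lines v =>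
      ((t.out : locK v) : G2 K)⁻¹ * g * t.out ∈ cubeB v) = ∅ from
      Finset.filter_eq_empty_iff.2 fun t _ => by simp [hiff, hcube],
      card_fixLines_eq_two h3 hz hg hcube]
    simp

omit h3 hz

variable {S : Finset (HeightOneSpectrum (𝓞 K))}
  {c : HeightOneSpectrum (𝓞 K) → ℂ} {f : InfPts K → adelGrp K → ℂ}

/-- A map killing all sums over a subgroup kills the sum over a larger one. -/
lemma map_sumAt_eq_zero (hf : IsForm S f) (hv : v ∈ S) {H' H : Subgroup (G2 K)} (hH : locK1 v ≤ H')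
    (hle : H' ≤ H) (hHK : H ≤ locK v)
    (T : (InfPts K → adelGrp K → ℂ) →ₗ[ℂ] (InfPts K → adelGrp K → ℂ))
    (h0 : ∀ k ∈ locK v, T (sumAt v H' (Whit.rt (atV v k) f)) = 0) : T (sumAt v H f) = 0 := by
  classical
  obtain ⟨n, hn, he⟩ := sumAt_eq_smul (f := sumAt v H f) hH
    (fun h hh => isInvAt_sumAt hf hv (hH.trans hle) hHK h (hle hh))
  have hz0 : T (sumAt v H' (sumAt v H f)) = 0 := by
    show (T ∘ₗ sumAtL v H') (sumAt v H f) = 0
    rw [sumAt.eq_1 v H f, map_sum]
    refine Finset.sum_eq_zero fun q _ => ?_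
    split_ifs
    · exact h0 _ q.out.2
    · exact map_zero _
  rw [he, map_smul] at hz0
  exact (smul_eq_zero.1 hz0).resolve_left (Nat.cast_ne_zero.2 hn)

include h3 hz in
/-- A map killing all cube sums kills the action of the class function. -/
theorem map_ramAct_eq_zero (hf : IsForm S f) (hv : v ∈ S)
    (T : (InfPts K → adelGrp K → ℂ) →ₗ[ℂ] (InfPts K → adelGrp K → ℂ))
    (hT : ∀ (k : G2 K) F, T (Whit.rt (atV v k) F) = Whit.rt (atV v k) (T F))
    (h0 : ∀ k ∈ locK v, T (sumAt v (cubeB v) (Whit.rt (atV v k) f)) = 0) :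
    T (ramAct v f) = 0 := by
  classical
  have hconj : ∀ (H : Subgroup (G2 K)), locK1 v ≤ H → cubeB v ≤ H → H ≤ locK v → ∀ t ∈ locK v,
      T (sumAt v (H.map (MulAut.conj t).toMonoidHom) f) = 0 := by
    intro H hH1 hH hHK t ht
    have hform : IsForm S (Whit.rt (atV v t⁻¹) f) := hf.rt fun w => atV_mem_all (inv_mem ht) w
    have he := rt_sumAt_of hform hv (H' := H.map (MulAut.conj t).toMonoidHom) (H := H) (k := t)
      (fun x hx => ⟨t⁻¹ * x * t, hH1 (by
        have := Whit.locK1_conj ht hx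
        exact this), by simp [MulAut.conj_apply]; group⟩) ht
      fun x _ => by
        show (MulAut.conj t).toMonoidHom x ∈ _ ↔ _
        exact Subgroup.mem_map_iff_mem (MulAut.conj t).injective
    rw [rt_rt, ← map_mul, mul_inv_cancel, map_one, rt_one] at he
    rw [← he, hT, map_sumAt_eq_zero hform hv (locK1_le_cubeB v) hH hHK T fun k hk => ?_]
    · exact map_zero (rtL (atV v t))
    · rw [rt_rt, ← map_mul]
      exact h0 _ (mul_mem hk (inv_mem ht))
  have hfull : T (sumAt v (locK v) f) = 0 :=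
    map_sumAt_eq_zero hf hv (locK1_le_cubeB v) (cubeB_le_locK v) le_rfl T h0
  set X : KQ v → InfPts K → adelGrp K → ℂ := fun q => Whit.rt (atV v ((q.out : locK v) : G2 K)) f
  have hsum : ∀ (H : Subgroup (G2 K)), T (sumAt v H f) = 0 →
      ∑ q : KQ v, (if ((q.out : locK v) : G2 K) ∈ H then (1 : ℂ) else 0) • T (X q) = 0 := by
    intro H hH
    rw [← hH, sumAt, map_sum]
    refine Finset.sum_congr rfl fun q _ => ?_
    split_ifs <;> simp [X]
  have hall : ∑ q : KQ v, T (X q) = 0 := by
    refine (Finset.sum_congr rfl fun q _ => ?_).trans (hsum _ hfull)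
    rw [if_pos q.out.2, one_smul]
  have hmem : ∀ (H : Subgroup (G2 K)) (t x : G2 K),
      t⁻¹ * x * t ∈ H ↔ x ∈ H.map (MulAut.conj t).toMonoidHom := fun H t x => by
    rw [Subgroup.mem_map_equiv, MulAut.conj_symm_apply]
  have hidx : (2 * ((locK1 v).relIndex (locK v) : ℂ)) ≠ 0 :=
    mul_ne_zero two_ne_zero (Nat.cast_ne_zero.2 (relIndex_locK1_ne_zero v))
  refine (smul_eq_zero.1
    (?_ : (2 * ((locK1 v).relIndex (locK v) : ℂ)) • T (ramAct v f) = 0)).resolve_left
    hidx
  rw [ramAct, finsum_eq_sum_of_fintype, map_sum, Finset.smul_sum,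
    Finset.sum_congr rfl fun q _ => by
      rw [map_smul, smul_smul, ramFun_identity h3 hz q.out.2, add_smul, Finset.sum_smul],
    Finset.sum_add_distrib, ← Finset.smul_sum, hall, smul_zero, zero_add, Finset.sum_comm]
  refine Finset.sum_eq_zero fun t _ => ?_
  rw [Finset.sum_congr rfl fun q _ => by rw [sub_smul, mul_smul], Finset.sum_sub_distrib,
    ← Finset.smul_sum]
  simp only [hmem]
  rw [hsum _ (hconj _ (locK1_le_cubeB v) le_rfl (cubeB_le_locK v) _ t.out.2),
    hsum _ (hconj _ (locK1_le_locTame v 0) (cubeB_le v) (locTame_le v 0) _ t.out.2),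
    smul_zero, sub_zero]

/-- The class function acting, as a linear map. -/
def ramL (v : HeightOneSpectrum (𝓞 K)) :
    (InfPts K → adelGrp K → ℂ) →ₗ[ℂ] (InfPts K → adelGrp K → ℂ) :=
  ∑ q : KQ v, ramFun v ((q.out : locK v) : G2 K) • rtL (atV v ((q.out : locK v) : G2 K))

lemma ramL_apply (F : InfPts K → adelGrp K → ℂ) : ramL v F = ramAct v F := by
  rw [ramL, ramAct, finsum_eq_sum_of_fintype, LinearMap.sum_apply]
  rfl

/-- The class functions at several places acting, as a linear map. -/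
def ramFold : List (HeightOneSpectrum (𝓞 K)) →
    ((InfPts K → adelGrp K → ℂ) →ₗ[ℂ] (InfPts K → adelGrp K → ℂ))
  | [] => LinearMap.id
  | w :: l => ramL w ∘ₗ ramFold l

lemma ramFold_apply (l : List (HeightOneSpectrum (𝓞 K))) (F : InfPts K → adelGrp K → ℂ) :
    ramFold l F = l.foldr ramAct F := by
  induction l with
  | nil => rfl
  | cons w l ih => rw [ramFold, LinearMap.comp_apply, ramL_apply, ih, List.foldr_cons]

lemma ramFold_rt {l : List (HeightOneSpectrum (𝓞 K))} (hl : v ∉ l) (k : G2 K)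
    (F : InfPts K → adelGrp K → ℂ) :
    ramFold l (Whit.rt (atV v k) F) = Whit.rt (atV v k) (ramFold l F) := by
  induction l generalizing F with
  | nil => rfl
  | cons w l ih =>
    rw [List.mem_cons, not_or] at hl
    rw [ramFold, LinearMap.comp_apply, LinearMap.comp_apply, ih hl.2, ramL, LinearMap.sum_apply,
      LinearMap.sum_apply, rt_sum]
    refine Finset.sum_congr rfl fun q _ => ?_
    show (_ : ℂ) • Whit.rt _ (Whit.rt _ _) = rtL (atV v k) ((_ : ℂ) • _)
    rw [map_smul, rt_comm_of_one (atV_ne (fun e : w = v => hl.1 e.symm) k)]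
    rfl

/-- An eigenform not killed by the class functions at some places prime to three with cube roots
of unity in the residue fields gives a nonzero one invariant there under the cube ratio classes. -/
theorem exists_typGen_of_foldr (l : List (HeightOneSpectrum (𝓞 K))) (hnd : l.Nodup)
    (hl : ∀ w ∈ l, w ∈ S ∧ w.valuation K 3 = 1 ∧ ∃ z : 𝓞 K, z ^ 2 + z + 1 ∈ w.asIdeal)
    (hf : IsGood S c f) (hne : l.foldr ramAct f ≠ 0) :
    ∃ ψ, ψ ≠ 0 ∧ IsGood S c ψ ∧ ∀ w ∈ l, IsInvAt w (cubeB w) ψ := by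
  suffices h : ∀ (A : List (HeightOneSpectrum (𝓞 K))), (A ++ l).Nodup →
      ∀ f, IsGood S c f → (∀ w ∈ A, IsInvAt w (cubeB w) f) → l.foldr ramAct f ≠ 0 →
      ∃ ψ, ψ ≠ 0 ∧ IsGood S c ψ ∧ ∀ w ∈ A ++ l, IsInvAt w (cubeB w) ψ by
    exact h [] hnd f hf (by simp) hne
  clear hf hne hnd
  induction l with
  | nil => exact fun A _ f hf hA hne => ⟨f, hne, hf, by simpa using hA⟩
  | cons v l ih =>
    intro A hnd f hf hA hne
    have hvl : v ∉ l := (List.nodup_cons.1 (List.nodup_append.1 hnd).2.1).1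
    have hvA : ∀ w ∈ A, w ≠ v := fun w hw => (List.nodup_append.1 hnd).2.2 w hw v (by simp)
    obtain ⟨hv, h3, hz⟩ := hl v (by simp)
    rw [List.foldr_cons, ← ramFold_apply, ← ramL_apply, ramL, LinearMap.sum_apply] at hne
    have hswap : ramFold l (ramAct v f) ≠ 0 := by
      intro h
      refine hne ?_
      rw [← h, ramAct, finsum_eq_sum_of_fintype, map_sum]
      refine Finset.sum_congr rfl fun q _ => ?_
      show (_ : ℂ) • Whit.rt _ (ramFold l f) = ramFold l ((_ : ℂ) • Whit.rt _ f)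
      rw [map_smul, ramFold_rt hvl]
    obtain ⟨k, hk, hk0⟩ : ∃ k ∈ locK v,
        ramFold l (sumAt v (cubeB v) (Whit.rt (atV v k) f)) ≠ 0 := by
      by_contra hcon
      push Not at hcon
      exact hswap (map_ramAct_eq_zero h3 hz hf.form hv _ (fun k F => ramFold_rt hvl k F) hcon)
    have hinv : ∀ w ∈ A ++ [v], IsInvAt w (cubeB w)
        (sumAt v (cubeB v) (Whit.rt (atV v k) f)) := by
      intro w hw
      rcases List.mem_append.1 hw with hw | hw
      · intro b hb
        rw [sumAt_comm_of_one (atV_ne (hvA w hw).symm b), rt_comm_of_one (atV_ne (hvA w hw) k),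
          hA w hw b hb]
      · obtain rfl := List.mem_singleton.1 hw
        exact isInvAt_sumAt (hf.rt_atV hv hk).form hv (locK1_le_cubeB _) (cubeB_le_locK _)
    obtain ⟨ψ, h1, h2, h4⟩ := ih (fun w hw => hl w (by simp [hw])) (A ++ [v])
      (by simpa using hnd) _ (isGood_sumAt (hf.rt_atV hv hk) hv _) hinv
      (by rwa [← ramFold_apply])
    exact ⟨ψ, h1, h2, fun w hw => h4 w (by simpa [or_assoc] using hw)⟩

end FermatAgent.LT.Period
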