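import Fermat.Agent.LT.Period.Profile
import Fermat.Agent.LT.Period.FieldPlaces

/-!
# The mean square of the coefficients

Bessel's inequality on horospheres integrated against a power of the height bounds the Dirichlet
series of squared coefficients near `s = 1`.
-/

set_option autoImplicit false

noncomputable section

open Matrix IsDedekindDomain NumberField Filter MeasureTheory Module WithZero
open scoped MatrixGroups Topology

namespace FermatAgent.LT.Period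

open FermatAgent.LT.Whit

variable {K : Type*} [Field K] [NumberField K] [IsTotallyComplex K] {θ : K}
  {S : Finset (HeightOneSpectrum (𝓞 K))} {c : HeightOneSpectrum (𝓞 K) → ℂ}
  {f : InfPts K → adelGrp K → ℂ}

/-- The term of the Dirichlet series of squared normalised coefficients at an ideal, exponent
`s`. -/
def sqWeight (c : HeightOneSpectrum (𝓞 K) → ℂ) (s : ℝ) (m : HeightOneSpectrum (𝓞 K) →₀ ℕ) : ℝ :=
  m.prod fun v k =>
    ‖heckeSeq (v.asIdeal.absNorm : ℂ) (c v) k‖ ^ 2 * (v.asIdeal.absNorm : ℝ) ^ (-(k : ℝ) * (s - 1))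

omit [IsTotallyComplex K] in
/-- Norms of places are positive. -/
lemma absNorm_pos (v : HeightOneSpectrum (𝓞 K)) : 0 < (v.asIdeal.absNorm : ℝ) :=
  Nat.cast_pos.2 (zero_lt_one.trans (Theta.Place.one_lt_qv v))

omit [IsTotallyComplex K] in
lemma one_le_absNorm (v : HeightOneSpectrum (𝓞 K)) : 1 ≤ (v.asIdeal.absNorm : ℝ) :=
  Nat.one_le_cast.2 (Theta.Place.one_lt_qv v).le

/-- Duality against the level period. -/
lemma IsEis.isDual_of_expo (h : IsEis θ) {d α : Kˣ}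
    (hd : ∀ v, 0 ≤ expo α v + expo d v + cnd v) : IsDual d (α : K) := by
  intro β
  obtain ⟨z, hz⟩ := HeightOneSpectrum.mem_integers_of_valuation_le_one K
    ((α : K) * (d : K) * (β : K) * θ) fun v => by
      rw [map_mul, map_mul, map_mul, v_eq_exp_expo, v_eq_exp_expo,
        show v.valuation K θ = exp (-expo (Units.mk0 θ h.ne_zero) v) from
            v_eq_exp_expo (Units.mk0 θ h.ne_zero) v,
        ← h.cnd_eq]
      refine (mul_le_mul' (mul_le_of_le_one_right' (v.valuation_le_one β)) le_rfl).trans ?_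
      rw [← exp_add, ← exp_add, ← exp_zero, exp_le_exp]
      linarith [hd v]
  obtain ⟨n, hn⟩ := h.trace_div_theta z
  have e : (α : K) * ((d : K) * (β : K)) = (z : K) / θ := by
    rw [eq_div_iff h.ne_zero, show (z : K) = algebraMap (𝓞 K) K z from rfl, hz]; ring
  rw [psiI_infEmb, e, hn, Theta.LocalChar.eRat_intCast]

/-- A bounded continuous profile is square integrable against an integrable power. -/
private lemma integrableOn_profile {F : ℝ → ℝ} (hc : ContinuousOn F (Set.Ioi 0))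
    (hpos : ∀ t, 0 < t → 0 < F t) {Cp : ℝ}
    (hCp : ∀ t : ℝ, 0 < t → F t ≤ Cp * Real.exp (-(2 * Real.pi * t))) {L w : ℝ} (hL : 0 < L)
    (hwint : IntegrableOn (fun t : ℝ => t ^ w) (Set.Ioc 0 1)) :
    IntegrableOn (fun t => F (L * t) ^ 2 * t ^ w) (Set.Ioc 0 1) := by
  refine Integrable.mono' (hwint.const_mul (Cp ^ 2)) ?_ ?_
  · refine (ContinuousOn.mul ?_ ?_).aestronglyMeasurable measurableSet_Ioc
    · exact (hc.comp (continuousOn_const.mul continuousOn_id)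
        fun x hx => mul_pos hL hx.1).pow 2
    · exact continuousOn_id.rpow_const fun x hx => Or.inl (ne_of_gt hx.1)
  · refine (ae_restrict_iff' measurableSet_Ioc).2 (ae_of_all _ fun t ht => ?_)
    have hp := hpos _ (mul_pos hL ht.1)
    have hb := hCp _ (mul_pos hL ht.1)
    have hC0 : 0 ≤ Cp :=
      (pos_of_mul_pos_left (hp.trans_le hb) (Real.exp_pos _).le).le
    rw [Real.norm_eq_abs, abs_of_nonneg (mul_nonneg (sq_nonneg _) (Real.rpow_nonneg ht.1.le _))]
    refine mul_le_mul_of_nonneg_right (pow_le_pow_left₀ hp.le (hb.trans ?_) 2)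
      (Real.rpow_nonneg ht.1.le _)
    exact mul_le_of_le_one_right hC0 (Real.exp_le_one_iff.2 (by
      have := mul_pos hL ht.1
      have := Real.pi_pos
      nlinarith))

/-- A profile bounded below on a window bounds below the integral of its dilation. -/
private lemma le_integral_profile {F : ℝ → ℝ} {N0 m0 L P s : ℝ} (hN0p : 0 < N0) (hL : 0 < L)
    (hLN : N0 ≤ L) (hLsq : L ^ 2 = N0 ^ 2 * P) (hP0 : 0 ≤ P) (hm0 : 0 ≤ m0)
    (hmin : ∀ x ∈ Set.Icc (N0 / 2) N0, m0 ≤ F x) (hs : 1 < s) (hs2 : s ≤ 2)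
    (hint : IntegrableOn (fun t => F (L * t) ^ 2 * t ^ (2 * s - 3)) (Set.Ioc 0 1)) :
    m0 ^ 2 * P ^ (-(s - 1)) / 8 ≤ ∫ t in Set.Ioc 0 1, F (L * t) ^ 2 * t ^ (2 * s - 3) := by
  set w := 2 * s - 3 with hw
  set τ := N0 / L with hτ
  have hτ0 : 0 < τ := div_pos hN0p hL
  have hτ1 : τ ≤ 1 := (div_le_one hL).2 hLN
  have hsub : Set.Ioc (τ / 2) τ ⊆ Set.Ioc 0 1 := Set.Ioc_subset_Ioc (by positivity) hτ1
  refine le_trans ?_ (setIntegral_mono_set hint
    ((ae_restrict_iff' measurableSet_Ioc).2 (ae_of_all _ fun t ht =>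
      mul_nonneg (sq_nonneg _) (Real.rpow_nonneg ht.1.le _))) hsub.eventuallyLE)
  have hpt : ∀ t ∈ Set.Ioc (τ / 2) τ,
      m0 ^ 2 * ((τ / 2) ^ (2 * (s - 1)) / τ) ≤ F (L * t) ^ 2 * t ^ w := by
    intro t ht
    have ht0 : 0 < t := lt_of_le_of_lt (by positivity) ht.1
    have hmem : L * t ∈ Set.Icc (N0 / 2) N0 := by
      have e : L * τ = N0 := by rw [hτ, mul_div_cancel₀ _ hL.ne']
      constructor
      · rw [← e]; nlinarith [ht.1, hL]
      · rw [← e]; nlinarith [ht.2, hL]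
    refine mul_le_mul (pow_le_pow_left₀ hm0 (hmin _ hmem) 2) ?_ (by positivity) (sq_nonneg _)
    calc (τ / 2) ^ (2 * (s - 1)) / τ ≤ t ^ (2 * (s - 1)) / t := by
          refine div_le_div₀ (by positivity) ?_ ht0 ht.2
          exact Real.rpow_le_rpow (by positivity) ht.1.le (by linarith)
      _ = t ^ w := by
          rw [div_eq_iff ht0.ne', ← Real.rpow_add_one ht0.ne', hw]
          congr 1; ring
  have h := setIntegral_ge_of_const_le_real measurableSet_Ioc (by simp) hpt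
    (hint.mono_set hsub)
  rw [measureReal_def, Real.volume_Ioc, ENNReal.toReal_ofReal (by linarith)] at h
  refine le_trans ?_ h
  have hτP : τ ^ (2 * (s - 1)) = P ^ (-(s - 1)) := by
    rw [Real.rpow_mul hτ0.le, Real.rpow_two, hτ, div_pow, hLsq,
      show N0 ^ 2 / (N0 ^ 2 * P) = P⁻¹ by field_simp,
      Real.inv_rpow hP0, ← Real.rpow_neg hP0]
  rw [Real.div_rpow hτ0.le two_pos.le, hτP]
  have h2 : (2 : ℝ) ^ (2 * (s - 1)) ≤ 4 := by
    calc (2 : ℝ) ^ (2 * (s - 1)) ≤ (2 : ℝ) ^ (2 : ℝ) :=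
          Real.rpow_le_rpow_of_exponent_le one_le_two (by linarith)
      _ = 4 := by norm_num
  have hX : 0 ≤ m0 ^ 2 * P ^ (-(s - 1)) :=
    mul_nonneg (sq_nonneg _) (Real.rpow_nonneg hP0 _)
  rw [show m0 ^ 2 * (P ^ (-(s - 1)) / 2 ^ (2 * (s - 1)) / τ) * (τ - τ / 2) =
    m0 ^ 2 * P ^ (-(s - 1)) / (2 * 2 ^ (2 * (s - 1))) by field_simp; ring]
  exact div_le_div_of_nonneg_left hX (by positivity) (by linarith)

omit [IsTotallyComplex K] in
open Classical in
/-- **The mean square bound**: if Bessel's inequality holds for the coefficients against a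
positive decaying profile at every height, their Dirichlet series of squares is
`O(1 / (s - 1))` near `s = 1`. -/
theorem exists_sq_bound_of_profile {F : ℝ → ℝ} {N0 W0 B : ℝ} (hN0p : 0 < N0) (hW0p : 0 < W0)
    (hc : ContinuousOn F (Set.Ioi 0)) (hpos : ∀ t, 0 < t → 0 < F t)
    (hle : ∃ C : ℝ, ∀ t : ℝ, 0 < t → F t ≤ C * Real.exp (-(2 * Real.pi * t)))
    (hB : ∀ A : Finset (HeightOneSpectrum (𝓞 K) →₀ ℕ), (∀ m ∈ A, ∀ v ∈ S, m v = 0) →
      ∀ t : ℝ, 0 < t → ∑ m ∈ A, (m.prod fun v k => ‖heckeSeq (v.asIdeal.absNorm : ℂ) (c v) k‖ ^ 2) *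
        (W0 ^ 2 * F (N0 * √(m.prod fun v k => (v.asIdeal.absNorm : ℝ) ^ k) * t) ^ 2) ≤ B ^ 2) :
    ∃ C : ℝ, 0 < C ∧ ∀ s : ℝ, 1 < s → s ≤ 2 →
    ∀ A : Finset (HeightOneSpectrum (𝓞 K) →₀ ℕ), (∀ m ∈ A, ∀ v ∈ S, m v = 0) →
      ∑ m ∈ A, sqWeight c s m ≤ C / (s - 1) := by
  obtain ⟨t₀, ht₀, hmin⟩ := (isCompact_Icc (a := N0 / 2) (b := N0)).exists_isMinOn
    (Set.nonempty_Icc.2 (by linarith)) (hc.mono fun x hx =>
      Set.mem_Ioi.2 (lt_of_lt_of_le (by positivity) hx.1))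
  set m0 := F t₀
  have hm0 : 0 < m0 := hpos _ (lt_of_lt_of_le (by positivity) ht₀.1)
  obtain ⟨Cp, hCp⟩ := hle
  refine ⟨4 * (B ^ 2 + 1) / (W0 ^ 2 * m0 ^ 2), by positivity, fun s hs hs2 A hA => ?_⟩
  have hs1 : 0 < s - 1 := by linarith
  let P : (HeightOneSpectrum (𝓞 K) →₀ ℕ) → ℝ := fun m =>
    m.prod fun v k => (v.asIdeal.absNorm : ℝ) ^ k
  let Q : (HeightOneSpectrum (𝓞 K) →₀ ℕ) → ℝ := fun m =>
    m.prod fun v k => ‖heckeSeq (v.asIdeal.absNorm : ℂ) (c v) k‖ ^ 2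
  let L : (HeightOneSpectrum (𝓞 K) →₀ ℕ) → ℝ := fun m => N0 * √(P m)
  have hP1 : ∀ m, 1 ≤ P m := fun m => Finset.one_le_prod fun v _ => one_le_pow₀ (one_le_absNorm v)
  have hL : ∀ m, 0 < L m := fun m =>
    mul_pos hN0p (Real.sqrt_pos.2 (zero_lt_one.trans_le (hP1 m)))
  have hLN : ∀ m, N0 ≤ L m := fun m =>
    le_mul_of_one_le_right hN0p.le (Real.one_le_sqrt.2 (hP1 m))
  have hLsq : ∀ m, L m ^ 2 = N0 ^ 2 * P m := fun m => by
    rw [mul_pow, Real.sq_sqrt (zero_le_one.trans (hP1 m))]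
  have hbes : ∀ t, 0 < t → ∑ m ∈ A, Q m * (W0 ^ 2 * F (L m * t) ^ 2) ≤ B ^ 2 := hB A hA
  set w := 2 * s - 3 with hw
  have hwI : IntervalIntegrable (fun t : ℝ => t ^ w) volume 0 1 :=
    intervalIntegral.intervalIntegrable_rpow' (by linarith)
  have hwint : IntegrableOn (fun t : ℝ => t ^ w) (Set.Ioc 0 1) :=
    (intervalIntegrable_iff_integrableOn_Ioc_of_le zero_le_one).1 hwI
  have hint : ∀ m, IntegrableOn (fun t => F (L m * t) ^ 2 * t ^ w) (Set.Ioc 0 1) := fun m =>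
    integrableOn_profile hc hpos hCp (hL m) hwint
  have hI : ∑ m ∈ A, Q m * W0 ^ 2 * ∫ t in Set.Ioc 0 1, F (L m * t) ^ 2 * t ^ w ≤
      B ^ 2 / (2 * (s - 1)) := by
    have e : ∫ t in Set.Ioc (0 : ℝ) 1, t ^ w = 1 / (2 * (s - 1)) := by
      rw [← intervalIntegral.integral_of_le zero_le_one, integral_rpow (Or.inl (by linarith))]
      rw [Real.one_rpow, Real.zero_rpow (by linarith), hw]
      congr 1 <;> ring
    rw [show B ^ 2 / (2 * (s - 1)) = ∫ t in Set.Ioc (0 : ℝ) 1, B ^ 2 * t ^ w by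
      rw [integral_const_mul, e]; ring]
    simp only [← integral_const_mul]
    rw [← integral_finsetSum _ fun m _ => (hint m).const_mul _]
    refine setIntegral_mono_on (integrable_finsetSum _ fun m _ => (hint m).const_mul _)
      (hwint.const_mul _) measurableSet_Ioc fun t ht => ?_
    refine le_of_eq_of_le ?_ (mul_le_mul_of_nonneg_right (hbes t ht.1) (Real.rpow_nonneg ht.1.le w))
    rw [Finset.sum_mul]
    exact Finset.sum_congr rfl fun m _ => by ring
  have hlow : ∀ m, m0 ^ 2 * (P m ^ (-(s - 1))) / 8 ≤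
      ∫ t in Set.Ioc 0 1, F (L m * t) ^ 2 * t ^ w := fun m =>
    le_integral_profile hN0p (hL m) (hLN m) (hLsq m) (zero_le_one.trans (hP1 m)) hm0.le
      (fun x hx => hmin hx) hs hs2 (hint m)
  have hQ0 : ∀ m, 0 ≤ Q m := fun m => Finset.prod_nonneg fun v _ => sq_nonneg _
  have hsw : ∀ m, sqWeight c s m = Q m * P m ^ (-(s - 1)) := fun m => by
    simp only [sqWeight, Q, P, Finsupp.prod]
    rw [← Real.finsetProd_rpow _ _ fun v _ => pow_nonneg (absNorm_pos v).le _,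
      ← Finset.prod_mul_distrib]
    refine Finset.prod_congr rfl fun v _ => ?_
    congr 1
    rw [← Real.rpow_natCast, ← Real.rpow_mul (absNorm_pos v).le]
    congr 1; ring
  have hfin : (∑ m ∈ A, sqWeight c s m) * (W0 ^ 2 * m0 ^ 2 / 8) ≤ B ^ 2 / (2 * (s - 1)) := by
    refine le_trans ?_ hI
    rw [Finset.sum_mul]
    refine Finset.sum_le_sum fun m _ => ?_
    rw [hsw, show Q m * P m ^ (-(s - 1)) * (W0 ^ 2 * m0 ^ 2 / 8) =
      Q m * W0 ^ 2 * (m0 ^ 2 * P m ^ (-(s - 1)) / 8) by ring]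
    exact mul_le_mul_of_nonneg_left (hlow m) (mul_nonneg (hQ0 m) (sq_nonneg _))
  calc ∑ m ∈ A, sqWeight c s m ≤ B ^ 2 / (2 * (s - 1)) / (W0 ^ 2 * m0 ^ 2 / 8) :=
        (le_div_iff₀ (by positivity)).2 hfin
    _ = 4 * B ^ 2 / (W0 ^ 2 * m0 ^ 2) / (s - 1) := by field_simp; ring
    _ ≤ _ := by gcongr; linarith

end FermatAgent.LT.Period
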