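import Fermat.Agent.LT.Period.FieldPlaces

/-!
# Decomposition of rational primes in the Eisenstein integers

A prime congruent to `2` modulo `3` stays prime and one congruent to `1` has two places of norm
`p`; the absolute value of an element is the product of the norms of its places.
-/

set_option autoImplicit false

noncomputable section

open IsDedekindDomain NumberField WithZero Module Filter

namespace FermatAgent.LT.Period

open FermatAgent.LT.Whit

variable {K : Type*} [Field K] [NumberField K] {θ : K}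

/-- A natural number as a unit of the field, one for zero. -/
def natU (K : Type*) [Field K] [NumberField K] (n : ℕ) : Kˣ :=
  if h : n = 0 then 1 else Units.mk0 (n : K) (Nat.cast_ne_zero.2 h)

/-- The value of a natural unit. -/
lemma natU_val {n : ℕ} (hn : n ≠ 0) : ((natU K n : Kˣ) : K) = n := by
  rw [natU, dif_neg hn, Units.val_mk0]

/-- Natural units multiply. -/
lemma natU_mul {m n : ℕ} (hm : m ≠ 0) (hn : n ≠ 0) : natU K (m * n) = natU K m * natU K n :=
  Units.ext (by rw [Units.val_mul, natU_val (mul_ne_zero hm hn), natU_val hm, natU_val hn,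
    Nat.cast_mul])

/-- The natural unit one. -/
lemma natU_one : natU K 1 = 1 := Units.ext (by simp [natU_val (K := K) one_ne_zero])

/-- Powers of natural units. -/
lemma natU_pow {m : ℕ} (hm : m ≠ 0) (k : ℕ) : natU K (m ^ k) = natU K m ^ k :=
  Units.ext (by
    rw [Units.val_pow_eq_pow_val, natU_val (pow_ne_zero k hm), natU_val hm, Nat.cast_pow])

lemma valuation_natU {n : ℕ} (hn : n ≠ 0) (v : HeightOneSpectrum (𝓞 K)) :
    v.valuation K (algebraMap (𝓞 K) K (n : 𝓞 K)) = exp (-expo (natU K n) v) := by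
  rw [map_natCast, ← natU_val (K := K) hn]
  exact v_eq_exp_expo _ v

/-- Natural numbers have nonnegative exponents. -/
lemma expo_natU_nonneg {n : ℕ} (hn : n ≠ 0) (v : HeightOneSpectrum (𝓞 K)) :
    0 ≤ expo (natU K n) v := by
  have h := v.valuation_le_one (K := K) (n : 𝓞 K)
  rw [valuation_natU hn, ← exp_zero, exp_le_exp] at h
  omega

/-- Where a natural number has nonzero exponent. -/
lemma expo_natU_ne_zero {n : ℕ} (hn : n ≠ 0) (v : HeightOneSpectrum (𝓞 K)) :
    expo (natU K n) v ≠ 0 ↔ (n : 𝓞 K) ∈ v.asIdeal := by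
  rw [← v.valuation_lt_one_iff_mem (K := K), valuation_natU hn, ← exp_zero, exp_lt_exp]
  have := expo_natU_nonneg hn v
  omega

/-- The places over a natural number. -/
def placesOver (K : Type*) [Field K] [NumberField K] (p : ℕ) : Finset (HeightOneSpectrum (𝓞 K)) :=
  (expo (natU K p)).support

/-- Membership over a prime. -/
lemma mem_over {p : ℕ} (hp : p ≠ 0) {v : HeightOneSpectrum (𝓞 K)} :
    v ∈ placesOver K p ↔ (p : 𝓞 K) ∈ v.asIdeal := by
  rw [placesOver, Finsupp.mem_support_iff, expo_natU_ne_zero hp]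

omit [NumberField K] in
/-- Coprime numbers share no place. -/
lemma coprime_notMem {m n : ℕ} (h : Nat.Coprime m n) {v : HeightOneSpectrum (𝓞 K)}
    (hm : (m : 𝓞 K) ∈ v.asIdeal) : (n : 𝓞 K) ∉ v.asIdeal := by
  intro hn
  obtain ⟨a, b, hab⟩ : IsCoprime (m : ℤ) (n : ℤ) :=
    Int.isCoprime_iff_gcd_eq_one.2 (by simpa [Int.gcd] using h)
  have e := congrArg (fun z : ℤ => (z : 𝓞 K)) hab
  push_cast at e
  exact v.isPrime.ne_top ((Ideal.eq_top_iff_one _).2
    (e ▸ add_mem (Ideal.mul_mem_left _ _ hm) (Ideal.mul_mem_left _ _ hn)))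

/-- Different primes have disjoint places. -/
lemma disjoint_over {p q : ℕ} (hp : p.Prime) (hq : q.Prime) (h : p ≠ q) :
    Disjoint (placesOver K p) (placesOver K q) :=
  Finset.disjoint_left.2 fun _ h1 h2 => coprime_notMem ((Nat.coprime_primes hp hq).2 h)
    ((mem_over hp.ne_zero).1 h1) ((mem_over hq.ne_zero).1 h2)

variable [IsTotallyComplex K]

/-- The conductor vanishes away from three. -/
lemma IsEis.cnd_eq_zero (h : IsEis θ) {v : HeightOneSpectrum (𝓞 K)}
    (hv : (3 : 𝓞 K) ∉ v.asIdeal) : cnd v = 0 := by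
  rw [h.cnd_eq]
  have hθ : v.valuation K θ = exp (-expo (Units.mk0 θ h.ne_zero) v) :=
    v_eq_exp_expo (Units.mk0 θ h.ne_zero) v
  have h3 : v.valuation K (algebraMap (𝓞 K) K 3) = 1 := by
    refine le_antisymm (v.valuation_le_one _) (not_lt.1 fun hlt => hv ?_)
    exact (v.valuation_lt_one_iff_mem _).1 hlt
  have e : v.valuation K θ ^ 2 = 1 := by
    rw [← map_pow, h.sq, Valuation.map_neg, ← map_ofNat (algebraMap (𝓞 K) K) 3, h3]
  rw [hθ, ← exp_nsmul, ← exp_zero, exp_inj, nsmul_eq_mul] at e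
  omega

/-- Primes other than three are unramified. -/
lemma IsEis.expo_natU_prime (h : IsEis θ) {p : ℕ} (hp : p.Prime) (h3 : p ≠ 3)
    {v : HeightOneSpectrum (𝓞 K)} (hv : v ∈ placesOver K p) : expo (natU K p) v = 1 := by
  rw [mem_over hp.ne_zero] at hv
  have h3' : ((3 : ℕ) : 𝓞 K) ∉ v.asIdeal :=
    coprime_notMem ((Nat.coprime_primes hp Nat.prime_three).2 h3) hv
  rw [natU, dif_neg hp.ne_zero, h.expo_prime hp v hv, h.cnd_eq_zero (by simpa using h3'), add_zero]

/-- The product formula: the squared absolute value is the product of the norms of the places to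
the exponents. -/
theorem IsEis.norm_eq_prod (h : IsEis θ) (x : Kˣ) :
    ‖(place K).embedding (x : K)‖ ^ 2 =
      (expo x).prod fun v m => (v.asIdeal.absNorm : ℝ) ^ m := by
  rw [← h.norm_gen (expo x)]
  set y := x * (h.gen (expo x))⁻¹ with hy
  have he : expo y = 0 := by rw [hy, expo_mul, expo_inv, h.expo_gen, add_neg_cancel]
  have hint : ∀ z : Kˣ, expo z = 0 → ∃ n : ℕ, ‖(place K).embedding (z : K)‖ ^ 2 = n :=
    fun z hz => by
    obtain ⟨a, ha⟩ := HeightOneSpectrum.mem_integers_of_valuation_le_one K (z : K) fun v => by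
      rw [v_eq_exp_expo, hz, Finsupp.zero_apply, neg_zero, exp_zero]
    refine ⟨(Algebra.norm ℤ a).natAbs, ?_⟩
    have h1 := InfinitePlace.prod_eq_abs_norm (K := K) (z : K)
    rw [h.sum_place_prod, IsTotallyComplex.mult_eq, ← InfinitePlace.norm_embedding_eq] at h1
    have e : Algebra.norm ℚ (z : K) = ((Algebra.norm ℤ a : ℤ) : ℚ) := by
      rw [← ha]; exact Algebra.coe_norm_int a ▸ rfl
    rw [h1, e, Nat.cast_natAbs]
    push_cast
    rfl
  obtain ⟨a, ha⟩ := hint y he
  obtain ⟨b, hb⟩ := hint y⁻¹ (by rw [expo_inv, he, neg_zero])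
  have hab : a * b = 1 := by
    have : ‖(place K).embedding (y : K)‖ ^ 2 * ‖(place K).embedding ((y⁻¹ : Kˣ) : K)‖ ^ 2 = 1 := by
      rw [← mul_pow, ← norm_mul, ← map_mul, ← Units.val_mul, mul_inv_cancel, Units.val_one,
        map_one, norm_one, one_pow]
    rw [ha, hb] at this
    exact_mod_cast this
  have e : x = y * h.gen (expo x) := by rw [hy, inv_mul_cancel_right]
  conv_lhs => rw [e]
  rw [Units.val_mul, map_mul, norm_mul, mul_pow, ha, (Nat.eq_one_of_mul_eq_one_right hab :)]
  simp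

lemma norm_form_ne_two (a b : ZMod 3) : a ^ 2 - a * b + b ^ 2 ≠ 2 := by
  revert a b; decide

omit [IsTotallyComplex K] in
lemma IsEis.norm_int_repr (h : IsEis θ) (a b : ℤ) :
    ‖(place K).embedding ((a : K) + b * zeta θ)‖ ^ 2 = ((a ^ 2 - a * b + b ^ 2 : ℤ) : ℝ) := by
  rw [zeta, map_add, map_mul, map_intCast, map_intCast, map_div₀, map_sub, map_one, map_ofNat,
    Complex.sq_norm, Complex.normSq_apply]
  simp [h.emb_theta_re]
  have := h.emb_theta_im
  nlinarith [this]

lemma IsEis.prod_absNorm_over (h : IsEis θ) {p : ℕ} (hp : p.Prime) (h3 : p ≠ 3) :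
    ∏ v ∈ placesOver K p, v.asIdeal.absNorm = p ^ 2 := by
  have e := h.norm_eq_prod (natU K p)
  rw [natU_val hp.ne_zero, map_natCast, Complex.norm_natCast, Finsupp.prod,
    Finset.prod_congr rfl (g := fun v : HeightOneSpectrum (𝓞 K) => (v.asIdeal.absNorm : ℝ))
      fun v hv => by rw [h.expo_natU_prime hp h3 hv, zpow_one]] at e
  exact_mod_cast e.symm

lemma IsEis.absNorm_over (h : IsEis θ) {p : ℕ} (hp : p.Prime) (h3 : p ≠ 3)
    {v : HeightOneSpectrum (𝓞 K)} (hv : v ∈ placesOver K p) :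
    v.asIdeal.absNorm = p ∨ (v.asIdeal.absNorm = p ^ 2 ∧ placesOver K p = {v}) := by
  classical
  have he := h.prod_absNorm_over hp h3
  rw [← Finset.mul_prod_erase _ _ hv] at he
  obtain ⟨i, hi, hiv⟩ := (Nat.dvd_prime_pow hp).1 (Dvd.intro _ he)
  have h1 : 1 < v.asIdeal.absNorm := Theta.Place.one_lt_qv v
  rcases i with _ | _ | _ | i
  · rw [pow_zero] at hiv; omega
  · exact Or.inl (by simpa using hiv)
  · refine Or.inr ⟨hiv, Finset.eq_singleton_iff_unique_mem.2 ⟨hv, fun w hw => ?_⟩⟩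
    by_contra hne
    rw [hiv] at he
    have h2 : ∏ w ∈ (placesOver K p).erase v, w.asIdeal.absNorm = 1 :=
      Nat.eq_of_mul_eq_mul_left (pow_pos hp.pos 2) (he.trans (mul_one _).symm)
    have h4 : w.asIdeal.absNorm ∣ 1 := h2 ▸ Finset.dvd_prod_of_mem _ (Finset.mem_erase.2 ⟨hne, hw⟩)
    have : 1 < w.asIdeal.absNorm := Theta.Place.one_lt_qv w
    rw [Nat.dvd_one] at h4
    omega
  · omega

/-- A prime congruent to `2` modulo `3` has one place over it, of norm `p²`. -/
theorem IsEis.over_inert (h : IsEis θ) {p : ℕ} (hp : p.Prime) (hp2 : p % 3 = 2) :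
    ∃ v, placesOver K p = {v} ∧ v.asIdeal.absNorm = p ^ 2 := by
  classical
  have h3 : p ≠ 3 := by omega
  have hne : (placesOver K p).Nonempty := by
    rw [Finset.nonempty_iff_ne_empty]
    intro e
    have := h.prod_absNorm_over (K := K) hp h3
    rw [e, Finset.prod_empty] at this
    have := hp.one_lt
    nlinarith
  obtain ⟨v, hv⟩ := hne
  rcases h.absNorm_over hp h3 hv with hn | ⟨hn, he⟩
  · exfalso
    obtain ⟨g, -, hg⟩ := h.exists_generator v
    obtain ⟨z, hz⟩ := (h.pid.principal v.asIdeal).principal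
    have hz0 : z ≠ 0 := fun e => v.ne_bot (by rw [hz, e]; simp)
    have hzK : (z : K) ≠ 0 := by simpa using hz0
    obtain ⟨a, b, hab⟩ := h.exists_int_repr z
    have h1 := InfinitePlace.prod_eq_abs_norm (K := K) (z : K)
    rw [h.sum_place_prod, IsTotallyComplex.mult_eq, ← InfinitePlace.norm_embedding_eq] at h1
    have e : Algebra.norm ℚ (z : K) = ((Algebra.norm ℤ z : ℤ) : ℚ) := Algebra.coe_norm_int z ▸ rfl
    have hcast : ((|((Algebra.norm ℤ z : ℤ) : ℚ)| : ℚ) : ℝ) =
        (((Algebra.norm ℤ z).natAbs : ℕ) : ℝ) := by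
      rw [Nat.cast_natAbs]; push_cast; rfl
    rw [e, hcast, ← Ideal.absNorm_span_singleton, ← Ideal.submodule_span_eq, ← hz, hn, hab,
      h.norm_int_repr] at h1
    have h2 : a ^ 2 - a * b + b ^ 2 = (p : ℤ) := by exact_mod_cast h1
    have h4 := congrArg (fun x : ℤ => (x : ZMod 3)) h2
    push_cast at h4
    refine norm_form_ne_two _ _ (h4.trans ?_)
    rw [← ZMod.natCast_mod, hp2]
    rfl
  · exact ⟨v, he, hn⟩

/-- Over a prime congruent to `1` modulo `3` some place has norm `p`: otherwise `p` would stay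
prime, but it divides `(x - ζ) (x + 1 + ζ)` for a cube root of unity `x` modulo `p`. -/
private lemma IsEis.exists_absNorm_eq (h : IsEis θ) {p : ℕ} (hp : p.Prime) (hp1 : p % 3 = 1) :
    ∃ v ∈ placesOver K p, v.asIdeal.absNorm = p := by
  classical
  have h3 : p ≠ 3 := by omega
  have : Fact p.Prime := ⟨hp⟩
  obtain ⟨u, hu⟩ := exists_prime_orderOf_dvd_card (G := (ZMod p)ˣ) 3 (by
    rw [ZMod.card_units]
    omega)
  have hu1 : (u : ZMod p) ≠ 1 := fun e => by
    rw [Units.val_eq_one.1 e, orderOf_one] at hu; omega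
  have hrel : (u : ZMod p) ^ 2 + (u : ZMod p) + 1 = 0 := by
    have h3u : (u : ZMod p) ^ 3 = 1 := by
      rw [← Units.val_pow_eq_pow_val, ← hu, pow_orderOf_eq_one, Units.val_one]
    refine (mul_eq_zero.1 (show ((u : ZMod p) - 1) * ((u : ZMod p) ^ 2 + (u : ZMod p) + 1) = 0 by
      linear_combination h3u)).resolve_left (sub_ne_zero.2 hu1)
  obtain ⟨x, hx⟩ := ZMod.intCast_surjective (u : ZMod p)
  have hdvd : (p : ℤ) ∣ x ^ 2 + x + 1 := by
    rw [← ZMod.intCast_zmod_eq_zero_iff_dvd]; push_cast; rw [hx]; exact hrel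
  by_contra hno
  push Not at hno
  have hsingle : ∀ v ∈ placesOver K p, placesOver K p = {v} ∧ v.asIdeal.absNorm = p ^ 2 :=
    fun v hv =>
    ((h.absNorm_over hp h3 hv).resolve_left (hno v hv)).symm
  obtain ⟨n, hn⟩ := hdvd
  have hrelK : ((x : 𝓞 K) - h.zetaO) * ((x : 𝓞 K) + 1 + h.zetaO) = (p : 𝓞 K) * (n : 𝓞 K) := by
    apply RingOfIntegers.ext
    show algebraMap (𝓞 K) K _ = algebraMap (𝓞 K) K _
    simp only [map_mul, map_sub, map_add, map_one, map_intCast, map_natCast,
      show algebraMap (𝓞 K) K h.zetaO = zeta θ from rfl]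
    have := congrArg (fun z : ℤ => (z : K)) hn
    push_cast at this
    linear_combination this - h.zeta_rel
  have hne : (placesOver K p).Nonempty := by
    rw [Finset.nonempty_iff_ne_empty]
    intro e
    have := h.prod_absNorm_over (K := K) hp h3
    rw [e, Finset.prod_empty] at this
    have := hp.one_lt
    nlinarith
  obtain ⟨v, hv⟩ := hne
  have hmem : ((x : 𝓞 K) - h.zetaO) ∈ v.asIdeal ∨ ((x : 𝓞 K) + 1 + h.zetaO) ∈ v.asIdeal :=
    v.isPrime.mem_or_mem (hrelK ▸ Ideal.mul_mem_right _ _ ((mem_over hp.ne_zero).1 hv))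
  have hdiv : ∀ z : 𝓞 K, z ∈ v.asIdeal → ∃ w : 𝓞 K, (z : K) = (p : K) * (w : K) := by
    intro z hz
    by_cases hz0 : z = 0
    · exact ⟨0, by simp [hz0]⟩
    have hpK : (p : K) ≠ 0 := Nat.cast_ne_zero.2 hp.ne_zero
    obtain ⟨w, hw⟩ :=
      HeightOneSpectrum.mem_integers_of_valuation_le_one K ((z : K) / p) fun w => by
      rw [map_div₀, ← natU_val (K := K) hp.ne_zero, v_eq_exp_expo]
      by_cases hwv : w ∈ placesOver K p
      · obtain rfl : w = v := by rw [(hsingle v hv).1] at hwv; simpa using hwv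
        rw [h.expo_natU_prime hp h3 hv]
        have hzv : w.valuation K (z : K) ≤ exp (-1 : ℤ) := by
          have hzK : (z : K) ≠ 0 := by simpa using hz0
          have hlt : w.valuation K (z : K) < 1 := (w.valuation_lt_one_iff_mem _).2 hz
          rw [show w.valuation K (z : K) = exp (-expo (Units.mk0 _ hzK) w) from
            v_eq_exp_expo (Units.mk0 _ hzK) w, ← exp_zero, exp_lt_exp] at hlt
          rw [show w.valuation K (z : K) = exp (-expo (Units.mk0 _ hzK) w) from
            v_eq_exp_expo (Units.mk0 _ hzK) w, exp_le_exp]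
          omega
        exact (div_le_one₀ WithZero.exp_pos).2 hzv
      · rw [Finsupp.notMem_support_iff.1 hwv, neg_zero, exp_zero, div_one]
        exact w.valuation_le_one z
    refine ⟨w, ?_⟩
    show (z : K) = (p : K) * algebraMap (𝓞 K) K w
    rw [hw, mul_div_cancel₀ _ hpK]
  have hcontra : ∀ (a e : ℤ), (e = 1 ∨ e = -1) →
      ∀ w : 𝓞 K, ((a : K) + e * zeta θ) = (p : K) * (w : K) → False := by
    intro a e he w hw
    obtain ⟨A, B, hAB⟩ := h.exists_int_repr w
    have hrw : ((a : ℤ) : K) + ((e : ℤ) : K) * zeta θ =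
        ((p * A : ℤ) : K) + ((p * B : ℤ) : K) * zeta θ := by
      rw [hw, hAB]; push_cast; ring
    obtain ⟨-, hB⟩ := h.repr_unique hrw
    have hpu : IsUnit (p : ℤ) := by
      rcases he with rfl | rfl
      · exact IsUnit.of_mul_eq_one B hB.symm
      · exact IsUnit.of_mul_eq_one (-B) (by rw [mul_neg, ← hB]; norm_num)
    rw [Int.isUnit_iff_natAbs_eq, Int.natAbs_natCast] at hpu
    exact hp.ne_one hpu
  rcases hmem with hm | hm
  · obtain ⟨w, hw⟩ := hdiv _ hm
    refine hcontra x (-1) (Or.inr rfl) w ?_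
    rw [← hw]
    show _ = algebraMap (𝓞 K) K ((x : 𝓞 K) - h.zetaO)
    rw [map_sub, map_intCast, show algebraMap (𝓞 K) K h.zetaO = zeta θ from rfl]
    push_cast; ring
  · obtain ⟨w, hw⟩ := hdiv _ hm
    refine hcontra (x + 1) 1 (Or.inl rfl) w ?_
    rw [← hw]
    show _ = algebraMap (𝓞 K) K ((x : 𝓞 K) + 1 + h.zetaO)
    rw [map_add, map_add, map_one, map_intCast, show algebraMap (𝓞 K) K h.zetaO = zeta θ from rfl]
    push_cast; ring

open Classical in
/-- A prime congruent to `1` modulo `3` has two places over it, both of norm `p`. -/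
theorem IsEis.over_split (h : IsEis θ) {p : ℕ} (hp : p.Prime) (hp1 : p % 3 = 1) :
    ∃ v w : HeightOneSpectrum (𝓞 K), v ≠ w ∧ placesOver K p = {v, w} ∧ v.asIdeal.absNorm = p ∧
    w.asIdeal.absNorm = p := by
  classical
  have h3 : p ≠ 3 := by omega
  have hex := h.exists_absNorm_eq hp hp1
  obtain ⟨v, hv, hvn⟩ := hex
  have he := h.prod_absNorm_over hp h3 (K := K)
  rw [← Finset.mul_prod_erase _ _ hv, hvn, pow_two] at he
  have he2 : ∏ w ∈ (placesOver K p).erase v, w.asIdeal.absNorm = p :=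
    Nat.eq_of_mul_eq_mul_left hp.pos he
  obtain ⟨w, hw⟩ : ((placesOver K p).erase v).Nonempty := by
    rw [Finset.nonempty_iff_ne_empty]
    intro e; rw [e, Finset.prod_empty] at he2; exact hp.ne_one he2.symm
  obtain ⟨hwv, hw'⟩ := Finset.mem_erase.1 hw
  have hwn : w.asIdeal.absNorm = p := by
    rcases h.absNorm_over hp h3 hw' with hn | ⟨-, hs⟩
    · exact hn
    · rw [hs] at hv; simp at hv; exact absurd hv.symm hwv
  refine ⟨v, w, (Ne.symm hwv), ?_, hvn, hwn⟩
  rw [← Finset.mul_prod_erase _ _ hw, hwn] at he2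
  have he3 : ∏ z ∈ ((placesOver K p).erase v).erase w, z.asIdeal.absNorm = 1 :=
    Nat.eq_of_mul_eq_mul_left hp.pos (he2.trans (mul_one p).symm)
  ext z
  simp only [Finset.mem_insert, Finset.mem_singleton]
  refine ⟨fun hz => ?_, fun hz => by rcases hz with rfl | rfl <;> assumption⟩
  by_contra hne
  push Not at hne
  have hd : z.asIdeal.absNorm ∣ 1 :=
    he3 ▸ Finset.dvd_prod_of_mem _ (Finset.mem_erase.2 ⟨hne.2, Finset.mem_erase.2 ⟨hne.1, hz⟩⟩)
  have : 1 < z.asIdeal.absNorm := Theta.Place.one_lt_qv z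
  rw [Nat.dvd_one] at hd
  omega

end FermatAgent.LT.Period
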