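import Fermat.Agent.LT.Period.EulerLocal
import Fermat.Agent.LT.Period.Splitting
import Fermat.Agent.LT.Period.Bound
import Fermat.Agent.LT.Period.Mass

/-!
# The series of coefficients along the rational numbers

Absolute convergence, the product over primes, and a lower bound near `s = 1` in which only the
prescribed traces enter.
-/

set_option autoImplicit false

noncomputable section

open IsDedekindDomain NumberField Filter Topology

namespace FermatAgent.LT.Period

open FermatAgent.LT.Whit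

variable {K : Type*} [Field K] [NumberField K] [IsTotallyComplex K] {θ : K}
  {S : Finset (HeightOneSpectrum (𝓞 K))} {c : HeightOneSpectrum (𝓞 K) → ℂ}
  {bad : Finset ℕ} {wt : ℕ → ℝ}

/-- The traces prescribed outside the finite set `bad`: over a split prime `± 2 √p` where the
weight is `8`, over an inert prime `2 p` where it is `2` and `0` otherwise; `S` is the set of
places over `bad`. -/
structure HasTraces (S : Finset (HeightOneSpectrum (𝓞 K))) (c : HeightOneSpectrum (𝓞 K) → ℂ)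
    (bad : Finset ℕ) (wt : ℕ → ℝ) : Prop where
  three : 3 ∈ bad
  mem_S : ∀ v : HeightOneSpectrum (𝓞 K),
    v ∈ S ↔ ∃ p ∈ bad, p.Prime ∧ (p : 𝓞 K) ∈ v.asIdeal
  split : ∀ p : ℕ, p.Prime → p ∉ bad → p % 3 = 1 → wt p = 0 ∨
    (wt p = 8 ∧ ∃ ε : ℂ, (ε = 2 ∨ ε = -2) ∧ ∀ v ∈ placesOver K p, c v = (√(p : ℝ) : ℂ) * ε)
  inert : ∀ p : ℕ, p.Prime → p ∉ bad → p % 3 = 2 → ∀ v ∈ placesOver K p,
    (wt p = 2 ∧ c v = (p : ℂ) * 2) ∨ (wt p = 0 ∧ c v = 0)

section

omit [IsTotallyComplex K]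

lemma HasTraces.notMem (h : HasTraces S c bad wt) {p : ℕ} (hp : p.Prime) (hb : p ∉ bad)
    {v : HeightOneSpectrum (𝓞 K)} (hv : v ∈ placesOver K p) : v ∉ S := fun hS => by
  obtain ⟨q, hq, hqp, hqv⟩ := (h.mem_S v).1 hS
  exact coprime_notMem ((Nat.coprime_primes hp hqp).2 fun e => hb (e ▸ hq))
    ((mem_over hp.ne_zero).1 hv) hqv

/-- Positive integers prime to the bad set. -/
def IsFree (bad : Finset ℕ) (n : ℕ) : Prop := n ≠ 0 ∧ ∀ p ∈ bad, p.Prime → ¬p ∣ n

open Classical in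
/-- The coefficient at an integer prime to `bad`: the product of the Hecke sequences at its
places. -/
def coefN (c : HeightOneSpectrum (𝓞 K) → ℂ) (bad : Finset ℕ) (n : ℕ) : ℂ :=
  if IsFree bad n then
    (expo (natU K n)).prod fun v m => heckeSeq (v.asIdeal.absNorm : ℂ) (c v) m.toNat
  else 0

/-- The term `a(n) n ^ (1 - s)` of the series along the rational numbers. -/
def term (c : HeightOneSpectrum (𝓞 K) → ℂ) (bad : Finset ℕ) (s : ℝ) (n : ℕ) : ℂ :=
  coefN c bad n * (((n : ℝ) ^ (1 - s) : ℝ) : ℂ)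

lemma isFree_mul {m n : ℕ} : IsFree bad (m * n) ↔ IsFree bad m ∧ IsFree bad n := by
  simp only [IsFree, mul_ne_zero_iff]
  constructor
  · rintro ⟨⟨hm, hn⟩, h⟩
    exact ⟨⟨hm, fun p hp hpp hd => h p hp hpp (hd.mul_right n)⟩,
      ⟨hn, fun p hp hpp hd => h p hp hpp (hd.mul_left m)⟩⟩
  · rintro ⟨⟨hm, h1⟩, ⟨hn, h2⟩⟩
    exact ⟨⟨hm, hn⟩, fun p hp hpp hd => (hpp.dvd_mul.1 hd).elim (h1 p hp hpp) (h2 p hp hpp)⟩

lemma coefN_mul {m n : ℕ} (h : Nat.Coprime m n) :
    coefN c bad (m * n) = coefN c bad m * coefN c bad n := by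
  classical
  unfold coefN
  by_cases hm : IsFree bad m
  swap
  · rw [if_neg fun e => hm (isFree_mul.1 e).1, if_neg hm, zero_mul]
  by_cases hn : IsFree bad n
  swap
  · rw [if_neg fun e => hn (isFree_mul.1 e).2, if_neg hn, mul_zero]
  rw [if_pos (isFree_mul.2 ⟨hm, hn⟩), if_pos hm, if_pos hn, natU_mul hm.1 hn.1, expo_mul,
    Finsupp.prod_add_index_of_disjoint (Finset.disjoint_left.2 fun v h1 h2 => ?_)]
  exact coprime_notMem h ((mem_over hm.1).1 h1) ((mem_over hn.1).1 h2)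

lemma term_mul (s : ℝ) {m n : ℕ} (h : Nat.Coprime m n) :
    term c bad s (m * n) = term c bad s m * term c bad s n := by
  rw [term, term, term, coefN_mul h, Nat.cast_mul,
    Real.mul_rpow (Nat.cast_nonneg m) (Nat.cast_nonneg n)]
  push_cast
  ring

lemma coefN_one : coefN c bad 1 = 1 := by
  rw [coefN, if_pos ⟨one_ne_zero, fun p _ hp hd => hp.ne_one (Nat.dvd_one.1 hd)⟩, natU_one,
    expo_one, Finsupp.prod_zero_index]

lemma term_one (s : ℝ) : term c bad s 1 = 1 := by simp [term, coefN_one]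

/-- The term at zero. -/
lemma term_zero (s : ℝ) : term c bad s 0 = 0 := by
  simp [term, coefN, IsFree]

/-- The eigenvalue divided by the square root of the norm of the place. -/
def lam (c : HeightOneSpectrum (𝓞 K) → ℂ) (v : HeightOneSpectrum (𝓞 K)) : ℂ :=
  c v / (√(v.asIdeal.absNorm : ℝ) : ℂ)

lemma sqrt_absNorm_ne (v : HeightOneSpectrum (𝓞 K)) :
    ((√(v.asIdeal.absNorm : ℝ) : ℝ) : ℂ) ≠ 0 := by
  exact_mod_cast (Real.sqrt_pos.2 (absNorm_pos v)).ne'

lemma heckeSeq_eq_cheb (v : HeightOneSpectrum (𝓞 K)) (k : ℕ) :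
    heckeSeq (v.asIdeal.absNorm : ℂ) (c v) k =
      cheb (lam c v) k / (√(v.asIdeal.absNorm : ℝ) : ℂ) ^ k := by
  conv_lhs => rw [show c v = (√(v.asIdeal.absNorm : ℝ) : ℂ) * lam c v by
    rw [lam, mul_div_cancel₀ _ (sqrt_absNorm_ne v)]]
  exact heckeSeq_scale (by rw [← Complex.ofReal_pow, Real.sq_sqrt (Nat.cast_nonneg _)]; simp)
    (sqrt_absNorm_ne v) k

end

lemma IsEis.coefN_prime_pow (hE : IsEis θ) {p : ℕ} (hp : p.Prime) (h3 : p ≠ 3) (hb : p ∉ bad)
    (k : ℕ) : coefN c bad (p ^ k) =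
      ∏ v ∈ placesOver K p, heckeSeq (v.asIdeal.absNorm : ℂ) (c v) k := by
  classical
  have hfree : IsFree bad (p ^ k) := ⟨pow_ne_zero _ hp.ne_zero, fun q hq hqp hd =>
    hb ((Nat.prime_dvd_prime_iff_eq hqp hp).1 (hqp.dvd_of_dvd_pow hd) ▸ hq)⟩
  rw [coefN, if_pos hfree, natU_pow hp.ne_zero, ← zpow_natCast, expo_zpow,
    Finsupp.prod_of_support_subset _ (Finsupp.support_smul) _ fun v _ => by simp [heckeSeq]]
  refine Finset.prod_congr rfl fun v hv => ?_
  rw [Finsupp.smul_apply, hE.expo_natU_prime hp h3 hv, smul_eq_mul, mul_one, Int.toNat_natCast]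

lemma rpow_prime_pow (p k : ℕ) (s : ℝ) :
    (((p ^ k : ℕ) : ℝ) ^ (1 - s)) = ((p : ℝ) ^ (1 - s)) ^ k := by
  rw [Nat.cast_pow, ← Real.rpow_natCast_mul (Nat.cast_nonneg p), mul_comm,
    Real.rpow_mul_natCast (Nat.cast_nonneg p)]

open Classical in
/-- Local terms at a split prime. -/
lemma IsEis.term_split (hE : IsEis θ) {p : ℕ} (hp : p.Prime) (h1 : p % 3 = 1) (hb : p ∉ bad)
    {v w : HeightOneSpectrum (𝓞 K)} (hvw : v ≠ w) (he : placesOver K p = {v, w})
    (hv : v.asIdeal.absNorm = p) (hw : w.asIdeal.absNorm = p) (s : ℝ) (k : ℕ) :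
    term c bad s (p ^ k) =
      cheb (lam c v) k * cheb (lam c w) k * ((((p : ℝ) ^ (-s)) : ℝ) : ℂ) ^ k := by
  rw [term, hE.coefN_prime_pow hp (by omega) hb, he, Finset.prod_pair hvw, heckeSeq_eq_cheb,
    heckeSeq_eq_cheb, hv, hw, rpow_prime_pow, Complex.ofReal_pow,
    show (p : ℝ) ^ (-s) = (p : ℝ) ^ (1 - s) / (p : ℝ) by
      rw [sub_eq_neg_add, Real.rpow_add_one (Nat.cast_ne_zero.2 hp.ne_zero),
        mul_div_assoc, div_self (Nat.cast_ne_zero.2 hp.ne_zero), mul_one]]
  have hp0 : (0 : ℝ) < p := Nat.cast_pos.2 hp.pos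
  have hsq : ((√(p : ℝ) : ℝ) : ℂ) ^ k * ((√(p : ℝ) : ℝ) : ℂ) ^ k = ((p : ℝ) : ℂ) ^ k := by
    rw [← mul_pow, ← Complex.ofReal_mul, Real.mul_self_sqrt hp0.le]
  rw [Complex.ofReal_div, div_pow, ← hsq]
  ring

/-- Local terms at an inert prime. -/
lemma IsEis.term_inert (hE : IsEis θ) {p : ℕ} (hp : p.Prime) (h2 : p % 3 = 2) (hb : p ∉ bad)
    {v : HeightOneSpectrum (𝓞 K)} (he : placesOver K p = {v}) (hv : v.asIdeal.absNorm = p ^ 2)
    (s : ℝ) (k : ℕ) :
    term c bad s (p ^ k) = cheb (lam c v) k * ((((p : ℝ) ^ (-s)) : ℝ) : ℂ) ^ k := by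
  rw [term, hE.coefN_prime_pow hp (by omega) hb, he, Finset.prod_singleton, heckeSeq_eq_cheb, hv,
    rpow_prime_pow, Complex.ofReal_pow,
    show (p : ℝ) ^ (-s) = (p : ℝ) ^ (1 - s) / (p : ℝ) by
      rw [sub_eq_neg_add, Real.rpow_add_one (Nat.cast_ne_zero.2 hp.ne_zero),
        mul_div_assoc, div_self (Nat.cast_ne_zero.2 hp.ne_zero), mul_one]]
  rw [Nat.cast_pow, Real.sqrt_sq (Nat.cast_nonneg p), Complex.ofReal_div, div_pow]
  ring

section

omit [IsTotallyComplex K]

lemma term_bad {p : ℕ} (hp : p.Prime) (hb : p ∈ bad) (s : ℝ) {k : ℕ} (hk : k ≠ 0) :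
    term c bad s (p ^ k) = 0 := by
  rw [term, coefN, if_neg fun h => h.2 p hb hp (dvd_pow_self p hk), zero_mul]

lemma tsum_term_bad {p : ℕ} (hp : p.Prime) (hb : p ∈ bad) (s : ℝ) :
    ∑' k, term c bad s (p ^ k) = 1 := by
  rw [tsum_eq_single 0 fun k hk => term_bad hp hb s hk, pow_zero, term_one]

/-- The local mean square. -/
def locSq (c : HeightOneSpectrum (𝓞 K) → ℂ) (s : ℝ) (v : HeightOneSpectrum (𝓞 K)) (k : ℕ) : ℝ :=
  ‖cheb (lam c v) k‖ ^ 2 * ((v.asIdeal.absNorm : ℝ) ^ (-s)) ^ k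

lemma locSq_nonneg (s : ℝ) (v : HeightOneSpectrum (𝓞 K)) (k : ℕ) : 0 ≤ locSq c s v k :=
  mul_nonneg (sq_nonneg _) (pow_nonneg (Real.rpow_nonneg (absNorm_pos v).le _) _)

lemma sqWeight_factor (s : ℝ) (v : HeightOneSpectrum (𝓞 K)) (k : ℕ) :
    ‖heckeSeq (v.asIdeal.absNorm : ℂ) (c v) k‖ ^ 2 *
      (v.asIdeal.absNorm : ℝ) ^ (-(k : ℝ) * (s - 1)) = locSq c s v k := by
  have hq := absNorm_pos v
  rw [heckeSeq_eq_cheb, locSq, norm_div, norm_pow, Complex.norm_real, Real.norm_eq_abs,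
    abs_of_nonneg (Real.sqrt_nonneg _), div_pow, ← pow_mul, mul_comm k 2, pow_mul,
    Real.sq_sqrt hq.le, ← Real.rpow_mul_natCast hq.le, div_mul_eq_mul_div, mul_div_assoc]
  congr 1
  rw [div_eq_iff (pow_ne_zero _ hq.ne'), ← Real.rpow_natCast (v.asIdeal.absNorm : ℝ) k,
    ← Real.rpow_add hq]
  congr 1
  ring

open Classical in
/-- A product of partial local sums is a sum of weights. -/
lemma exists_prod_locSq (s : ℝ) (N : ℕ) (T : Finset (HeightOneSpectrum (𝓞 K))) :
    ∃ A : Finset (HeightOneSpectrum (𝓞 K) →₀ ℕ), (∀ m ∈ A, m.support ⊆ T) ∧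
      ∑ m ∈ A, sqWeight c s m = ∏ v ∈ T, ∑ k ∈ Finset.range N, locSq c s v k := by
  induction T using Finset.induction_on with
  | empty => exact ⟨{0}, by simp, by simp [sqWeight]⟩
  | insert v T hv ih =>
    obtain ⟨A, hA, hsum⟩ := ih
    have hdisj : ∀ k : ℕ, ∀ m ∈ A, Disjoint (Finsupp.single v k).support m.support := fun k m hm =>
      Finset.disjoint_left.2 fun w hw hw' => by
        have : w = v := by simpa using Finsupp.support_single_subset hw
        exact hv (this ▸ hA m hm hw')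
    refine ⟨(Finset.range N ×ˢ A).image fun km => Finsupp.single v km.1 + km.2, ?_, ?_⟩
    · intro m hm
      obtain ⟨⟨k, m'⟩, hkm, rfl⟩ := Finset.mem_image.1 hm
      refine Finsupp.support_add.trans (Finset.union_subset ?_ ?_)
      · exact Finsupp.support_single_subset.trans (by simp)
      · exact (hA m' (Finset.mem_product.1 hkm).2).trans (Finset.subset_insert _ _)
    · rw [Finset.sum_image ?_, Finset.prod_insert hv, ← hsum, Finset.sum_mul_sum,
        ← Finset.sum_product']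
      · refine Finset.sum_congr rfl fun ⟨k, m⟩ hkm => ?_
        rw [← sqWeight_factor]
        simp only [sqWeight]
        rw [Finsupp.prod_add_index_of_disjoint (hdisj k m (Finset.mem_product.1 hkm).2),
          Finsupp.prod_single_index]
        simp [heckeSeq]
      · rintro ⟨k, m⟩ hkm ⟨k', m'⟩ hkm' e
        have hmv : ∀ n ∈ A, n v = 0 := fun n hn =>
          Finsupp.notMem_support_iff.1 fun h => hv (hA n hn h)
        have e1 := DFunLike.congr_fun e v
        simp [hmv m (Finset.mem_product.1 hkm).2, hmv m' (Finset.mem_product.1 hkm').2] at e1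
        subst e1
        exact Prod.ext rfl (add_left_cancel e)

end

variable (hE : IsEis θ) (hB : ∃ C : ℝ, 0 < C ∧ ∀ s : ℝ, 1 < s → s ≤ 2 →
  ∀ A : Finset (HeightOneSpectrum (𝓞 K) →₀ ℕ), (∀ m ∈ A, ∀ v ∈ S, m v = 0) →
    ∑ m ∈ A, sqWeight c s m ≤ C / (s - 1))

omit [IsTotallyComplex K] in
include hB in
/-- From the bound on the mean square: outside the level the local series of squares converge and
all their finite products, and those of their first two terms, are `O(1 / (s - 1))`. -/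
theorem exists_locSq_bound : ∃ C : ℝ, 1 ≤ C ∧ ∀ s : ℝ, 1 < s → s ≤ 2 →
    (∀ v ∉ S, Summable (locSq c s v) ∧ 1 ≤ ∑' k, locSq c s v k) ∧
      ∀ T : Finset (HeightOneSpectrum (𝓞 K)), (∀ v ∈ T, v ∉ S) →
        ∏ v ∈ T, ∑' k, locSq c s v k ≤ C / (s - 1) ∧
        ∏ v ∈ T, (1 + ‖lam c v‖ ^ 2 * (v.asIdeal.absNorm : ℝ) ^ (-s)) ≤ C / (s - 1) ∧
        ∑ v ∈ T, ‖lam c v‖ ^ 2 * (v.asIdeal.absNorm : ℝ) ^ (-(2 : ℝ)) ≤ C := by
  classical
  obtain ⟨C, -, hC⟩ := hB
  have hfin : ∀ s : ℝ, 1 < s → s ≤ 2 → ∀ (T : Finset (HeightOneSpectrum (𝓞 K))),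
      (∀ v ∈ T, v ∉ S) → ∀ N, ∏ v ∈ T, ∑ k ∈ Finset.range N, locSq c s v k ≤ C / (s - 1) := by
    intro s hs hs2 T hT N
    obtain ⟨A, hA, e⟩ := exists_prod_locSq (c := c) s N T
    exact e ▸ hC s hs hs2 A fun m hm v hv =>
      Finsupp.notMem_support_iff.1 fun h => hT v (hA m hm h) hv
  refine ⟨max C 1, le_max_right _ _, fun s hs hs2 => ?_⟩
  have hs1 : 0 < s - 1 := by linarith
  have hle : C / (s - 1) ≤ max C 1 / (s - 1) := div_le_div_of_nonneg_right (le_max_left _ _) hs1.le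
  have hsum : ∀ v ∉ S, Summable (locSq c s v) := fun v hv =>
    summable_of_sum_range_le (c := C / (s - 1)) (locSq_nonneg s v) fun N => by
      simpa using hfin s hs hs2 {v} (by simpa using hv) N
  refine ⟨fun v hv => ⟨hsum v hv, ?_⟩, fun T hT => ⟨?_, ?_, ?_⟩⟩
  · refine le_trans (le_of_eq ?_) ((hsum v hv).le_tsum 0 fun k _ => locSq_nonneg s v k)
    simp [locSq, cheb_zero]
  · refine (le_of_tendsto' (tendsto_finsetProd T fun v hv =>
      (hsum v (hT v hv)).hasSum.tendsto_sum_nat) (hfin s hs hs2 T hT)).trans hle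
  · refine le_trans (le_of_eq (Finset.prod_congr rfl fun v _ => ?_))
      ((hfin s hs hs2 T hT 2).trans hle)
    simp [Finset.sum_range_succ, locSq, cheb_zero, cheb_one]
  · have h2 := hfin 2 one_lt_two le_rfl T hT 2
    norm_num [Finset.sum_range_succ, locSq, cheb_zero, cheb_one] at h2
    refine le_trans ?_ (h2.trans (le_max_left _ _))
    have key : ∀ (U : Finset (HeightOneSpectrum (𝓞 K))) (a : HeightOneSpectrum (𝓞 K) → ℝ),
        (∀ v, 0 ≤ a v) → ∑ v ∈ U, a v ≤ ∏ v ∈ U, (1 + a v) := by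
      intro U a ha
      induction U using Finset.induction_on with
      | empty => simp
      | insert v U hv ih =>
        rw [Finset.sum_insert hv, Finset.prod_insert hv, add_mul, one_mul]
        have h1 : 1 ≤ ∏ w ∈ U, (1 + a w) :=
          Finset.one_le_prod fun w _ => le_add_of_nonneg_right (ha w)
        nlinarith [ha v, mul_le_mul_of_nonneg_left h1 (ha v)]
    refine (key T _ fun v => by positivity).trans (le_of_eq (Finset.prod_congr rfl fun v _ => ?_))
    norm_num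

lemma prime_rpow_le {p : ℕ} (hp : p.Prime) {s : ℝ} (hs : 1 < s) :
    0 < (p : ℝ) ^ (-s) ∧ (p : ℝ) ^ (-s) ≤ 1 / 2 ∧ ((p : ℝ) ^ (-s)) ^ 2 ≤ (p : ℝ) ^ (-(2 : ℝ)) := by
  have h2 : (2 : ℝ) ≤ p := by exact_mod_cast hp.two_le
  have h1 : (1 : ℝ) ≤ p := by linarith
  refine ⟨Real.rpow_pos_of_pos (by linarith) _, ?_, ?_⟩
  · calc (p : ℝ) ^ (-s) ≤ (p : ℝ) ^ (-(1 : ℝ)) := Real.rpow_le_rpow_of_exponent_le h1 (by linarith)
      _ = 1 / (p : ℝ) := by rw [Real.rpow_neg_one, one_div]
      _ ≤ 1 / 2 := one_div_le_one_div_of_le two_pos h2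
  · rw [← Real.rpow_mul_natCast (by linarith)]
    exact Real.rpow_le_rpow_of_exponent_le h1 (by push_cast; linarith)

lemma hasSum_succ_mul_geometric {x : ℝ} (hx0 : 0 ≤ x) (hx : x < 1) :
    HasSum (fun k : ℕ => ((k : ℝ) + 1) * x ^ k) (1 / (1 - x) ^ 2) := by
  have hn : ‖x‖ < 1 := by rwa [Real.norm_eq_abs, abs_of_nonneg hx0]
  have h := (hasSum_coe_mul_geometric_of_norm_lt_one hn).add (hasSum_geometric_of_norm_lt_one hn)
  rw [show 1 / (1 - x) ^ 2 = x / (1 - x) ^ 2 + (1 - x)⁻¹ by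
    have : 1 - x ≠ 0 := by linarith
    field_simp
    ring]
  exact h.congr_fun fun k => by ring

open Classical in
/-- The absolute local sum is controlled. -/
def locBound (c : HeightOneSpectrum (𝓞 K) → ℂ) (bad : Finset ℕ) (s : ℝ) (p : ℕ) : ℝ :=
  if p ∈ bad then 1 else
    (∏ v ∈ (placesOver K p).filter (fun v => v.asIdeal.absNorm = p), ∑' k, locSq c s v k) *
      Real.exp (4 * (p : ℝ) ^ (-s))

variable (hT : HasTraces S c bad wt)

section

omit [IsTotallyComplex K]

include hT in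
lemma HasTraces.lam_inert {p : ℕ} (hp : p.Prime) (hb : p ∉ bad) (h2 : p % 3 = 2)
    {v : HeightOneSpectrum (𝓞 K)} (hv : v ∈ placesOver K p) (hn : v.asIdeal.absNorm = p ^ 2) :
    (lam c v = 2 ∧ wt p = 2) ∨ (lam c v = 0 ∧ wt p = 0) := by
  have hsq : (√(v.asIdeal.absNorm : ℝ) : ℂ) = (p : ℂ) := by
    rw [hn, Nat.cast_pow, Real.sqrt_sq (Nat.cast_nonneg p), Complex.ofReal_natCast]
  rcases hT.inert p hp hb h2 v hv with ⟨h, hc⟩ | ⟨h, hc⟩
  · exact Or.inl ⟨by rw [lam, hc, hsq, mul_div_cancel_left₀ _ (Nat.cast_ne_zero.2 hp.ne_zero)], h⟩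
  · exact Or.inr ⟨by rw [lam, hc, zero_div], h⟩

include hT in
lemma HasTraces.mod_three {p : ℕ} (hp : p.Prime) (hb : p ∉ bad) : p % 3 = 1 ∨ p % 3 = 2 := by
  have h3 : p % 3 ≠ 0 := fun e => hb (by
    rw [← (Nat.prime_dvd_prime_iff_eq Nat.prime_three hp).1 (Nat.dvd_of_mod_eq_zero e)]
    exact hT.three)
  omega

open Classical in
/-- The places of degree one over a prime outside `bad`. -/
def degOne (K : Type*) [Field K] [NumberField K] (bad : Finset ℕ) (p : Nat.Primes) :
    Finset (HeightOneSpectrum (𝓞 K)) :=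
  if (p : ℕ) ∈ bad then ∅ else (placesOver K p).filter fun v => v.asIdeal.absNorm = (p : ℕ)

lemma degOne_disjoint (F : Set Nat.Primes) : F.PairwiseDisjoint (degOne K bad) :=
  fun p _ q _ h => by
  simp only [Function.onFun, degOne]
  split_ifs
  · exact disjoint_bot_left
  · exact disjoint_bot_left
  · exact disjoint_bot_right
  · exact Finset.disjoint_of_subset_left (Finset.filter_subset _ _)
      (Finset.disjoint_of_subset_right (Finset.filter_subset _ _)
        (disjoint_over p.2 q.2 fun e => h (Subtype.ext e)))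

include hT in
open Classical in
lemma degOne_notMem (F : Finset Nat.Primes) :
    ∀ v ∈ F.biUnion (degOne K bad), v ∉ S := fun v hv => by
  obtain ⟨p, -, hp⟩ := Finset.mem_biUnion.1 hv
  rw [degOne] at hp
  split_ifs at hp with hb
  · simp at hp
  · exact hT.notMem p.2 hb (Finset.mem_filter.1 hp).1

end

include hE hT in
/-- Absolute convergence at each prime. -/
lemma local_summable {s : ℝ} (hs : 1 < s)
    (hsq : ∀ v ∉ S, Summable (locSq c s v) ∧ 1 ≤ ∑' k, locSq c s v k) {p : ℕ} (hp : p.Prime) :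
    Summable (fun k => ‖term c bad s (p ^ k)‖) ∧
      ∑' k, ‖term c bad s (p ^ k)‖ ≤ locBound c bad s p := by
  classical
  by_cases hb : p ∈ bad
  · have hz : ∀ k, k ≠ 0 → ‖term c bad s (p ^ k)‖ = 0 := fun k hk => by
      rw [term_bad hp hb s hk, norm_zero]
    refine ⟨summable_of_ne_finset_zero (s := {0}) (fun k hk => hz k (by simpa using hk)), ?_⟩
    rw [tsum_eq_single 0 hz, locBound, if_pos hb]
    simp [term_one]
  rw [locBound, if_neg hb]
  obtain ⟨hx0, hx, -⟩ := prime_rpow_le hp hs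
  set x := (p : ℝ) ^ (-s) with hxdef
  have hxn : ∀ k : ℕ, ‖((x : ℝ) : ℂ) ^ k‖ = x ^ k := fun k => by
    rw [norm_pow, Complex.norm_real, Real.norm_eq_abs, abs_of_pos hx0]
  rcases hT.mod_three hp hb with h1 | h2
  · obtain ⟨v, w, hvw, he, hv, hw⟩ := hE.over_split hp h1
    obtain ⟨sv, one_v⟩ := hsq v (hT.notMem hp hb (by simp [he]))
    obtain ⟨sw, one_w⟩ := hsq w (hT.notMem hp hb (by simp [he]))
    have hle : ∀ k, ‖term c bad s (p ^ k)‖ ≤ (locSq c s v k + locSq c s w k) / 2 := fun k => by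
      rw [hE.term_split hp h1 hb hvw he hv hw, norm_mul, norm_mul, hxn, locSq, locSq, hv, hw,
        ← hxdef]
      nlinarith
        [mul_nonneg (sq_nonneg (‖cheb (lam c v) k‖ - ‖cheb (lam c w) k‖)) (pow_nonneg hx0.le k)]
    have hsum := Summable.of_nonneg_of_le (fun _ => norm_nonneg _) hle ((sv.add sw).div_const 2)
    refine ⟨hsum, (hsum.tsum_le_tsum hle ((sv.add sw).div_const 2)).trans ?_⟩
    rw [tsum_div_const, sv.tsum_add sw, Finset.filter_true_of_mem (fun u hu => by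
      rw [he] at hu; simp at hu; rcases hu with rfl | rfl <;> assumption), he, Finset.prod_pair hvw]
    have h4 : 1 ≤ Real.exp (4 * x) := Real.one_le_exp (by linarith)
    have := mul_le_mul_of_nonneg_left h4
      (show 0 ≤ (∑' k, locSq c s v k) * ∑' k, locSq c s w k by positivity)
    nlinarith [mul_nonneg (sub_nonneg.2 one_v) (sub_nonneg.2 one_w)]
  · obtain ⟨v, he, hv⟩ := hE.over_inert hp h2
    have hl : lam c v = 2 ∨ lam c v = 0 :=
      (hT.lam_inert hp hb h2 (by simp [he]) hv).imp And.left And.left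
    have hgeo := hasSum_succ_mul_geometric hx0.le (by linarith : x < 1)
    have hle : ∀ k : ℕ, ‖term c bad s (p ^ k)‖ ≤ ((k : ℝ) + 1) * x ^ k := fun k => by
      rw [hE.term_inert hp h2 hb he hv, norm_mul, ← hxdef, hxn]
      exact mul_le_mul_of_nonneg_right (norm_cheb_le hl k) (pow_nonneg hx0.le k)
    have hsum := Summable.of_nonneg_of_le (fun _ => norm_nonneg _) hle hgeo.summable
    refine ⟨hsum, (hsum.tsum_le_tsum hle hgeo.summable).trans ?_⟩
    rw [hgeo.tsum_eq, Finset.filter_false_of_mem (fun u hu => by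
      rw [he] at hu; simp at hu; subst hu; rw [hv]; nlinarith [hp.one_lt]),
        Finset.prod_empty, one_mul]
    rw [div_le_iff₀ (by nlinarith)]
    have h4 : 1 + 4 * x ≤ Real.exp (4 * x) := by linarith [Real.add_one_le_exp (4 * x)]
    have h5 : 1 + 4 * x + (4 * x) ^ 2 / 2 ≤ Real.exp (4 * x) :=
      Real.quadratic_le_exp_of_nonneg (by linarith)
    nlinarith [mul_le_mul_of_nonneg_right h5 (sq_nonneg (1 - x)),
      mul_nonneg (mul_nonneg hx0.le hx0.le) (sq_nonneg (1 - 2 * x))]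

include hE hB hT in
/-- For `1 < s ≤ 2` the series along the rational numbers converges absolutely and is the
product of its factors at the primes. -/
theorem summable_term {s : ℝ} (hs : 1 < s) (hs2 : s ≤ 2) :
    Summable (fun n => ‖term c bad s n‖) ∧
      HasProd (fun p : Nat.Primes => ∑' k, term c bad s ((p : ℕ) ^ k)) (∑' n, term c bad s n) := by
  classical
  obtain ⟨C, hC1, hC⟩ := exists_locSq_bound hB
  obtain ⟨hsq, hprod⟩ := hC s hs hs2
  have hloc := fun {p : ℕ} (hp : p.Prime) => local_summable hE hT hs hsq hp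
  have hps : Summable (fun p : Nat.Primes => 4 * ((p : ℕ) : ℝ) ^ (-s)) :=
    ((Real.summable_nat_rpow.2 (by linarith)).comp_injective
      Nat.Primes.coe_nat_injective).mul_left 4
  set E := Real.exp (∑' p : Nat.Primes, 4 * ((p : ℕ) : ℝ) ^ (-s))
  have hnorm : Summable (fun n => ‖term c bad s n‖) := by
    refine summable_of_sum_le (fun n => norm_nonneg _) (c := C / (s - 1) * E) fun u => ?_
    set P := u.biUnion Nat.primeFactors
    have hPp : P.filter Nat.Prime = P := Finset.filter_true_of_mem fun p hp => by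
      obtain ⟨n, -, hn⟩ := Finset.mem_biUnion.1 hp; exact Nat.prime_of_mem_primeFactors hn
    obtain ⟨hsum, hval⟩ := EulerProduct.summable_and_hasSum_factoredNumbers_prod_filter_prime_tsum
      (f := fun n => ‖term c bad s n‖) (by simp [term_one])
      (fun {m n} h => by simp [term_mul s h]) (fun {p} hp => by simpa using (hloc hp).1) P
    have h1 : ∑ n ∈ u, ‖term c bad s n‖ ≤ ∏ p ∈ P, ∑' k, ‖term c bad s (p ^ k)‖ := by
      rw [← hPp, ← hval.tsum_eq, ← Finset.sum_filter_ne_zero]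
      have hmem : ∀ n ∈ u.filter (fun n => ‖term c bad s n‖ ≠ 0), n ∈ Nat.factoredNumbers P := by
        intro n hn
        obtain ⟨hnu, hn0⟩ := Finset.mem_filter.1 hn
        rw [Nat.mem_factoredNumbers_iff_primeFactors_subset]
        exact ⟨fun e => hn0 (by rw [e, term_zero, norm_zero]), Finset.subset_biUnion_of_mem _ hnu⟩
      rw [← Finset.sum_subtype_of_mem _ hmem]
      exact hval.summable.sum_le_tsum _ fun _ _ => norm_nonneg _
    refine h1.trans ?_
    set F : Finset Nat.Primes := P.subtype Nat.Prime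
    have e1 : ∏ p ∈ P, ∑' k, ‖term c bad s (p ^ k)‖ =
        ∏ p ∈ F, ∑' k, ‖term c bad s ((p : ℕ) ^ k)‖ := by
      conv_lhs => rw [← hPp, ← Finset.subtype_map, Finset.prod_map]
      rfl
    rw [e1]
    refine (Finset.prod_le_prod (fun p _ => tsum_nonneg fun _ => norm_nonneg _)
      fun p _ => (hloc p.2).2).trans ?_
    calc ∏ p ∈ F, locBound c bad s p
        ≤ ∏ p ∈ F, ((∏ v ∈ degOne K bad p, ∑' k, locSq c s v k) *
            Real.exp (4 * ((p : ℕ) : ℝ) ^ (-s))) := by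
          refine Finset.prod_le_prod (fun p _ => ?_) fun p _ => ?_
          · unfold locBound; split_ifs
            · exact zero_le_one
            · exact mul_nonneg (Finset.prod_nonneg fun v _ => tsum_nonneg (locSq_nonneg s v))
                (Real.exp_pos _).le
          · unfold locBound degOne
            split_ifs
            · rw [Finset.prod_empty, one_mul]
              exact Real.one_le_exp (by positivity)
            · exact le_rfl
      _ = (∏ v ∈ F.biUnion (degOne K bad), ∑' k, locSq c s v k) *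
            Real.exp (∑ p ∈ F, 4 * ((p : ℕ) : ℝ) ^ (-s)) := by
          rw [Finset.prod_mul_distrib, Finset.prod_biUnion (degOne_disjoint _), Real.exp_sum]
      _ ≤ C / (s - 1) * E := mul_le_mul (hprod _ (degOne_notMem hT F)).1
          (Real.exp_le_exp.2 (hps.sum_le_tsum _ fun p _ => by positivity)) (Real.exp_pos _).le
          (div_nonneg (by linarith) (by linarith))
  exact ⟨hnorm, EulerProduct.eulerProduct_hasProd (term_one s) (fun h => term_mul s h) hnorm
    (term_zero s)⟩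

include hE hT in
/-- The lower bound at one prime. -/
lemma local_ge {s : ℝ} (hs : 1 < s) (p : Nat.Primes)
    (hsum : Summable fun k => ‖term c bad s ((p : ℕ) ^ k)‖) :
    0 < ‖∑' k, term c bad s ((p : ℕ) ^ k)‖ ∧
      (if (p : ℕ) ∈ bad then 0 else wt p / ((p : ℕ) : ℝ) ^ s) -
          (∑ v ∈ degOne K bad p,
            Real.log (1 + ‖lam c v‖ ^ 2 * (v.asIdeal.absNorm : ℝ) ^ (-s))) / 2 -
          2 * (∑ v ∈ degOne K bad p, ‖lam c v‖ ^ 2 * (v.asIdeal.absNorm : ℝ) ^ (-(2 : ℝ))) -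
          9 * ((p : ℕ) : ℝ) ^ (-(2 : ℝ)) ≤
        Real.log ‖∑' k, term c bad s ((p : ℕ) ^ k)‖ := by
  classical
  by_cases hb : (p : ℕ) ∈ bad
  · rw [tsum_term_bad p.2 hb, degOne, if_pos hb, if_pos hb, norm_one, Real.log_one]
    refine ⟨one_pos, ?_⟩
    simp only [Finset.sum_empty]
    have := Real.rpow_nonneg (Nat.cast_nonneg (α := ℝ) (p : ℕ)) (-2)
    linarith
  obtain ⟨hx0, hx, hx2⟩ := prime_rpow_le p.2 hs
  rw [if_neg hb, div_eq_mul_inv, ← Real.rpow_neg (Nat.cast_nonneg _)]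
  set x := ((p : ℕ) : ℝ) ^ (-s) with hxdef
  have hcs : Summable fun k => term c bad s ((p : ℕ) ^ k) := hsum.of_norm
  rcases hT.mod_three p.2 hb with h1 | h2
  · obtain ⟨v, w, hvw, he, hv, hw⟩ := hE.over_split p.2 h1
    have hT1 : degOne K bad p = {v, w} := by
      rw [degOne, if_neg hb, Finset.filter_true_of_mem (fun u hu => by
        rw [he] at hu; simp at hu; rcases hu with rfl | rfl <;> assumption), he]
    rw [hT1, Finset.sum_pair hvw, Finset.sum_pair hvw, hv, hw, ← hxdef]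
    have e : (fun k => term c bad s ((p : ℕ) ^ k)) =
        fun k => cheb (lam c v) k * cheb (lam c w) k * (x : ℂ) ^ k :=
      funext fun k => hE.term_split p.2 h1 hb hvw he hv hw s k
    rw [e] at hcs ⊢
    have hZ := tsum_cheb_pair hcs
    rcases hT.split p p.2 hb h1 with h0 | ⟨h8, ε, hε, hc⟩
    · obtain ⟨hpos, hge⟩ := split_ge hx0 hx hZ
      refine ⟨hpos, le_trans ?_ hge⟩
      rw [h0, zero_mul]
      nlinarith [sq_nonneg ‖lam c v‖, sq_nonneg ‖lam c w‖,
        mul_le_mul_of_nonneg_left hx2 (add_nonneg (sq_nonneg ‖lam c v‖) (sq_nonneg ‖lam c w‖))]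
    · have hl : ∀ u ∈ placesOver K p, u.asIdeal.absNorm = (p : ℕ) → lam c u = ε := fun u hu hn => by
        rw [lam, hn, hc u hu, mul_div_cancel_left₀]
        exact_mod_cast (Real.sqrt_pos.2 (Nat.cast_pos.2 p.2.pos)).ne'
      rw [hl v (by simp [he]) hv, hl w (by simp [he]) hw] at hZ ⊢
      obtain ⟨hpos, hge⟩ := split_two_ge hε hx0 hx hZ
      refine ⟨hpos, le_trans ?_ hge⟩
      rw [h8]
      nlinarith [sq_nonneg ‖ε‖, Real.rpow_nonneg (Nat.cast_nonneg (α := ℝ) (p : ℕ)) (-2)]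
  · obtain ⟨v, he, hv⟩ := hE.over_inert p.2 h2
    have hT1 : degOne K bad p = ∅ := by
      rw [degOne, if_neg hb, Finset.filter_false_of_mem]
      intro u hu
      rw [he, Finset.mem_singleton] at hu
      subst hu
      rw [hv]
      nlinarith [p.2.one_lt]
    rw [hT1, Finset.sum_empty, Finset.sum_empty]
    have e : (fun k => term c bad s ((p : ℕ) ^ k)) = fun k => cheb (lam c v) k * (x : ℂ) ^ k :=
      funext fun k => hE.term_inert p.2 h2 hb he hv s k
    rw [e] at hcs ⊢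
    obtain ⟨hpos, hge⟩ := inert_ge (hT.lam_inert p.2 hb h2 (by simp [he]) hv) hx0 hx
      (tsum_cheb hcs)
    refine ⟨hpos, le_trans ?_ hge⟩
    nlinarith [Real.rpow_nonneg (Nat.cast_nonneg (α := ℝ) (p : ℕ)) (-2)]

include hE hB hT in
/-- **The lower bound near `s = 1`**: the series of coefficients along the rational numbers is at
least `(s - 1) ^ (1/2)` times the exponential of the mass of the prescribed traces, up to a
constant. -/
theorem exists_series_ge : ∃ C : ℝ, ∀ s : ℝ, 1 < s → s ≤ 2 → Summable (wtTerm bad wt s) →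
    Real.exp ((∑' p, wtTerm bad wt s p) + Real.log (s - 1) / 2 - C) ≤
      ‖∑' n, term c bad s n‖ := by
  classical
  obtain ⟨C, hC1, hC⟩ := exists_locSq_bound hB
  have hq : Summable fun p : Nat.Primes => 9 * ((p : ℕ) : ℝ) ^ (-(2 : ℝ)) :=
    ((Real.summable_nat_rpow.2 (by norm_num)).comp_injective
      Nat.Primes.coe_nat_injective).mul_left 9
  set K₀ := Real.log C / 2 + 2 * C + ∑' p : Nat.Primes, 9 * ((p : ℕ) : ℝ) ^ (-(2 : ℝ))
  refine ⟨K₀, fun s hs hs2 hw => ?_⟩
  obtain ⟨hsq, hprod⟩ := hC s hs hs2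
  obtain ⟨-, hP⟩ := summable_term hE hB hT hs hs2
  have hloc := fun p : Nat.Primes =>
    local_ge hE hT hs p (local_summable hE hT hs hsq p.2).1
  have hfin : ∀ F : Finset Nat.Primes,
      Real.exp ((∑ p ∈ F, if (p : ℕ) ∈ bad then 0 else wt p / ((p : ℕ) : ℝ) ^ s) +
        Real.log (s - 1) / 2 - K₀) ≤ ‖∏ p ∈ F, ∑' k, term c bad s ((p : ℕ) ^ k)‖ := by
    intro F
    rw [norm_prod, ← Real.exp_log (Finset.prod_pos fun p _ => (hloc p).1),
      Real.log_prod (fun p _ => (hloc p).1.ne'), Real.exp_le_exp]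
    refine le_trans ?_ (Finset.sum_le_sum fun p _ => (hloc p).2)
    simp only [Finset.sum_sub_distrib, ← Finset.sum_div, ← Finset.mul_sum,
      ← Finset.sum_biUnion (degOne_disjoint (K := K) (bad := bad) _)]
    obtain ⟨-, h2, h3⟩ := hprod _ (degOne_notMem hT F)
    have hpos : ∀ v : HeightOneSpectrum (𝓞 K),
        0 < 1 + ‖lam c v‖ ^ 2 * (v.asIdeal.absNorm : ℝ) ^ (-s) := fun v =>
      add_pos_of_pos_of_nonneg one_pos
        (mul_nonneg (sq_nonneg _) (Real.rpow_nonneg (absNorm_pos v).le _))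
    have hlog := Real.log_le_log (Finset.prod_pos fun v _ => hpos v) h2
    rw [Real.log_prod (fun v _ => (hpos v).ne'),
      Real.log_div (by linarith) (by linarith : s - 1 ≠ 0)] at hlog
    have h9 := hq.sum_le_tsum F fun p _ => by positivity
    rw [← Finset.mul_sum] at h9
    simp only [K₀]
    linarith
  refine le_of_tendsto_of_tendsto' ?_ ((continuous_norm.tendsto _).comp hP) hfin
  exact (Real.continuous_exp.tendsto _).comp
    ((hw.hasSum.add_const _).sub_const _)

end FermatAgent.LT.Period
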