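import Mathlib

/-!
# Unfolding the modular fundamental domain to a strip

The modular group is the translations times the primitive bottom rows, and almost every point has
two translates in the fundamental domain, so an integral over the strip of a function of period one
is half the sum over the rows of integrals over the fundamental domain.
-/

set_option autoImplicit false

noncomputable section

open MeasureTheory Set Filter Topology UpperHalfPlane
open scoped MatrixGroups Modular ENNReal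

namespace FermatAgent.LT.Period

/-- Translation by an element of the modular group preserves the hyperbolic measure. -/
lemma measurePreserving_sl (g : SL(2, ℤ)) :
    MeasurePreserving (fun z : ℍ => g • z) volume volume :=
  measurePreserving_smul ((Matrix.SpecialLinearGroup.mapGL ℝ) g : GL (Fin 2) ℝ) (volume : Measure ℍ)

/-- The action is a measurable embedding. -/
lemma measurableEmbedding_sl (g : SL(2, ℤ)) : MeasurableEmbedding fun z : ℍ => g • z :=
  (MeasurableEquiv.mk ⟨fun z => g • z, fun z => g⁻¹ • z, fun z => by simp, fun z => by simp⟩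
    (measurePreserving_sl g).measurable (measurePreserving_sl g⁻¹).measurable).measurableEmbedding

instance countable_sl : Countable SL(2, ℤ) :=
  haveI : Countable (Matrix (Fin 2) (Fin 2) ℤ) := inferInstanceAs (Countable (Fin 2 → Fin 2 → ℤ))
  Subtype.countable

/-- The primitive bottom rows. -/
abbrev PrimRow := {w : Fin 2 → ℤ // IsCoprime (w 0) (w 1)}

/-- A matrix with given bottom row. -/
def rowRep (w : PrimRow) : SL(2, ℤ) :=
  (ModularGroup.bottom_row_surj (R := ℤ) w.2).choose

/-- The representative of a row. -/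
lemma rowRep_spec (w : PrimRow) : (rowRep w).1 1 = w.1 :=
  (ModularGroup.bottom_row_surj (R := ℤ) w.2).choose_spec.2

lemma eq_T_zpow_mul {g h : SL(2, ℤ)} (e : g.1 1 = h.1 1) : ∃ n : ℤ, g = ModularGroup.T ^ n * h := by
  refine ⟨(g * h⁻¹).1 0 1, ?_⟩
  rw [← mul_inv_eq_iff_eq_mul]
  have e0 : g.1 1 0 = h.1 1 0 := congrFun e 0
  have e1 : g.1 1 1 = h.1 1 1 := congrFun e 1
  have hh := h.2
  rw [Matrix.det_fin_two] at hh
  have h10 : (g * h⁻¹).1 1 0 = 0 := by
    simp [Matrix.SpecialLinearGroup.coe_inv, Matrix.adjugate_fin_two, Matrix.mul_apply,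
      Fin.sum_univ_two, e0, e1]
    ring
  have h11 : (g * h⁻¹).1 1 1 = 1 := by
    simp [Matrix.SpecialLinearGroup.coe_inv, Matrix.adjugate_fin_two, Matrix.mul_apply,
      Fin.sum_univ_two, e0, e1]
    linarith
  have h00 : (g * h⁻¹).1 0 0 = 1 := by
    have := (g * h⁻¹).2
    rw [Matrix.det_fin_two, h10, h11] at this
    linarith
  ext i j
  rw [ModularGroup.coe_T_zpow]
  fin_cases i <;> fin_cases j
  · exact h00
  · rfl
  · exact h10
  · exact h11

/-- The modular group as translations times rows. -/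
def rowEquiv : PrimRow × ℤ ≃ SL(2, ℤ) :=
  Equiv.ofBijective (fun p => ModularGroup.T ^ p.2 * rowRep p.1) <| by
    constructor
    · rintro ⟨w, n⟩ ⟨w', n'⟩ e
      have hw : w = w' := by
        have := congrArg (fun g : SL(2, ℤ) => g.1 1) e
        simp only [ModularGroup.T_pow_mul_apply_one, rowRep_spec] at this
        exact Subtype.ext this
      subst hw
      have hT := congrArg (fun g : SL(2, ℤ) => g.1 0 1) (mul_right_cancel e)
      simp only [ModularGroup.coe_T_zpow] at hT
      simp at hT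
      rw [hT]
    · intro g
      have hc : IsCoprime (g.1 1 0) (g.1 1 1) := ModularGroup.bottom_row_coprime g
      obtain ⟨n, hn⟩ :=
        eq_T_zpow_mul (g := g) (h := rowRep ⟨g.1 1, hc⟩) (rowRep_spec ⟨g.1 1, hc⟩).symm
      exact ⟨(⟨g.1 1, hc⟩, n), hn.symm⟩

lemma rowEquiv_apply (p : PrimRow × ℤ) : rowEquiv p = ModularGroup.T ^ p.2 * rowRep p.1 := rfl

/-- Exponential decay at every cusp: along each translate, as `exp (-κ Im z)`. -/
def DecaysAtCusps (Φ : ℍ → ℂ) : Prop :=
  ∀ g : SL(2, ℤ), ∃ C κ : ℝ, 0 ≤ C ∧ 0 < κ ∧ ∀ z : ℍ, ‖Φ (g • z)‖ ≤ C * Real.exp (-(κ * z.im))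

/-- The strip. -/
def strip : Set ℍ := {z | z.re ∈ Ico (0 : ℝ) 1}

lemma measurableSet_strip : MeasurableSet strip :=
  measurableSet_Ico.preimage (Complex.measurable_re.comp measurable_coe)

lemma T_zpow_mem_strip {z : ℍ} (n : ℤ) : ModularGroup.T ^ n • z ∈ strip ↔ n = -⌊z.re⌋ := by
  simp only [strip, mem_ofPred_eq, ModularGroup.re_T_zpow_smul, mem_Ico]
  have h1 := Int.floor_le z.re
  have h2 := Int.lt_floor_add_one z.re
  constructor
  · rintro ⟨a, b⟩
    have : ⌊z.re⌋ = -n := Int.floor_eq_iff.2 ⟨by push_cast; linarith, by push_cast; linarith⟩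
    omega
  · rintro rfl
    constructor <;> push_cast <;> linarith

/-- The fundamental domain is measurable. -/
lemma measurableSet_fd : MeasurableSet (𝒟 : Set ℍ) := ModularGroup.isClosed_fd.measurableSet

lemma volume_vertical (r : ℝ) : volume {z : ℍ | z.re = r} = 0 := by
  have h0 : volume (UpperHalfPlane.coe '' {z : ℍ | z.re = r}) = 0 := by
    refine measure_mono_null (t := {c : ℂ | c.re = r}) (by rintro c ⟨z, hz, rfl⟩; exact hz) ?_
    have h := Complex.volume_preserving_equiv_real_prod.measure_preimage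
      ((measurableSet_singleton r).prod MeasurableSet.univ).nullMeasurableSet
    rw [Measure.volume_eq_prod, Measure.prod_prod, Real.volume_singleton, zero_mul] at h
    refine Eq.trans ?_ h
    congr 1
    ext c
    simp [Complex.measurableEquivRealProd_apply]
  rw [volume_eq_lintegral, setLIntegral_measure_zero _ _ h0]

lemma volume_fd_sdiff : volume ((𝒟 : Set ℍ) \ 𝒟ᵒ) = 0 := by
  have hcirc : volume {z : ℍ | Complex.normSq (z : ℂ) = 1} = 0 := by
    have h0 : volume (UpperHalfPlane.coe '' {z : ℍ | Complex.normSq (z : ℂ) = 1}) = 0 := by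
      refine measure_mono_null ?_ (Measure.addHaar_sphere (volume : Measure ℂ) 0 1)
      rintro c ⟨z, hz, rfl⟩
      rw [mem_sphere_zero_iff_norm, Complex.norm_def, show Complex.normSq (z : ℂ) = 1 from hz,
        Real.sqrt_one]
    rw [volume_eq_lintegral, setLIntegral_measure_zero _ _ h0]
  refine measure_mono_null (t := {z : ℍ | Complex.normSq (z : ℂ) = 1} ∪
    ({z : ℍ | z.re = 1 / 2} ∪ {z : ℍ | z.re = -(1 / 2)})) ?_
    (measure_union_null hcirc (measure_union_null (volume_vertical _) (volume_vertical _)))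
  rintro z ⟨⟨h1, h2⟩, h3⟩
  rcases h1.lt_or_eq with h1 | h1
  · rcases h2.lt_or_eq with h2 | h2
    · exact absurd ⟨h1, h2⟩ h3
    · exact Or.inr ((abs_eq (by norm_num)).1 h2)
  · exact Or.inl h1.symm

lemma neg_ne_self_sl (g : SL(2, ℤ)) : g ≠ -g := by
  intro e
  have hd := g.2
  have e' : ∀ i j, g.1 i j = 0 := fun i j => by
    have := congrArg (fun h : SL(2, ℤ) => h.1 i j) e
    simp at this
    omega
  rw [Matrix.det_fin_two, e', e', e', e'] at hd
  norm_num at hd

/-- Almost every point has exactly two translates in the fundamental domain. -/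
theorem ae_two_translates : ∀ᵐ z : ℍ, ∃ g₀ : SL(2, ℤ), ∀ g : SL(2, ℤ),
    g • z ∈ (𝒟 : Set ℍ) ↔ g = g₀ ∨ g = -g₀ := by
  have hnull : volume (⋃ g : SL(2, ℤ), (fun z : ℍ => g • z) ⁻¹' ((𝒟 : Set ℍ) \ 𝒟ᵒ)) = 0 :=
    measure_iUnion_null fun g => by
      rw [(measurePreserving_sl g).measure_preimage
        ((measurableSet_fd.diff ModularGroup.isOpen_fdo.measurableSet).nullMeasurableSet)]
      exact volume_fd_sdiff
  filter_upwards [compl_mem_ae_iff.2 hnull] with z hz
  simp only [mem_compl_iff, mem_iUnion, mem_preimage, Set.mem_sdiff, not_exists,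
    not_and, not_not] at hz
  obtain ⟨g₀, hg₀⟩ := ModularGroup.exists_smul_mem_fd z
  refine ⟨g₀, fun g => ⟨fun hg => ?_, ?_⟩⟩
  · have h : (g * g₀⁻¹) • (g₀ • z) ∈ (𝒟 : Set ℍ) := by rwa [← mul_smul, inv_mul_cancel_right]
    rcases ModularGroup.eq_one_or_neg_one_of_mem_fdo_mem_fd (hz g₀ hg₀) h with e | e
    · exact Or.inl (mul_inv_eq_one.1 e)
    · right
      rw [← inv_mul_cancel_right g g₀, e, neg_one_mul]
  · rintro (rfl | rfl)
    · exact hg₀
    · rwa [ModularGroup.SL_neg_smul]

variable {F : ℍ → ℂ}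

/-- The periodic function cut to the strip. -/
def cutStrip (F : ℍ → ℂ) : ℍ → ℂ := strip.indicator F

/-- **Unfolding**: for a function of period one integrable over the strip, the sum over the
primitive rows of its integrals over translates of the fundamental domain is twice its integral
over the strip. -/
theorem strip_unfold (hF : Measurable F) (hper : ∀ (n : ℤ) z, F (ModularGroup.T ^ n • z) = F z)
    (hfin : ∫⁻ z in strip, ‖F z‖ₑ ≠ ⊤) :
    (∀ w : PrimRow, IntegrableOn (fun z => F (rowRep w • z)) 𝒟) ∧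
    Summable (fun w : PrimRow => ∫ z in 𝒟, F (rowRep w • z)) ∧
    (∑' w : PrimRow, ∫⁻ z in 𝒟, ‖F (rowRep w • z)‖ₑ) = 2 * ∫⁻ z in strip, ‖F z‖ₑ ∧
    ∑' w : PrimRow, ∫ z in 𝒟, F (rowRep w • z) = 2 * ∫ z in strip, F z := by
  classical
  set G := cutStrip F with hG
  have hGm : Measurable G := hF.indicator measurableSet_strip
  set h : SL(2, ℤ) → ℍ → ℂ := fun g z => (𝒟 : Set ℍ).indicator (fun z => G (g • z)) z
  set h' : SL(2, ℤ) → ℍ → ℂ := fun g z => (𝒟 : Set ℍ).indicator (fun _ => G z) (g⁻¹ • z)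
  have hswap : ∀ g z, h' g (g • z) = h g z := fun g z => by
    simp only [h, h', inv_smul_smul]
    by_cases hz : z ∈ (𝒟 : Set ℍ) <;> simp [hz]
  have hh'm : ∀ g, Measurable (h' g) := fun g => by
    have : h' g = ((fun z : ℍ => g⁻¹ • z) ⁻¹' (𝒟 : Set ℍ)).indicator G := by
      funext z
      simp only [h', indicator, mem_preimage]
    rw [this]
    exact hGm.indicator ((measurePreserving_sl g⁻¹).measurable measurableSet_fd)
  have hTwo : ∀ᵐ z : ℍ, ∃ g₀ : SL(2, ℤ),
      ∀ g : SL(2, ℤ), h' g z = if g = g₀ ∨ g = -g₀ then G z else 0 := by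
    filter_upwards [ae_two_translates] with z hz
    obtain ⟨g₀, hg₀⟩ := hz
    refine ⟨g₀⁻¹, fun g => ?_⟩
    have hiff : g⁻¹ • z ∈ (𝒟 : Set ℍ) ↔ g = g₀⁻¹ ∨ g = -g₀⁻¹ := by
      rw [hg₀, inv_eq_iff_eq_inv, inv_eq_iff_eq_inv,
        show (-g₀)⁻¹ = -g₀⁻¹ from inv_eq_of_mul_eq_one_right (by simp)]
    simp only [h', indicator]
    split_ifs <;> simp_all
  have hn2 : ∀ᵐ z : ℍ, ∑' g, ‖h' g z‖ₑ = 2 * ‖G z‖ₑ := by
    filter_upwards [hTwo] with z ⟨g₀, hg₀⟩
    rw [tsum_eq_sum (s := {g₀, -g₀}) fun g hg => ?_, Finset.sum_pair (neg_ne_self_sl g₀), hg₀, hg₀,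
      if_pos (Or.inl rfl), if_pos (Or.inr rfl), two_mul]
    simp only [Finset.mem_insert, Finset.mem_singleton] at hg
    rw [hg₀, if_neg hg, enorm_zero]
  have hc2 : ∀ᵐ z : ℍ, ∑' g, h' g z = 2 * G z := by
    filter_upwards [hTwo] with z ⟨g₀, hg₀⟩
    rw [tsum_eq_sum (s := {g₀, -g₀}) fun g hg => ?_, Finset.sum_pair (neg_ne_self_sl g₀), hg₀, hg₀,
      if_pos (Or.inl rfl), if_pos (Or.inr rfl), two_mul]
    simp only [Finset.mem_insert, Finset.mem_singleton] at hg
    rw [hg₀, if_neg hg]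
  have hGint : ∫⁻ z, ‖G z‖ₑ = ∫⁻ z in strip, ‖F z‖ₑ := by
    rw [← lintegral_indicator measurableSet_strip]
    refine lintegral_congr fun z => ?_
    simp only [hG, cutStrip, indicator]
    split_ifs <;> simp
  have hnorm : ∑' g, ∫⁻ z, ‖h' g z‖ₑ = 2 * ∫⁻ z in strip, ‖F z‖ₑ := by
    rw [← lintegral_tsum fun g => (hh'm g).enorm.aemeasurable, lintegral_congr_ae hn2,
      lintegral_const_mul' _ _ (by simp), hGint]
  have hne : ∑' g, ∫⁻ z, ‖h' g z‖ₑ ≠ ⊤ := by rw [hnorm]; exact ENNReal.mul_ne_top (by simp) hfin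
  have hint' : ∀ g, Integrable (h' g) := fun g =>
    ⟨(hh'm g).aestronglyMeasurable, lt_of_le_of_lt (ENNReal.le_tsum g) hne.lt_top⟩
  -- back to the fundamental domain
  have hA : ∀ g, ∫⁻ z, ‖h' g z‖ₑ = ∫⁻ z in 𝒟, ‖G (g • z)‖ₑ := fun g => by
    rw [← (measurePreserving_sl g).lintegral_comp_emb (measurableEmbedding_sl g),
      ← lintegral_indicator measurableSet_fd]
    refine lintegral_congr fun z => ?_
    rw [hswap]
    simp only [h, indicator]
    split_ifs <;> simp
  have hB : ∀ g, ∫ z, h' g z = ∫ z in 𝒟, G (g • z) := fun g => by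
    rw [← (measurePreserving_sl g).integral_comp (measurableEmbedding_sl g),
      ← integral_indicator measurableSet_fd]
    exact integral_congr_ae (ae_of_all _ fun z => hswap g z)
  -- grouping by rows
  have hpick : ∀ (w : PrimRow) (z : ℍ) (n : ℤ), G (rowEquiv (w, n) • z) =
      if n = -⌊(rowRep w • z).re⌋ then F (rowRep w • z) else 0 := fun w z n => by
    rw [rowEquiv_apply, mul_smul, hG, cutStrip]
    simp only [indicator, T_zpow_mem_strip, hper]
  have hW : ∀ w : PrimRow, ∫⁻ z in 𝒟, ‖F (rowRep w • z)‖ₑ =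
      ∑' n : ℤ, ∫⁻ z in 𝒟, ‖G (rowEquiv (w, n) • z)‖ₑ := fun w => by
    rw [← lintegral_tsum (f := fun (n : ℤ) z => ‖G (rowEquiv (w, n) • z)‖ₑ)
      fun n => (hGm.comp (measurePreserving_sl _).measurable).enorm.aemeasurable]
    refine lintegral_congr fun z => ?_
    rw [tsum_eq_single (-⌊(rowRep w • z).re⌋) fun n hn => by rw [hpick, if_neg hn, enorm_zero],
      hpick, if_pos rfl]
  have hsumW : (∑' w : PrimRow, ∫⁻ z in 𝒟, ‖F (rowRep w • z)‖ₑ) = 2 * ∫⁻ z in strip, ‖F z‖ₑ := by
    rw [← hnorm, ← rowEquiv.tsum_eq, ENNReal.tsum_prod']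
    exact tsum_congr fun w => by simp only [hW, hA]
  have hWfin : ∀ w : PrimRow, ∫⁻ z in 𝒟, ‖F (rowRep w • z)‖ₑ ≠ ⊤ := fun w =>
    ne_top_of_le_ne_top (ENNReal.mul_ne_top (by simp) hfin) ((ENNReal.le_tsum w).trans_eq hsumW)
  have hintW : ∀ w : PrimRow, IntegrableOn (fun z => F (rowRep w • z)) 𝒟 := fun w =>
    ⟨(hF.comp (measurePreserving_sl _).measurable).aestronglyMeasurable, (hWfin w).lt_top⟩
  have hI : ∀ w : PrimRow, ∫ z in 𝒟, F (rowRep w • z) =
      ∑' n : ℤ, ∫ z in 𝒟, G (rowEquiv (w, n) • z) := fun w => by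
    rw [← integral_tsum (f := fun (n : ℤ) z => G (rowEquiv (w, n) • z))
      (fun n => (hGm.comp (measurePreserving_sl _).measurable).aestronglyMeasurable)
      (by rw [← hW]; exact hWfin w)]
    refine integral_congr_ae (ae_of_all _ fun z => ?_)
    dsimp only
    rw [tsum_eq_single (-⌊(rowRep w • z).re⌋) fun n hn => by rw [hpick, if_neg hn],
      hpick, if_pos rfl]
  have hsumg : Summable fun g : SL(2, ℤ) => ∫ z in 𝒟, G (g • z) := by
    refine Summable.of_norm_bounded (g := fun g => (∫⁻ z, ‖h' g z‖ₑ).toReal)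
      (ENNReal.summable_toReal hne) fun g => ?_
    rw [← hB]
    refine (norm_integral_le_lintegral_norm _).trans (le_of_eq ?_)
    simp only [ofReal_norm]
  have hsumP : Summable fun p : PrimRow × ℤ => ∫ z in 𝒟, G (rowEquiv p • z) :=
    rowEquiv.summable_iff.2 hsumg
  refine ⟨hintW, hsumP.prod.congr fun w => (hI w).symm, hsumW, ?_⟩
  rw [tsum_congr hI, ← hsumP.tsum_prod, rowEquiv.tsum_eq fun g : SL(2, ℤ) => ∫ z in 𝒟, G (g • z),
    ← tsum_congr hB, ← integral_tsum (fun g => (hh'm g).aestronglyMeasurable) hne,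
    integral_congr_ae hc2, integral_const_mul, hG, cutStrip, integral_indicator measurableSet_strip]

end FermatAgent.LT.Period
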