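import Fermat.Agent.LT.Base.RealPlane
import Fermat.Agent.LT.Period.Euler
import Fermat.Agent.LT.Period.Tiling

/-!
# The restriction to the hyperbolic plane

The conditions under which the form along a shifted copy of the upper half-plane is invariant
under a congruence subgroup and decays exponentially in the height.
-/

set_option autoImplicit false

noncomputable section

open Matrix IsDedekindDomain NumberField Filter MeasureTheory WithZero UpperHalfPlane
open scoped MatrixGroups Topology

namespace FermatAgent.LT.Period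

open FermatAgent.LT.Whit

variable {K : Type*} [Field K] [NumberField K] [IsTotallyComplex K] {θ : K}
  {S : Finset (HeightOneSpectrum (𝓞 K))} {c : HeightOneSpectrum (𝓞 K) → ℂ}
  {f : InfPts K → adelGrp K → ℂ} {bad : Finset ℕ} {wt : ℕ → ℝ}

/-- The product `D` of the bad primes. -/
def badProd (bad : Finset ℕ) : ℕ := ∏ p ∈ bad.filter Nat.Prime, p

/-- The bad product is positive. -/
lemma badProd_pos : 0 < badProd bad :=
  Finset.prod_pos fun _ hp => (Finset.mem_filter.1 hp).2.pos

/-- Bad primes divide the bad product. -/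
lemma dvd_badProd {p : ℕ} (hp : p.Prime) (hb : p ∈ bad) : p ∣ badProd bad :=
  Finset.dvd_prod_of_mem _ (Finset.mem_filter.2 ⟨hb, hp⟩)

/-- The shift `N / θ` of the plane. -/
def IsEis.shift (h : IsEis θ) (N : ℕ) : Kˣ := natU K N * (Units.mk0 θ h.ne_zero)⁻¹

omit [IsTotallyComplex K] in
/-- The shift in the field. -/
lemma IsEis.shift_val (h : IsEis θ) {N : ℕ} (hN : N ≠ 0) :
    (h.shift N : K) = (N : K) / θ := by
  rw [IsEis.shift, Units.val_mul, natU_val hN, Units.val_inv_eq_inv_val,
    Units.val_mk0, div_eq_mul_inv]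

section

omit [NumberField K] [IsTotallyComplex K]

/-- The plane inside hyperbolic space. -/
def ptR (z : ℍ) : InfPts K := fun _ => ⟨(z.re : ℂ), z.im, z.im_pos⟩

/-- The real points. -/
lemma ptR_apply (z : ℍ) (w : InfinitePlace K) :
    (ptR z : InfPts K) w = ⟨(z.re : ℂ), z.im, z.im_pos⟩ :=
  rfl

/-- A modular matrix in the group. -/
def slK (K : Type*) [Field K] (g : SL(2, ℤ)) : G2 K :=
  ProjGenLinGroup.mk (Matrix.SpecialLinearGroup.mapGL K g)

lemma slK_inv (g : SL(2, ℤ)) : slK K g⁻¹ = (slK K g)⁻¹ := by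
  rw [slK, slK, map_inv, map_inv]

lemma slK_smul_ptR (g : SL(2, ℤ)) (z : ℍ) :
    slK K g • (ptR z : InfPts K) = ptR (g • z) := by
  funext w
  rw [infPts_smul_apply, slK, ProjGenLinGroup.map_mk, H3.mk_smul, ptR_apply, ptR_apply]
  have h := H3.smul_plane (Matrix.GeneralLinearGroup.map w.embedding
    (Matrix.SpecialLinearGroup.mapGL K g)) g
    (fun i j => by simp [Matrix.SpecialLinearGroup.mapGL_coe_matrix]) z (s := 0) one_pos
    (by norm_num)
  simp only [mul_zero, div_one] at h
  exact h

/-- The real points vary continuously. -/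
lemma continuous_ptR : Continuous (ptR : ℍ → InfPts K) :=
  continuous_pi fun _ => H3.isEmbedding_coord.isInducing.continuous_iff.2 (by
    show Continuous fun z : ℍ => WithLp.toLp 2 (((z.re : ℂ)), z.im)
    exact (WithLp.prod_continuous_toLp 2 ℂ ℝ).comp
      ((Complex.continuous_ofReal.comp UpperHalfPlane.continuous_re).prodMk
        UpperHalfPlane.continuous_im))

end

/-- The form on the plane shifted by `D / θ`, `D` the product of the bad primes. -/
def cycle (h : IsEis θ) (bad : Finset ℕ) (f : InfPts K → adelGrp K → ℂ) (z : ℍ) : ℂ :=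
  f ((dG (h.shift (badProd bad)) : G2 K) • ptR z) 1

variable (hE : IsEis θ) (hT : HasTraces S c bad wt)

omit [IsTotallyComplex K] in
include hT in
/-- The bad product lies in the bad places. -/
lemma HasTraces.badProd_mem {v : HeightOneSpectrum (𝓞 K)} (hv : v ∈ S) :
    (badProd bad : 𝓞 K) ∈ v.asIdeal := by
  obtain ⟨p, hp, hpp, hpv⟩ := (hT.mem_S v).1 hv
  obtain ⟨k, hk⟩ := dvd_badProd hpp hp
  rw [hk, Nat.cast_mul]
  exact Ideal.mul_mem_right _ _ hpv

include hE hT in
/-- The exponents of the bad product. -/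
lemma HasTraces.expo_badProd (v : HeightOneSpectrum (𝓞 K)) :
    expo (natU K (badProd bad)) v = -baseExp S v := by
  classical
  have hex : expo (natU K (badProd bad)) =
      ∑ p ∈ bad.filter Nat.Prime, expo (natU K p) := by
    rw [badProd]
    suffices H : ∀ F : Finset ℕ, (∀ p ∈ F, p ≠ 0) →
        expo (natU K (∏ p ∈ F, p)) = ∑ p ∈ F, expo (natU K p) from
      H _ fun p hp => (Finset.mem_filter.1 hp).2.ne_zero
    intro F hF
    induction F using Finset.induction_on with
    | empty => simp [natU_one, expo_one]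
    | insert a F ha ih =>
      rw [Finset.prod_insert ha, Finset.sum_insert ha,
        natU_mul (hF a (Finset.mem_insert_self a F))
          (Finset.prod_ne_zero_iff.2 fun p hp => hF p (Finset.mem_insert_of_mem hp)), expo_mul,
        ih fun p hp => hF p (Finset.mem_insert_of_mem hp)]
  rw [hex, Finsupp.finsetSum_apply]
  by_cases hv : v ∈ S
  · obtain ⟨p, hp, hpp, hpv⟩ := (hT.mem_S v).1 hv
    rw [Finset.sum_eq_single p, natU, dif_neg hpp.ne_zero, hE.expo_prime hpp v hpv, baseExp_mem hv]
    · ring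
    · intro q hq hqp
      by_contra hne
      exact coprime_notMem ((Nat.coprime_primes (Finset.mem_filter.1 hq).2 hpp).2 hqp)
        ((expo_natU_ne_zero (Finset.mem_filter.1 hq).2.ne_zero v).1 hne) hpv
    · exact fun h => absurd (Finset.mem_filter.2 ⟨hp, hpp⟩) h
  · rw [Finset.sum_eq_zero fun p hp => ?_, baseExp_notMem hv, hE.cnd_eq_zero fun h3 =>
      hv ((hT.mem_S v).2 ⟨3, hT.three, Nat.prime_three, by exact_mod_cast h3⟩)]
    · simp
    · by_contra hne
      exact hv ((hT.mem_S v).2 ⟨p, (Finset.mem_filter.1 hp).1, (Finset.mem_filter.1 hp).2,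
        (expo_natU_ne_zero (Finset.mem_filter.1 hp).2.ne_zero v).1 hne⟩)

omit [IsTotallyComplex K] in
lemma valuation_intCast_le (v : HeightOneSpectrum (𝓞 K)) (x : ℤ) :
    v.valuation K (x : K) ≤ 1 := by
  rw [← map_intCast (algebraMap (𝓞 K) K)]; exact v.valuation_le_one _

omit [IsTotallyComplex K] in
/-- Where the lower entry is small the diagonal entries are units. -/
lemma valuation_diag {v : HeightOneSpectrum (𝓞 K)} {a b e d : ℤ}
    (hdet : a * d - b * e = 1) {t : Kˣ} (ht : v.valuation K (t : K) ≤ 1)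
    (hlow : v.valuation K ((e : K) / t) < 1) :
    v.valuation K (a : K) = 1 ∧ v.valuation K (d : K) = 1 := by
  have he1 : v.valuation K (e : K) < 1 := by
    have : (e : K) = (e : K) / t * t := by rw [div_mul_cancel₀ _ t.ne_zero]
    rw [this, map_mul]
    exact (mul_le_of_le_one_right' ht).trans_lt hlow
  have hbe : v.valuation K ((b : K) * (e : K)) < 1 := by
    rw [map_mul]; exact (mul_le_of_le_one_left' (valuation_intCast_le v b)).trans_lt he1
  have hprod : v.valuation K ((a : K) * (d : K)) = 1 := by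
    rw [show (a : K) * (d : K) = 1 + (b : K) * (e : K) by
      have : ((a * d - b * e : ℤ) : K) = 1 := by rw [hdet, Int.cast_one]
      push_cast at this
      linear_combination this, Valuation.map_add_eq_of_lt_left _ (by rwa [map_one]), map_one]
  rw [map_mul] at hprod
  exact ⟨le_antisymm (valuation_intCast_le v a)
    (hprod ▸ mul_le_of_le_one_right' (valuation_intCast_le v d)),
    le_antisymm (valuation_intCast_le v d)
      (hprod ▸ mul_le_of_le_one_left' (valuation_intCast_le v a))⟩

omit [NumberField K] [IsTotallyComplex K] in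
/-- A conjugate with unit diagonal entries is a torus element times a matrix with diagonal one. -/
lemma exists_torus_factor {a b e d : ℤ} (hdet : a * d - b * e = 1) {t : Kˣ} {M : GL (Fin 2) K}
    (hM : M.val = !![(a : K), (t : K) * (b : K); (e : K) / (t : K), (d : K)])
    (ha0 : (a : K) ≠ 0) (hd0 : (d : K) ≠ 0) {α : Kˣ} (hα : (α : K) = (a : K) / d) :
    ∃ P : GL (Fin 2) K, P.val = !![1, (t : K) * b / a; (e : K) / t / d, 1] ∧
      (dG α)⁻¹ * ProjGenLinGroup.mk M = ProjGenLinGroup.mk P := by
  rw [dG, ← map_inv, ← map_mul]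
  set P : GL (Fin 2) K := GeneralLinearGroup.mkOfDetNeZero
    !![1, (t : K) * b / a; (e : K) / t / d, 1] (by
      rw [Matrix.det_fin_two]
      simp
      intro h0
      refine ha0 ?_
      have : ((a * d - b * e : ℤ) : K) = 1 := by rw [hdet, Int.cast_one]
      push_cast at this
      field_simp at h0
      exfalso
      exact one_ne_zero (α := K) (by linear_combination h0 - this))
  have hsc : ∀ u : Kˣ, (GeneralLinearGroup.scalar (Fin 2) u).val = !![(u : K), 0; 0, (u : K)] :=
    fun u => by
      ext i j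
      fin_cases i <;> fin_cases j <;> simp [GeneralLinearGroup.coe_scalar]
  have e1 : (dB α)⁻¹ * M = GeneralLinearGroup.scalar (Fin 2) (Units.mk0 (d : K) hd0) * P := by
    rw [inv_mul_eq_iff_eq_mul]
    apply Units.ext
    rw [Units.val_mul, Units.val_mul, hsc]
    ext i j
    fin_cases i <;> fin_cases j <;>
      simp [P, hM, hα, GeneralLinearGroup.mkOfDetNeZero, Matrix.mul_apply,
        Fin.sum_univ_two] <;>
      field_simp
  exact ⟨P, rfl, by rw [e1, map_mul, ProjGenLinGroup.mk_scalar, one_mul]⟩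

omit [IsTotallyComplex K] in
/-- Off the level the conjugate is integral. -/
lemma conj_mem_locK {v : HeightOneSpectrum (𝓞 K)} {a b e d : ℤ}
    (hdet : a * d - b * e = 1) {t : Kˣ} {M : GL (Fin 2) K}
    (hM : M.val = !![(a : K), (t : K) * (b : K); (e : K) / (t : K), (d : K)])
    (ht : v.valuation K (t : K) ≤ 1) (hlow : v.valuation K ((e : K) / t) ≤ 1) :
    ProjGenLinGroup.mk M ∈ locK v := by
  refine ⟨M, ⟨fun i j => ?_, ?_⟩, rfl⟩
  · fin_cases i <;> fin_cases j <;> simp [hM]
    · exact valuation_intCast_le v a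
    · exact mul_le_one' ht (valuation_intCast_le v b)
    · exact (map_div₀ (v.valuation K) (e : K) t) ▸ hlow
    · exact valuation_intCast_le v d
  · have e' : M.val.det = 1 := by
      rw [hM, Matrix.det_fin_two]
      simp
      field_simp
      have : ((a * d - b * e : ℤ) : K) = 1 := by rw [hdet, Int.cast_one]
      push_cast at this
      linear_combination this
    show v.valuation K M.val.det = 1
    rw [e', map_one]

omit [IsTotallyComplex K] in
/-- A function invariant under torus units and a congruence subgroup at the places of `S` takes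
equal values along the plane shifted by `t` at points related by a modular matrix whose lower entry
is small against `t`. -/
theorem apply_ptR_smul (hglob : ∀ γ y a, f (γ • y) (glob γ * a) = f y a)
    (hunit : ∀ w ∈ S, ∀ u : Kˣ, w.valuation K (u : K) = 1 →
      ∀ y a, f y (a * atV w (dG u)) = f y a)
    (U : HeightOneSpectrum (𝓞 K) → Subgroup (G2 K))
    (hright : ∀ y a u, (∀ v ∈ S, u.1 v ∈ U v) → (∀ v ∉ S, u.1 v ∈ locK v) →
      f y (a * u) = f y a)
    {t : Kˣ} (ht : ∀ v : HeightOneSpectrum (𝓞 K), v.valuation K (t : K) ≤ 1) {g : SL(2, ℤ)}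
    (hlow : ∀ v : HeightOneSpectrum (𝓞 K), v.valuation K ((g.1 1 0 : K) / t) ≤ 1 ∧
      (v ∈ S → v.valuation K ((g.1 1 0 : K) / t) < 1))
    (hU : ∀ v ∈ S, ∀ (x y : K) (P : GL (Fin 2) K), v.valuation K x ≤ v.valuation K (t : K) →
      v.valuation K y ≤ v.valuation K ((g.1 1 0 : K) / t) → P.val = !![1, x; y, 1] →
      ProjGenLinGroup.mk P ∈ U v)
    (z : ℍ) : f ((dG t : G2 K) • ptR (g • z)) 1 = f ((dG t : G2 K) • ptR z) 1 := by
  classical
  -- the entries of the inverse
  obtain ⟨gi, hgi⟩ : ∃ gi, gi = g⁻¹ := ⟨_, rfl⟩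
  set a := gi.1 0 0
  set b := gi.1 0 1
  set e := gi.1 1 0
  set d := gi.1 1 1
  have hdet : a * d - b * e = 1 := by
    have := gi.2
    rwa [Matrix.det_fin_two] at this
  have he : ∀ v : HeightOneSpectrum (𝓞 K),
      v.valuation K ((e : K) / t) = v.valuation K ((g.1 1 0 : K) / t) := fun v => by
    have : e = -g.1 1 0 := by
      simp [e, hgi, Matrix.SpecialLinearGroup.coe_inv, Matrix.adjugate_fin_two]
    rw [this, Int.cast_neg, neg_div, Valuation.map_neg]
  set γ : G2 K := dG t * slK K gi * (dG t)⁻¹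
  set M : GL (Fin 2) K := GeneralLinearGroup.mkOfDetNeZero
    !![(a : K), (t : K) * (b : K); (e : K) / (t : K), (d : K)] (by
    rw [Matrix.det_fin_two_of, show (a : K) * d - t * b * (e / t) = ((a * d - b * e : ℤ) : K) by
      push_cast; field_simp, hdet, Int.cast_one]
    exact one_ne_zero) with hM
  have hγ : γ = ProjGenLinGroup.mk M := by
    simp only [γ, dG, slK]
    rw [mul_inv_eq_iff_eq_mul, ← map_mul, ← map_mul]
    congr 1
    apply Units.ext
    ext i j
    fin_cases i <;> fin_cases j <;>
      simp [M, GeneralLinearGroup.mkOfDetNeZero, Matrix.mul_apply, Fin.sum_univ_two,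
        Matrix.SpecialLinearGroup.mapGL_coe_matrix, a, b, e, d]
    ring
  have had : ∀ v ∈ S, v.valuation K (a : K) = 1 ∧ v.valuation K (d : K) = 1 := fun v hv =>
    valuation_diag hdet (ht v) ((he v).trans_lt ((hlow v).2 hv))
  -- the unit part
  let α : HeightOneSpectrum (𝓞 K) → Kˣ := fun v =>
    if h : v ∈ S then Units.mk0 ((a : K) / (d : K)) (div_ne_zero
      (fun e0 => by simpa [e0] using (had v h).1)
      (fun e0 => by simpa [e0] using (had v h).2)) else 1
  let h : adelGrp K := ⟨fun v => if v ∈ S then dG (α v) else 1, show ∀ᶠ v in cofinite, _ by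
    filter_upwards [S.finite_toSet.compl_mem_cofinite] with v hv
    rw [if_neg (by simpa using hv)]
    exact one_mem _⟩
  have hu : (∀ v ∈ S, (h⁻¹ * glob γ).1 v ∈ U v) ∧ ∀ v ∉ S, (h⁻¹ * glob γ).1 v ∈ locK v := by
    refine ⟨fun v hv => ?_, fun v hv => ?_⟩ <;>
      show ((if v ∈ S then dG (α v) else 1))⁻¹ * γ ∈ _
    · obtain ⟨P, hP, hPM⟩ := exists_torus_factor hdet (t := t) (M := M) rfl
        (fun e0 => by simpa [e0] using (had v hv).1) (fun e0 => by simpa [e0] using (had v hv).2)
        (α := α v) (by simp [α, hv])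
      rw [if_pos hv, hγ, hPM]
      refine hU v hv _ _ P ?_ ?_ hP
      · rw [map_div₀, (had v hv).1, div_one, map_mul]
        exact mul_le_of_le_one_right' (valuation_intCast_le v b)
      · rw [map_div₀ (v.valuation K) _ (d : K), (had v hv).2, div_one, he]
    · rw [if_neg hv, inv_one, one_mul, hγ]
      exact conj_mem_locK hdet rfl (ht v) ((he v).trans_le (hlow v).1)
  have hkey : f ((dG t : G2 K) • ptR z) (glob γ) = f ((dG t : G2 K) • ptR z) 1 := by
    rw [show glob γ = 1 * h * (h⁻¹ * glob γ) by group, hright _ _ _ hu.1 hu.2,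
      Whit.right_of_supported (Φ := f _) S h (fun v hv => if_neg hv) fun v hv c => ?_]
    rw [show h.1 v = dG (α v) from if_pos hv]
    exact hunit v hv _ (by
      simp only [α, dif_pos hv, Units.val_mk0, map_div₀, (had v hv).1, (had v hv).2, div_one]) _ c
  have e2 : (dG t : G2 K) • (ptR (g • z) : InfPts K) = γ⁻¹ • ((dG t : G2 K) • ptR z) := by
    rw [← slK_smul_ptR, ← mul_smul, ← mul_smul]
    congr 1
    simp only [γ, hgi, slK_inv]
    group
  rw [e2, ← hkey]
  have := hglob γ⁻¹ ((dG t : G2 K) • ptR z) (glob γ)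
  rw [← map_mul, inv_mul_cancel, map_one] at this
  exact this

omit [IsTotallyComplex K] in
/-- A bounded function decaying in the cusps decays along translates of a shifted plane. -/
theorem exists_decay_ptR (hglob : ∀ γ y a, f (γ • y) (glob γ * a) = f y a)
    (hbdd : ∃ B, ∀ y a, ‖f y a‖ ≤ B)
    (hdec : ∀ a, ∃ C κ : ℝ, 0 ≤ C ∧ 0 < κ ∧ ∀ y : InfPts K, 1 ≤ (y (place K)).t →
      ‖f y a‖ ≤ C * Real.exp (-(κ * (y (place K)).t)))
    (t : Kˣ) : DecaysAtCusps fun z => f ((dG t : G2 K) • ptR z) 1 := by
  intro g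
  set γ : G2 K := dG t * slK K g * (dG t)⁻¹
  set T := ‖(place K).embedding (t : K)‖ with hTdef
  have hT0 : 0 < T := norm_pos_iff.2 (by simp)
  obtain ⟨C, κ, hC, hκ, hd⟩ := hdec (glob γ⁻¹)
  obtain ⟨B, hB⟩ := hbdd
  have hB0 : 0 ≤ B := (norm_nonneg _).trans (hB (fun _ => H3.base) 1)
  refine ⟨max C (B * Real.exp κ), κ * T, le_max_of_le_left hC, mul_pos hκ hT0, fun z => ?_⟩
  set y : InfPts K := (dG t : G2 K) • ptR z
  have e : f ((dG t : G2 K) • ptR (g • z)) 1 = f y (glob γ⁻¹) := by
    rw [← hglob γ y (glob γ⁻¹), ← map_mul, mul_inv_cancel, map_one, ← slK_smul_ptR]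
    simp only [y, γ, ← mul_smul]
    congr 2
    group
  have hyt : (y (place K)).t = T * z.im := by simp only [y, dG_smul_apply, ptR_apply, hTdef]
  beta_reduce
  rw [e, mul_assoc]
  by_cases h1 : 1 ≤ T * z.im
  · refine (hd y (hyt ▸ h1)).trans ?_
    rw [hyt]
    exact mul_le_mul_of_nonneg_right (le_max_left _ _) (Real.exp_pos _).le
  · refine (hB y _).trans (le_trans ?_
      (mul_le_mul_of_nonneg_right (le_max_right C (B * Real.exp κ)) (Real.exp_pos _).le))
    rw [mul_assoc, ← Real.exp_add]
    refine le_mul_of_one_le_right hB0 (Real.one_le_exp ?_)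
    nlinarith [not_le.1 h1]

end FermatAgent.LT.Period
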