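import Fermat.Agent.LT.Whit.Hecke

/-!
# Local factors of the series along the rational numbers

Generating series of the solutions of the normalised Hecke recursion and of their products.
-/

set_option autoImplicit false

noncomputable section

namespace FermatAgent.LT.Period

open FermatAgent.LT.Whit

/-- The solution of the normalised recursion `a (k+2) = l a (k+1) - a k`, `a 0 = 1`,
`a 1 = l`. -/
def cheb (l : ℂ) (k : ℕ) : ℂ := heckeSeq 1 l k

/-- The zeroth polynomial. -/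
lemma cheb_zero (l : ℂ) : cheb l 0 = 1 := heckeSeq_zero 1 l

/-- The first polynomial. -/
lemma cheb_one (l : ℂ) : cheb l 1 = l := by simp [cheb, heckeSeq]

lemma cheb_succ (l : ℂ) (k : ℕ) : cheb l (k + 2) = l * cheb l (k + 1) - cheb l k := by
  simp [cheb, heckeSeq]

/-- Scaling of the recursion. -/
lemma heckeSeq_scale {q r l : ℂ} (hr : r ^ 2 = q) (hr0 : r ≠ 0) (k : ℕ) :
    heckeSeq q (r * l) k = cheb l k / r ^ k := by
  induction k using Nat.strong_induction_on with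
  | _ k ih =>
    match k with
    | 0 => simp [heckeSeq, cheb]
    | 1 =>
      rw [heckeSeq, cheb_one, ← hr]
      field_simp
    | m + 2 =>
      rw [heckeSeq, cheb_succ, ih m (by omega), ih (m + 1) (by omega), ← hr]
      field_simp
      ring

lemma hasSum_shift {a : ℕ → ℂ} {x : ℂ} (h : Summable fun k => a k * x ^ k) (j : ℕ) :
    ∑' k, a (k + j) * x ^ (k + j) = (∑' k, a k * x ^ k) - ∑ i ∈ Finset.range j, a i * x ^ i := by
  rw [← h.sum_add_tsum_nat_add j]
  ring

lemma cheb_two (l : ℂ) : cheb l 2 = l ^ 2 - 1 := by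
  rw [cheb_succ l 0, zero_add, cheb_one, cheb_zero]; ring

lemma cheb_three (l : ℂ) : cheb l 3 = l ^ 3 - 2 * l := by
  rw [cheb_succ l 1, cheb_two, cheb_one]; ring

lemma cheb_pair (l m : ℂ) (k : ℕ) :
    cheb l (k + 4) * cheb m (k + 4) - l * m * (cheb l (k + 3) * cheb m (k + 3)) +
      (l ^ 2 + m ^ 2 - 2) * (cheb l (k + 2) * cheb m (k + 2)) -
      l * m * (cheb l (k + 1) * cheb m (k + 1)) + cheb l k * cheb m k = 0 := by
  rw [cheb_succ l (k + 2), cheb_succ m (k + 2), show k + 2 + 1 = k + 3 from rfl,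
    show k + 3 = k + 1 + 2 from rfl, cheb_succ l (k + 1), cheb_succ m (k + 1),
    show k + 1 + 1 = k + 2 from rfl, cheb_succ l k, cheb_succ m k]
  ring

/-- The series of products of two solutions is rational in `x`, with numerator `1 - x²`. -/
theorem tsum_cheb_pair {l m x : ℂ} (h : Summable fun k => cheb l k * cheb m k * x ^ k) :
    (∑' k, cheb l k * cheb m k * x ^ k) *
      (1 - l * m * x + (l ^ 2 + m ^ 2 - 2) * x ^ 2 - l * m * x ^ 3 + x ^ 4) = 1 - x ^ 2 := by
  set a : ℕ → ℂ := fun k => cheb l k * cheb m k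
  set T := ∑' k, a k * x ^ k
  have hsum : ∀ j, Summable fun k => a (k + j) * x ^ (k + j) := fun j =>
    h.comp_injective (add_left_injective j)
  have hk : ∀ j, j ≤ 4 → HasSum (fun k => x ^ (4 - j) * (a (k + j) * x ^ (k + j)))
      (x ^ (4 - j) * (T - ∑ i ∈ Finset.range j, a i * x ^ i)) := fun j _ => by
    rw [← hasSum_shift (a := a) h j]
    exact (hsum j).hasSum.mul_left _
  have e : ∀ k j, j ≤ 4 → x ^ (4 - j) * (a (k + j) * x ^ (k + j)) = a (k + j) * x ^ (k + 4) := by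
    intro k j hj
    rw [mul_left_comm, ← pow_add]
    congr 2
    omega
  have htot := ((((hk 4 le_rfl).sub ((hk 3 (by omega)).mul_left (l * m))).add
    ((hk 2 (by omega)).mul_left (l ^ 2 + m ^ 2 - 2))).sub ((hk 1 (by omega)).mul_left (l * m))).add
    (hk 0 (by omega))
  have hzero := htot.unique (hasSum_zero.congr_fun fun k => ?_)
  · have h0 : a 0 = 1 := by simp [a, cheb_zero]
    have h1 : a 1 = l * m := by simp [a, cheb_one]
    have h2 : a 2 = (l ^ 2 - 1) * (m ^ 2 - 1) := by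
      simp only [a, cheb_two]
    have h3 : a 3 = (l ^ 3 - 2 * l) * (m ^ 3 - 2 * m) := by
      simp only [a, cheb_three]
    simp only [Finset.sum_range_succ, Finset.sum_range_zero, h0, h1, h2, h3] at hzero
    linear_combination hzero
  · rw [e k 4 le_rfl, e k 3 (by omega), e k 2 (by omega), e k 1 (by omega), e k 0 (by omega)]
    linear_combination x ^ (k + 4) * cheb_pair l m k

/-- The generating series of the recursion is `1 / (1 - l x + x²)`. -/
theorem tsum_cheb {l x : ℂ} (h : Summable fun k => cheb l k * x ^ k) :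
    (∑' k, cheb l k * x ^ k) * (1 - l * x + x ^ 2) = 1 := by
  set T := ∑' k, cheb l k * x ^ k
  have hsum : ∀ j, HasSum (fun k => cheb l (k + j) * x ^ (k + j))
      (T - ∑ i ∈ Finset.range j, cheb l i * x ^ i) := fun j => by
    rw [← hasSum_shift (a := cheb l) h j]
    exact (h.comp_injective (add_left_injective j)).hasSum
  have htot := (((hsum 2).sub ((hsum 1).mul_left (l * x))).add ((hsum 0).mul_left (x ^ 2)))
  have hzero := htot.unique (hasSum_zero.congr_fun fun k => ?_)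
  · simp only [Finset.sum_range_succ, Finset.sum_range_zero, cheb_zero, cheb_one] at hzero
    linear_combination hzero
  · simp only [add_zero]
    rw [cheb_succ]
    ring

/-- A bound at the tempered values. -/
lemma norm_cheb_le {l : ℂ} (hl : l = 2 ∨ l = 0) (k : ℕ) : ‖cheb l k‖ ≤ (k : ℝ) + 1 := by
  rcases hl with rfl | rfl
  · have e : ∀ k : ℕ, cheb 2 k = ((k : ℕ) : ℂ) + 1 := by
      intro k
      induction k using Nat.strong_induction_on with
      | _ k ih =>
        match k with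
        | 0 => simp [cheb_zero]
        | 1 => rw [cheb_one]; norm_num
        | m + 2 =>
          rw [cheb_succ, ih m (by omega), ih (m + 1) (by omega)]
          push_cast; ring
    rw [e, show ((k : ℕ) : ℂ) + 1 = ((k + 1 : ℕ) : ℂ) by push_cast; ring, Complex.norm_natCast]
    push_cast; rfl
  · have e : ∀ k : ℕ, ‖cheb 0 k‖ ≤ 1 := by
      intro k
      induction k using Nat.strong_induction_on with
      | _ k ih =>
        match k with
        | 0 => simp [cheb_zero]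
        | 1 => simp [cheb_one]
        | m + 2 =>
          rw [cheb_succ, zero_mul, zero_sub, norm_neg]
          exact ih m (by omega)
    exact (e k).trans (le_add_of_nonneg_left (Nat.cast_nonneg k))

lemma log_one_add_ge {t : ℝ} (ht : 0 ≤ t) : t - t ^ 2 / 2 ≤ Real.log (1 + t) := by
  refine le_trans ?_ (Real.le_log_one_add_of_nonneg ht)
  rw [le_div_iff₀ (by linarith)]
  nlinarith [pow_nonneg ht 3]

lemma neg_log_one_sub_ge {t : ℝ} (ht : t < 1) : t ≤ -Real.log (1 - t) := by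
  have := Real.log_le_sub_one_of_pos (show (0 : ℝ) < 1 - t by linarith)
  linarith

/-- At a split place the logarithm of the local factor is at least minus half the first order
terms of the two series of squares, up to order two in `x`. -/
theorem split_ge {Z l m : ℂ} {x : ℝ} (hx0 : 0 < x) (hx : x ≤ 1 / 2)
    (hZ : Z * (1 - l * m * x + (l ^ 2 + m ^ 2 - 2) * (x : ℂ) ^ 2 -
      l * m * (x : ℂ) ^ 3 + (x : ℂ) ^ 4) =
      1 - (x : ℂ) ^ 2) :
    0 < ‖Z‖ ∧ -(Real.log (1 + ‖l‖ ^ 2 * x) + Real.log (1 + ‖m‖ ^ 2 * x)) / 2 -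
      2 * (‖l‖ ^ 2 + ‖m‖ ^ 2) * x ^ 2 - 5 * x ^ 2 ≤ Real.log ‖Z‖ := by
  set Q := 1 - l * m * x + (l ^ 2 + m ^ 2 - 2) * (x : ℂ) ^ 2 - l * m * (x : ℂ) ^ 3 + (x : ℂ) ^ 4
  set u := ‖l‖ ^ 2
  set v := ‖m‖ ^ 2
  have hu : 0 ≤ u := sq_nonneg _
  have hv : 0 ≤ v := sq_nonneg _
  have hx1 : 0 < 1 - x ^ 2 := by nlinarith
  have hnum : ‖1 - (x : ℂ) ^ 2‖ = 1 - x ^ 2 := by
    rw [show 1 - (x : ℂ) ^ 2 = ((1 - x ^ 2 : ℝ) : ℂ) by push_cast; rfl, Complex.norm_real,
      Real.norm_eq_abs, abs_of_pos hx1]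
  have hprod : ‖Z‖ * ‖Q‖ = 1 - x ^ 2 := by rw [← norm_mul, hZ, hnum]
  have hQ0 : 0 < ‖Q‖ := (norm_nonneg Q).lt_of_ne fun e => by rw [← e, mul_zero] at hprod; linarith
  have hZ0 : 0 < ‖Z‖ := (norm_nonneg Z).lt_of_ne fun e => by rw [← e, zero_mul] at hprod; linarith
  set A := (1 + u * x) * (1 + v * x)
  have hA1 : 1 ≤ A := one_le_mul_of_one_le_of_one_le (by nlinarith) (by nlinarith)
  set S := Real.sqrt A
  have hS1 : 1 ≤ S := by rw [show (1 : ℝ) = Real.sqrt 1 by simp]; exact Real.sqrt_le_sqrt hA1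
  have hxn : ‖(x : ℂ)‖ = x := by rw [Complex.norm_real, Real.norm_eq_abs, abs_of_pos hx0]
  have hQ : ‖Q‖ ≤ S + (2 * (u + v) * x ^ 2 + 3 * x ^ 2) := by
    have hlm : ‖l‖ * ‖m‖ ≤ (u + v) / 2 := by nlinarith [sq_nonneg (‖l‖ - ‖m‖)]
    have h1 : 1 + ‖l‖ * ‖m‖ * x ≤ S := by
      refine Real.le_sqrt_of_sq_le ?_
      nlinarith [sq_nonneg (‖l‖ - ‖m‖)]
    have b1 : ‖1 - l * m * x‖ ≤ 1 + ‖l‖ * ‖m‖ * x := by
      refine (norm_sub_le _ _).trans (le_of_eq ?_)
      rw [norm_one, norm_mul, norm_mul, hxn]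
    have b2 : ‖(l ^ 2 + m ^ 2 - 2) * (x : ℂ) ^ 2‖ ≤ (u + v + 2) * x ^ 2 := by
      rw [norm_mul, norm_pow, hxn]
      refine mul_le_mul_of_nonneg_right ((norm_sub_le _ _).trans ?_) (sq_nonneg x)
      refine add_le_add ((norm_add_le _ _).trans ?_) (by simp)
      rw [norm_pow, norm_pow]
    have b3 : ‖l * m * (x : ℂ) ^ 3‖ ≤ (u + v) / 2 * x ^ 2 := by
      rw [norm_mul, norm_mul, norm_pow, hxn]
      exact mul_le_mul hlm (pow_le_pow_of_le_one hx0.le (by linarith) (by norm_num))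
        (pow_nonneg hx0.le 3) (by linarith)
    have b4 : ‖(x : ℂ) ^ 4‖ ≤ x ^ 2 := by
      rw [norm_pow, hxn]
      exact pow_le_pow_of_le_one hx0.le (by linarith) (by norm_num)
    refine (norm_add_le _ _).trans ?_
    refine (add_le_add ((norm_sub_le _ _).trans (add_le_add ((norm_add_le _ _).trans
      (add_le_add b1 b2)) b3)) b4).trans ?_
    nlinarith
  set r := 2 * (u + v) * x ^ 2 + 3 * x ^ 2
  have hr : 0 ≤ r := by positivity
  have hQ' : Real.log ‖Q‖ ≤ (Real.log (1 + u * x) + Real.log (1 + v * x)) / 2 + r := by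
    have h2 : ‖Q‖ ≤ S * Real.exp r := hQ.trans (by
      nlinarith [Real.add_one_le_exp r, mul_le_mul_of_nonneg_right hS1 hr])
    refine (Real.log_le_log hQ0 h2).trans (le_of_eq ?_)
    rw [Real.log_mul (by linarith) (Real.exp_pos r).ne', Real.log_exp, Real.log_sqrt (by linarith),
      Real.log_mul (by positivity) (by positivity)]
  have hnl : -(2 * x ^ 2) ≤ Real.log (1 - x ^ 2) := by
    have := Real.one_sub_inv_le_log_of_pos hx1
    have h3 : (1 - x ^ 2)⁻¹ ≤ 1 + 2 * x ^ 2 := by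
      rw [inv_eq_one_div, div_le_iff₀ hx1]
      nlinarith [mul_nonneg (sq_nonneg x) (show 0 ≤ 1 - 2 * x ^ 2 by nlinarith)]
    linarith
  have e : Real.log ‖Z‖ = Real.log (1 - x ^ 2) - Real.log ‖Q‖ := by
    rw [← hprod, Real.log_mul hZ0.ne' hQ0.ne']; ring
  refine ⟨hZ0, ?_⟩
  simp only [r] at hQ'
  linarith

/-- With both parameters equal to `± 2` the logarithm of the local factor gains `8 x`. -/
theorem split_two_ge {Z l : ℂ} {x : ℝ} (hl : l = 2 ∨ l = -2) (hx0 : 0 < x) (hx : x ≤ 1 / 2)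
    (hZ : Z * (1 - l * l * x + (l ^ 2 + l ^ 2 - 2) * (x : ℂ) ^ 2 -
      l * l * (x : ℂ) ^ 3 + (x : ℂ) ^ 4) =
      1 - (x : ℂ) ^ 2) :
    0 < ‖Z‖ ∧ 8 * x - (Real.log (1 + ‖l‖ ^ 2 * x) + Real.log (1 + ‖l‖ ^ 2 * x)) / 2 - 9 * x ^ 2 ≤
      Real.log ‖Z‖ := by
  have h4 : l * l = 4 := by rcases hl with rfl | rfl <;> norm_num
  have hn : ‖l‖ ^ 2 = 4 := by rw [pow_two, ← norm_mul, h4]; simp
  have hx1 : 0 < 1 - x := by linarith
  have hZ' : Z * ((1 - x : ℝ) : ℂ) ^ 4 = ((1 + x : ℝ) : ℂ) * ((1 - x : ℝ) : ℂ) := by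
    rw [pow_two l, h4] at hZ
    push_cast
    linear_combination hZ
  have hZe : Z = (((1 + x) / (1 - x) ^ 3 : ℝ) : ℂ) := by
    have hne : ((1 - x : ℝ) : ℂ) ≠ 0 := by exact_mod_cast hx1.ne'
    apply mul_right_cancel₀ (pow_ne_zero 4 hne)
    rw [hZ', Complex.ofReal_div, Complex.ofReal_pow]
    field_simp
  have hpos : 0 < (1 + x) / (1 - x) ^ 3 := by positivity
  rw [hZe, Complex.norm_real, Real.norm_eq_abs, abs_of_pos hpos, hn]
  refine ⟨hpos, ?_⟩
  rw [Real.log_div (by linarith) (pow_ne_zero _ hx1.ne'), Real.log_pow]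
  have a1 := log_one_add_ge hx0.le
  have a2 := neg_log_one_sub_ge (show x < 1 by linarith)
  have a3 := log_one_add_ge (show 0 ≤ 4 * x by linarith)
  push_cast
  nlinarith

/-- At an inert place the logarithm of the local factor is at least `w x`, up to `x²`. -/
theorem inert_ge {Z l : ℂ} {x : ℝ} {w : ℝ} (hl : (l = 2 ∧ w = 2) ∨ (l = 0 ∧ w = 0)) (hx0 : 0 < x)
    (hx : x ≤ 1 / 2) (hZ : Z * (1 - l * x + (x : ℂ) ^ 2) = 1) :
    0 < ‖Z‖ ∧ w * x - x ^ 2 ≤ Real.log ‖Z‖ := by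
  have hx1 : 0 < 1 - x := by linarith
  rcases hl with ⟨rfl, rfl⟩ | ⟨rfl, rfl⟩
  · have hZ' : Z * (((1 - x) ^ 2 : ℝ) : ℂ) = 1 := by push_cast; linear_combination hZ
    rw [eq_inv_of_mul_eq_one_left hZ', ← Complex.ofReal_inv, Complex.norm_real, Real.norm_eq_abs,
      abs_of_pos (by positivity)]
    refine ⟨by positivity, ?_⟩
    rw [Real.log_inv, Real.log_pow]
    have a2 := neg_log_one_sub_ge (show x < 1 by linarith)
    push_cast
    nlinarith [sq_nonneg x]
  · have hZ' : Z * ((1 + x ^ 2 : ℝ) : ℂ) = 1 := by push_cast; linear_combination hZ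
    rw [eq_inv_of_mul_eq_one_left hZ', ← Complex.ofReal_inv, Complex.norm_real, Real.norm_eq_abs,
      abs_of_pos (by positivity)]
    refine ⟨by positivity, ?_⟩
    rw [Real.log_inv]
    have := Real.log_le_sub_one_of_pos (show (0 : ℝ) < 1 + x ^ 2 by positivity)
    linarith

end FermatAgent.LT.Period
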