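import Fermat.Agent.LT.Period.Values

/-!
# The field of Eisenstein integers

Conductors, rational primes and generators of ideals in the imaginary quadratic field generated by
a square root of `-3`.
-/

set_option autoImplicit false

noncomputable section

open IsDedekindDomain NumberField WithZero Module Filter
open FermatAgent.LT.Theta.LocalChar

namespace FermatAgent.LT.Period

open FermatAgent.LT.Whit

/-- The field of Eisenstein integers: a quadratic field with a square root `θ` of `-3`. -/
structure IsEis {K : Type*} [Field K] [NumberField K] (θ : K) : Prop where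
  sq : θ ^ 2 = -3
  deg : finrank ℚ K = 2

variable {K : Type*} [Field K] [NumberField K] {θ : K}

/-- The cube root of unity. -/
def zeta (θ : K) : K := (θ - 1) / 2

/-- The equation of the cube root of unity. -/
lemma IsEis.zeta_rel (h : IsEis θ) : zeta θ ^ 2 + zeta θ + 1 = 0 := by
  rw [zeta]; linear_combination (1 / 4 : K) * h.sq

/-- The element `θ` is nonzero. -/
lemma IsEis.ne_zero (h : IsEis θ) : θ ≠ 0 := fun e => by
  have := h.sq
  rw [e] at this
  norm_num at this

lemma IsEis.isIntegral_zeta (h : IsEis θ) : IsIntegral ℤ (zeta θ) := by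
  refine ⟨Polynomial.X ^ 2 + Polynomial.X + 1, by monicity!, ?_⟩
  simp [h.zeta_rel]

/-- The cube root of unity as an integer. -/
def IsEis.zetaO (h : IsEis θ) : 𝓞 K := ⟨zeta θ, h.isIntegral_zeta⟩

/-- The square root as an integer. -/
def IsEis.thetaO (h : IsEis θ) : 𝓞 K := 2 * h.zetaO + 1

/-- The integral `θ`. -/
lemma IsEis.coe_thetaO (h : IsEis θ) : (h.thetaO : K) = θ := by
  show ((2 * h.zetaO + 1 : 𝓞 K) : K) = θ
  push_cast
  show 2 * zeta θ + 1 = θ
  rw [zeta]; ring

/-- The element `θ` is irrational. -/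
lemma IsEis.not_rat (h : IsEis θ) (r : ℚ) : (r : K) ≠ θ := fun e => by
  have := h.sq
  rw [← e] at this
  have h' : r ^ 2 = -3 := by
    have : ((r ^ 2 : ℚ) : K) = ((-3 : ℚ) : K) := by push_cast; exact this
    exact_mod_cast this
  nlinarith [sq_nonneg r]

/-- Every element is `u + v θ` with rational `u` and `v`. -/
theorem IsEis.exists_repr (h : IsEis θ) (x : K) : ∃ u v : ℚ, x = u + v * θ := by
  have hli : LinearIndependent ℚ ![(1 : K), θ] := by
    rw [LinearIndependent.pair_iff]
    intro s t hst
    rw [Algebra.smul_def, Algebra.smul_def, mul_one, eq_ratCast, eq_ratCast] at hst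
    by_cases ht : t = 0
    · subst ht; exact ⟨by simpa using hst, rfl⟩
    · exfalso
      refine h.not_rat (-s / t) ?_
      push_cast
      rw [div_eq_iff (by exact_mod_cast ht)]
      linear_combination -hst
  let b := basisOfLinearIndependentOfCardEqFinrank hli (by simp [h.deg])
  refine ⟨b.repr x 0, b.repr x 1, ?_⟩
  conv_lhs => rw [← b.sum_repr x]
  simp [b, Fin.sum_univ_two, coe_basisOfLinearIndependentOfCardEqFinrank, Algebra.smul_def]

lemma IsEis.cyclotomic (h : IsEis θ) : IsCyclotomicExtension {3} ℚ K := by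
  have h3 : zeta θ ^ 3 = 1 := by
    linear_combination (zeta θ - 1) * h.zeta_rel
  rw [IsCyclotomicExtension.iff_singleton]
  refine ⟨⟨zeta θ, IsPrimitiveRoot.mk_of_lt _ (by norm_num) h3 fun l hl hl3 e => ?_⟩, fun x => ?_⟩
  · have h1 : zeta θ ≠ 1 := fun e1 => by
      have := h.zeta_rel
      rw [e1] at this
      norm_num at this
    interval_cases l
    · exact h1 (by simpa using e)
    · exact h1 (by linear_combination h3 - zeta θ * e)
  · obtain ⟨u, v, rfl⟩ := h.exists_repr x
    have hz : zeta θ ∈ Algebra.adjoin ℚ {b : K | b ^ 3 = 1} := Algebra.subset_adjoin h3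
    rw [show (u : K) + v * θ = ((u + v : ℚ) : K) + ((2 * v : ℚ) : K) * zeta θ by
      rw [zeta]; push_cast; ring]
    refine add_mem ?_ (mul_mem ?_ hz) <;>
      exact Subalgebra.algebraMap_mem _ _

/-- The ring of integers is principal. -/
lemma IsEis.pid (h : IsEis θ) : IsPrincipalIdealRing (𝓞 K) := by
  have := h.cyclotomic
  exact IsCyclotomicExtension.Rat.three_pid K

variable [IsTotallyComplex K]

/-- There is one infinite place. -/
lemma IsEis.subsingleton_place (h : IsEis θ) : Subsingleton (InfinitePlace K) := by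
  rw [← Fintype.card_le_one_iff_subsingleton]
  have h1 := IsTotallyComplex.finrank (K := K)
  rw [h.deg] at h1
  have h2 := InfinitePlace.card_eq_nrRealPlaces_add_nrComplexPlaces K
  rw [IsTotallyComplex.nrRealPlaces_eq_zero, zero_add] at h2
  omega

/-- The infinite place. -/
def place (K : Type*) [Field K] [NumberField K] : InfinitePlace K := Classical.arbitrary _

/-- The infinite place is the chosen one. -/
lemma IsEis.eq_place (h : IsEis θ) (w : InfinitePlace K) : w = place K :=
  @Subsingleton.elim _ h.subsingleton_place _ _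

/-- Sums over the infinite places. -/
lemma IsEis.sum_place (h : IsEis θ) {M : Type*} [AddCommMonoid M] (F : InfinitePlace K → M) :
    ∑ w, F w = F (place K) :=
  Finset.sum_eq_single _ (fun w _ hw => absurd (h.eq_place w) hw) (by simp)

/-- Products over the infinite places. -/
lemma IsEis.sum_place_prod (h : IsEis θ) {M : Type*} [CommMonoid M] (F : InfinitePlace K → M) :
    ∏ w, F w = F (place K) :=
  Finset.prod_eq_single _ (fun w _ hw => absurd (h.eq_place w) hw) (by simp)

lemma IsEis.trace_eq (h : IsEis θ) (x : K) :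
    ((Algebra.trace ℚ K x : ℚ) : ℝ) = 2 * ((place K).embedding x).re := by
  have e := Theta.Approx.trace_eq_sum_places x
  rw [h.sum_place] at e
  exact_mod_cast e

omit [IsTotallyComplex K] in
/-- The embedded `θ` is imaginary. -/
lemma IsEis.emb_theta_re (h : IsEis θ) : ((place K).embedding θ).re = 0 := by
  have e := congrArg (place K).embedding h.sq
  rw [map_pow, map_neg, map_ofNat, pow_two, Complex.ext_iff] at e
  simp at e
  nlinarith [e.1, e.2, sq_nonneg ((place K).embedding θ).re]

omit [IsTotallyComplex K] in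
/-- The embedded `θ` has squared imaginary part three. -/
lemma IsEis.emb_theta_im (h : IsEis θ) : ((place K).embedding θ).im ^ 2 = 3 := by
  have e := congrArg (place K).embedding h.sq
  rw [map_pow, map_neg, map_ofNat, pow_two, Complex.ext_iff] at e
  simp [h.emb_theta_re] at e
  linarith

lemma IsEis.trace_theta (h : IsEis θ) : Algebra.trace ℚ K θ = 0 := by
  have e := h.trace_eq θ
  rw [h.emb_theta_re, mul_zero] at e
  exact_mod_cast e

/-- The trace in coordinates. -/
lemma IsEis.trace_repr (h : IsEis θ) (u v : ℚ) :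
    Algebra.trace ℚ K ((u : K) + v * θ) = 2 * u := by
  rw [map_add, ← eq_ratCast (algebraMap ℚ K) u, Algebra.trace_algebraMap, h.deg,
    ← eq_ratCast (algebraMap ℚ K) v, ← Algebra.smul_def, map_smul, h.trace_theta]
  simp

/-- The inverse different is `θ⁻¹ 𝓞`: an element pairing integrally under the trace becomes
integral when multiplied by `θ`. -/
theorem IsEis.theta_mul_mem (h : IsEis θ) {y : K}
    (hy : ∀ x : 𝓞 K, ∃ n : ℤ, Algebra.trace ℚ K ((x : K) * y) = n) :
    ∃ z : 𝓞 K, (z : K) = θ * y := by
  obtain ⟨u, v, rfl⟩ := h.exists_repr y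
  obtain ⟨m, hm⟩ := hy 1
  obtain ⟨k, hk⟩ := hy h.zetaO
  rw [show ((1 : 𝓞 K) : K) = 1 from rfl, one_mul, h.trace_repr] at hm
  have e : zeta θ * ((u : K) + v * θ) = ((-u / 2 - 3 * v / 2 : ℚ) : K) +
      ((u / 2 - v / 2 : ℚ) : K) * θ := by
    rw [zeta]; push_cast; linear_combination (v : K) / 2 * h.sq
  rw [show (h.zetaO : K) = zeta θ from rfl, e, h.trace_repr] at hk
  refine ⟨(m : 𝓞 K) * (h.zetaO + 1) + (k : 𝓞 K), ?_⟩
  show ((m : 𝓞 K) : K) * (zeta θ + 1) + ((k : 𝓞 K) : K) = _
  rw [show ((m : 𝓞 K) : K) = (m : K) from map_intCast (algebraMap (𝓞 K) K) m,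
    show ((k : 𝓞 K) : K) = (k : K) from map_intCast (algebraMap (𝓞 K) K) k, zeta]
  have hm' : (m : K) = 2 * (u : K) := by exact_mod_cast congrArg (fun r : ℚ => (r : K)) hm.symm
  have hk' : (k : K) = -(u : K) - 3 * (v : K) := by
    have := congrArg (fun r : ℚ => (r : K)) hk.symm
    push_cast at this
    linear_combination this
  rw [hm', hk']
  linear_combination -(v : K) * h.sq

/-- Integrality of traces against the inverse different. -/
lemma IsEis.trace_div_theta (h : IsEis θ) (z : 𝓞 K) :
    ∃ n : ℤ, Algebra.trace ℚ K ((z : K) / θ) = n := by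
  obtain ⟨u, v, huv⟩ := h.exists_repr (z : K)
  have hz : IsIntegral ℤ ((z : K)) := z.isIntegral_coe
  have e : (z : K) / θ = ((v : ℚ) : K) + ((-u / 3 : ℚ) : K) * θ := by
    rw [div_eq_iff h.ne_zero, huv]; push_cast
    linear_combination (u : K) / 3 * h.sq
  rw [e, h.trace_repr]
  obtain ⟨n, hn⟩ := IsIntegrallyClosed.isIntegral_iff.1
    (Algebra.isIntegral_trace (R := ℤ) (L := ℚ) (hz.mul h.isIntegral_zeta))
  obtain ⟨m, hm⟩ :=
    IsIntegrallyClosed.isIntegral_iff.1 (Algebra.isIntegral_trace (R := ℤ) (L := ℚ) hz)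
  rw [huv, h.trace_repr] at hm
  have e2 : ((u : K) + v * θ) * zeta θ =
      ((-u / 2 - 3 * v / 2 : ℚ) : K) + ((u / 2 - v / 2 : ℚ) : K) * θ := by
    rw [zeta]; push_cast; linear_combination (v : K) / 2 * h.sq
  rw [huv, e2, h.trace_repr] at hn
  simp only [eq_intCast] at hn hm
  obtain ⟨l, hl⟩ := IsIntegrallyClosed.isIntegral_iff.1
    (Algebra.isIntegral_norm (R := ℤ) (L := K) (K := ℚ) hz)
  simp only [eq_intCast] at hl
  have hnorm : ((|l| : ℤ) : ℚ) = u ^ 2 + 3 * v ^ 2 := by
    have h1 := InfinitePlace.prod_eq_abs_norm (K := K) (z : K)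
    rw [h.sum_place_prod, IsTotallyComplex.mult_eq, ← hl, ← InfinitePlace.norm_embedding_eq,
      Complex.sq_norm, huv, map_add, map_mul, map_ratCast, map_ratCast, Complex.normSq_apply] at h1
    simp [h.emb_theta_re] at h1
    have h3 := h.emb_theta_im
    have h4 : (((|l| : ℤ) : ℚ) : ℝ) = ((u ^ 2 + 3 * v ^ 2 : ℚ) : ℝ) := by
      push_cast
      nlinarith [h1, h3]
    exact_mod_cast h4
  have hk : ((2 * n + m : ℤ) : ℚ) = -6 * v := by
    push_cast; linear_combination 2 * hn + hm
  have h3 : (3 : ℤ) ∣ (2 * n + m) ^ 2 := ⟨4 * |l| - m ^ 2, by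
    have : (((2 * n + m) ^ 2 : ℤ) : ℚ) = ((3 * (4 * |l| - m ^ 2) : ℤ) : ℚ) := by
      push_cast at hk ⊢
      rw [hk]
      push_cast at hnorm
      rw [hm]
      linear_combination -12 * hnorm
    exact_mod_cast this⟩
  obtain ⟨q, hq⟩ := Int.prime_three.dvd_of_dvd_pow h3
  refine ⟨-q, ?_⟩
  have : ((2 * n + m : ℤ) : ℚ) = 3 * (q : ℚ) := by rw [hq]; push_cast; ring
  push_cast
  linarith

/-- The conductor exponent of the additive character at a place is the exponent of `θ` there. -/
theorem IsEis.cnd_eq (h : IsEis θ) (v : HeightOneSpectrum (𝓞 K)) :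
    cnd v = expo (Units.mk0 θ h.ne_zero) v := by
  set e := expo (Units.mk0 θ h.ne_zero) v
  have hv : v.valuation K θ = exp (-e) := v_eq_exp_expo (Units.mk0 θ h.ne_zero) v
  refine le_antisymm ?_ ?_
  · have hb := bound_of_trivial v (D := h.thetaO) (fun y hy w => ?_) (cond_nonneg v)
      (fun a ha => ψloc_eq_one_of_le v ha)
    · rw [show algebraMap (𝓞 K) K h.thetaO = θ from h.coe_thetaO, hv, ← exp_add, ← exp_zero,
        exp_le_exp] at hb
      show cond v ≤ e
      omega
    · obtain ⟨z, hz⟩ := h.theta_mul_mem hy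
      rw [show algebraMap (𝓞 K) K h.thetaO = θ from h.coe_thetaO, ← hz]
      exact w.valuation_le_one z
  · refine (exists_conductor v).choose_spec.2 e fun a ha => ?_
    obtain ⟨b, hb⟩ := exists_part v a
    have he : 0 ≤ e := by
      have : v.valuation K (algebraMap (𝓞 K) K h.thetaO) ≤ 1 := v.valuation_le_one _
      rw [show algebraMap (𝓞 K) K h.thetaO = θ from h.coe_thetaO, hv, ← exp_zero,
        exp_le_exp] at this
      omega
    have hvb : v.valuation K b ≤ exp e := by
      rw [show b = a - (a - b) by ring]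
      exact (Valuation.map_sub _ _ _).trans (max_le ha (hb.1.trans (by
        rw [← exp_zero, exp_le_exp]; exact he)))
    have hint : ∀ w : HeightOneSpectrum (𝓞 K), w.valuation K (b * θ) ≤ 1 := fun w => by
      by_cases hw : w = v
      · subst hw
        rw [map_mul, hv]
        refine (mul_le_mul' hvb le_rfl).trans (le_of_eq ?_)
        rw [← exp_add, add_neg_cancel, exp_zero]
      · rw [map_mul]
        refine mul_le_one' (hb.2 w hw) ?_
        rw [← h.coe_thetaO]
        exact w.valuation_le_one _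
    obtain ⟨z, hz⟩ := HeightOneSpectrum.mem_integers_of_valuation_le_one K (b * θ) hint
    obtain ⟨n, hn⟩ := h.trace_div_theta z
    rw [ψloc_eq hb]
    rw [show b = (z : K) / θ by rw [eq_div_iff h.ne_zero]; exact hz.symm, hn, eRat_intCast]

end FermatAgent.LT.Period
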