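import Fermat.Agent.LT.Period.Tiling

/-!
# Integer vectors by cosets of a congruence subgroup

An integer vector whose content is prime to the level is both a multiple of a primitive row and a
unit multiple of the row of a coset representative plus a multiple of the level.
-/

set_option autoImplicit false

noncomputable section

open Matrix UpperHalfPlane
open scoped MatrixGroups

namespace FermatAgent.LT.Period

variable (N : ℕ)

/-- The cosets. -/
abbrev Cos := SL(2, ℤ) ⧸ CongruenceSubgroup.Gamma0 N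

/-- The row attached to a coset. -/
def cosRow (q : Cos N) : Fin 2 → ℤ := (q.out⁻¹).1 1

/-- The coset of a primitive row. -/
def rowCos (w : PrimRow) : Cos N := QuotientGroup.mk (rowRep w)⁻¹

/-- The content is prime to the level. -/
def IsGoodVec (u : Fin 2 → ℤ) : Prop := ∀ p : ℕ, p.Prime → p ∣ N → ¬((p : ℤ) ∣ u 0 ∧ (p : ℤ) ∣ u 1)

/-- Multiples of primitive rows. -/
abbrev MulRow := {g : ℕ // 0 < g ∧ Nat.Coprime g N} × PrimRow

/-- Residual data. -/
abbrev ResRow := (Cos N × (ZMod N)ˣ) × (ℤ × ℤ)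

/-- The vector of a multiple. -/
def mulVec' (b : MulRow N) : Fin 2 → ℤ := ![(b.1.1 : ℤ) * b.2.1 0, (b.1.1 : ℤ) * b.2.1 1]

/-- The vector of residual data. -/
def resVec (x : ResRow N) : Fin 2 → ℤ :=
  ![((x.1.2 : ZMod N).val : ℤ) * cosRow N x.1.1 0 + N * x.2.1,
    ((x.1.2 : ZMod N).val : ℤ) * cosRow N x.1.1 1 + N * x.2.2]

lemma cosRow_coprime (q : Cos N) : IsCoprime (cosRow N q 0) (cosRow N q 1) :=
  ModularGroup.bottom_row_coprime _

lemma not_both_dvd {a b : ℤ} (h : IsCoprime a b) {p : ℕ} (hp : p.Prime) :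
    ¬((p : ℤ) ∣ a ∧ (p : ℤ) ∣ b) := fun ⟨ha, hb⟩ =>
  hp.ne_one (by simpa using Int.isUnit_iff_natAbs_eq.1 (h.isUnit_of_dvd' ha hb))

lemma coset_eq_iff (g h : SL(2, ℤ)) :
    (QuotientGroup.mk g⁻¹ : Cos N) = QuotientGroup.mk h⁻¹ ↔
      ((g.1 1 0 : ℤ) : ZMod N) * (h.1 1 1 : ℤ) = (g.1 1 1 : ℤ) * (h.1 1 0 : ℤ) := by
  rw [QuotientGroup.eq, inv_inv, CongruenceSubgroup.Gamma0_mem]
  simp only [Matrix.SpecialLinearGroup.coe_mul, Matrix.SpecialLinearGroup.coe_inv,
    Matrix.adjugate_fin_two, Matrix.mul_apply, Fin.sum_univ_two]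
  simp
  exact add_neg_eq_zero

lemma mk_out_inv (q : Cos N) : (QuotientGroup.mk (q.out⁻¹)⁻¹ : Cos N) = q := by
  rw [inv_inv]; exact Quotient.out_eq q

variable {N}

lemma mulVec'_good (b : MulRow N) : IsGoodVec N (mulVec' N b) := by
  intro p hp hpN h
  obtain ⟨⟨g, hg, hgN⟩, w⟩ := b
  have hpg : ¬(p : ℤ) ∣ (g : ℤ) := fun hd =>
    hp.ne_one (Nat.eq_one_of_dvd_coprimes hgN (Int.natCast_dvd_natCast.1 hd) hpN)
  have hpi : Prime (p : ℤ) := Nat.prime_iff_prime_int.1 hp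
  exact not_both_dvd w.2 hp ⟨(hpi.dvd_or_dvd (by simpa [mulVec'] using h.1)).resolve_left hpg,
    (hpi.dvd_or_dvd (by simpa [mulVec'] using h.2)).resolve_left hpg⟩

/-- Residue rows have good vectors. -/
lemma resVec_good (x : ResRow N) : IsGoodVec N (resVec N x) := by
  intro p hp hpN h
  obtain ⟨⟨q, a⟩, p1, p2⟩ := x
  have hpa : ¬(p : ℤ) ∣ ((a : ZMod N).val : ℤ) := fun hd =>
    hp.ne_one (Nat.eq_one_of_dvd_coprimes (ZMod.val_coe_unit_coprime a)
      (Int.natCast_dvd_natCast.1 hd) hpN)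
  have hpN' : (p : ℤ) ∣ (N : ℤ) := Int.natCast_dvd_natCast.2 hpN
  have hpi : Prime (p : ℤ) := Nat.prime_iff_prime_int.1 hp
  refine not_both_dvd (cosRow_coprime N q) hp ⟨?_, ?_⟩
  · exact (hpi.dvd_or_dvd ((dvd_add_left (dvd_mul_of_dvd_left hpN' p1)).1
      (by simpa [resVec] using h.1))).resolve_left hpa
  · exact (hpi.dvd_or_dvd ((dvd_add_left (dvd_mul_of_dvd_left hpN' p2)).1
      (by simpa [resVec] using h.2))).resolve_left hpa

lemma mulVec'_injective : Function.Injective (mulVec' N) := by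
  rintro ⟨⟨g, hg, hgN⟩, w⟩ ⟨⟨g', hg', hgN'⟩, w'⟩ e
  have hgcd : ∀ (g : ℕ) (w : PrimRow), Int.gcd ((g : ℤ) * w.1 0) ((g : ℤ) * w.1 1) = g :=
    fun g w => by
    rw [Int.gcd_mul_left, Int.isCoprime_iff_gcd_eq_one.1 w.2, mul_one, Int.natAbs_natCast]
  have e0 := congrFun e 0
  have e1 := congrFun e 1
  simp [mulVec'] at e0 e1
  have hgg : g = g' := by rw [← hgcd g w, e0, e1, hgcd]
  subst hgg
  have hg0 : (g : ℤ) ≠ 0 := by exact_mod_cast hg.ne'
  refine Prod.ext rfl (Subtype.ext (funext fun i => ?_))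
  fin_cases i
  · exact mul_left_cancel₀ hg0 e0
  · exact mul_left_cancel₀ hg0 e1

lemma mulVec'_surjective (hN : 2 ≤ N) {u : Fin 2 → ℤ} (hu : IsGoodVec N u) :
    ∃ b : MulRow N, mulVec' N b = u := by
  obtain ⟨p, hp, hpN⟩ := Nat.exists_prime_and_dvd (by omega : N ≠ 1)
  have h0 : Int.gcd (u 0) (u 1) ≠ 0 := fun h => by
    rw [Int.gcd_eq_zero_iff] at h
    exact hu p hp hpN ⟨by simp [h.1], by simp [h.2]⟩
  obtain ⟨m, n, hmn, hm, hn⟩ := Int.exists_gcd_one (Nat.pos_of_ne_zero h0)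
  refine ⟨(⟨Int.gcd (u 0) (u 1), Nat.pos_of_ne_zero h0, ?_⟩,
    ⟨![m, n], Int.isCoprime_iff_gcd_eq_one.2 (by simpa using hmn)⟩), ?_⟩
  · refine Nat.coprime_of_dvd fun q hq hqg hqN => hu q hq hqN ⟨?_, ?_⟩
    · exact (Int.natCast_dvd_natCast.2 hqg).trans (Int.gcd_dvd_left _ _)
    · exact (Int.natCast_dvd_natCast.2 hqg).trans (Int.gcd_dvd_right _ _)
  · funext i
    fin_cases i
    · simp [mulVec', mul_comm, ← hm]
    · simp [mulVec', mul_comm, ← hn]

variable [NeZero N]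

lemma resVec_cast (x : ResRow N) (i : Fin 2) :
    ((resVec N x i : ℤ) : ZMod N) = (x.1.2 : ZMod N) * (cosRow N x.1.1 i : ZMod N) := by
  fin_cases i <;> simp [resVec]

omit [NeZero N] in
/-- The coset is determined by the vector. -/
lemma coset_of_cast {g g' : SL(2, ℤ)} {a a' : (ZMod N)ˣ}
    (h : ∀ i, (a : ZMod N) * ((g.1 1 i : ℤ) : ZMod N) = a' * ((g'.1 1 i : ℤ) : ZMod N)) :
    (QuotientGroup.mk g⁻¹ : Cos N) = QuotientGroup.mk g'⁻¹ := by
  rw [coset_eq_iff]
  apply a.isUnit.mul_left_cancel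
  apply a'.isUnit.mul_left_cancel
  linear_combination ((a' : ZMod N) * (g'.1 1 1 : ℤ)) * h 0 - ((a' : ZMod N) * (g'.1 1 0 : ℤ)) * h 1

lemma resVec_injective : Function.Injective (resVec N) := by
  intro x y e
  have hc : ∀ i, (x.1.2 : ZMod N) * (cosRow N x.1.1 i : ZMod N) =
      (y.1.2 : ZMod N) * (cosRow N y.1.1 i : ZMod N) := fun i => by
    rw [← resVec_cast, ← resVec_cast, e]
  have hq : x.1.1 = y.1.1 := by
    have := coset_of_cast (N := N) (g := x.1.1.out⁻¹) (g' := y.1.1.out⁻¹) hc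
    rwa [mk_out_inv, mk_out_inv] at this
  have ha : x.1.2 = y.1.2 := by
    obtain ⟨r, r', hr⟩ := cosRow_coprime N x.1.1
    have h1 := congrArg (fun z : ℤ => (z : ZMod N)) hr
    push_cast at h1
    apply Units.ext
    have h0 := hc 0
    have h1' := hc 1
    rw [← hq] at h0 h1'
    linear_combination (r : ZMod N) * h0 + (r' : ZMod N) * h1' - ((x.1.2 : ZMod N) - y.1.2) * h1
  have e0 := congrFun e 0
  have e1 := congrFun e 1
  obtain ⟨⟨q, a⟩, p1, p2⟩ := x
  obtain ⟨⟨q', a'⟩, p1', p2'⟩ := y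
  simp only at hq ha
  subst hq ha
  simp [resVec, NeZero.ne N] at e0 e1
  rw [e0, e1]

lemma resVec_surjective (hN : 2 ≤ N) {u : Fin 2 → ℤ} (hu : IsGoodVec N u) :
    ∃ x : ResRow N, resVec N x = u := by
  obtain ⟨⟨⟨g, hg, hgN⟩, w⟩, rfl⟩ := mulVec'_surjective hN hu
  set q := rowCos N w
  have hcr := (coset_eq_iff N q.out⁻¹ (rowRep w)).1 (mk_out_inv N q)
  rw [rowRep_spec] at hcr
  obtain ⟨r, r', hr⟩ := cosRow_coprime N q
  obtain ⟨t, t', ht⟩ := w.2
  have hr1 := congrArg (fun z : ℤ => (z : ZMod N)) hr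
  have ht1 := congrArg (fun z : ℤ => (z : ZMod N)) ht
  push_cast at hr1 ht1
  set R0 : ZMod N := (cosRow N q 0 : ZMod N)
  set R1 : ZMod N := (cosRow N q 1 : ZMod N)
  set W0 : ZMod N := (w.1 0 : ZMod N)
  set W1 : ZMod N := (w.1 1 : ZMod N)
  have hc : R0 * W1 = R1 * W0 := hcr
  set μ : ZMod N := r * W0 + r' * W1
  set lam : ZMod N := t * R0 + t' * R1
  have hw0 : μ * R0 = W0 := by simp only [μ]; linear_combination (r' : ZMod N) * hc + W0 * hr1
  have hw1 : μ * R1 = W1 := by simp only [μ]; linear_combination (-(r : ZMod N)) * hc + W1 * hr1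
  have hμ : μ * lam = 1 := by
    simp only [lam]
    linear_combination (t : ZMod N) * hw0 + (t' : ZMod N) * hw1 + ht1
  have hgu : IsUnit (g : ZMod N) := (ZMod.isUnit_iff_coprime g N).2 hgN
  set a : (ZMod N)ˣ := hgu.unit * Units.mkOfMulEqOne μ lam hμ
  have hcast : ∀ i, (((a : ZMod N).val : ℤ) * cosRow N q i : ZMod N) =
      ((mulVec' N (⟨g, hg, hgN⟩, w) i : ℤ) : ZMod N) := by
    intro i
    have : ((a : ZMod N) : ZMod N) = (g : ZMod N) * μ := rfl
    push_cast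
    rw [ZMod.natCast_zmod_val, this]
    fin_cases i
    · simpa [mulVec', mul_assoc] using congrArg ((g : ZMod N) * ·) hw0
    · simpa [mulVec', mul_assoc] using congrArg ((g : ZMod N) * ·) hw1
  have hdiv : ∀ i, ∃ k : ℤ, mulVec' N (⟨g, hg, hgN⟩, w) i =
      ((a : ZMod N).val : ℤ) * cosRow N q i + N * k := by
    intro i
    obtain ⟨k, hk⟩ := (ZMod.intCast_eq_intCast_iff_dvd_sub
      (((a : ZMod N).val : ℤ) * cosRow N q i) (mulVec' N (⟨g, hg, hgN⟩, w) i) N).1
        (by push_cast; exact_mod_cast hcast i)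
    exact ⟨k, by linarith⟩
  choose k hk using hdiv
  refine ⟨((q, a), (k 0, k 1)), funext fun i => ?_⟩
  fin_cases i
  · simpa [resVec] using (hk 0).symm
  · simpa [resVec] using (hk 1).symm

/-- Integer vectors with content prime to `N` have two parametrisations, which correspond:
multiples of primitive rows, and unit multiples of the row of a coset of `Γ₀(N)` plus `N` times a
vector. -/
theorem exists_regroup (hN : 2 ≤ N) : ∃ e : ResRow N ≃ MulRow N,
    (∀ x, mulVec' N (e x) = resVec N x) ∧ ∀ x, rowCos N (e x).2 = x.1.1 := by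
  have hR : Set.range (resVec N) = Set.range (mulVec' N) := by
    ext u
    constructor
    · rintro ⟨x, rfl⟩; exact mulVec'_surjective hN (resVec_good x)
    · rintro ⟨b, rfl⟩; exact resVec_surjective hN (mulVec'_good b)
  set e : ResRow N ≃ MulRow N := (Equiv.ofInjective _ resVec_injective).trans
    ((Equiv.setCongr hR).trans (Equiv.ofInjective _ mulVec'_injective).symm)
  have he : ∀ x, mulVec' N (e x) = resVec N x := fun x => by
    show mulVec' N ((Equiv.ofInjective _ mulVec'_injective).symm _) = _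
    exact Equiv.apply_ofInjective_symm mulVec'_injective _
  refine ⟨e, he, fun x => ?_⟩
  set b := e x with hb
  have hgu : IsUnit (b.1.1 : ZMod N) := (ZMod.isUnit_iff_coprime _ N).2 b.1.2.2
  have := coset_of_cast (N := N) (g := rowRep b.2) (g' := x.1.1.out⁻¹) (a := hgu.unit) (a' := x.1.2)
    fun i => by
      rw [rowRep_spec]
      show (b.1.1 : ZMod N) * _ = _ * (cosRow N x.1.1 i : ZMod N)
      rw [← resVec_cast, ← he x, ← hb]
      fin_cases i <;> simp [mulVec']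
  rwa [mk_out_inv] at this

omit [NeZero N] in
/-- The value at a coset of an invariant function. -/
lemma apply_rowRep {α : Type*} {Ψ : ℍ → α}
    (hΨ : ∀ g ∈ CongruenceSubgroup.Gamma0 N, ∀ z, Ψ (g • z) = Ψ z) (w : PrimRow) (z : ℍ) :
    Ψ (rowRep w • z) = Ψ ((rowCos N w).out⁻¹ • z) := by
  obtain ⟨δ, hδ⟩ := QuotientGroup.mk_out_eq_mul (CongruenceSubgroup.Gamma0 N) (rowRep w)⁻¹
  have e : (rowCos N w).out = (rowRep w)⁻¹ * (δ : SL(2, ℤ)) := hδ
  rw [e, _root_.mul_inv_rev, inv_inv, mul_smul]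
  exact (hΨ _ (inv_mem δ.2) _).symm

end FermatAgent.LT.Period
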