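import Fermat.Agent.LT.Period.Good

/-!
# Exponents on the torus

The torus elements with given exponents, the lowest exponents in the support of the Whittaker
function, and the exponents of a scalar.
-/

set_option autoImplicit false

noncomputable section

open Matrix IsDedekindDomain NumberField Filter MeasureTheory WithZero
open scoped MatrixGroups ContDiff

namespace FermatAgent.LT.Period

open FermatAgent.LT.Whit

variable {L : Type*} [Field L] [NumberField L]

/-- The exponents of a torus element. -/
abbrev Expo (L : Type*) [Field L] [NumberField L] := HeightOneSpectrum (𝓞 L) →₀ ℤ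

/-- The torus element with given exponents. -/
def tor (n : Expo L) : adelGrp L :=
  ⟨fun v => dG (unifU v ^ n v), show ∀ᶠ v in cofinite, _ by
    filter_upwards [n.support.finite_toSet.compl_mem_cofinite] with v hv
    rw [Finsupp.notMem_support_iff.1 (by simpa using hv), zpow_zero, dG_one]
    exact one_mem _⟩

/-- The components of a torus point. -/
@[simp] lemma tor_apply (n : Expo L) (v : HeightOneSpectrum (𝓞 L)) :
    (tor n).1 v = dG (unifU v ^ n v) := rfl

open Classical in
/-- The lowest exponents in the support of the Whittaker function. -/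
def baseExp (S : Finset (HeightOneSpectrum (𝓞 L))) : Expo L :=
  Finsupp.ofSupportFinite (fun v => -(cnd v + if v ∈ S then 1 else 0))
    ((((eventually_cofinite.1 (Theta.LocalChar.eventually_cond_eq_zero (L := L))).union
      S.finite_toSet)).subset fun v hv => by
        by_contra hc
        simp only [Set.mem_union, Set.mem_ofPred_eq, Finset.mem_coe, not_or, not_not] at hc
        simp [cnd, hc.1, hc.2] at hv)

/-- The exponent at a place of `S`. -/
lemma baseExp_mem {S : Finset (HeightOneSpectrum (𝓞 L))} {v : HeightOneSpectrum (𝓞 L)}
    (hv : v ∈ S) : baseExp S v = -(cnd v + 1) := by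
  rw [baseExp, Finsupp.ofSupportFinite_coe, if_pos hv]

/-- The exponent outside `S`. -/
lemma baseExp_notMem {S : Finset (HeightOneSpectrum (𝓞 L))} {v : HeightOneSpectrum (𝓞 L)}
    (hv : v ∉ S) : baseExp S v = -cnd v := by
  rw [baseExp, Finsupp.ofSupportFinite_coe, if_neg hv, add_zero]

/-- The exponents of a scalar. -/
def expo (ξ : Lˣ) : Expo L :=
  Finsupp.ofSupportFinite (fun v => -log (v.valuation L (ξ : L)))
    ((eventually_cofinite.1 (eventually_valuation_eq_one ξ.ne_zero)).subset fun v hv h1 => by
      simp [h1] at hv)

/-- Valuations through exponents. -/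
lemma v_eq_exp_expo (ξ : Lˣ) (v : HeightOneSpectrum (𝓞 L)) :
    v.valuation L (ξ : L) = exp (-expo ξ v) := by
  rw [expo, Finsupp.ofSupportFinite_coe, neg_neg, exp_log ((Valuation.ne_zero_iff _).2 ξ.ne_zero)]

end FermatAgent.LT.Period
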