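import Fermat.Agent.LT.Period.Typed
import Fermat.Agent.LT2.Period.Layer

/-!
# A flat vector at the places of the level

From a nonzero cuspidal eigenform of congruence level one obtains, by translations at the places of
the level, a nonzero one whose Whittaker function along the torus at each such place is the
indicator of the highest layer. If that layer vanishes for all forms of the system, they are
invariant under integral translations, so one may shift along the torus.
-/

set_option autoImplicit false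

noncomputable section

open Matrix IsDedekindDomain NumberField Filter MeasureTheory WithZero
open scoped MatrixGroups ContDiff

namespace FermatAgent.LT.Period

open FermatAgent.LT.Whit

variable {L : Type*} [Field L] [NumberField L] [IsTotallyComplex L]
  {S T : Finset (HeightOneSpectrum (𝓞 L))} {c : HeightOneSpectrum (𝓞 L) → ℂ}
  {f g : InfPts L → adelGrp L → ℂ} {v : HeightOneSpectrum (𝓞 L)}

/-- A subspace to which the construction at `v` can be confined: stable under integral
translations at `v`, and under the shift of its eigenforms invariant under unipotents. -/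
structure IsStable (S : Finset (HeightOneSpectrum (𝓞 L))) (c : HeightOneSpectrum (𝓞 L) → ℂ)
    (P : Submodule ℂ (InfPts L → adelGrp L → ℂ)) (v : HeightOneSpectrum (𝓞 L)) : Prop where
  rt : ∀ f ∈ P, ∀ k ∈ locK v, Whit.rt (atV v k) f ∈ P
  shift : ∀ f ∈ P, IsGood S c f → IsInvAt v (unipGrp v) f →
    Whit.rt (atV v (dG (unifU v))) f ∈ P

/-- The eigenforms in the subspace `P` lying on the first layer at the places of `T`. -/
def InCl (S T : Finset (HeightOneSpectrum (𝓞 L))) (c : HeightOneSpectrum (𝓞 L) → ℂ)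
    (P : Submodule ℂ (InfPts L → adelGrp L → ℂ)) (f : InfPts L → adelGrp L → ℂ) : Prop :=
  IsGood S c f ∧ (∀ w ∈ T, LT2.Period.IsLayer w 1 f) ∧ f ∈ P

variable {P : Submodule ℂ (InfPts L → adelGrp L → ℂ)}

lemma InCl.sub (hf : InCl S T c P f) (hg : InCl S T c P g) : InCl S T c P (f - g) :=
  ⟨hf.1.sub hg.1, fun w hw => ⟨fun u hu y a => by
    simp only [Pi.sub_apply, (hf.2.1 w hw).unit u hu, (hg.2.1 w hw).unit u hu],
    fun y a α ha hα => by
      rw [hf.1.form.deep.W_sub hg.1.form.deep, (hf.2.1 w hw).layer y a α ha hα,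
        (hg.2.1 w hw).layer y a α ha hα,
        sub_zero]⟩, sub_mem hf.2.2 hg.2.2⟩

lemma InCl.smul (hf : InCl S T c P f) (r : ℂ) : InCl S T c P (r • f) :=
  ⟨hf.1.smul r, fun w hw => ⟨fun u hu y a => by
    simp only [Pi.smul_apply, (hf.2.1 w hw).unit u hu],
    fun y a α ha hα => by rw [hf.1.form.deep.W_smul, (hf.2.1 w hw).layer y a α ha hα, mul_zero]⟩,
    P.smul_mem r hf.2.2⟩

lemma InCl.sum {ι : Type*} (s : Finset ι) (F : ι → InfPts L → adelGrp L → ℂ)
    (h : ∀ i ∈ s, InCl S T c P (F i)) : InCl S T c P (∑ i ∈ s, F i) :=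
  ⟨IsGood.sum s F fun i hi => (h i hi).1, fun w hw => ⟨fun u hu y a => by
    simp only [Finset.sum_apply]
    exact Finset.sum_congr rfl fun i hi => ((h i hi).2.1 w hw).unit u hu y a,
    fun y a α ha hα => by
      rw [LT2.Whit.W_sum s F (fun i hi => (h i hi).1.form.deep)]
      exact Finset.sum_eq_zero fun i hi => ((h i hi).2.1 w hw).layer y a α ha hα⟩,
    Submodule.sum_mem P fun i hi => (h i hi).2.2⟩

/-- Translations at another place preserve flatness. -/
lemma InCl.rt_of_form (hf : InCl S T c P f) (hv : v ∈ S) (hvT : v ∉ T) {k : G2 L}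
    (hg : IsForm S (Whit.rt (atV v k) f)) (hm : Whit.rt (atV v k) f ∈ P) :
    InCl S T c P (Whit.rt (atV v k) f) := by
  refine ⟨hf.1.rt_of_form hg fun w hw => atV_ne (fun e : w = v => hw (e ▸ hv)) k,
    fun w hw => ?_, hm⟩
  have hwv : w ≠ v := fun e => hvT (e ▸ hw)
  refine ⟨fun u hu y a => ?_, fun y a α ha hα => ?_⟩
  · show f y (a * atV w (dG u) * atV v k) = f y (a * atV v k)
    rw [mul_assoc, atV_comm hwv, ← mul_assoc, (hf.2.1 w hw).unit u hu]
  · rw [hf.1.form.deep.W_rt]
    exact (hf.2.1 w hw).layer y _ α (by simp [ha, atV_ne hwv]) hα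

lemma InCl.rt_atV (hf : InCl S T c P f) (hP : IsStable S c P v) (hv : v ∈ S) (hvT : v ∉ T)
    {k : G2 L} (hk : k ∈ locK v) : InCl S T c P (Whit.rt (atV v k) f) :=
  hf.rt_of_form hv hvT (hf.1.rt_atV hv hk).form (hP.rt f hf.2.2 k hk)

/-- The Whittaker functions of the whole class vanish on the top layer at `v`. -/
def TopVanishes (S T : Finset (HeightOneSpectrum (𝓞 L))) (c : HeightOneSpectrum (𝓞 L) → ℂ)
    (P : Submodule ℂ (InfPts L → adelGrp L → ℂ)) (v : HeightOneSpectrum (𝓞 L)) : Prop :=
  ∀ h, InCl S T c P h → ∀ y (a : adelGrp L) (α : Lˣ), a.1 v = dG α →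
    v.valuation L (α : L) = exp (cnd v + 1) → LT2.Whit.W h y a = 0

/-- With vanishing top layer the members are invariant under integral translations. -/
theorem TopVanishes.inv_nB (H : TopVanishes S T c P v) (hP : IsStable S c P v) (hf : InCl S T c P f)
    (hv : v ∈ S) (hvT : v ∉ T)
    {b : L} (hb : v.valuation L b ≤ 1) (y : InfPts L) (a : adelGrp L) :
    f y (a * atV v (nB b)) = f y a := by
  by_contra hne
  have hk := nB_mem_locK hb
  have hg := (hf.rt_atV hP hv hvT hk).sub hf
  obtain ⟨y', a', ha', hW⟩ := hg.1.deep.exists_W_ne (fun e => hne (sub_eq_zero.1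
    (congrFun (congrFun e y) a))) {v}
  obtain ⟨ξ, hcomp⟩ := ha' v (Finset.mem_singleton_self v)
  refine hW ?_
  rw [(hf.rt_atV hP hv hvT hk).1.form.deep.W_sub hf.1.form.deep, hf.1.form.deep.W_rt,
    hf.1.form.deep.W_dG_mul_nB hcomp]
  by_cases htop : v.valuation L (ξ : L) = exp (cnd v + 1)
  · rw [H f hf y' _ ξ hcomp htop, mul_zero, sub_zero]
  rcases le_or_gt (exp (cnd v + 2)) (v.valuation L (ξ : L)) with hge | hlt
  · rw [hf.1.form.W_eq_zero_of_lt hcomp hge, mul_zero, sub_zero]
  · rw [psiV_eq_one, one_mul, sub_self]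
    rw [map_mul]
    refine (mul_le_of_le_one_right' hb).trans ?_
    have h0 : v.valuation L (ξ : L) ≠ 0 := (Valuation.ne_zero_iff _).2 ξ.ne_zero
    rw [← exp_log h0] at hlt htop ⊢
    rw [exp_lt_exp] at hlt
    rw [exp_inj] at htop
    rw [exp_le_exp]
    omega

/-- With vanishing top layer the members are invariant under the conjugates of the unipotents. -/
theorem TopVanishes.inv_unip (H : TopVanishes S T c P v) (hP : IsStable S c P v)
    (hf : InCl S T c P f) (hv : v ∈ S) (hvT : v ∉ T) : IsInvAt v (unipGrp v) f := by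
  rw [isInvAt_iff, unipGrp, Subgroup.closure_le]
  rintro x (⟨k, hk, b, hb, rfl⟩ | hx)
  · show Whit.rt (atV v (k * nB b * k⁻¹)) f = f
    have h' : Whit.rt (atV v (nB b)) (Whit.rt (atV v k⁻¹) f) = Whit.rt (atV v k⁻¹) f :=
      funext fun y => funext fun a => H.inv_nB hP (hf.rt_atV hP hv hvT (inv_mem hk)) hv hvT hb y a
    rw [map_mul, map_mul, ← rt_rt, ← rt_rt, h', rt_rt, ← map_mul, mul_inv_cancel, map_one, rt_one]
  · exact locK1_le_stabAt hf.1.form hv hx

/-- The shift of a form with vanishing top layer. -/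
theorem TopVanishes.shift (H : TopVanishes S T c P v) (hP : IsStable S c P v) (hf : InCl S T c P f)
    (hv : v ∈ S) (hvT : v ∉ T) : InCl S T c P (Whit.rt (atV v (dG (unifU v))) f) := by
  refine hf.rt_of_form hv hvT ⟨fun γ y a => ?_, fun y a u hu => ?_,
    fun a => hf.1.form.cont _, hf.1.form.bdd.imp fun B hB y a => hB _ _⟩
    (hP.shift f hf.2.2 hf.1 (H.inv_unip hP hf hv hvT))
  · show f _ (glob γ * a * _) = f y (a * _)
    rw [mul_assoc, hf.1.form.glob_smul]
  set d := atV v (dG (unifU v))
  show f y (a * u * d) = f y (a * d)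
  obtain ⟨k, ⟨⟨hle, hdet⟩, h01, h10, hdg⟩, hk⟩ :
      u.1 v ∈ locK1 v := by rw [← ofFinset_loc_of_mem hv]; exact hu v
  set A := k.val 0 0
  set B := k.val 0 1
  set C := k.val 1 0
  set D := k.val 1 1
  have hdet' : v.valuation L (A * D - B * C) = 1 := by rw [← hdet, Matrix.det_fin_two]
  have hD : v.valuation L D = 1 := by
    refine le_antisymm (hle 1 1) (not_lt.1 fun hlt => hdet'.not_lt ?_)
    exact lt_of_le_of_lt (Valuation.map_sub _ _ _) (max_lt
      (by rw [map_mul]; exact Right.mul_lt_one_of_le_of_lt (hle 0 0) hlt)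
      (by rw [map_mul]; exact mul_lt_one_of_lt_of_le h01 (hle 1 0)))
  have hD0 : D ≠ 0 := fun e => by simp [e] at hD
  set π : L := (unifU v : L)
  have hπ0 : π ≠ 0 := (unifU v).ne_zero
  set β : L := B / π / D
  have hπ : v.valuation L π = exp (-1 : ℤ) := v_unifU v
  have hBπ : v.valuation L (B / π) ≤ 1 := by
    rw [map_div₀, hπ]; exact div_le_one_of_le₀ (val_le_exp_of_lt_one h01) zero_le
  have hβ : v.valuation L β ≤ 1 := by rw [map_div₀, hD, div_one]; exact hBπ
  set k' : GL (Fin 2) L := uB (-β) * (dB (unifU v)⁻¹ * k * dB (unifU v))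
  have hCπ : v.valuation L (C * π) < 1 := by
    rw [map_mul]; exact mul_lt_one_of_lt_of_le h10 (by rw [hπ, ← exp_zero, exp_le_exp]; norm_num)
  have e00 : k'.val 0 0 = A - β * (C * π) := by
    simp only [k', Units.val_mul, Matrix.mul_apply, Fin.sum_univ_two]
    simp [A, C, π]
    field_simp
    ring
  have e01 : k'.val 0 1 = 0 := by
    simp only [k', Units.val_mul, Matrix.mul_apply, Fin.sum_univ_two]
    simp [B, D, β, π]
    field_simp [show k.val 1 1 ≠ 0 from hD0]
    ring_nf
  have e10 : k'.val 1 0 = C * π := by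
    simp only [k', Units.val_mul, Matrix.mul_apply, Fin.sum_univ_two]
    simp [C, π]
  have e11 : k'.val 1 1 = D := by
    simp only [k', Units.val_mul, Matrix.mul_apply, Fin.sum_univ_two]
    simp [D]
  have hβC : v.valuation L (β * (C * π)) < 1 := by
    rw [map_mul]; exact Right.mul_lt_one_of_le_of_lt hβ hCπ
  have hmem : k' ∈ locCongr v := by
    refine ⟨⟨fun i j => ?_, ?_⟩, by rw [e01, map_zero]; exact zero_lt_one, by rw [e10]; exact hCπ,
      ?_⟩
    · fin_cases i <;> fin_cases j
      · show v.valuation L (k'.val 0 0) ≤ 1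
        rw [e00]
        exact (Valuation.map_sub _ _ _).trans (max_le (hle 0 0) hβC.le)
      · show v.valuation L (k'.val 0 1) ≤ 1
        rw [e01, map_zero]; exact zero_le
      · show v.valuation L (k'.val 1 0) ≤ 1
        rw [e10]; exact hCπ.le
      · show v.valuation L (k'.val 1 1) ≤ 1
        rw [e11]; exact hD.le
    · rw [Matrix.det_fin_two, e00, e01, e10, e11, zero_mul, sub_zero,
        show (A - β * (C * π)) * D = A * D - B * C by simp only [β]; field_simp]
      exact hdet'
    · rw [e00, e11, show A - β * (C * π) - D = (A - D) - β * (C * π) by ring]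
      exact lt_of_le_of_lt (Valuation.map_sub _ _ _) (max_lt hdg hβC)
  have hu' : (atV v (nB β))⁻¹ * (d⁻¹ * u * d) ∈ levelGrp (Level.ofFinset S) := by
    intro w
    show ((atV v (nB β)).1 w)⁻¹ * (((d.1 w)⁻¹ * u.1 w) * d.1 w) ∈ _
    by_cases hw : w = v
    · subst hw
      simp only [d, atV_same]
      rw [← hk, ← nB_neg, ← dG_inv, ← map_mul, ← map_mul, ← map_mul]
      exact locK1_le_ofFinset S w ⟨_, hmem, rfl⟩
    · simp only [d, atV_ne hw, inv_one, one_mul, mul_one]
      exact hu w
  rw [show a * u * d = a * d * atV v (nB β) * ((atV v (nB β))⁻¹ * (d⁻¹ * u * d)) by group,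
    hf.1.form.right_inv _ _ _ hu', H.inv_nB hP hf hv hvT hβ]

/-- A nonzero class has a member nonzero on the top layer at `v`: otherwise shifting along the
torus would not leave the class, and the Whittaker function would vanish. -/
theorem exists_top (hP : IsStable S c P v) (hf : InCl S T c P f) (hne : f ≠ 0) (hv : v ∈ S)
    (hvT : v ∉ T) :
    ∃ h, InCl S T c P h ∧ ∃ y, ∃ (a : adelGrp L) (α : Lˣ), a.1 v = dG α ∧
      v.valuation L (α : L) = exp (cnd v + 1) ∧ LT2.Whit.W h y a ≠ 0 := by
  by_contra hcon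
  have H : TopVanishes S T c P v := fun h hh y a α ha hα => by
    by_contra hW
    exact hcon ⟨h, hh, y, a, α, ha, hα, hW⟩
  have key : ∀ (j : ℕ) h, InCl S T c P h → ∀ y (a : adelGrp L) (α : Lˣ), a.1 v = dG α →
      v.valuation L (α : L) = exp (cnd v + 1 - j) → LT2.Whit.W h y a = 0 := by
    intro j
    induction j with
    | zero => intro h hh y a α ha hα; exact H h hh y a α ha (by simpa using hα)
    | succ j ih =>
      intro h hh y a α ha hα
      have hs := H.shift hP hh hv hvT
      have := ih _ hs y (a * atV v (dG (unifU v)⁻¹)) (α * (unifU v)⁻¹)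
        (by simp [ha, dG_mul]) (by
          rw [Units.val_mul, map_mul, hα, Units.val_inv_eq_inv_val, map_inv₀,
            v_unifU, ← WithZero.exp_neg,
            ← exp_add]
          congr 1; push_cast; ring)
      rwa [hh.1.form.deep.W_rt, mul_assoc, ← map_mul, ← dG_mul,
        inv_mul_cancel, dG_one, map_one, mul_one] at this
  obtain ⟨y, a, ha, hW⟩ := hf.1.deep.exists_W_ne hne {v}
  obtain ⟨ξ, hcomp⟩ := ha v (Finset.mem_singleton_self v)
  refine hW ?_
  rcases le_or_gt (exp (cnd v + 2)) (v.valuation L (ξ : L)) with hge | hlt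
  · exact hf.1.form.W_eq_zero_of_lt hcomp hge y
  · have h0 : v.valuation L (ξ : L) ≠ 0 := (Valuation.ne_zero_iff _).2 ξ.ne_zero
    rw [← exp_log h0, exp_lt_exp] at hlt
    refine key (cnd v + 1 - log (v.valuation L (ξ : L))).toNat f hf y _ ξ hcomp ?_
    rw [Int.toNat_of_nonneg (by omega), sub_sub_cancel, exp_log h0]

/-- A nonzero class has a nonzero member on the first layer at one more place. -/
theorem exists_flat_step (hP : IsStable S c P v) (hf : InCl S T c P f) (hne : f ≠ 0) (hv : v ∈ S)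
    (hvT : v ∉ T) :
    ∃ g, g ≠ 0 ∧ InCl S T c P g ∧ LT2.Period.IsLayer v 1 g := by
  obtain ⟨h, hh, y₁, a₁, α, ha₁, hα, hW₁⟩ := exists_top hP hf hne hv hvT
  obtain ⟨g, hg0, -, hlay, hQ⟩ := LT2.Period.exists_layer_of_deep hh.1.deep hv le_rfl le_rfl
    (by simpa using hα) ha₁ hW₁
    (fun x hx y a => hh.1.form.right_inv y a _ (atV_mem_levelGrp
      (locK1_le_ofFinset S v (locKN_one_le v (LT2.Whit.nB_mem_locKN hx)))))
    (fun u hu y a => hh.1.form.right_inv y a _ (atV_mem_levelGrp (locK1_le_ofFinset S v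
      (dG_mem_locK1 (hu.trans_lt (by rw [← exp_zero, exp_lt_exp]; norm_num))))))
  exact ⟨g, hg0, hQ (InCl S T c P) hh (fun _ _ hk h => h.rt_atV hP hv hvT hk)
    (fun _ r h => h.smul r) InCl.sum, by simpa using hlay⟩

/-- The forms invariant under the cube ratio classes at given places. -/
def invCube (A : Finset (HeightOneSpectrum (𝓞 L))) : Submodule ℂ (InfPts L → adelGrp L → ℂ) where
  carrier := {f | ∀ w ∈ A, IsInvAt w (cubeB w) f}
  zero_mem' := fun w _ h _ => (rtL (atV w h)).map_zero
  add_mem' := fun {a b} ha hb w hw h hh => by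
    show rtL (atV w h) (a + b) = a + b
    rw [map_add]
    exact congrArg₂ (· + ·) (ha w hw h hh) (hb w hw h hh)
  smul_mem' := fun r {a} ha w hw h hh => by
    show rtL (atV w h) (r • a) = r • a
    rw [map_smul]
    exact congrArg (r • ·) (ha w hw h hh)

omit [IsTotallyComplex L] in
lemma isStable_invCube {A : Finset (HeightOneSpectrum (𝓞 L))} (hvA : v ∉ A) :
    IsStable S c (invCube A) v where
  rt f hf k _ w hw h hh := by
    rw [rt_comm_of_one (atV_ne (fun e : w = v => hvA (e ▸ hw)) k), hf w hw h hh]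
  shift f hf _ _ w hw h hh := by
    rw [rt_comm_of_one (atV_ne (fun e : w = v => hvA (e ▸ hw)) _), hf w hw h hh]

omit [IsTotallyComplex L] in
lemma isStable_typed {A : Finset (HeightOneSpectrum (𝓞 L))} (hv : v ∈ S) (hvA : v ∈ A) :
    IsStable S c (Submodule.span ℂ (typSet S c A)) v where
  rt _ hf _ hk := IsTyp.rt_atV hf hv hk
  shift _ hf _ hinv := IsTyp.shift hf hv hvA hinv

/-- From a nonzero eigenform in a stable subspace, one there on the first layer at all the given
places of the level. -/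
theorem exists_flat_on {R U : Finset (HeightOneSpectrum (𝓞 L))} (hR : R ⊆ S)
    (hP : ∀ v ∈ R, IsStable S c P v) (hf : InCl S U c P f) (hne : f ≠ 0) (hd : Disjoint R U) :
    ∃ g, g ≠ 0 ∧ InCl S U c P g ∧ ∀ w ∈ R, LT2.Period.IsLayer w 1 g := by
  classical
  induction R using Finset.induction_on with
  | empty => exact ⟨f, hne, hf, fun w hw => absurd hw (Finset.notMem_empty w)⟩
  | insert v R hvR ih =>
    rw [Finset.disjoint_insert_left] at hd
    obtain ⟨g, hg, hgU, hgR⟩ := ih ((Finset.subset_insert v R).trans hR)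
      (fun w hw => hP w (Finset.mem_insert_of_mem hw)) hd.2
    have hin : InCl S (R ∪ U) c P g := ⟨hgU.1, fun w hw => by
      rcases Finset.mem_union.1 hw with h | h
      · exact hgR w h
      · exact hgU.2.1 w h, hgU.2.2⟩
    obtain ⟨g', h1, h2, h3⟩ := exists_flat_step (hP v (Finset.mem_insert_self v R)) hin hg
      (hR (Finset.mem_insert_self v R)) (by simp [hvR, hd.1])
    refine ⟨g', h1, ⟨h2.1, fun w hw => h2.2.1 w (Finset.mem_union_right _ hw), h2.2.2⟩,
      fun w hw => ?_⟩
    rcases Finset.mem_insert.1 hw with rfl | hw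
    · exact h3
    · exact h2.2.1 w (Finset.mem_union_left _ hw)

/-- **A flat typed vector**: from a nonzero generator a nonzero typed eigenform on the first
layer at every place of the level. -/
theorem exists_flat_typed {A : Finset (HeightOneSpectrum (𝓞 L))} (hA : A ⊆ S)
    (hf : IsTypGen S c A f) (hne : f ≠ 0) :
    ∃ g, g ≠ 0 ∧ IsTyp S c A g ∧ ∀ w ∈ S, LT2.Period.IsLayer w 1 g := by
  classical
  obtain ⟨g₁, hg₁, hin₁, hflat₁⟩ := exists_flat_on (P := invCube A) (U := ∅) (R := S \ A)
    Finset.sdiff_subset (fun v hv => isStable_invCube (Finset.mem_sdiff.1 hv).2)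
    ⟨hf.1, fun w hw => absurd hw (Finset.notMem_empty w), hf.2⟩ hne (Finset.disjoint_empty_right _)
  obtain ⟨g, hg, hin, hflat⟩ := exists_flat_on (P := Submodule.span ℂ (typSet S c A)) (U := S \ A)
    (R := A) hA (fun v hv => isStable_typed (hA hv) hv)
    ⟨hin₁.1, hflat₁, IsTypGen.isTyp ⟨hin₁.1, hin₁.2.2⟩⟩ hg₁ Finset.disjoint_sdiff
  refine ⟨g, hg, hin.2.2, fun w hw => ?_⟩
  by_cases hwA : w ∈ A
  · exact hflat w hwA
  · exact hin.2.1 w (Finset.mem_sdiff.2 ⟨hw, hwA⟩)

end FermatAgent.LT.Period
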