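import Fermat.Agent.LT.Period.Slice
import Fermat.Agent.LT.Period.Values
import Fermat.Agent.LT.Period.Field

/-!
# The points over the origin

The point of height `t` over the origin and the torus acting on it.
-/

set_option autoImplicit false

noncomputable section

open Matrix IsDedekindDomain NumberField Filter MeasureTheory Module
open scoped MatrixGroups Topology

namespace FermatAgent.LT.Period

open FermatAgent.LT.Whit

variable {K : Type*} [Field K] [NumberField K] [IsTotallyComplex K] {θ : K}

/-- The point of height `t` over the origin. -/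
def ptY (t : ℝ) : InfPts K := fun _ => if h : 0 < t then ⟨0, t, h⟩ else H3.base

omit [NumberField K] [IsTotallyComplex K] in
/-- The point at height one. -/
lemma ptY_one : (ptY 1 : InfPts K) = baseY :=
  funext fun _ => by rw [ptY, dif_pos one_pos]; rfl

omit [NumberField K] [IsTotallyComplex K] in
/-- The point at a height. -/
lemma ptY_apply {t : ℝ} (ht : 0 < t) (w : InfinitePlace K) : (ptY t : InfPts K) w = ⟨0, t, ht⟩ :=
  dif_pos ht

/-- The torus moves heights. -/
lemma IsEis.dG_smul_ptY (h : IsEis θ) (α : Kˣ) {t : ℝ} (ht : 0 < t) :
    (dG α : G2 K) • (ptY t : InfPts K) = ptY (‖(place K).embedding (α : K)‖ * t) := by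
  funext w
  rw [dG_smul_apply, ptY_apply ht, ptY_apply (mul_pos (norm_pos_iff.2 (by simp)) ht), h.eq_place w]
  exact H3.ext (mul_zero _) rfl

end FermatAgent.LT.Period
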