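import Fermat.Agent.LT.Period.Good

/-!
# Fourier expansions on horospheres

Coefficients indexed by the dual lattice, Parseval, absolute convergence and cusp decay.
-/

set_option autoImplicit false

noncomputable section

open Matrix IsDedekindDomain NumberField Filter MeasureTheory
open FermatAgent.LT.Periodic (ivec)
open scoped MatrixGroups Topology

namespace FermatAgent.LT.Period

open FermatAgent.LT.Whit

variable {L : Type*} [Field L] [NumberField L] [IsTotallyComplex L]
  {S : Finset (HeightOneSpectrum (𝓞 L))} {c : HeightOneSpectrum (𝓞 L) → ℂ}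
  {f : InfPts L → adelGrp L → ℂ}

omit [NumberField L] [IsTotallyComplex L] in
/-- A bounded function whose restriction to a height is a Whittaker function decays exponentially
in that height. -/
lemma norm_le_of_isWhit [DecidableEq (InfinitePlace L)] {V : InfPts L → ℂ} {B : ℝ}
    (hB : ∀ y, ‖V y‖ ≤ B) {w : InfinitePlace L} {y : InfPts L} (hV : IsWhit (4 * Real.pi)
      fun t => if h : 0 < t then V (Function.update y w ⟨(y w).z, t, h⟩) / (t : ℂ) else 0) :
    ‖V y‖ ≤ 2 * B * Real.exp (-(2 * Real.pi * (y w).t)) := by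
  set t := (y w).t with ht
  have t0 : 0 < t := (y w).t_pos
  have h := hV.norm_le (t₀ := t / 2) (t := t) (by positivity) (by positivity) (by linarith)
  rw [dif_pos t0, show (⟨(y w).z, t, t0⟩ : H3) = y w from rfl, Function.update_eq_self,
    dif_pos (half_pos t0), norm_div, norm_div, Complex.norm_real, Complex.norm_real,
    Real.norm_eq_abs, Real.norm_eq_abs, abs_of_pos t0, abs_of_pos (half_pos t0),
    div_le_iff₀ t0] at h
  refine h.trans ((mul_le_mul_of_nonneg_right (mul_le_mul_of_nonneg_right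
    (div_le_div_of_nonneg_right (hB _) (half_pos t0).le) (Real.exp_pos _).le) t0.le).trans
    (le_of_eq ?_))
  rw [show 4 * Real.pi * (t - t / 2) = 2 * Real.pi * t by ring]
  field_simp

omit [IsTotallyComplex L] in
/-- Two elements pairing equally with all translations agree. -/
lemma eq_of_psiI_eq {ξ α : L} (h : ∀ x : InfV L, psiI (infEmb L ξ * x) = psiI (infEmb L α * x)) :
    ξ = α := by
  classical
  by_contra hne
  obtain ⟨w⟩ : Nonempty (InfinitePlace L) := inferInstance
  have hz : w.embedding (ξ - α) ≠ 0 := (_root_.map_ne_zero w.embedding).2 (sub_ne_zero.2 hne)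
  set x : InfV L := Pi.single w ((1 / 4 : ℂ) / w.embedding (ξ - α))
  have h1 : psiI (infEmb L (ξ - α) * x) = 1 := by
    have e : infEmb L (ξ - α) * x = infEmb L ξ * x + -(infEmb L α * x) := by
      rw [map_sub, sub_mul, sub_eq_add_neg]
    rw [e, psiI_add, h, mul_comm, psiI_neg_mul_self]
  have h2 : psiI (infEmb L (ξ - α) * x) = -1 := by
    rw [psiI, Finset.sum_eq_single w
      (fun v _ hv => by rw [Pi.mul_apply, show x v = 0 from Pi.single_eq_of_ne hv _]; simp)
      (by simp),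
      Pi.mul_apply, show x w = (1 / 4 : ℂ) / w.embedding (ξ - α) from Pi.single_eq_same _ _,
      infEmb_apply, mul_div_cancel₀ _ hz,
      show ((1 / 4 : ℂ)).re = 1 / 4 by norm_num]
    rw [show (2 * (Real.pi : ℂ) * Complex.I * ((2 * (1 / 4) : ℝ) : ℂ)) =
      (Real.pi : ℂ) * Complex.I by
      push_cast; ring, Complex.exp_pi_mul_I]
  rw [h1] at h2
  norm_num at h2

/-- Pairing trivially with `d 𝓞` under the trace character. -/
def IsDual (d : Lˣ) (α : L) : Prop := ∀ β : 𝓞 L, psiI (infEmb L (α * ((d : L) * (β : L)))) = 1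

/-- The dual element of an index. -/
def dualPt (d : Lˣ) (n : Idx L → ℤ) : L := (exists_dual d n).choose

/-- The defining property of dual points. -/
lemma dualPt_spec (d : Lˣ) (n : Idx L → ℤ) (c : Idx L → ℝ) :
    psiI (infEmb L (dualPt d n) * latA d c) = chr n c :=
  (exists_dual d n).choose_spec.1 c

/-- Dual points are dual. -/
lemma isDual_dualPt (d : Lˣ) (n : Idx L → ℤ) : IsDual d (dualPt d n) :=
  (exists_dual d n).choose_spec.2.1

/-- Dual points of nonzero frequencies are nonzero. -/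
lemma dualPt_ne_zero (d : Lˣ) {n : Idx L → ℤ} (hn : n ≠ 0) : dualPt d n ≠ 0 :=
  fun e => hn ((exists_dual d n).choose_spec.2.2 e)

lemma psiI_latA_eq (d : Lˣ) (α : L) (c : Idx L → ℝ) :
    psiI (infEmb L α * latA d c) = Complex.exp (2 * (Real.pi : ℂ) * Complex.I *
      ((∑ j, c j * ∑ w : InfinitePlace L,
        2 * (w.embedding (α * (d : L) * intB L j)).re : ℝ) : ℂ)) := by
  rw [latA_apply, ← mul_assoc, ← map_mul, psiI]
  congr 3
  simp only [latO_apply, Pi.mul_apply, Finset.sum_apply, Pi.smul_apply, infEmb_apply,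
    Finset.mul_sum, Complex.re_sum, mul_smul_comm, Complex.smul_re, smul_eq_mul, map_mul]
  rw [Finset.sum_comm]
  exact Finset.sum_congr rfl fun j _ => Finset.sum_congr rfl fun w _ => by ring

/-- An element pairing integrally with `d 𝓞` is the dual point of an integral index. -/
theorem exists_idx (d : Lˣ) {α : L} (hα : IsDual d α) :
    ∃ n : Idx L → ℤ, dualPt d n = α ∧
      ∀ j, (n j : ℝ) = ∑ w : InfinitePlace L, 2 * (w.embedding (α * (d : L) * intB L j)).re := by
  have hint : ∀ j, ∃ m : ℤ, (m : ℝ) = ∑ w : InfinitePlace L,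
      2 * (w.embedding (α * (d : L) * intB L j)).re := by
    intro j
    obtain ⟨b, hb⟩ := intB_isInt (L := L) j
    have h := hα b
    rw [hb, ← mul_assoc, psiI, Complex.exp_eq_one_iff] at h
    obtain ⟨m, hm⟩ := h
    simp only [infEmb_apply] at hm
    set T := ∑ w : InfinitePlace L, 2 * (w.embedding (α * (d : L) * intB L j)).re
    have hπ : (2 * (Real.pi : ℂ) * Complex.I) ≠ 0 := by
      simp [Real.pi_ne_zero, Complex.I_ne_zero]
    refine ⟨m, ?_⟩
    have : ((T : ℝ) : ℂ) = (m : ℂ) := mul_left_cancel₀ hπ (by rw [hm]; ring)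
    exact_mod_cast this.symm
  choose n hn using hint
  refine ⟨n, eq_of_psiI_eq fun x => ?_, hn⟩
  obtain ⟨c, rfl⟩ := (latA d).surjective x
  rw [dualPt_spec, psiI_latA_eq, chr]
  simp only [← hn]
  congr 2
  push_cast
  exact Finset.sum_congr rfl fun j _ => mul_comm _ _

/-- The frequency from the dual point. -/
lemma dualPt_coord (d : Lˣ) (n : Idx L → ℤ) (j : Idx L) :
    (n j : ℝ) = ∑ w : InfinitePlace L, 2 * (w.embedding (dualPt d n * (d : L) * intB L j)).re := by
  classical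
  obtain ⟨m, hm, hmj⟩ := exists_idx d (isDual_dualPt d n)
  have : m = n := by
    have hc : ∀ c, chr m c = chr n c := fun c => by rw [← dualPt_spec d, hm, dualPt_spec]
    funext i
    by_contra hne
    set t : ℝ := 1 / (2 * ((m i : ℝ) - n i))
    have hd : (m i : ℝ) - n i ≠ 0 := sub_ne_zero.2 (Int.cast_injective.ne hne)
    have h := hc (Pi.single i t)
    simp only [chr] at h
    rw [Finset.sum_eq_single i (fun b _ hb => by simp [Pi.single_eq_of_ne hb]) (by simp),
      Finset.sum_eq_single i (fun b _ hb => by simp [Pi.single_eq_of_ne hb]) (by simp),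
      Pi.single_eq_same, Complex.exp_eq_exp_iff_exists_int] at h
    obtain ⟨k, hk⟩ := h
    have hπ : (2 * (Real.pi : ℂ) * Complex.I) ≠ 0 := by simp [Real.pi_ne_zero, Complex.I_ne_zero]
    have hk' : (((m i : ℝ) * t - (n i : ℝ) * t : ℝ) : ℂ) = (k : ℂ) := by
      refine mul_left_cancel₀ hπ ?_
      push_cast at hk ⊢
      linear_combination hk
    have : ((m i : ℝ) - n i) * t = k := by
      rw [sub_mul]; exact_mod_cast hk'
    rw [show ((m i : ℝ) - n i) * t = 1 / 2 by simp only [t]; field_simp] at this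
    have h2 : ((2 * k : ℤ) : ℝ) = ((1 : ℤ) : ℝ) := by push_cast; linarith
    have : 2 * k = 1 := by exact_mod_cast h2
    omega
  rw [← this, hm] at *
  exact hmj j

/-- Bessel's inequality for values giving the coefficients at the dual points. -/
lemma sum_sq_dual_le {F : (Idx L → ℝ) → ℂ} (hF : IsPeriodicZ F) (hFc : Continuous F) {B : ℝ}
    (hB : ∀ x, ‖F x‖ ≤ B) (d : Lˣ) {V : Lˣ → ℂ}
    (hV : ∀ (n : Idx L → ℤ) (hn : n ≠ 0),
      ∫ x in cube (Idx L), chr (-n) x * F x = V (Units.mk0 _ (dualPt_ne_zero d hn)))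
    (A : Finset Lˣ) (hA : ∀ α ∈ A, IsDual d (α : L)) :
    ∑ α ∈ A, ‖V α‖ ^ 2 ≤ B ^ 2 := by
  classical
  obtain ⟨n, hn⟩ : ∃ n : Lˣ → (Idx L → ℤ), ∀ α ∈ A, dualPt d (n α) = (α : L) := by
    choose! n hn _ using fun (α : Lˣ) (ha : α ∈ A) => exists_idx d (hA α ha)
    exact ⟨n, hn⟩
  have hn0 : ∀ α ∈ A, n α ≠ 0 := fun α hα e => by
    have h1 := hn α hα
    rw [e] at h1
    refine α.ne_zero ?_
    rw [← h1]
    refine eq_of_psiI_eq fun x => ?_
    obtain ⟨x, rfl⟩ := (latA d).surjective x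
    rw [dualPt_spec]
    simp [chr]
  have hinj : ∀ α ∈ A, ∀ β ∈ A, n α = n β → α = β := fun α ha β hb e =>
    Units.ext (by rw [← hn α ha, ← hn β hb, e])
  have h1 : ∑ α ∈ A, ‖V α‖ ^ 2 =
      ∑ m ∈ A.image n, ‖∫ x in cube (Idx L), chr (-m) x * F x‖ ^ 2 := by
    rw [Finset.sum_image hinj]
    refine Finset.sum_congr rfl fun α hα => ?_
    rw [hV _ (hn0 α hα)]
    congr
    exact Units.ext (hn α hα).symm
  rw [h1]
  refine (sum_le_hasSum _ (fun m _ => sq_nonneg _) (hasSum_sq_fourier hF hFc)).trans ?_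
  refine (le_abs_self _).trans ?_
  rw [← Real.norm_eq_abs]
  refine (norm_integral_le_of_norm_le_const (C := B ^ 2) (ae_of_all _ fun x => ?_)).trans_eq ?_
  · rw [Real.norm_eq_abs, abs_of_nonneg (sq_nonneg _)]
    exact pow_le_pow_left₀ (norm_nonneg _) (hB _) 2
  · simp [measureReal_def, volume_cube]

lemma summable_exp_neg_abs {ι : Type*} [Fintype ι] {κ : ℝ} (hκ : 0 < κ) :
    Summable fun n : ι → ℤ => Real.exp (-(κ * ∑ i, |(n i : ℝ)|)) := by
  classical
  have h1 : Summable fun k : ℤ => Real.exp (-(κ * |(k : ℝ)|)) := by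
    have hN : Summable fun k : ℕ => Real.exp (-(κ * (k : ℝ))) := by
      simpa [neg_mul, mul_comm] using Real.summable_exp_nat_mul_iff.2 (neg_lt_zero.2 hκ)
    refine Summable.of_nat_of_neg ?_ ?_ <;> refine hN.congr fun k => ?_ <;> simp
  refine summable_of_sum_le (c := (∑' k : ℤ, Real.exp (-(κ * |(k : ℝ)|))) ^ Fintype.card ι)
    (fun n => (Real.exp_pos _).le) fun A => ?_
  have hsub : A ⊆ Fintype.piFinset fun i => A.image fun n => n i := fun n hn =>
    Fintype.mem_piFinset.2 fun i => Finset.mem_image.2 ⟨n, hn, rfl⟩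
  refine (Finset.sum_le_sum_of_subset_of_nonneg hsub fun n _ _ => (Real.exp_pos _).le).trans ?_
  have e : ∀ n : ι → ℤ,
      Real.exp (-(κ * ∑ i, |(n i : ℝ)|)) = ∏ i, Real.exp (-(κ * |(n i : ℝ)|)) := fun n => by
    rw [← Real.exp_sum, Finset.mul_sum, ← Finset.sum_neg_distrib]
  simp only [e]
  rw [← Finset.prod_univ_sum (fun i => A.image fun n => n i) fun _ (k : ℤ) =>
    Real.exp (-(κ * |(k : ℝ)|)),
    ← Finset.card_univ, ← Finset.prod_const]
  exact Finset.prod_le_prod (fun i _ => Finset.sum_nonneg fun k _ => (Real.exp_pos _).le)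
    fun i _ => h1.sum_le_tsum _ fun k _ => (Real.exp_pos _).le

/-- Coefficients decaying in the height of the dual point decay exponentially in the index. -/
lemma exists_coef_decay (d : Lˣ) (w₀ : InfinitePlace L) (hw : ∀ w, w = w₀)
    {F : InfPts L → (Idx L → ℝ) → ℂ} {B : ℝ} (hB : 0 ≤ B)
    (h0 : ∀ y, ∫ x in cube (Idx L), chr (-(0 : Idx L → ℤ)) x * F y x = 0)
    (hd : ∀ y (n : Idx L → ℤ) (hn : n ≠ 0), ‖∫ x in cube (Idx L), chr (-n) x * F y x‖ ≤
      2 * B * Real.exp (-(2 * Real.pi *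
        (((dG (Units.mk0 _ (dualPt_ne_zero d hn)) : G2 L) • y) w₀).t))) :
    ∃ κ : ℝ, 0 < κ ∧ ∀ (y : InfPts L) (n : Idx L → ℤ),
      ‖∫ x in cube (Idx L), chr (-n) x * F y x‖ ≤
        if n = 0 then 0 else 2 * B * Real.exp (-(κ * (y w₀).t * ∑ j, |(n j : ℝ)|)) := by
  classical
  set M : ℝ := ∑ j, 2 * ‖w₀.embedding ((d : L) * intB L j)‖ + 1 with hM
  have hM0 : 0 < M := by positivity
  refine ⟨2 * Real.pi / M, by positivity, fun y n => ?_⟩
  split_ifs with hn
  · subst hn
    rw [h0, norm_zero]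
  refine (hd y n hn).trans ?_
  refine mul_le_mul_of_nonneg_left (Real.exp_le_exp.2 (neg_le_neg ?_)) (by positivity)
  set α := Units.mk0 _ (dualPt_ne_zero d hn)
  rw [dG_smul_apply]
  have hlow : ∑ j, |(n j : ℝ)| ≤ M * ‖w₀.embedding (α : L)‖ := by
    rw [hM, add_mul, Finset.sum_mul, one_mul]
    refine le_add_of_le_of_nonneg (Finset.sum_le_sum fun j _ => ?_) (norm_nonneg _)
    rw [dualPt_coord d n j, Finset.sum_eq_single w₀ (fun w _ h => absurd (hw w) h) (by simp),
      abs_mul, abs_two, mul_assoc (2 : ℝ)]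
    refine mul_le_mul_of_nonneg_left ((Complex.abs_re_le_norm _).trans (le_of_eq ?_)) two_pos.le
    rw [Units.val_mk0, ← norm_mul, ← map_mul]
    congr 2
    ring
  have := (y w₀).t_pos
  calc 2 * Real.pi / M * (y w₀).t * ∑ j, |(n j : ℝ)|
      ≤ 2 * Real.pi / M * (y w₀).t * (M * ‖w₀.embedding (α : L)‖) :=
        mul_le_mul_of_nonneg_left hlow (by positivity)
    _ = _ := by field_simp

omit [IsTotallyComplex L] in
/-- A periodic function with exponentially small coefficients is the sum of its Fourier series. -/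
lemma hasSum_of_coef_bound {F : (Idx L → ℝ) → ℂ} (hF : IsPeriodicZ F) (hFc : Continuous F)
    {C κ : ℝ} (hC : 0 ≤ C) (hκ : 0 < κ) (hb : ∀ n, ‖∫ v in cube (Idx L), chr (-n) v * F v‖ ≤
      if n = 0 then 0 else C * Real.exp (-(κ * ∑ j, |(n j : ℝ)|))) (x : Idx L → ℝ) :
    Summable (fun n : Idx L → ℤ => ‖∫ v in cube (Idx L), chr (-n) v * F v‖) ∧
    HasSum (fun n => (∫ v in cube (Idx L), chr (-n) v * F v) * chr n x) (F x) := by
  have hsum : Summable fun n : Idx L → ℤ => ‖∫ v in cube (Idx L), chr (-n) v * F v‖ := by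
    refine Summable.of_nonneg_of_le (fun n => norm_nonneg _) (fun n => (hb n).trans ?_)
      ((summable_exp_neg_abs hκ).mul_left C)
    split_ifs
    · positivity
    · exact le_rfl
  exact ⟨hsum, hasSum_fourier hF hFc hsum.of_norm x⟩

omit [IsTotallyComplex L] in
/-- Periodic functions with exponentially small coefficients decay in the height. -/
lemma exists_decay_of_coef_bound {F : InfPts L → (Idx L → ℝ) → ℂ} (hF : ∀ y, IsPeriodicZ (F y))
    (hFc : ∀ y, Continuous (F y)) {w₀ : InfinitePlace L} {C₀ κ : ℝ} (hC : 0 ≤ C₀) (hκ : 0 < κ)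
    (hb : ∀ y n, ‖∫ v in cube (Idx L), chr (-n) v * F y v‖ ≤
      if n = 0 then 0 else C₀ * Real.exp (-(κ * (y w₀).t * ∑ j, |(n j : ℝ)|))) :
    ∃ C κ : ℝ, 0 ≤ C ∧ 0 < κ ∧ ∀ y : InfPts L, 1 ≤ (y w₀).t →
      ‖F y 0‖ ≤ C * Real.exp (-(κ * (y w₀).t)) := by
  have hS := summable_exp_neg_abs (ι := Idx L) hκ
  refine ⟨C₀ * Real.exp κ * ∑' n : Idx L → ℤ, Real.exp (-(κ * ∑ j, |(n j : ℝ)|)), κ,
    mul_nonneg (by positivity) (tsum_nonneg fun n => (Real.exp_pos _).le), hκ, fun y hy => ?_⟩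
  obtain ⟨-, hh⟩ :=
    hasSum_of_coef_bound (hF y) (hFc y) hC (mul_pos hκ (y w₀).t_pos) (hb y) 0
  rw [← hh.tsum_eq,
    show C₀ * Real.exp κ * (∑' n : Idx L → ℤ, Real.exp (-(κ * ∑ j, |(n j : ℝ)|))) *
      Real.exp (-(κ * (y w₀).t)) = (C₀ * Real.exp κ * Real.exp (-(κ * (y w₀).t))) *
        ∑' n : Idx L → ℤ, Real.exp (-(κ * ∑ j, |(n j : ℝ)|)) by ring]
  refine tsum_of_norm_bounded (hS.hasSum.mul_left _) fun n => ?_
  rw [norm_mul, show ‖chr n (0 : Idx L → ℝ)‖ = 1 by simp [chr], mul_one]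
  refine (hb y n).trans ?_
  split_ifs with hn
  · positivity
  · have h1 : 1 ≤ ∑ j, |(n j : ℝ)| := by
      obtain ⟨j, hj⟩ := Function.ne_iff.1 hn
      refine le_trans ?_
        (Finset.single_le_sum (fun i _ => abs_nonneg ((n i : ℝ))) (Finset.mem_univ j))
      exact_mod_cast Int.one_le_abs hj
    rw [mul_assoc (C₀ * _), mul_assoc C₀, ← Real.exp_add, ← Real.exp_add]
    refine mul_le_mul_of_nonneg_left (Real.exp_le_exp.2 ?_) hC
    nlinarith [mul_nonneg (mul_nonneg hκ.le (sub_nonneg.2 hy)) (sub_nonneg.2 h1)]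

end FermatAgent.LT.Period
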