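import Fermat.Agent.LT.Period.Cycle
import Fermat.Agent.LT.Period.Plane

/-!
# The integral over the strip

The mean over a horizontal segment is the expansion along the rational numbers; its Mellin
transform is the series of coefficients times an archimedean factor bounded below.
-/

set_option autoImplicit false

noncomputable section

open Matrix IsDedekindDomain NumberField Filter MeasureTheory WithZero UpperHalfPlane Set
open FermatAgent.LT.Periodic (ivec)
open FermatAgent.LT.Theta.LocalChar (eRat eRat_eq_one eRat_intCast)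
open scoped MatrixGroups Topology

namespace FermatAgent.LT.Period

open FermatAgent.LT.Whit

variable {K : Type*} [Field K] [NumberField K] [IsTotallyComplex K] {θ : K}
  {S : Finset (HeightOneSpectrum (𝓞 K))} {c : HeightOneSpectrum (𝓞 K) → ℂ}
  {f : InfPts K → adelGrp K → ℂ} {bad : Finset ℕ} {wt : ℕ → ℝ}

lemma integral_exp_int_mul (m : ℤ) :
    ∫ x in Ioc (0 : ℝ) 1, Complex.exp (2 * (Real.pi : ℂ) * Complex.I * (((m : ℝ) * x : ℝ) : ℂ)) =
      if m = 0 then 1 else 0 := by
  rw [← intervalIntegral.integral_of_le zero_le_one]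
  split_ifs with hm
  · subst hm; simp
  · have e : ∀ x : ℝ, Complex.exp (2 * (Real.pi : ℂ) * Complex.I * (((m : ℝ) * x : ℝ) : ℂ)) =
        Complex.exp ((2 * (Real.pi : ℂ) * Complex.I * (m : ℂ)) * (x : ℂ)) := fun x => by
      congr 1; push_cast; ring
    simp only [e]
    have hc : (2 * (Real.pi : ℂ) * Complex.I * (m : ℂ)) ≠ 0 := by
      simp [Real.pi_ne_zero, Complex.I_ne_zero, hm]
    rw [integral_exp_mul_complex hc, Complex.ofReal_one, mul_one, Complex.ofReal_zero, mul_zero,
      Complex.exp_zero]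
    have h1 : Complex.exp (2 * (Real.pi : ℂ) * Complex.I * (m : ℂ)) = 1 :=
      Complex.exp_eq_one_iff.2 ⟨m, by ring⟩
    rw [h1, sub_self, zero_div]

omit [IsTotallyComplex K] in
lemma expo_intCast {x : Kˣ} {k : ℤ} (hk : k ≠ 0) (hx : (x : K) = k) :
    expo x = expo (natU K k.natAbs) := by
  have hn : k.natAbs ≠ 0 := Int.natAbs_ne_zero.2 hk
  ext v
  have h1 := v_eq_exp_expo x v
  have h2 := v_eq_exp_expo (natU K k.natAbs) v
  have h3 : v.valuation K (x : K) = v.valuation K ((natU K k.natAbs : Kˣ) : K) := by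
    rw [hx, natU_val hn]
    rcases Int.natAbs_eq k with e | e
    · conv_lhs => rw [e]
      simp
    · conv_lhs => rw [e]
      simp [Valuation.map_neg]
  rw [h1, h2, exp_inj] at h3
  omega

/-- Every prime has places over it. -/
lemma IsEis.placesOver_nonempty (h : IsEis θ) {p : ℕ} (hp : p.Prime) :
    (placesOver K p).Nonempty := by
  rw [Finset.nonempty_iff_ne_empty]
  intro e
  have h1 := h.norm_eq_prod (natU K p)
  rw [natU_val hp.ne_zero, map_natCast, Complex.norm_natCast, Finsupp.prod,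
    show (expo (natU K p)).support = ∅ from e, Finset.prod_empty] at h1
  have h2 : (2 : ℝ) ≤ p := by exact_mod_cast hp.two_le
  nlinarith

variable (hE : IsEis θ)

omit [IsTotallyComplex K] in
include hE in
lemma norm_emb_theta : ‖(place K).embedding θ‖ = √3 := by
  rw [← Real.sqrt_sq (norm_nonneg ((place K).embedding θ)), Complex.sq_norm, Complex.normSq_apply,
    hE.emb_theta_re, ← pow_two, ← pow_two, hE.emb_theta_im]
  simp

include hE in
lemma trace_eq_one_place (x : K) :
    ∑ w : InfinitePlace K, 2 * (w.embedding x).re = 2 * ((place K).embedding x).re :=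
  hE.sum_place _

omit [IsTotallyComplex K] in
/-- Coordinates of one. -/
lemma exists_coords_one : ∃ e : Idx K → ℤ, ∑ i, (e i : K) * intB K i = 1 := by
  refine ⟨fun i => (RingOfIntegers.basis K).repr 1 ((idxEquiv K).symm i), ?_⟩
  have h := congrArg (algebraMap (𝓞 K) K) ((RingOfIntegers.basis K).sum_repr 1)
  rw [map_sum, (algebraMap (𝓞 K) K).map_one] at h
  conv_rhs => rw [← h]
  refine Fintype.sum_equiv (idxEquiv K).symm _ _ fun i => ?_
  simp [intB, integralBasis_apply, zsmul_eq_mul]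

include hE in
/-- A point of the segment as a translate. -/
lemma slice_segment (F : InfPts K → adelGrp K → ℂ) (N : ℕ) {y : ℝ} (hy : 0 < y) {e : Idx K → ℤ}
    (he : ∑ i, (e i : K) * intB K i = 1) (x : ℝ) :
    F ((dG (hE.shift N) : G2 K) • ptR (hPt x y)) 1 =
      slice F (hE.shift N) ((dG (hE.shift N) : G2 K) • ptY y) 1 (x • ivec e) := by
  set t := hE.shift N
  show F _ 1 = F (transl (latA t (x • ivec e)) ((dG t : G2 K) • ptY y)) 1
  congr 1
  funext w
  obtain ⟨hre, him⟩ := hPt_re_im (x := x) hy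
  rw [map_smul, latA_apply, latO_ivec, he, map_one, mul_one]
  refine H3.ext ?_ ?_
  · rw [transl_z, dG_smul_apply, dG_smul_apply, ptR_apply, ptY_apply hy]
    simp only [hre, Pi.smul_apply, infEmb_apply, Complex.real_smul]
    ring
  · rw [transl_t, dG_smul_apply, dG_smul_apply, ptR_apply, ptY_apply hy]
    simp [him]

include hE in
/-- The pairing of a dual index with the coordinates of one. -/
private lemma sum_coords_re {t : Kˣ} {e : Idx K → ℤ} (he : ∑ i, (e i : K) * intB K i = 1)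
    {n : Idx K → ℤ} {α : K}
    (hn : ∀ j, (n j : ℝ) = ∑ w : InfinitePlace K, 2 * (w.embedding (α * (t : K) * intB K j)).re) :
    (∑ j, (n j : ℝ) * (e j : ℝ)) = 2 * ((place K).embedding (α * (t : K))).re := by
  have h1 : α * (t : K) = ∑ j, (e j : K) * (α * (t : K) * intB K j) := by
    rw [show (∑ j, (e j : K) * (α * (t : K) * intB K j)) =
      α * (t : K) * ∑ j, (e j : K) * intB K j by
        rw [Finset.mul_sum]; exact Finset.sum_congr rfl fun j _ => by ring, he, mul_one]
  conv_rhs => rw [h1]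
  rw [map_sum, Complex.re_sum, Finset.mul_sum]
  refine Finset.sum_congr rfl fun j _ => ?_
  rw [hn j, trace_eq_one_place hE, map_mul _ ((e j : ℤ) : K), map_intCast]
  simp
  ring

include hE in
/-- The indices orthogonal to the coordinates of one are those of rational points. -/
lemma exists_rat_idx {N : ℕ} (hN : N ≠ 0) {e : Idx K → ℤ}
    (he : ∑ i, (e i : K) * intB K i = 1) :
    ∃ idx : ℤ → Idx K → ℤ, Function.Injective idx ∧ idx 0 = 0 ∧
      (∀ k : ℤ, dualPt (hE.shift N) (idx k) = (k : K) / (N : K)) ∧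
      ∀ n : Idx K → ℤ, (∑ j, (n j : ℝ) * (e j : ℝ)) = 0 ↔ n ∈ Set.range idx := by
  set t := hE.shift N
  have htv : (t : K) = (N : K) / θ := hE.shift_val hN
  have hθ0 := hE.ne_zero
  have hNK : (N : K) ≠ 0 := Nat.cast_ne_zero.2 hN
  have hdual : ∀ k : ℤ, IsDual t ((k : K) / (N : K)) := by
    intro k β
    obtain ⟨a, ha⟩ := hE.trace_div_theta ((k : 𝓞 K) * β)
    have e1 : ((k : K) / (N : K)) * ((t : K) * (β : K)) =
        (((k : 𝓞 K) * β : 𝓞 K) : K) / θ := by
      rw [htv, show (((k : 𝓞 K) * β : 𝓞 K) : K) = algebraMap (𝓞 K) K ((k : 𝓞 K) * β) from rfl,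
        map_mul, map_intCast]
      field_simp
    rw [psiI_infEmb, e1, ha, eRat_intCast]
  choose idx hidx hidxc using fun k : ℤ => exists_idx t (hdual k)
  refine ⟨idx, fun k k' h => ?_, funext fun j => ?_, hidx, fun n => ⟨fun hn => ?_, ?_⟩⟩
  · have := hidx k
    rw [h, hidx k'] at this
    field_simp at this
    exact_mod_cast this.symm
  · have := hidxc 0 j
    simp at this
    simpa using this
  · set α := dualPt t n with hα
    rw [sum_coords_re hE he (dualPt_coord t n), ← hα] at hn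
    obtain ⟨u, v, huv⟩ := hE.exists_repr (α * (t : K))
    have hu : u = 0 := by
      rw [huv, map_add, map_mul, map_ratCast, map_ratCast] at hn
      simp [Complex.mul_re, hE.emb_theta_re] at hn
      exact_mod_cast hn
    rw [hu, Rat.cast_zero, zero_add] at huv
    have hd := isDual_dualPt t n hE.zetaO
    rw [← hα, ← mul_assoc, huv, psiI_infEmb,
      show (v : K) * θ * (hE.zetaO : K) = ((-3 * v / 2 : ℚ) : K) + ((-v / 2 : ℚ) : K) * θ by
        rw [show (hE.zetaO : K) = zeta θ from rfl, zeta]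
        push_cast
        linear_combination (v : K) / 2 * hE.sq, hE.trace_repr] at hd
    obtain ⟨m, hm⟩ := eRat_eq_one hd
    have hαk : α = (m : K) / (N : K) := by
      have hv3 : (v : K) * 3 = -(m : K) := by
        have : v * 3 = -(m : ℚ) := by linear_combination -hm
        have := congrArg (fun r : ℚ => (r : K)) this
        push_cast at this
        exact this
      rw [htv] at huv
      field_simp at huv ⊢
      linear_combination huv + (v : K) * hE.sq - hv3
    refine ⟨m, funext fun j => ?_⟩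
    have h2 := dualPt_coord t n j
    rw [← hα, hαk] at h2
    exact_mod_cast (hidxc m j).trans h2.symm
  · rintro ⟨k, rfl⟩
    rw [sum_coords_re hE he (hidxc k), htv,
      show (k : K) / (N : K) * ((N : K) / θ) = ((-(k : ℚ) / 3 : ℚ) : K) * θ by
        push_cast; field_simp; linear_combination (k : K) * hE.sq,
      map_mul, map_ratCast]
    simp [Complex.mul_re, hE.emb_theta_re]

omit [IsTotallyComplex K] in
/-- Exponents of a rational number with denominator `N`. -/
lemma expo_mk0_div {k : ℤ} (hk : k ≠ 0) {N : ℕ} (hN : N ≠ 0) (h : (k : K) / (N : K) ≠ 0) :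
    expo (Units.mk0 _ h) = expo (natU K k.natAbs) + -expo (natU K N) := by
  have : Units.mk0 _ h = Units.mk0 (k : K) (Int.cast_ne_zero.2 hk) * (natU K N)⁻¹ :=
    Units.ext (by simp [natU_val hN, div_eq_mul_inv])
  rw [this, expo_mul, expo_inv, expo_intCast hk (Units.val_mk0 _)]

omit [IsTotallyComplex K] in
include hE in
/-- The height of a rational index. -/
lemma norm_mk0_div_height {k : ℤ} {N : ℕ} (hN : N ≠ 0) (h : (k : K) / (N : K) ≠ 0) (y : ℝ) :
    ‖(place K).embedding ((Units.mk0 _ h : Kˣ) : K)‖ *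
      (‖(place K).embedding (hE.shift N : K)‖ * y) = (k.natAbs : ℝ) * (y / √3) := by
  rw [Units.val_mk0, hE.shift_val hN, map_div₀, map_div₀, map_intCast, map_natCast, norm_div,
    norm_div, Complex.norm_intCast, Complex.norm_natCast, norm_emb_theta hE, Nat.cast_natAbs]
  have : (N : ℝ) ≠ 0 := Nat.cast_ne_zero.2 hN
  have : (√3 : ℝ) ≠ 0 := by positivity
  push_cast
  field_simp

/-- The mean along a segment of an expansion keeps the indices orthogonal to its direction. -/
lemma hasSum_segment_mean {ι : Type} [Fintype ι] {e : ι → ℤ} {Cn : (ι → ℤ) → ℂ}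
    (hsum : Summable fun n => ‖Cn n‖) {G : ℝ → ℂ}
    (hG : ∀ x : ℝ, HasSum (fun n => Cn n * chr n (x • ivec e)) (G x)) {idx : ℤ → ι → ℤ}
    (hinj : Function.Injective idx)
    (hidx : ∀ n : ι → ℤ, (∑ j, (n j : ℝ) * (e j : ℝ)) = 0 ↔ n ∈ Set.range idx) {W0 : ℂ}
    (hW0 : W0 ≠ 0) {a : ℕ → ℂ} (ha0 : a 0 = 0) (hcoef : ∀ k, Cn (idx k) = W0 * a k.natAbs) :
    Summable (fun n => ‖a n‖) ∧
      HasSum (fun n : ℕ => 2 * W0 * a n) (∫ x in Ioc (0 : ℝ) 1, G x) := by
  classical
  set g : (ι → ℤ) → ℂ := fun n => if (∑ j, (n j : ℝ) * (e j : ℝ)) = 0 then Cn n else 0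
  have hterm : ∀ n, (∫ x in Ioc (0 : ℝ) 1, Cn n * chr n (x • ivec e)) = g n := by
    intro n
    have hm : (∑ j, (n j : ℝ) * (e j : ℝ)) = ((∑ j, n j * e j : ℤ) : ℝ) := by push_cast; rfl
    have e1 : ∀ x : ℝ, chr n (x • ivec e) = Complex.exp
        (2 * (Real.pi : ℂ) * Complex.I * ((((∑ j, n j * e j : ℤ) : ℝ) * x : ℝ) : ℂ)) := by
      intro x
      rw [chr, ← hm, Finset.sum_mul]
      congr 4
      funext j
      simp [ivec]
      ring
    simp only [e1, integral_const_mul, integral_exp_int_mul, g, hm, Int.cast_eq_zero, mul_ite,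
      mul_one, mul_zero]
  have hmean : HasSum g (∫ x in Ioc (0 : ℝ) 1, G x) := by
    have h1 : ∀ n, Integrable (fun x : ℝ => Cn n * chr n (x • ivec e))
        (volume.restrict (Ioc 0 1)) := fun n => by
      refine Continuous.integrableOn_Ioc (continuous_const.mul ?_)
      simp only [chr]
      fun_prop
    have h2 : Summable fun n =>
        ∫ x, ‖Cn n * chr n (x • ivec e)‖ ∂(volume.restrict (Ioc (0 : ℝ) 1)) := by
      refine hsum.congr fun n => ?_
      have hchr : ∀ x, ‖chr n x‖ = 1 := fun x => by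
        rw [chr, Complex.norm_exp]
        simp
      simp [hchr]
    have h3 := hasSum_integral_of_summable_integral_norm h1 h2
    simp only [hterm] at h3
    rw [setIntegral_congr_fun measurableSet_Ioc fun x (_ : x ∈ Ioc (0 : ℝ) 1) =>
      (hG x).tsum_eq.symm]
    exact h3
  have hgk : HasSum (fun k : ℤ => W0 * a k.natAbs) (∫ x in Ioc (0 : ℝ) 1, G x) := by
    refine ((hinj.hasSum_iff fun n hn => ?_).2 hmean).congr_fun fun k => ?_
    · simp only [g]
      rw [if_neg fun h => hn ((hidx n).1 h)]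
    · simp only [Function.comp_apply, g, (hidx (idx k)).2 ⟨k, rfl⟩, if_pos, hcoef]
  refine ⟨?_, ?_⟩
  · have h1 : Summable fun k : ℕ => ‖Cn (idx (k : ℤ))‖ :=
      hsum.comp_injective (hinj.comp Nat.cast_injective)
    simp only [hcoef, norm_mul, Int.natAbs_natCast] at h1
    refine (h1.mul_left ‖W0‖⁻¹).congr fun k => ?_
    rw [inv_mul_cancel_left₀ (norm_ne_zero_iff.2 hW0)]
  · have h2 := hgk.nat_add_neg
    simp only [Int.natAbs_natCast, Int.natAbs_neg, Int.natAbs_zero] at h2
    rw [ha0, mul_zero, add_zero] at h2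
    exact h2.congr_fun fun n => by ring

/-- The Mellin transform `∫ P(u) u ^ (s - 2)` of a positive profile with exponential decay
is bounded below uniformly for `1 < s ≤ 2`. -/
theorem exists_arch_bound {P : ℝ → ℝ} (hc : ContinuousOn P (Ioi 0)) (hpos : ∀ u, 0 < u → 0 < P u)
    (hle : ∃ C : ℝ, ∀ u, 0 < u → P u ≤ C * Real.exp (-(2 * Real.pi * u))) :
    ∃ m : ℝ, 0 < m ∧ ∀ s : ℝ, 1 < s → s ≤ 2 →
    IntegrableOn (fun u : ℝ => P u * u ^ (s - 2)) (Ioi 0) ∧
      m ≤ ∫ u in Ioi 0, P u * u ^ (s - 2) := by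
  obtain ⟨C, hC⟩ := hle
  obtain ⟨u₀, hu₀, hmin⟩ := (isCompact_Icc (a := (1 : ℝ)) (b := 2)).exists_isMinOn
    (Set.nonempty_Icc.2 one_le_two) (hc.mono fun x hx =>
      Set.mem_Ioi.2 (lt_of_lt_of_le one_pos hx.1))
  have hm0 : 0 < P u₀ := hpos _ (lt_of_lt_of_le one_pos hu₀.1)
  refine ⟨P u₀ / 2, by positivity, fun s hs hs2 => ?_⟩
  have hI : IntegrableOn (fun u : ℝ => P u * u ^ (s - 2)) (Ioi 0) := by
    refine Integrable.mono' ((integrableOn_rpow_mul_exp_neg_mul_rpow (p := 1) (s := s - 2)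
      (by linarith) one_pos (mul_pos two_pos Real.pi_pos)).const_mul C) ?_ ?_
    · exact (ContinuousOn.mul hc
        (continuousOn_id.rpow_const fun x hx => Or.inl (ne_of_gt hx))).aestronglyMeasurable
          measurableSet_Ioi
    · refine (ae_restrict_iff' measurableSet_Ioi).2 (ae_of_all _ fun u (hu : 0 < u) => ?_)
      rw [Real.norm_eq_abs, abs_of_pos (mul_pos (hpos _ hu) (Real.rpow_pos_of_pos hu _))]
      refine (mul_le_mul_of_nonneg_right (hC u hu) (Real.rpow_nonneg hu.le _)).trans (le_of_eq ?_)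
      rw [Real.rpow_one, neg_mul]
      ring
  refine ⟨hI, le_trans ?_ (setIntegral_mono_set hI ((ae_restrict_iff' measurableSet_Ioi).2
    (ae_of_all _ fun u (hu : 0 < u) =>
      mul_nonneg (hpos _ hu).le (Real.rpow_nonneg hu.le _)))
    (Set.Ioc_subset_Ioi_self.trans (Set.Ioi_subset_Ioi zero_le_one) :
      Ioc (1 : ℝ) 2 ⊆ Ioi 0).eventuallyLE)⟩
  have h := setIntegral_ge_of_const_le_real (c := P u₀ / 2) (s := Ioc (1 : ℝ) 2)
    measurableSet_Ioc (by simp) (fun u hu => ?_) (hI.mono_set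
      (Set.Ioc_subset_Ioi_self.trans (Set.Ioi_subset_Ioi zero_le_one)))
  · rw [measureReal_def, Real.volume_Ioc] at h
    norm_num at h
    exact h
  · have hu0 : 0 < u := lt_trans one_pos hu.1
    rw [div_eq_mul_inv]
    refine mul_le_mul (hmin ⟨hu.1.le, hu.2⟩) ?_ (by norm_num) (hpos _ hu0).le
    calc (2 : ℝ)⁻¹ ≤ u⁻¹ := inv_anti₀ hu0 hu.2
      _ = u ^ (-(1 : ℝ)) := (Real.rpow_neg_one u).symm
      _ ≤ u ^ (s - 2) := Real.rpow_le_rpow_of_exponent_le hu.1.le (by linarith)

/-- Decaying functions are integrable on the strip. -/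
lemma integrableOn_strip {Φ : ℍ → ℂ} (hΦ : Continuous Φ)
    (hdec : DecaysAtCusps Φ)
    (s : ℝ) (hs : 1 < s) :
    IntegrableOn (fun z : ℍ => ((z.im ^ s : ℝ) : ℂ) * Φ z) strip := by
  obtain ⟨C, κ, hC, hκ, hd⟩ := hdec 1
  have hm : Measurable fun z : ℍ => ((z.im ^ s : ℝ) : ℂ) * Φ z :=
    (Complex.continuous_ofReal.measurable.comp (continuous_im.measurable.pow_const s)).mul
      hΦ.measurable
  refine ⟨hm.aestronglyMeasurable, ?_⟩
  show ∫⁻ z in strip, ‖((z.im ^ s : ℝ) : ℂ) * Φ z‖ₑ < ⊤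
  have hstrip : strip = {z : ℍ | z.re ∈ Ico (0 : ℝ) 1 ∧ z.im ∈ (univ : Set ℝ)} := by
    ext z; simp [strip]
  rw [hstrip, lintegral_box measurableSet_Ico MeasurableSet.univ hm.enorm, Set.univ_inter]
  have hint : IntegrableOn (fun y : ℝ => C * (y ^ (s - 2) * Real.exp (-κ * y ^ (1 : ℝ)))) (Ioi 0) :=
    (integrableOn_rpow_mul_exp_neg_mul_rpow (p := 1) (s := s - 2) (by linarith)
      one_pos hκ).const_mul C
  refine lt_of_le_of_lt (setLIntegral_mono' measurableSet_Ioi
    (g := fun y => ‖C * (y ^ (s - 2) * Real.exp (-κ * y ^ (1 : ℝ)))‖ₑ) fun y (hy : 0 < y) => ?_)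
    hint.2
  refine (setLIntegral_mono' measurableSet_Ico
    (g := fun _ => ‖C * (y ^ (s - 2) * Real.exp (-κ * y ^ (1 : ℝ)))‖ₑ) fun x _ => ?_).trans ?_
  · have h1 := hd (hPt x y)
    rw [one_smul, (hPt_re_im hy).2] at h1
    rw [← ofReal_norm, ← ofReal_norm, ← ENNReal.ofReal_mul (by positivity)]
    refine ENNReal.ofReal_le_ofReal ?_
    rw [norm_mul, Complex.norm_real, Real.norm_eq_abs, Real.norm_eq_abs, (hPt_re_im hy).2,
      abs_of_pos (Real.rpow_pos_of_pos hy s), abs_of_nonneg (by positivity)]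
    calc 1 / y ^ 2 * (y ^ s * ‖Φ (hPt x y)‖)
        ≤ 1 / y ^ 2 * (y ^ s * (C * Real.exp (-(κ * y)))) := by gcongr
      _ = C * (y ^ (s - 2) * Real.exp (-κ * y ^ (1 : ℝ))) := by
          rw [Real.rpow_sub hy, Real.rpow_two, Real.rpow_one, neg_mul]; ring
  · rw [setLIntegral_const, Real.volume_Ico]
    simp

omit [IsTotallyComplex K] in
/-- **The integral over the strip**: if the horizontal means of `Φ` are the expansion along the
rational numbers with a positive profile, its integral against `y ^ s` is at least a constant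
times the series of coefficients. -/
theorem exists_strip_ge {P : ℝ → ℝ} {Φ : ℍ → ℂ} {W0 : ℂ} (hW : W0 ≠ 0)
    (hc : ContinuousOn P (Ioi 0)) (hpos : ∀ u, 0 < u → 0 < P u)
    (hle : ∃ C : ℝ, ∀ u, 0 < u → P u ≤ C * Real.exp (-(2 * Real.pi * u))) (hΦ : Continuous Φ)
    (hdec : DecaysAtCusps Φ)
    (hmean : ∀ y : ℝ, 0 < y → HasSum (fun n : ℕ => 2 * W0 *
      (coefN c bad n * (P ((n : ℝ) * (y / √3)) : ℂ))) (∫ x in Ioc (0 : ℝ) 1, Φ (hPt x y)))
    (hterm : ∀ s : ℝ, 1 < s → s ≤ 2 → Summable fun n => ‖term c bad s n‖) :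
    ∃ m : ℝ, 0 < m ∧ ∀ s : ℝ, 1 < s → s ≤ 2 →
    m * ‖∑' n, term c bad s n‖ ≤
      ‖∫ z in strip, ((z.im ^ s : ℝ) : ℂ) * Φ z‖ := by
  obtain ⟨m, hm, hG⟩ := exists_arch_bound hc hpos hle
  have hW0 : 0 < ‖W0‖ := norm_pos_iff.2 hW
  refine ⟨2 * ‖W0‖ * m, by positivity, fun s hs hs2 => ?_⟩
  obtain ⟨hGi, hGm⟩ := hG s hs hs2
  set G := ∫ u in Ioi 0, P u * u ^ (s - 2)
  have hnorm := hterm s hs hs2
  set r : ℝ := (√3)⁻¹ with hr
  have hr0 : 0 < r := by positivity
  -- the height integral of one term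
  have hone : ∀ n : ℕ, n ≠ 0 →
      IntegrableOn (fun y : ℝ => y ^ (s - 2) * P ((n : ℝ) * (y / √3))) (Ioi 0) ∧
      ∫ y in Ioi 0, y ^ (s - 2) * P ((n : ℝ) * (y / √3)) =
        ((n : ℝ) * r) ^ (1 - s) * G := by
    intro n hn
    set b : ℝ := (n : ℝ) * r with hb
    have hb0 : 0 < b := mul_pos (Nat.cast_pos.2 (Nat.pos_of_ne_zero hn)) hr0
    have e : EqOn (fun y : ℝ => y ^ (s - 2) * P ((n : ℝ) * (y / √3)))
        (fun y => b ^ (2 - s) * ((fun u => P u * u ^ (s - 2)) (b * y))) (Ioi 0) := by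
      intro y (hy : 0 < y)
      simp only
      rw [show (n : ℝ) * (y / √3) = b * y by rw [hb, hr]; ring, Real.mul_rpow hb0.le hy.le,
        show 2 - s = -(s - 2) by ring, Real.rpow_neg hb0.le]
      field_simp
    refine ⟨IntegrableOn.congr_fun (Integrable.const_mul ?_ _) e.symm measurableSet_Ioi, ?_⟩
    · have := (integrableOn_Ioi_comp_mul_left_iff (fun u => P u * u ^ (s - 2)) 0 hb0).2
        (by rwa [mul_zero])
      exact this
    · rw [setIntegral_congr_fun measurableSet_Ioi e, integral_const_mul,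
        integral_comp_mul_left_Ioi (fun u => P u * u ^ (s - 2)) 0 hb0, mul_zero, smul_eq_mul,
        ← mul_assoc, show (1 : ℝ) - s = (2 - s) + (-1) by ring,
        Real.rpow_add hb0, Real.rpow_neg_one]
  -- exchanging
  set F : ℕ → ℝ → ℂ := fun n y =>
    2 * W0 * (coefN c bad n * ((y ^ (s - 2) * P ((n : ℝ) * (y / √3)) : ℝ) : ℂ))
  have hz : coefN c bad 0 = 0 := by simp [coefN, IsFree]
  have hFint : ∀ n, Integrable (F n) (volume.restrict (Ioi 0)) := by
    intro n
    by_cases hn : n = 0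
    · subst hn; simp [F, hz]
    exact (((hone n hn).1.ofReal).const_mul (coefN c bad n)).const_mul (2 * W0)
  have hFn : ∀ n, ∫ y in Ioi 0, ‖F n y‖ = 2 * ‖W0‖ * (r ^ (1 - s) * G) * ‖term c bad s n‖ := by
    intro n
    by_cases hn : n = 0
    · subst hn; simp [F, hz, term]
    have e : EqOn (fun y => ‖F n y‖)
        (fun y => 2 * ‖W0‖ * ‖coefN c bad n‖ * (y ^ (s - 2) * P ((n : ℝ) * (y / √3)))) (Ioi 0) := by
      intro y (hy : 0 < y)
      have := hpos _ (mul_pos (Nat.cast_pos.2 (Nat.pos_of_ne_zero hn))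
        (show 0 < y / √3 by positivity))
      simp only [F, norm_mul, Complex.norm_real, Real.norm_eq_abs, Complex.norm_two,
        abs_of_pos (Real.rpow_pos_of_pos hy (s - 2)), abs_of_pos this]
      ring
    rw [setIntegral_congr_fun measurableSet_Ioi e, integral_const_mul,
      (hone n hn).2, term, norm_mul,
      Complex.norm_real, Real.norm_eq_abs, abs_of_nonneg (Real.rpow_nonneg (Nat.cast_nonneg n) _),
      Real.mul_rpow (Nat.cast_nonneg n) hr0.le]
    ring
  have hFv : ∀ n, ∫ y in Ioi 0, F n y = 2 * W0 * ((r ^ (1 - s) * G : ℝ) : ℂ) * term c bad s n := by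
    intro n
    by_cases hn : n = 0
    · subst hn; simp [F, hz, term]
    simp only [F, integral_const_mul, integral_complex_ofReal, (hone n hn).2]
    rw [term, Real.mul_rpow (Nat.cast_nonneg n) hr0.le]
    push_cast
    ring
  have hex := hasSum_integral_of_summable_integral_norm hFint (by
    simp only [hFn]; exact hnorm.mul_left _)
  simp only [hFv] at hex
  have hinner : ∀ y : ℝ, 0 < y → ∑' n, F n y =
      ((1 / y ^ 2 : ℝ) : ℂ) * ∫ x in Ico (0 : ℝ) 1, ((y ^ s : ℝ) : ℂ) * Φ (hPt x y) := by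
    intro y hy
    have h := hmean y hy
    rw [integral_const_mul, integral_Ico_eq_integral_Ioc, ← mul_assoc, ← h.tsum_eq, ← tsum_mul_left]
    refine tsum_congr fun n => ?_
    simp only [F]
    rw [Real.rpow_sub hy, Real.rpow_two]
    push_cast
    ring
  have hstrip : strip = {z : ℍ | z.re ∈ Ico (0 : ℝ) 1 ∧ z.im ∈ (univ : Set ℝ)} := by
    ext z; simp [strip]
  have hJ : ∫ z in strip, ((z.im ^ s : ℝ) : ℂ) * Φ z = ∫ y in Ioi 0, ∑' n, F n y := by
    have hi := integrableOn_strip hΦ hdec s hs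
    rw [hstrip] at hi ⊢
    rw [integral_box measurableSet_Ico MeasurableSet.univ hi, Set.univ_inter]
    refine setIntegral_congr_fun measurableSet_Ioi fun y (hy : 0 < y) => ?_
    rw [hinner y hy]
    congr 1
    exact setIntegral_congr_fun measurableSet_Ico fun x _ => by rw [(hPt_re_im hy).2]
  rw [hJ, ← hex.tsum_eq, tsum_mul_left, norm_mul, norm_mul, norm_mul, Complex.norm_two,
    Complex.norm_real, Real.norm_eq_abs]
  refine mul_le_mul_of_nonneg_right (mul_le_mul_of_nonneg_left ?_ (by positivity)) (norm_nonneg _)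
  have hG0 : 0 ≤ G := le_trans hm.le hGm
  rw [abs_of_nonneg (mul_nonneg (Real.rpow_nonneg hr0.le _) hG0)]
  refine hGm.trans (le_mul_of_one_le_left hG0 ?_)
  refine Real.one_le_rpow_of_pos_of_le_one_of_nonpos hr0 ?_ (by linarith)
  rw [hr]
  exact inv_le_one_of_one_le₀ (Real.one_le_sqrt.2 (by norm_num))

end FermatAgent.LT.Period
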